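import Fermat.Agent.Monsky.Points
import Mathlib.NumberTheory.LegendreSymbol.QuadraticReciprocity

/-!
# Bastien's criterion

For a prime `p ≡ 1 (mod 8)` Monsky's matrix vanishes. If `1 + √2` is not a square modulo `p` the
three nontrivial classes have no points all the same: an integer whose odd primes have `p` as a
square is a square modulo `p`, and in each class this makes `1 + √2` or `1 + √-1` one.
-/

set_option autoImplicit false
set_option linter.style.haveILetI false

noncomputable section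

open WeierstrassCurve
open FA.CongruentNumber

namespace FA.Monsky

variable {p : ℕ} [hp : Fact p.Prime]

/-- An integer whose odd primes have `p` as a square is a square modulo `p`. -/
theorem isSquare_intCast_of_residues (h8 : p % 8 = 1) {z : ℤ}
    (h : ∀ q : ℕ, q.Prime → q ≠ 2 → (q : ℤ) ∣ z → IsSquare (p : ZMod q)) :
    IsSquare (z : ZMod p) := by
  have hp2 : p ≠ 2 := by omega
  have habs : IsSquare ((z.natAbs : ℕ) : ZMod p) := FA.Iskra.isSquare_cast _ fun q hq hd => by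
    rcases eq_or_ne q 2 with rfl | hq2
    · exact_mod_cast (ZMod.exists_sq_eq_two_iff hp2).2 (Or.inl h8)
    haveI := Fact.mk hq
    exact (ZMod.exists_sq_eq_prime_iff_of_mod_four_eq_one (by omega) hq2).2
      (h q hq hq2 (Int.natCast_dvd.2 hd))
  rcases Int.natAbs_eq z with e | e <;> rw [e]
  · rw [Int.cast_natCast]; exact habs
  · rw [Int.cast_neg, Int.cast_natCast, neg_eq_neg_one_mul]
    exact IsSquare.mul (ZMod.exists_sq_eq_neg_one_iff.2 (by omega)) habs

/-- `√2` modulo `p`. -/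
theorem exists_sqrt_two (h8 : p % 8 = 1) : ∃ s : ZMod p, s ^ 2 = 2 := by
  obtain ⟨s, hs⟩ := (ZMod.exists_sq_eq_two_iff (p := p) (by omega)).2 (Or.inl h8)
  exact ⟨s, by rw [hs, sq]⟩

theorem two_ne_zero_mod (h8 : p % 8 = 1) : (2 : ZMod p) ≠ 0 :=
  Ring.two_ne_zero (by rw [ZMod.ringChar_zmod_n]; omega)

/-- A square root of `-1` is a square. -/
theorem isSquare_sqrt_neg_one (h8 : p % 8 = 1) {i : ZMod p} (hi : i ^ 2 = -1) : IsSquare i := by
  obtain ⟨s, hs⟩ := exists_sqrt_two h8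
  have hs0 : s ≠ 0 := fun h => two_ne_zero_mod h8 (by rw [← hs, h]; ring)
  refine ⟨(1 + i) / s, ?_⟩
  rw [div_mul_div_comm, eq_div_iff (mul_ne_zero hs0 hs0)]
  linear_combination i * hs - hi

/-- With `1 + √2` also `1 + √-1` is not a square. -/
theorem not_isSquare_one_add_i (h8 : p % 8 = 1) (hB : ∀ s : ZMod p, s ^ 2 = 2 → ¬ IsSquare (1 + s))
    {i : ZMod p} (hi : i ^ 2 = -1) : ¬ IsSquare (1 + i) := by
  rintro ⟨t, ht⟩
  obtain ⟨s, hs⟩ := exists_sqrt_two h8
  have h2 := two_ne_zero_mod h8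
  have hs0 : s ≠ 0 := fun h => h2 (by rw [← hs, h]; ring)
  have hti : t ≠ 0 := fun h => h2 (by rw [h] at ht; linear_combination hi - (i - 1) * ht)
  refine hB s hs ⟨(1 + s + i) / (s * t), ?_⟩
  rw [div_mul_div_comm, eq_div_iff (mul_ne_zero (mul_ne_zero hs0 hti) (mul_ne_zero hs0 hti))]
  linear_combination ((1 + s) * t ^ 2 - 1) * hs - hi - 2 * (1 + s) * ht

/-- The class `(1, p, p)` has no points. -/
theorem false_of_one_p (h8 : p % 8 = 1) (hB : ∀ s : ZMod p, s ^ 2 = 2 → ¬ IsSquare (1 + s))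
    {u e v w : ℤ} (hco : IsCoprime ((p : ℤ) * u) e) (h1 : p * u ^ 2 - e ^ 2 = v ^ 2)
    (h2 : p * u ^ 2 + e ^ 2 = w ^ 2) : False := by
  have hpI : Prime (p : ℤ) := Nat.prime_iff_prime_int.1 hp.out
  have he : (e : ZMod p) ≠ 0 := fun h => hpI.not_isUnit
    (hco.isUnit_of_dvd' (dvd_mul_right _ _) ((ZMod.intCast_zmod_eq_zero_iff_dvd _ _).1 h))
  have res : ∀ q : ℕ, q.Prime → (q : ℤ) ∣ e → IsSquare (p : ZMod q) := by
    intro q hq hd
    haveI := Fact.mk hq
    have hu : (u : ZMod q) ≠ 0 := fun h => (Nat.prime_iff_prime_int.1 hq).not_isUnit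
      (hco.isUnit_of_dvd' (dvd_mul_of_dvd_right
        ((ZMod.intCast_zmod_eq_zero_iff_dvd _ _).1 h) _) hd)
    have c1 := congrArg (Int.cast : ℤ → ZMod q) h1
    push_cast at c1
    rw [(ZMod.intCast_zmod_eq_zero_iff_dvd _ _).2 hd] at c1
    refine ⟨(v : ZMod q) / u, ?_⟩
    rw [div_mul_div_comm, eq_div_iff (mul_ne_zero hu hu)]
    linear_combination c1
  have sqe := isSquare_intCast_of_residues (z := e) h8 fun q hq _ hd => res q hq hd
  have c1 := congrArg (Int.cast : ℤ → ZMod p) h1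
  have c2 := congrArg (Int.cast : ℤ → ZMod p) h2
  push_cast at c1 c2
  rw [ZMod.natCast_self, zero_mul] at c1 c2
  set i : ZMod p := (v : ZMod p) / w with hi
  have hw : (w : ZMod p) ≠ 0 := fun h => pow_ne_zero 2 he (by rw [h] at c2; linear_combination c2)
  have hi2 : i ^ 2 = -1 := by
    rw [hi, div_pow, div_eq_iff (pow_ne_zero 2 hw)]
    linear_combination -c1 - c2
  have hne : ((v + w : ℤ) : ZMod p) ≠ 0 := fun h => two_ne_zero_mod h8 (by
    push_cast at h
    have h' : i = -1 := by rw [hi, div_eq_iff hw]; linear_combination h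
    rw [h'] at hi2
    linear_combination hi2)
  have sqz := isSquare_intCast_of_residues (z := _) h8 fun q hq hq2 hd => by
    -- `w ≡ -v`, so `q` divides `e`
    refine res q hq ?_
    have hqI : Prime (q : ℤ) := Nat.prime_iff_prime_int.1 hq
    have : (q : ℤ) ∣ 2 * e ^ 2 := by
      rw [show 2 * e ^ 2 = (v + w) * (w - v) by linear_combination h2 - h1]
      exact hd.mul_right _
    exact hqI.dvd_of_dvd_pow ((hqI.dvd_or_dvd this).resolve_left fun h => hq2
      ((Nat.prime_dvd_prime_iff_eq hq Nat.prime_two).1 (Int.natCast_dvd_natCast.1 h)))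
  -- `w = ± e`
  have hwe : IsSquare (w : ZMod p) := by
    rcases sq_eq_sq_iff_eq_or_eq_neg.1
      (show (w : ZMod p) ^ 2 = (e : ZMod p) ^ 2 by linear_combination -c2) with h | h <;> rw [h]
    · exact sqe
    · rw [neg_eq_neg_one_mul]
      exact IsSquare.mul (ZMod.exists_sq_eq_neg_one_iff.2 (by omega)) sqe
  refine not_isSquare_one_add_i h8 hB hi2 ?_
  rw [show 1 + i = ((v + w : ℤ) : ZMod p) * (w : ZMod p)⁻¹ by
    rw [hi]; push_cast; field_simp; ring]
  exact sqz.mul hwe.inv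

/-- The class `(p, 1, p)` has no points. -/
theorem false_of_p_one (h8 : p % 8 = 1) (hB : ∀ s : ZMod p, s ^ 2 = 2 → ¬ IsSquare (1 + s))
    {u e v w : ℤ} (hco : IsCoprime u e) (h1 : u ^ 2 - e ^ 2 = p * v ^ 2)
    (h2 : u ^ 2 + e ^ 2 = w ^ 2) : False := by
  have c1 := congrArg (Int.cast : ℤ → ZMod p) h1
  have c2 := congrArg (Int.cast : ℤ → ZMod p) h2
  push_cast at c1 c2
  rw [ZMod.natCast_self, zero_mul] at c1
  have he : (e : ZMod p) ≠ 0 := fun h => by
    rw [h] at c1
    have hu : (u : ZMod p) = 0 := pow_eq_zero_iff two_ne_zero |>.1 (by linear_combination c1)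
    exact (Nat.prime_iff_prime_int.1 hp.out).not_isUnit (hco.isUnit_of_dvd'
      ((ZMod.intCast_zmod_eq_zero_iff_dvd _ _).1 hu) ((ZMod.intCast_zmod_eq_zero_iff_dvd _ _).1 h))
  have hu0 : (u : ZMod p) ≠ 0 := fun h => pow_ne_zero 2 he (by
    rw [h] at c1; linear_combination -c1)
  have res : ∀ q : ℕ, q.Prime → (q : ℤ) ∣ e → IsSquare (p : ZMod q) := by
    intro q hq hd
    haveI := Fact.mk hq
    have hqI : Prime (q : ℤ) := Nat.prime_iff_prime_int.1 hq
    have hv : (v : ZMod q) ≠ 0 := fun h => hqI.not_isUnit (hco.isUnit_of_dvd'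
      (hqI.dvd_of_dvd_pow (n := 2) (show (q : ℤ) ∣ u ^ 2 by
        rw [show u ^ 2 = p * v ^ 2 + e ^ 2 by linear_combination h1]
        exact dvd_add (dvd_mul_of_dvd_right (dvd_pow
          ((ZMod.intCast_zmod_eq_zero_iff_dvd _ _).1 h) two_ne_zero) _)
          (dvd_pow hd two_ne_zero))) hd)
    have c := congrArg (Int.cast : ℤ → ZMod q) h1
    push_cast at c
    rw [(ZMod.intCast_zmod_eq_zero_iff_dvd _ _).2 hd] at c
    refine ⟨(u : ZMod q) / v, ?_⟩
    rw [div_mul_div_comm, eq_div_iff (mul_ne_zero hv hv)]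
    linear_combination -c
  have sqe := isSquare_intCast_of_residues (z := e) h8 fun q hq _ hd => res q hq hd
  have squ : IsSquare (u : ZMod p) := by
    rcases sq_eq_sq_iff_eq_or_eq_neg.1
      (show (u : ZMod p) ^ 2 = (e : ZMod p) ^ 2 by linear_combination c1) with h | h <;> rw [h]
    · exact sqe
    · rw [neg_eq_neg_one_mul]
      exact IsSquare.mul (ZMod.exists_sq_eq_neg_one_iff.2 (by omega)) sqe
  set s : ZMod p := (w : ZMod p) / u with hs
  have hs2 : s ^ 2 = 2 := by
    rw [hs, div_pow, div_eq_iff (pow_ne_zero 2 hu0)]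
    linear_combination -c2 - c1
  have hne : ((u + w : ℤ) : ZMod p) ≠ 0 := fun h => one_ne_zero (α := ZMod p) (by
    push_cast at h
    have h' : s = -1 := by rw [hs, div_eq_iff hu0]; linear_combination h
    rw [h'] at hs2
    linear_combination -hs2)
  have sqz := isSquare_intCast_of_residues (z := _) h8 fun q hq _ hd => by
    refine res q hq ((Nat.prime_iff_prime_int.1 hq).dvd_of_dvd_pow (n := 2) ?_)
    rw [show e ^ 2 = (u + w) * (w - u) by linear_combination h2]
    exact hd.mul_right _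
  refine hB s hs2 ?_
  rw [show 1 + s = ((u + w : ℤ) : ZMod p) * (u : ZMod p)⁻¹ by
    rw [hs]; push_cast; field_simp]
  exact sqz.mul squ.inv

/-- The class `(p, p, 1)` has no points. -/
theorem false_of_p_p (h8 : p % 8 = 1) (hB : ∀ s : ZMod p, s ^ 2 = 2 → ¬ IsSquare (1 + s))
    {u e v w : ℤ} (hco : IsCoprime u e) (h1 : u ^ 2 - e ^ 2 = v ^ 2)
    (h2 : u ^ 2 + e ^ 2 = p * w ^ 2) : False := by
  have c1 := congrArg (Int.cast : ℤ → ZMod p) h1
  have c2 := congrArg (Int.cast : ℤ → ZMod p) h2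
  push_cast at c1 c2
  rw [ZMod.natCast_self, zero_mul] at c2
  have he : (e : ZMod p) ≠ 0 := fun h => by
    rw [h] at c2
    have hu : (u : ZMod p) = 0 := pow_eq_zero_iff two_ne_zero |>.1 (by linear_combination c2)
    exact (Nat.prime_iff_prime_int.1 hp.out).not_isUnit (hco.isUnit_of_dvd'
      ((ZMod.intCast_zmod_eq_zero_iff_dvd _ _).1 hu) ((ZMod.intCast_zmod_eq_zero_iff_dvd _ _).1 h))
  have hu0 : (u : ZMod p) ≠ 0 := fun h => pow_ne_zero 2 he (by
    rw [h] at c2; linear_combination c2)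
  have res : ∀ q : ℕ, q.Prime → (q : ℤ) ∣ e → IsSquare (p : ZMod q) := by
    intro q hq hd
    haveI := Fact.mk hq
    have hqI : Prime (q : ℤ) := Nat.prime_iff_prime_int.1 hq
    have hw : (w : ZMod q) ≠ 0 := fun h => hqI.not_isUnit (hco.isUnit_of_dvd'
      (hqI.dvd_of_dvd_pow (n := 2) (show (q : ℤ) ∣ u ^ 2 by
        rw [show u ^ 2 = p * w ^ 2 - e ^ 2 by linear_combination h2]
        exact dvd_sub (dvd_mul_of_dvd_right (dvd_pow
          ((ZMod.intCast_zmod_eq_zero_iff_dvd _ _).1 h) two_ne_zero) _)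
          (dvd_pow hd two_ne_zero))) hd)
    have c := congrArg (Int.cast : ℤ → ZMod q) h2
    push_cast at c
    rw [(ZMod.intCast_zmod_eq_zero_iff_dvd _ _).2 hd] at c
    refine ⟨(u : ZMod q) / w, ?_⟩
    rw [div_mul_div_comm, eq_div_iff (mul_ne_zero hw hw)]
    linear_combination -c
  have sqe := isSquare_intCast_of_residues (z := e) h8 fun q hq _ hd => res q hq hd
  have hi : ((u : ZMod p) / e) ^ 2 = -1 := by
    rw [div_pow, div_eq_iff (pow_ne_zero 2 he)]
    linear_combination c2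
  have squ : IsSquare (u : ZMod p) := by
    rw [← div_mul_cancel₀ (u : ZMod p) he]
    exact (isSquare_sqrt_neg_one h8 hi).mul sqe
  set s : ZMod p := (v : ZMod p) / u with hs
  have hs2 : s ^ 2 = 2 := by
    rw [hs, div_pow, div_eq_iff (pow_ne_zero 2 hu0)]
    linear_combination -c1 - c2
  have hne : ((u + v : ℤ) : ZMod p) ≠ 0 := fun h => one_ne_zero (α := ZMod p) (by
    push_cast at h
    have h' : s = -1 := by rw [hs, div_eq_iff hu0]; linear_combination h
    rw [h'] at hs2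
    linear_combination -hs2)
  have sqz := isSquare_intCast_of_residues (z := _) h8 fun q hq _ hd => by
    refine res q hq ((Nat.prime_iff_prime_int.1 hq).dvd_of_dvd_pow (n := 2) ?_)
    rw [show e ^ 2 = (u + v) * (u - v) by linear_combination -h1]
    exact hd.mul_right _
  refine hB s hs2 ?_
  rw [show 1 + s = ((u + v : ℤ) : ZMod p) * (u : ZMod p)⁻¹ by
    rw [hs]; push_cast; field_simp]
  exact sqz.mul squ.inv

/-- Only the trivial class has points. -/
theorem halved_bastien (h8 : p % 8 = 1) (hB : ∀ s : ZMod p, s ^ 2 = 2 → ¬ IsSquare (1 + s))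
    (Q : (congCurve p).toAffine.Point) : Halved Q := by
  by_cases hQ : IsOfFinAddOrder Q
  · exact halved_of_torsion hQ
  have hpo : Odd p := Nat.odd_iff.2 (by omega)
  have hp0 : (p : ℚ) ≠ 0 := Nat.cast_ne_zero.2 hp.out.ne_zero
  obtain ⟨t, ht, x, y, h, hadd, hy, hx, h2⟩ := exists_normal hpo hQ
  have hP : OddPrimes (fun _ : Fin 1 => p) :=
    ⟨fun _ => hp.out, fun _ => by omega, Function.injective_of_subsingleton _⟩
  have hprod : (∏ _i : Fin 1, p) = p := Fin.prod_univ_one _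
  obtain ⟨α, β, -, hα, hβ⟩ := exists_classes hP (x := x) (y := y)
    (by rw [hprod]; exact equation_congCurve h) (by rw [hprod]; exact hx) (by rw [hprod]; exact h2)
  rw [hprod] at hβ
  have cases : ∀ f : Fin 1 → ZMod 2, classProd (fun _ : Fin 1 => p) f = 1 ∨
      classProd (fun _ : Fin 1 => p) f = p := fun f => by
    rw [classProd, Fin.prod_univ_one]
    split_ifs <;> simp
  -- the integral equations
  have e := equation_congCurve h
  have hx0 : x ≠ 0 := fun h0 => hy (by rw [h0] at e; simpa using e)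
  have hxp : x - p ≠ 0 := (sub_pos.2 hx).ne'
  have hxp' : x + p ≠ 0 := fun h0 => hy (by
    rw [show x = -(p : ℚ) by linear_combination h0] at e
    simpa using e.trans (by ring : _ = (0 : ℚ)))
  have integral : ∀ {a b c : ℕ}, a ≠ 0 → Squarefree b → Squarefree c → IsSquare ((a : ℚ) * x) →
      IsSquare ((b : ℚ) * (x - p)) → IsSquare ((c : ℚ) * (x + p)) →
      ∃ U E V W : ℤ, IsCoprime U E ∧ (a : ℤ) * U ^ 2 - p * E ^ 2 = b * V ^ 2 ∧
        (a : ℤ) * U ^ 2 + p * E ^ 2 = c * W ^ 2 := by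
    intro a b c ha hb hc ⟨s, hs⟩ ⟨q, hq⟩ ⟨r, hr⟩
    have haQ : (a : ℚ) ≠ 0 := Nat.cast_ne_zero.2 ha
    set σ : ℚ := s / a with hσ
    have hxs : x = a * σ ^ 2 := by
      rw [hσ]; field_simp; linear_combination hs
    have hden : (σ.den : ℚ) ≠ 0 := Nat.cast_ne_zero.2 σ.den_nz
    have hnum : (σ.num : ℚ) = σ * σ.den := (Rat.mul_den_eq_num σ).symm
    have hbQ : (b : ℚ) ≠ 0 := Nat.cast_ne_zero.2 hb.ne_zero
    have hcQ : (c : ℚ) ≠ 0 := Nat.cast_ne_zero.2 hc.ne_zero
    have hq' : x - p = b * (q / b) ^ 2 := by field_simp; linear_combination hq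
    have hr' : x + p = c * (r / c) ^ 2 := by field_simp; linear_combination hr
    obtain ⟨V, hV⟩ := exists_int_of_squarefree_mul_sq hb (s := q / b * σ.den)
      (K := (a : ℤ) * σ.num ^ 2 - p * (σ.den : ℤ) ^ 2) (by
        push_cast; rw [hnum]
        linear_combination (σ.den : ℚ) ^ 2 * hq' - (σ.den : ℚ) ^ 2 * hxs)
    obtain ⟨W, hW⟩ := exists_int_of_squarefree_mul_sq hc (s := r / c * σ.den)
      (K := (a : ℤ) * σ.num ^ 2 + p * (σ.den : ℤ) ^ 2) (by
        push_cast; rw [hnum]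
        linear_combination (σ.den : ℚ) ^ 2 * hr' - (σ.den : ℚ) ^ 2 * hxs)
    refine ⟨σ.num, σ.den, V, W, ?_, hV, hW⟩
    rw [Int.isCoprime_iff_gcd_eq_one, Int.gcd, Int.natAbs_natCast]; exact σ.reduced
  -- the third class
  have third : ∀ {c : ℕ}, ((c : ℚ) * (classProd (fun _ : Fin 1 => p) α : ℚ) *
      (classProd (fun _ : Fin 1 => p) β : ℚ) = 1 ∨ (c : ℚ) *
      (classProd (fun _ : Fin 1 => p) α : ℚ) * (classProd (fun _ : Fin 1 => p) β : ℚ) =
        (p : ℚ) ^ 2) → IsSquare ((c : ℚ) * (x + p)) := by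
    intro c hc
    set δ := (classProd (fun _ : Fin 1 => p) α : ℚ) * (classProd (fun _ : Fin 1 => p) β : ℚ)
    obtain ⟨s, hs⟩ := hα
    obtain ⟨q, hq⟩ := hβ
    have hsq : s * q ≠ 0 := fun h0 => by
      apply mul_ne_zero (mul_ne_zero (classProd_ne_zero hP α) hx0)
        (mul_ne_zero (classProd_ne_zero hP β) hxp)
      rw [hs, hq, show s * s * (q * q) = (s * q) * (s * q) by ring, h0, zero_mul]
    rcases hc with hc | hc
    · refine ⟨y / (s * q), ?_⟩
      rw [div_mul_div_comm, eq_div_iff (mul_ne_zero hsq hsq)]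
      linear_combination -e + x * (x + p) * (x - p) * hc -
        (c : ℚ) * (x + p) * q * q * hs -
        (c : ℚ) * (x + p) * (classProd (fun _ : Fin 1 => p) α : ℚ) * x * hq
    · refine ⟨(p : ℚ) * y / (s * q), ?_⟩
      rw [div_mul_div_comm, eq_div_iff (mul_ne_zero hsq hsq)]
      linear_combination -(p : ℚ) ^ 2 * e + x * (x + p) * (x - p) * hc -
        (c : ℚ) * (x + p) * q * q * hs -
        (c : ℚ) * (x + p) * (classProd (fun _ : Fin 1 => p) α : ℚ) * x * hq
  have hpI : Prime (p : ℤ) := Nat.prime_iff_prime_int.1 hp.out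
  have hpZ : (p : ℤ) ≠ 0 := hpI.ne_zero
  have hsf := hp.out.squarefree
  rcases cases α with hA | hA <;> rcases cases β with hC | hC <;> rw [hA] at hα <;> rw [hC] at hβ
  · obtain ⟨R, hR⟩ := exists_half hp.out.ne_zero h hy (by simpa using hα) (by simpa using hβ)
    exact halved_of_add ht ⟨R, by rw [hadd, hR, sub_self]; exact IsOfFinAddOrder.zero⟩
  · obtain ⟨U, E, V, W, hco, h1, h2⟩ := integral one_ne_zero hsf hsf hα hβ
      (third (c := p) (Or.inr (by rw [hA, hC]; push_cast; ring)))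
    obtain ⟨u, rfl⟩ : (p : ℤ) ∣ U :=
      hpI.dvd_of_dvd_pow (n := 2) ⟨V ^ 2 + E ^ 2, by push_cast at h1; linear_combination h1⟩
    exact (false_of_one_p h8 hB (v := V) (w := W) hco
      (mul_left_cancel₀ hpZ (by push_cast at h1; linear_combination h1))
      (mul_left_cancel₀ hpZ (by push_cast at h2; linear_combination h2))).elim
  · obtain ⟨U, E, V, W, hco, h1, h2⟩ := integral hp.out.ne_zero squarefree_one hsf hα hβ
      (third (c := p) (Or.inr (by rw [hA, hC]; push_cast; ring)))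
    obtain ⟨v, rfl⟩ : (p : ℤ) ∣ V :=
      hpI.dvd_of_dvd_pow (n := 2) ⟨U ^ 2 - E ^ 2, by push_cast at h1; linear_combination -h1⟩
    exact (false_of_p_one h8 hB (v := v) (w := W) hco
      (mul_left_cancel₀ hpZ (by push_cast at h1; linear_combination h1))
      (mul_left_cancel₀ hpZ (by linear_combination h2))).elim
  · obtain ⟨U, E, V, W, hco, h1, h2⟩ := integral hp.out.ne_zero hsf squarefree_one hα hβ
      (third (c := 1) (Or.inr (by rw [hA, hC]; push_cast; ring)))
    obtain ⟨w, rfl⟩ : (p : ℤ) ∣ W :=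
      hpI.dvd_of_dvd_pow (n := 2) ⟨U ^ 2 + E ^ 2, by push_cast at h2; linear_combination -h2⟩
    exact (false_of_p_p h8 hB (v := V) (w := w) hco
      (mul_left_cancel₀ hpZ (by linear_combination h1))
      (mul_left_cancel₀ hpZ (by push_cast at h2; linear_combination h2))).elim

/-- **Bastien**: `p` is not congruent and the group is the torsion. -/
theorem point_equiv_bastien (h8 : p % 8 = 1)
    (hB : ∀ s : ZMod p, s ^ 2 = 2 → ¬ IsSquare (1 + s)) :
    Nonempty ((congCurve p).toAffine.Point ≃+ ZMod 2 × ZMod 2) := by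
  haveI := isElliptic_congCurve (n := p) hp.out.ne_zero
  haveI := FA.MordellWeil.mordell (congCurve p)
  obtain ⟨r, ⟨e⟩⟩ := FA.MordellWeil.exists_equiv_torsion_prod (congCurve p).toAffine.Point
  obtain ⟨-, ⟨f⟩⟩ := torsion_congCurve (n := p) hp.out.ne_zero
  obtain rfl : r = 0 := by
    by_contra hr
    set i : Fin r := ⟨0, Nat.pos_of_ne_zero hr⟩
    obtain ⟨R, hR⟩ := halved_bastien h8 hB (e.symm (0, Pi.single i 1))
    obtain ⟨m, hm, hm0⟩ := isOfFinAddOrder_iff_nsmul_eq_zero.mp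
      (((AddMonoidHom.snd _ _).comp e.toAddMonoidHom).isOfFinAddOrder hR)
    have := congrFun hm0 i
    simp [hm.ne', map_nsmul] at this
    omega
  exact ⟨(e.trans (AddEquiv.prodUnique (M := AddCommGroup.torsion (congCurve p).toAffine.Point)
    (N := Fin 0 → ℤ))).trans f⟩

theorem not_congruent_bastien (h8 : p % 8 = 1)
    (hB : ∀ s : ZMod p, s ^ 2 = 2 → ¬ IsSquare (1 + s)) :
    ¬ ∃ a b c : ℚ, 0 < a ∧ 0 < b ∧ 0 < c ∧ a ^ 2 + b ^ 2 = c ^ 2 ∧ a * b / 2 = (p : ℚ) := by
  intro h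
  haveI := (FA.Summary.congruentNumber_iff_infinite _ hp.out.ne_zero).1 h
  obtain ⟨e⟩ := point_equiv_bastien h8 hB
  exact not_finite_iff_infinite.mpr ‹_› (Finite.of_equiv _ e.toEquiv.symm)

end FA.Monsky

end
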