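import Fermat.Agent.Monsky.EvenMatrix
import Mathlib.LinearAlgebra.Dimension.LinearMap
import Mathlib.LinearAlgebra.Matrix.DotProduct
import Mathlib.LinearAlgebra.FiniteDimensional.Lemmas

/-!
# The parity of the kernel of Monsky's matrices

Over `ℤ/2` an alternating matrix has even rank, so a symmetric matrix `S` whose diagonal is `S y`
has a kernel of dimension `≡ size + diag ⬝ y`. For even `n` the matrix is symmetric. For odd `n` it
becomes symmetric, with the two blocks exchanged, after adding a matrix of rank one; by quadratic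
reciprocity this changes the kernel by the parity of the number of primes `≡ 3 (mod 4)`.
-/

set_option autoImplicit false
set_option linter.style.haveILetI false

noncomputable section

open Module

namespace FA.Monsky

section form

variable {V : Type*} [AddCommGroup V] [Module (ZMod 2) V] [FiniteDimensional (ZMod 2) V]

/-- An alternating form has even rank. -/
theorem even_finrank_sub_ker (B : V →ₗ[ZMod 2] V →ₗ[ZMod 2] ZMod 2) (hB : ∀ x, B x x = 0) :
    Even (finrank (ZMod 2) V - finrank (ZMod 2) (LinearMap.ker B)) := by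
  obtain ⟨N, hN⟩ : ∃ N, finrank (ZMod 2) V = N := ⟨_, rfl⟩
  induction N using Nat.strong_induction_on generalizing V with
  | _ N ih =>
  by_cases h0 : B = 0
  · rw [LinearMap.ker_eq_top.2 h0, finrank_top, Nat.sub_self]
    exact Even.zero
  have two : ∀ z : ZMod 2, z ≠ 0 → z = 1 := by decide
  have skew : ∀ x y, B x y = B y x := fun x y => by
    have h := hB (x + y)
    simp only [map_add, LinearMap.add_apply, hB, zero_add, add_zero] at h
    exact (CharTwo.add_eq_zero.1 h).symm
  obtain ⟨u, v, huv⟩ : ∃ u v, B u v = 1 := by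
    by_contra! hne
    exact h0 (LinearMap.ext fun x => LinearMap.ext fun y => by
      by_contra h; exact hne x y (two _ h))
  let φ : V →ₗ[ZMod 2] ZMod 2 × ZMod 2 := (B u).prod (B v)
  have hφ : Function.Surjective φ := fun c => ⟨c.1 • v + c.2 • u, by
    simp [φ, hB, huv, skew v u]⟩
  have hW : finrank (ZMod 2) (LinearMap.ker φ) + 2 = N := by
    have := φ.finrank_range_add_finrank_ker
    rw [LinearMap.range_eq_top.2 hφ, finrank_top, finrank_prod, finrank_self] at this
    omega
  set W := LinearMap.ker φ with hWdef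
  let B' : W →ₗ[ZMod 2] W →ₗ[ZMod 2] ZMod 2 := B.compl₁₂ W.subtype W.subtype
  have hmem : ∀ {x}, x ∈ LinearMap.ker B → x ∈ W := fun {x} hx => by
    rw [LinearMap.mem_ker] at hx
    simp [W, φ, skew u x, skew v x, hx]
  -- the radical is unchanged
  have hker : finrank (ZMod 2) (LinearMap.ker B') = finrank (ZMod 2) (LinearMap.ker B) := by
    refine (LinearEquiv.ofBijective
      ((LinearMap.ker B).subtype.codRestrict W (fun x => hmem x.2) |>.codRestrict
        (LinearMap.ker B') fun x => LinearMap.ext fun y => by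
          show B x.1 y.1 = 0
          rw [LinearMap.mem_ker.1 x.2, LinearMap.zero_apply])
      ⟨fun x y h => Subtype.ext (congrArg (fun z => z.1.1) h), fun x => ?_⟩).finrank_eq.symm
    refine ⟨⟨x.1.1, LinearMap.mem_ker.2 (LinearMap.ext fun y => ?_)⟩, rfl⟩
    have hx := x.1.2
    rw [LinearMap.mem_ker] at hx
    have hu : B u x.1.1 = 0 := congrArg Prod.fst hx
    have hv : B v x.1.1 = 0 := congrArg Prod.snd hx
    have hy : y - (B u y • v + B v y • u) ∈ W := by
      simp [W, φ, hB, huv, skew v u]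
    have h1 : B x.1.1 (y - (B u y • v + B v y • u)) = 0 :=
      LinearMap.congr_fun (LinearMap.mem_ker.1 x.2) ⟨_, hy⟩
    rw [map_sub, map_add, map_smul, map_smul, skew _ v, skew _ u, hu, hv, smul_zero, smul_zero,
      add_zero, sub_zero] at h1
    rw [h1, LinearMap.zero_apply]
  have := ih _ (show finrank (ZMod 2) W < N by omega) B' (fun x => hB x.1) rfl
  rw [hker] at this
  obtain ⟨r, hr⟩ := this
  have := LinearMap.finrank_range_add_finrank_ker B'
  exact ⟨r + 1, by omega⟩

/-- Adding a map of rank one. -/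
theorem finrank_ker_rankOne (T : V →ₗ[ZMod 2] V) (φ : V →ₗ[ZMod 2] ZMod 2) (u : V)
    (hz : φ u = 1 → ∃ z, T z = u) :
    finrank (ZMod 2) (LinearMap.ker (T + ((φ ∘ₗ T).smulRight u))) =
      finrank (ZMod 2) (LinearMap.ker T) + (φ u).val := by
  set T' := T + ((φ ∘ₗ T).smulRight u) with hT'
  have hle : LinearMap.ker T ≤ LinearMap.ker T' := fun x hx => by
    rw [LinearMap.mem_ker] at hx ⊢
    simp [T', hx]
  rcases (show ∀ z : ZMod 2, z = 0 ∨ z = 1 by decide) (φ u) with h | h
  · rw [h, ZMod.val_zero, add_zero, le_antisymm (fun x hx => ?_) hle]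
    rw [LinearMap.mem_ker] at hx ⊢
    have hx' : T x + φ (T x) • u = 0 := hx
    have h1 := congrArg φ hx'
    rw [map_add, map_smul, h, smul_zero, add_zero, map_zero] at h1
    rwa [h1, zero_smul, add_zero] at hx'
  · obtain ⟨z, hzu⟩ := hz h
    let ψ : LinearMap.ker T' →ₗ[ZMod 2] ZMod 2 := (φ ∘ₗ T) ∘ₗ (LinearMap.ker T').subtype
    have hzker : z ∈ LinearMap.ker T' := by
      rw [LinearMap.mem_ker]
      simp only [T', LinearMap.add_apply, LinearMap.smulRight_apply, LinearMap.comp_apply, hzu, h,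
        one_smul, ← two_smul (ZMod 2) u]
      rw [show (2 : ZMod 2) = 0 from rfl, zero_smul]
    have hψ : Function.Surjective ψ := fun c => ⟨c • ⟨z, hzker⟩, by simp [ψ, hzu, h]⟩
    have hker : (LinearMap.ker ψ).map (LinearMap.ker T').subtype = LinearMap.ker T := by
      ext x
      rw [Submodule.mem_map]
      constructor
      · rintro ⟨y, hy, rfl⟩
        have h1 : φ (T y.1) = 0 := hy
        have h2 : T y.1 + φ (T y.1) • u = 0 := LinearMap.mem_ker.1 y.2
        rw [h1, zero_smul, add_zero] at h2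
        exact h2
      · intro hx
        exact ⟨⟨x, hle hx⟩, by simp [ψ, LinearMap.mem_ker.1 hx], rfl⟩
    have h3 := ψ.finrank_range_add_finrank_ker
    rw [LinearMap.range_eq_top.2 hψ, finrank_top, finrank_self] at h3
    rw [h, ← h3, ← hker, Submodule.finrank_map_subtype_eq, ZMod.val_one]
    omega

end form

variable {ι : Type*} [Fintype ι] [DecidableEq ι]

/-- The quadratic form of a symmetric matrix is linear. -/
theorem dotProduct_mulVec_self {S : Matrix ι ι (ZMod 2)} (hS : S.IsSymm) (x : ι → ZMod 2) :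
    x ⬝ᵥ S.mulVec x = (fun i => S i i) ⬝ᵥ x := by
  have hcomm : ∀ x y : ι → ZMod 2, x ⬝ᵥ S.mulVec y = y ⬝ᵥ S.mulVec x := fun x y => by
    rw [Matrix.dotProduct_mulVec, ← Matrix.mulVec_transpose, hS.eq, dotProduct_comm]
  let f : (ι → ZMod 2) →+ ZMod 2 := AddMonoidHom.mk'
    (fun x => x ⬝ᵥ S.mulVec x + (fun i => S i i) ⬝ᵥ x) fun x y => by
      simp only [Matrix.mulVec_add, dotProduct_add, add_dotProduct, hcomm y x]
      linear_combination CharTwo.add_self_eq_zero (x ⬝ᵥ S.mulVec y)
  have hf : f x = 0 := by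
    rw [← Finset.univ_sum_single x, map_sum]
    refine Finset.sum_eq_zero fun i _ => ?_
    have key : ∀ a b : ZMod 2, a * (a * b) + b * a = 0 := by decide
    simp [f, Matrix.mulVec_single, dotProduct_single, single_dotProduct, key]
  exact CharTwo.add_eq_zero.1 hf

/-- **Parity for a symmetric matrix** with diagonal in the image. -/
theorem finrank_ker_symm (hcard : Even (Fintype.card ι)) {S : Matrix ι ι (ZMod 2)}
    (hS : S.IsSymm) (y : ι → ZMod 2) (hy : S.mulVec y = fun i => S i i) :
    (finrank (ZMod 2) (LinearMap.ker S.mulVecLin) : ZMod 2) = (fun i => S i i) ⬝ᵥ y := by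
  set δ : ι → ZMod 2 := fun i => S i i with hδ
  set φ : (ι → ZMod 2) →ₗ[ZMod 2] ZMod 2 := dotProductBilin (ZMod 2) (ZMod 2) y
  set S' : Matrix ι ι (ZMod 2) := S + Matrix.vecMulVec δ δ with hS'
  have hS'apply : S'.mulVecLin = S.mulVecLin + ((φ ∘ₗ S.mulVecLin).smulRight δ) := by
    refine LinearMap.ext fun x => ?_
    have : φ (S.mulVec x) = δ ⬝ᵥ x := by
      show y ⬝ᵥ S.mulVec x = δ ⬝ᵥ x
      rw [Matrix.dotProduct_mulVec, ← Matrix.mulVec_transpose, hS.eq, hy]
    simp [S', Matrix.vecMulVec_mulVec, this]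
  have hφδ : φ δ = δ ⬝ᵥ y := dotProduct_comm y δ
  have h1 := finrank_ker_rankOne S.mulVecLin φ δ fun _ => ⟨y, hy⟩
  rw [← hS'apply, hφδ] at h1
  -- `S + δ δᵗ` is alternating
  have halt : Even (finrank (ZMod 2) (LinearMap.ker S'.mulVecLin)) := by
    let B : (ι → ZMod 2) →ₗ[ZMod 2] (ι → ZMod 2) →ₗ[ZMod 2] ZMod 2 :=
      (dotProductBilin (ZMod 2) (ZMod 2)) ∘ₗ S'.mulVecLin
    have hB : ∀ x, B x x = 0 := fun x => by
      have key : ∀ a : ZMod 2, a + a * a = 0 := by decide
      show S'.mulVec x ⬝ᵥ x = 0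
      rw [hS', Matrix.add_mulVec, Matrix.vecMulVec_mulVec, add_dotProduct, dotProduct_comm _ x,
        dotProduct_mulVec_self hS]
      simp [δ, smul_dotProduct, key]
    have hker : LinearMap.ker B = LinearMap.ker S'.mulVecLin := by
      ext x
      rw [LinearMap.mem_ker, LinearMap.mem_ker]
      exact ⟨fun h => dotProduct_eq_zero_iff.1 fun w => LinearMap.congr_fun h w,
        fun h => by simp [B, h]⟩
    have h2 := even_finrank_sub_ker B hB
    rw [hker, Module.finrank_fintype_fun_eq_card] at h2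
    have hle := Submodule.finrank_le (LinearMap.ker S'.mulVecLin)
    rw [Module.finrank_fintype_fun_eq_card] at hle
    exact (Nat.even_sub hle).1 h2 |>.1 hcard
  have hcast : ((finrank (ZMod 2) (LinearMap.ker S'.mulVecLin) : ℕ) : ZMod 2) = 0 :=
    (ZMod.natCast_eq_zero_iff _ _).2 (even_iff_two_dvd.1 halt)
  rw [h1, Nat.cast_add, ZMod.natCast_zmod_val] at hcast
  exact CharTwo.add_eq_zero.1 hcast

variable {k : ℕ} {P : Fin k → ℕ} [∀ i, NeZero (P i)]

/-- The entries of a row sum to zero. -/
theorem sum_row (i : Fin k) (c : ZMod 2) :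
    ∑ j, (if i = j then diagA P i + c else entry P i j) = c := by
  rw [← Finset.add_sum_erase _ _ (Finset.mem_univ i), if_pos rfl,
    Finset.sum_congr rfl fun j hj => by rw [if_neg (Finset.ne_of_mem_erase hj).symm], ← diagA]
  linear_combination CharTwo.add_self_eq_zero (diagA P i)

/-- The entries of a column, by reciprocity. -/
theorem sum_col (hP : OddPrimes P) (j : Fin k) (c : Fin k → ZMod 2) :
    ∑ i, (if i = j then diagA P i + c i else entry P i j) =
      c j + sym (P j) (-1) * ((∑ i, sym (P i) (-1)) + 1) := by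
  rw [← Finset.add_sum_erase _ _ (Finset.mem_univ j), if_pos rfl,
    Finset.sum_congr rfl fun i hi => by
      rw [if_neg (Finset.ne_of_mem_erase hi), entry_symm hP (Finset.ne_of_mem_erase hi).symm],
    Finset.sum_add_distrib, ← diagA, ← Finset.mul_sum,
    ← Finset.add_sum_erase _ _ (Finset.mem_univ j)]
  have key : ∀ D c m s : ZMod 2, D + c + (D + m * s) = c + m * (m + s + 1) := by decide
  exact key _ _ _ _

/-- **Parity of the kernel for even `n`.** -/
theorem finrank_ker_matrixTwo :
    (finrank (ZMod 2) (LinearMap.ker (matrixTwo P).mulVecLin) : ZMod 2) =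
      ∑ i, sym (P i) (-1) := by
  have hsymm : (matrixTwo P).IsSymm := by
    refine Matrix.IsSymm.fromBlocks (Matrix.isSymm_diagonal _) ?_ (Matrix.isSymm_diagonal _)
    ext i j
    rcases eq_or_ne i j with rfl | hij
    · simp
    · simp [hij, hij.symm]
  have hy : (matrixTwo P).mulVec (Sum.elim 0 1) = fun i => matrixTwo P i i := by
    rw [matrixTwo, Matrix.fromBlocks_mulVec]
    funext z
    rcases z with i | i <;> simp [Matrix.mulVec, dotProduct, sum_row, Matrix.diagonal]
  rw [finrank_ker_symm ⟨k, by simp⟩ hsymm _ hy]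
  simp [dotProduct, matrixTwo]

/-- The column sums of Monsky's matrix. -/
def colVec (P : Fin k → ℕ) [∀ i, NeZero (P i)] : Fin k ⊕ Fin k → ZMod 2 :=
  Sum.elim ((1 + ∑ i, sym (P i) (-1)) • fun i => sym (P i) (-1))
    ((∑ i, sym (P i) (-1)) • fun i => sym (P i) (-1))

theorem vecMul_one_matrix (hP : OddPrimes P) : Matrix.vecMul 1 (matrix P) = colVec P := by
  rw [colVec]
  set m : Fin k → ZMod 2 := fun i => sym (P i) (-1) with hm
  set η : ZMod 2 := ∑ i, m i with hη
  set u : Fin k ⊕ Fin k → ZMod 2 := Sum.elim ((1 + η) • m) (η • m) with hu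
  set M := matrix P with hM
  funext z
  rw [hM, matrix, Matrix.vecMul_fromBlocks]
  have hdia : ∀ (d : Fin k → ZMod 2) (j : Fin k),
      Matrix.vecMul (1 : Fin k → ZMod 2) (Matrix.diagonal d) j = d j := fun d j => by
    rw [Matrix.vecMul_diagonal, Pi.one_apply, one_mul]
  rcases z with j | j <;>
    simp only [u, Sum.elim_inl, Sum.elim_inr, Pi.add_apply, Pi.smul_apply, smul_eq_mul,
      show ((1 : Fin k ⊕ Fin k → ZMod 2) ∘ Sum.inl) = 1 from rfl,
      show ((1 : Fin k ⊕ Fin k → ZMod 2) ∘ Sum.inr) = 1 from rfl, hdia] <;>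
    simp only [Matrix.vecMul, dotProduct, Pi.one_apply, one_mul, Matrix.of_apply]
  · rw [sum_col hP j fun i => sym (P i) 2]
    linear_combination CharTwo.add_self_eq_zero (sym (P j) 2)
  · simp only [add_assoc (diagA P _)]
    rw [sum_col hP j fun i => sym (P i) (-1) + sym (P i) 2]
    linear_combination CharTwo.add_self_eq_zero (sym (P j) 2) + CharTwo.add_self_eq_zero (m j)

/-- Monsky's matrix plus the square of the column sums, the blocks exchanged. -/
def symMatrix (P : Fin k → ℕ) [∀ i, NeZero (P i)] :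
    Matrix (Fin k ⊕ Fin k) (Fin k ⊕ Fin k) (ZMod 2) :=
  (matrix P + Matrix.vecMulVec (colVec P) (colVec P)).submatrix Sum.swap id

theorem isSymm_symMatrix (hP : OddPrimes P) : (symMatrix P).IsSymm := by
  rw [symMatrix, colVec]
  set m : Fin k → ZMod 2 := fun i => sym (P i) (-1) with hm
  set η : ZMod 2 := ∑ i, m i with hη
  set u : Fin k ⊕ Fin k → ZMod 2 := Sum.elim ((1 + η) • m) (η • m) with hu
  set M := matrix P with hM
  set S := (M + Matrix.vecMulVec u u).submatrix Sum.swap id with hS
  refine Matrix.IsSymm.ext fun z w => ?_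
  have idem : ∀ a b z : ZMod 2, z * a * ((1 + z) * b) = 0 ∧ (1 + z) * a * (z * b) = 0 := by decide
  have sq : ∀ z : ZMod 2, z * z = z := by decide
  have sq1 : ∀ z : ZMod 2, (1 + z) * (1 + z) = 1 + z := by decide
  rcases z with i | i <;> rcases w with j | j <;> rcases eq_or_ne i j with rfl | hij <;>
    simp only [S, M, matrix, u, Matrix.submatrix_apply, Sum.swap_inl, Sum.swap_inr, id_eq,
      Matrix.add_apply, Matrix.vecMulVec_apply, Matrix.fromBlocks_apply₁₁,
      Matrix.fromBlocks_apply₁₂, Matrix.fromBlocks_apply₂₁, Matrix.fromBlocks_apply₂₂,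
      Matrix.of_apply, if_pos, Sum.elim_inl, Sum.elim_inr, Pi.smul_apply, smul_eq_mul]
  case inl.inr.inl =>
    have key : ∀ D d m η : ZMod 2,
        D + d + (1 + η) * m * ((1 + η) * m) = D + m + d + η * m * (η * m) := by decide
    exact key _ _ _ _
  case inr.inl.inl =>
    have key : ∀ D d m η : ZMod 2,
        D + m + d + η * m * (η * m) = D + d + (1 + η) * m * ((1 + η) * m) := by decide
    exact key _ _ _ _
  case inl.inr.inr =>
    rw [if_neg hij, if_neg hij.symm, entry_symm hP hij]
    linear_combination m i * m j * sq1 η - m i * m j * sq η +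
      CharTwo.add_self_eq_zero (m i * m j)
  case inr.inl.inr =>
    rw [if_neg hij, if_neg hij.symm, entry_symm hP hij]
    linear_combination m i * m j * sq η - m i * m j * sq1 η
  all_goals simp [Matrix.diagonal, hij, hij.symm, idem]

theorem symMatrix_diag (z : Fin k ⊕ Fin k) :
    symMatrix P z z = Sum.elim (fun i => sym (P i) 2) (fun i => sym (P i) 2) z := by
  rw [symMatrix, colVec]
  set m : Fin k → ZMod 2 := fun i => sym (P i) (-1) with hm
  set η : ZMod 2 := ∑ i, m i with hη
  set u : Fin k ⊕ Fin k → ZMod 2 := Sum.elim ((1 + η) • m) (η • m) with hu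
  set M := matrix P with hM
  set S := (M + Matrix.vecMulVec u u).submatrix Sum.swap id with hS
  have key : ∀ d m η : ZMod 2, d + η * m * ((1 + η) * m) = d ∧
      d + (1 + η) * m * (η * m) = d := by decide
  rcases z with i | i <;> simp [S, M, matrix, u, Matrix.vecMulVec_apply, key]

/-- **Parity of the kernel for odd `n`.** -/
theorem finrank_ker_matrix (hP : OddPrimes P) :
    (finrank (ZMod 2) (LinearMap.ker (matrix P).mulVecLin) : ZMod 2) =
      (∑ i, sym (P i) (-1)) + ∑ i, sym (P i) 2 := by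
  set m : Fin k → ZMod 2 := fun i => sym (P i) (-1) with hm
  set η : ZMod 2 := ∑ i, m i with hη
  set u : Fin k ⊕ Fin k → ZMod 2 := Sum.elim ((1 + η) • m) (η • m) with hu
  set M := matrix P with hM
  set φ : ((Fin k ⊕ Fin k) → ZMod 2) →ₗ[ZMod 2] ZMod 2 := dotProductBilin (ZMod 2) (ZMod 2) 1
  -- the column sums
  have hcol : Matrix.vecMul 1 M = u := vecMul_one_matrix hP
  have hone : M.mulVec 1 = Sum.elim (0 : Fin k → ZMod 2) m := by
    rw [hM, matrix, Matrix.fromBlocks_mulVec]
    funext z
    rcases z with i | i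
    · simp [Matrix.mulVec, dotProduct, sum_row, Matrix.diagonal, CharTwo.add_self_eq_zero]
    · simp [Matrix.mulVec, dotProduct, sum_row, Matrix.diagonal, m, add_assoc (diagA P i)]
      linear_combination CharTwo.add_self_eq_zero (sym (P i) 2)
  have hφu : φ u = η := by
    show (1 : Fin k ⊕ Fin k → ZMod 2) ⬝ᵥ u = η
    simp only [dotProduct, Fintype.sum_sum_type, u, Sum.elim_inl, Sum.elim_inr, Pi.one_apply,
      one_mul, Pi.smul_apply, smul_eq_mul, ← Finset.mul_sum, ← hη]
    have key : ∀ z : ZMod 2, (1 + z) * z + z * z = z := by decide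
    exact key η
  have h1 := finrank_ker_rankOne M.mulVecLin φ u fun h => ⟨1, by
    rw [hφu] at h
    rw [Matrix.mulVecLin_apply, hone, hu, h, CharTwo.add_self_eq_zero, zero_smul, one_smul]⟩
  rw [hφu] at h1
  -- exchange the blocks of the modified matrix
  set S : Matrix (Fin k ⊕ Fin k) (Fin k ⊕ Fin k) (ZMod 2) :=
    (M + Matrix.vecMulVec u u).submatrix Sum.swap id with hS
  have hker : LinearMap.ker S.mulVecLin =
      LinearMap.ker (M.mulVecLin + ((φ ∘ₗ M.mulVecLin).smulRight u)) := by
    ext x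
    have hx : (M + Matrix.vecMulVec u u).mulVec x =
        (M.mulVecLin + ((φ ∘ₗ M.mulVecLin).smulRight u)) x := by
      show _ = M.mulVec x + ((1 : Fin k ⊕ Fin k → ZMod 2) ⬝ᵥ M.mulVec x) • u
      rw [Matrix.dotProduct_mulVec, hcol]
      simp [Matrix.add_mulVec, Matrix.vecMulVec_mulVec]
    rw [LinearMap.mem_ker, LinearMap.mem_ker, ← hx, Matrix.mulVecLin_apply]
    exact ⟨fun h => funext fun z => (congrArg _ (Sum.swap_swap z)).symm.trans
      (congrFun h (Sum.swap z)), fun h => funext fun z => congrFun h (Sum.swap z)⟩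
  have hsymm : S.IsSymm := isSymm_symMatrix hP
  have hdiag : ∀ z, S z z = Sum.elim (fun i => sym (P i) 2) (fun i => sym (P i) 2) z :=
    symMatrix_diag
  have hy : S.mulVec (Sum.elim 1 0) = fun z => S z z := by
    funext z
    rw [hdiag]
    have key : ∀ z : ZMod 2, z + z * z = 0 := by decide
    rcases z with i | i <;>
      simp [S, M, matrix, u, Matrix.mulVec, dotProduct, Matrix.vecMulVec_apply, Matrix.diagonal,
        add_mul, Finset.sum_add_distrib, ← Finset.mul_sum, ← hη, sum_row, key]
  have h2 := finrank_ker_symm ⟨k, by simp⟩ hsymm _ hy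
  rw [hker, h1, Nat.cast_add, ZMod.natCast_zmod_val] at h2
  have hsum : (fun z => S z z) ⬝ᵥ Sum.elim 1 0 = ∑ i, sym (P i) 2 := by
    simp [dotProduct, hdiag]
  rw [hsum] at h2
  linear_combination h2 - CharTwo.add_self_eq_zero η

end FA.Monsky

end
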