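import Fermat.Agent.Monsky.SolublePrime
import Fermat.Agent.Monsky.Parity
import Fermat.Agent.Monsky.Bastien

/-!
# The lower half of Monsky's theorem

For odd `n` a torsor has points over `ℝ` and every `ℚ_q` exactly when its vector is killed by
Monsky's matrix. At `2` the two rows at each prime give `a ≡ ±1 (mod 8)` and a congruence for `b`
modulo `4`, through the column sums and the symmetrised matrix; four points cover these cases.
-/

set_option autoImplicit false
set_option linter.style.haveILetI false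

noncomputable section

namespace FA.Monsky

/-- Odd integers congruent modulo `8` differ by a square of `ℚ₂`. -/
theorem exists_two_adic_sq {B C : ℤ} (hB : B % 2 = 1) (h : C % 8 = B % 8) :
    ∃ r : ℚ_[2], (B : ℚ_[2]) * r ^ 2 = C := by
  obtain ⟨t, ht⟩ : (8 : ℤ) ∣ B * C - 1 := by
    have h1 : B * C % 8 = 1 := by
      rw [Int.mul_emod, h]
      rcases (by omega : B % 8 = 1 ∨ B % 8 = 3 ∨ B % 8 = 5 ∨ B % 8 = 7) with e | e | e | e <;>
        rw [e] <;> norm_num
    omega
  obtain ⟨s, -, hs, -⟩ := FA.LindReichardt.exists_sqrt_two_adic (u := ((B * C : ℤ) : ℤ_[2]))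
    (k := (t : ℤ_[2])) (by rw [show B * C = 1 + 8 * t by linarith]; push_cast; ring)
  have e := congrArg (PadicInt.Coe.ringHom (p := 2)) hs
  rw [map_pow, map_intCast] at e
  change (s : ℚ_[2]) ^ 2 = _ at e
  have hB0 : (B : ℚ_[2]) ≠ 0 := Int.cast_ne_zero.2 (by omega)
  refine ⟨(s : ℚ_[2]) / B, ?_⟩
  push_cast at e
  field_simp
  linear_combination e

/-- The four points over `ℚ₂`. -/
theorem soluble_two_of_mod {a b c n : ℕ} (hn : n % 2 = 1) (hb2 : b % 2 = 1)
    (hc : c % 8 = a * b % 8) (ha : a % 8 = 1 ∨ a % 8 = 7) (h1 : n % 4 = 1 → b % 4 = a % 4)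
    (h3 : n % 4 = 3 → b % 4 = 1) : Soluble ℚ_[2] n a b c := by
  have key : ∀ a ∈ [1, 7], ∀ b ∈ [1, 3, 5, 7], ∀ n ∈ [1, 3, 5, 7],
      (n % 4 = 1 → b % 4 = a % 4) → (n % 4 = 3 → b % 4 = 1) →
      (b = a ∧ a * b % 8 = a) ∨ ((b + n) % 8 = 0 ∧ a * b % 8 = n) ∨
        ((b + 4) % 8 = a ∧ (a * b + 4) % 8 = a) ∨ ((b + n) % 8 = 4 ∧ (a * b + 4) % 8 = n) := by
    decide
  have hc2 : c % 2 = 1 := by
    have ha2 : a % 2 = 1 := by omega
    have h := Nat.mul_mod a b 2
    rw [ha2, hb2] at h
    omega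
  have hab := key (a % 8) (by simpa using ha) (b % 8)
    (by simp only [List.mem_cons, List.not_mem_nil, or_false]; omega) (n % 8)
    (by simp only [List.mem_cons, List.not_mem_nil, or_false]; omega) (by omega) (by omega)
  rw [← Nat.mul_mod] at hab
  have add4 : ∀ m : ℕ, (a % 8 * (b % 8) + m) % 8 = (c % 8 + m) % 8 := fun m => by
    rw [Nat.add_mod, ← Nat.mul_mod, ← hc]; omega
  rw [add4] at hab
  rw [← hc] at hab
  have hbZ : (b : ℤ) % 2 = 1 := by omega
  have hcZ : (c : ℤ) % 2 = 1 := by omega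
  rcases hab with ⟨e1, e2⟩ | ⟨e1, e2⟩ | ⟨e1, e2⟩ | ⟨e1, e2⟩
  · obtain ⟨v, hv⟩ := exists_two_adic_sq hbZ (C := a) (by omega)
    obtain ⟨w, hw⟩ := exists_two_adic_sq hcZ (C := a) (by omega)
    exact ⟨1, v, w, 0, Or.inl one_ne_zero, by linear_combination -hv, by linear_combination -hw⟩
  · obtain ⟨v, hv⟩ := exists_two_adic_sq hbZ (C := -n) (by omega)
    obtain ⟨w, hw⟩ := exists_two_adic_sq hcZ (C := n) (by omega)
    push_cast at hv
    exact ⟨0, v, w, 1, Or.inr one_ne_zero, by push_cast at hv hw ⊢; linear_combination -hv,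
      by push_cast at hv hw ⊢; linear_combination -hw⟩
  · obtain ⟨v, hv⟩ := exists_two_adic_sq hbZ (C := a - 4 * n) (by omega)
    obtain ⟨w, hw⟩ := exists_two_adic_sq hcZ (C := a + 4 * n) (by omega)
    push_cast at hv hw
    exact ⟨1, v, w, 2, Or.inl one_ne_zero, by push_cast at hv ⊢; linear_combination -hv,
      by push_cast at hw ⊢; linear_combination -hw⟩
  · obtain ⟨v, hv⟩ := exists_two_adic_sq hbZ (C := 4 * a - n) (by omega)
    obtain ⟨w, hw⟩ := exists_two_adic_sq hcZ (C := 4 * a + n) (by omega)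
    push_cast at hv hw
    exact ⟨2, v, w, 1, Or.inr one_ne_zero, by push_cast at hv ⊢; linear_combination -hv,
      by push_cast at hw ⊢; linear_combination -hw⟩

variable {k : ℕ} {P : Fin k → ℕ}

/-- The product of two classes is the third times a square. -/
theorem classProd_mul (f g : Fin k → ZMod 2) :
    classProd P f * classProd P g = classProd P (f + g) * classProd P (f * g) ^ 2 := by
  rw [classProd, classProd, classProd, classProd, ← Finset.prod_pow, ← Finset.prod_mul_distrib,
    ← Finset.prod_mul_distrib]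
  refine Finset.prod_congr rfl fun i _ => ?_
  have two : ∀ z : ZMod 2, z = 0 ∨ z = 1 := by decide
  rcases two (f i) with h | h <;> rcases two (g i) with h' | h' <;>
    simp [h, h', CharTwo.add_self_eq_zero, sq]

theorem classProd_odd (hP : OddPrimes P) (f : Fin k → ZMod 2) : classProd P f % 2 = 1 := by
  rw [classProd, Finset.prod_nat_mod, Finset.prod_congr rfl fun i _ => show
    (if f i = 1 then P i else 1) % 2 = 1 by
      split_ifs
      · exact (hP.prime i).eq_two_or_odd.resolve_left (hP.odd i)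
      · rfl]
  simp

variable [∀ i, NeZero (P i)]

theorem classProd_mod_four (hP : OddPrimes P) (f : Fin k → ZMod 2) :
    classProd P f % 4 = 3 ↔ eta P f = 1 := by
  have h := cast_classProd_four hP f
  rw [← ZMod.natCast_mod] at h
  have ho := classProd_odd hP f
  rcases (by omega : classProd P f % 4 = 1 ∨ classProd P f % 4 = 3) with e | e <;> rw [e] at h ⊢
  · refine ⟨fun h' => absurd h' (by decide), fun h' => absurd h ?_⟩
    rw [if_pos h']
    decide
  · refine ⟨fun _ => ?_, fun _ => rfl⟩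
    by_contra h'
    rw [if_neg h'] at h
    exact absurd h (by decide)

theorem classProd_mod_eight (hP : OddPrimes P) (f : Fin k → ZMod 2) :
    (classProd P f % 8 = 3 ∨ classProd P f % 8 = 5) ↔ ∑ i, f i * sym (P i) 2 = 1 := by
  suffices h : ∀ T : Finset (Fin k), (∏ i ∈ T, if f i = 1 then P i else 1) % 2 = 1 ∧
      (((∏ i ∈ T, if f i = 1 then P i else 1) % 8 = 3 ∨
        (∏ i ∈ T, if f i = 1 then P i else 1) % 8 = 5) ↔ ∑ i ∈ T, f i * sym (P i) 2 = 1) from
    (h _).2
  intro T
  induction T using Finset.induction with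
  | empty => simp
  | insert i T hi ih =>
    obtain ⟨hodd, ih⟩ := ih
    rw [Finset.prod_insert hi, Finset.sum_insert hi]
    set r := ∏ j ∈ T, if f j = 1 then P j else 1
    set s : ℕ := if f i = 1 then P i else 1 with hs
    have hs2 : s % 2 = 1 := by
      rw [hs]; split_ifs
      · exact (hP.prime i).eq_two_or_odd.resolve_left (hP.odd i)
      · rfl
    have hfi : f i * sym (P i) 2 = if s % 8 = 3 ∨ s % 8 = 5 then 1 else 0 := by
      rw [sym_eight hP i, hs]
      rcases (show ∀ z : ZMod 2, z = 0 ∨ z = 1 by decide) (f i) with h | h <;> simp [h]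
    have hsum : ∑ j ∈ T, f j * sym (P j) 2 = if r % 8 = 3 ∨ r % 8 = 5 then 1 else 0 := by
      split_ifs with h
      · exact ih.1 h
      · exact (show ∀ z : ZMod 2, z ≠ 1 → z = 0 by decide) _ fun h' => h (ih.2 h')
    have key : ∀ a ∈ [1, 3, 5, 7], ∀ b ∈ [1, 3, 5, 7],
        ((a * b % 8 = 3 ∨ a * b % 8 = 5) ↔
          ((if a = 3 ∨ a = 5 then 1 else 0) + (if b = 3 ∨ b = 5 then 1 else 0) : ZMod 2) = 1) := by
      decide
    refine ⟨by rw [Nat.mul_mod, hs2, hodd], ?_⟩
    rw [Nat.mul_mod, hfi, hsum]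
    refine key _ ?_ _ ?_ <;> simp only [List.mem_cons, List.not_mem_nil, or_false] <;> omega
where
  sym_eight (hP : OddPrimes P) (i : Fin k) :
      sym (P i) 2 = if P i % 8 = 3 ∨ P i % 8 = 5 then 1 else 0 := by
    haveI := Fact.mk (hP.prime i)
    have h2 : P i % 2 = 1 := (hP.prime i).eq_two_or_odd.resolve_left (hP.odd i)
    simp only [sym, ZMod.exists_sq_eq_two_iff (hP.odd i)]
    split_ifs <;> first | rfl | omega

/-- The rows of the matrix on a pair of classes. -/
theorem mulVec_eq_zero_iff (α β : Fin k → ZMod 2) :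
    (matrix P).mulVec (Sum.elim (α + β) β) = 0 ↔ ∀ i,
      (∑ j ∈ Finset.univ.erase i, α j * entry P i j) + diagA P i * α i +
          sym (P i) (-1) * β i = 0 ∧
        (∑ j ∈ Finset.univ.erase i, β j * entry P i j) + sym (P i) 2 * α i +
          (diagA P i + sym (P i) (-1)) * β i = 0 := by
  have hofs : ∀ (i : Fin k) (d : ZMod 2) (f : Fin k → ZMod 2),
      ∑ j, (if i = j then d else entry P i j) * f j =
        d * f i + ∑ j ∈ Finset.univ.erase i, f j * entry P i j := fun i d f => by
    rw [← Finset.add_sum_erase _ _ (Finset.mem_univ i), if_pos rfl]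
    congr 1
    exact Finset.sum_congr rfl fun j hj => by
      rw [if_neg (Finset.ne_of_mem_erase hj).symm, mul_comm]
  have top : ∀ i, (matrix P).mulVec (Sum.elim (α + β) β) (Sum.inl i) =
      (diagA P i + sym (P i) 2) * (α i + β i) +
        ((∑ j ∈ Finset.univ.erase i, α j * entry P i j) +
          ∑ j ∈ Finset.univ.erase i, β j * entry P i j) + sym (P i) 2 * β i := fun i => by
    rw [matrix, Matrix.fromBlocks_mulVec]
    simp only [Sum.elim_inl, Pi.add_apply, Matrix.mulVec_diagonal, Sum.elim_comp_inl,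
      Sum.elim_comp_inr]
    show ∑ j, (if i = j then _ else entry P i j) * (α + β) j + _ = _
    rw [hofs]
    simp [add_mul, Finset.sum_add_distrib]
  have bot : ∀ i, (matrix P).mulVec (Sum.elim (α + β) β) (Sum.inr i) =
      sym (P i) 2 * (α i + β i) + ((diagA P i + sym (P i) (-1) + sym (P i) 2) * β i +
        ∑ j ∈ Finset.univ.erase i, β j * entry P i j) := fun i => by
    rw [matrix, Matrix.fromBlocks_mulVec]
    simp only [Sum.elim_inr, Pi.add_apply, Matrix.mulVec_diagonal, Sum.elim_comp_inl,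
      Sum.elim_comp_inr]
    show _ + ∑ j, (if i = j then _ else entry P i j) * β j = _
    rw [hofs]
  have key : ∀ S T D d m a b : ZMod 2,
      ((D + d) * (a + b) + (S + T) + d * b = 0 ∧ d * (a + b) + ((D + m + d) * b + T) = 0) ↔
        (S + D * a + m * b = 0 ∧ T + d * a + (D + m) * b = 0) := by decide
  constructor
  · intro h i
    exact (key _ _ _ _ _ _ _).1 ⟨by rw [← top i, h]; rfl, by rw [← bot i, h]; rfl⟩
  · intro h
    funext z
    rcases z with i | i
    · rw [top i]; exact ((key _ _ _ _ _ _ _).2 (h i)).1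
    · rw [bot i]; exact ((key _ _ _ _ _ _ _).2 (h i)).2

/-- The conditions at `2` of a vector in the kernel. -/
theorem mod_of_kernel (hP : OddPrimes P) {α β : Fin k → ZMod 2}
    (h : (matrix P).mulVec (Sum.elim (α + β) β) = 0) :
    (classProd P α % 8 = 1 ∨ classProd P α % 8 = 7) ∧
      ((∏ i, P i) % 4 = 1 → classProd P β % 4 = classProd P α % 4) ∧
      ((∏ i, P i) % 4 = 3 → classProd P β % 4 = 1) := by
  set z := Sum.elim (α + β) β with hz
  have hu : colVec P ⬝ᵥ z = 0 := by
    rw [← vecMul_one_matrix hP, ← Matrix.dotProduct_mulVec, h, dotProduct_zero]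
  have hS : (symMatrix P).mulVec z = 0 := by
    have h0 : (matrix P + Matrix.vecMulVec (colVec P) (colVec P)).mulVec z = 0 := by
      rw [Matrix.add_mulVec, h, Matrix.vecMulVec_mulVec, hu]
      simp
    funext w
    exact congrFun h0 (Sum.swap w)
  have hd := dotProduct_mulVec_self (isSymm_symMatrix hP) z
  rw [hS, dotProduct_zero] at hd
  have hdα : ∑ i, α i * sym (P i) 2 = 0 := by
    rw [hd]
    simp only [dotProduct, Fintype.sum_sum_type, symMatrix_diag, z, Sum.elim_inl, Sum.elim_inr,
      Pi.add_apply, ← Finset.sum_add_distrib]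
    refine Finset.sum_congr rfl fun i _ => ?_
    have key : ∀ a b d : ZMod 2, a * d = d * (a + b) + d * b := by decide
    exact key _ _ _
  have hm : (1 + ∑ i, sym (P i) (-1)) * (eta P α + eta P β) +
      (∑ i, sym (P i) (-1)) * eta P β = 0 := by
    refine Eq.trans ?_ hu
    simp only [dotProduct, Fintype.sum_sum_type, colVec, z, Sum.elim_inl, Sum.elim_inr,
      Pi.add_apply, Pi.smul_apply, smul_eq_mul, eta, Finset.mul_sum, ← Finset.sum_add_distrib]
    refine Finset.sum_congr rfl fun i _ => ?_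
    ring
  have h8 := classProd_mod_eight hP α
  rw [hdα] at h8
  have hα := classProd_odd hP α
  have hβ := classProd_odd hP β
  have hN : (∏ i, P i) % 4 = 3 ↔ ∑ i, sym (P i) (-1) = 1 := by
    have := classProd_mod_four hP 1
    rwa [show classProd P 1 = ∏ i, P i by simp [classProd],
      show eta P 1 = ∑ i, sym (P i) (-1) by simp [eta]] at this
  have h4α := classProd_mod_four hP α
  have h4β := classProd_mod_four hP β
  have two : ∀ z : ZMod 2, z = 0 ∨ z = 1 := by decide
  refine ⟨?_, fun hn => ?_, fun hn => ?_⟩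
  · have : ¬ (classProd P α % 8 = 3 ∨ classProd P α % 8 = 5) := fun h' =>
      absurd (h8.1 h') zero_ne_one
    omega
  · have h0 : ∑ i, sym (P i) (-1) = 0 := (two _).resolve_right fun h1 => by
      have := hN.2 h1; omega
    rw [h0] at hm
    have : eta P α = eta P β := by
      rcases two (eta P α) with e | e <;> rcases two (eta P β) with e' | e' <;>
        simp [e, e'] at hm ⊢
    rw [this] at h4α
    by_cases hb : classProd P β % 4 = 3
    · rw [hb, h4α.2 (h4β.1 hb)]
    · have : ¬ classProd P α % 4 = 3 := fun ha => hb (h4β.2 (h4α.1 ha))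
      omega
  · rw [hN.1 hn, CharTwo.add_self_eq_zero, zero_mul, zero_add, one_mul] at hm
    have : ¬ classProd P β % 4 = 3 := fun hb => absurd (hm ▸ h4β.1 hb) zero_ne_one
    omega

/-- **Monsky's theorem for odd `n`**: the torsor of a pair of classes has points over every
completion exactly when its vector is in the kernel. -/
theorem soluble_everywhere_iff (hP : OddPrimes P) (α β : Fin k → ZMod 2) :
    (Soluble ℝ (∏ j, P j : ℕ) (classProd P α) (classProd P β) (classProd P (α + β)) ∧
      ∀ (q : ℕ) [Fact q.Prime],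
        Soluble ℚ_[q] (∏ j, P j : ℕ) (classProd P α) (classProd P β) (classProd P (α + β))) ↔
      (matrix P).mulVec (Sum.elim (α + β) β) = 0 := by
  constructor
  · rintro ⟨-, h⟩
    rw [mulVec_eq_zero_iff]
    intro i
    haveI := Fact.mk (hP.prime i)
    exact (soluble_iff_rows hP i α β).1 (h (P i))
  intro h
  have hpos := fun f => classProd_pos hP f
  refine ⟨soluble_real (by exact_mod_cast hpos α) (by exact_mod_cast hpos β)
    (by exact_mod_cast hpos (α + β)), fun q hq => ?_⟩
  rcases eq_or_ne q 2 with rfl | hq2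
  · obtain ⟨ha, h1, h3⟩ := mod_of_kernel hP h
    refine soluble_two_of_mod (Nat.odd_iff.1 hP.odd_prod) (classProd_odd hP β) ?_ ha h1 h3
    rw [classProd_mul, Nat.mul_mod, Nat.pow_mod]
    have ho := classProd_odd hP (α * β)
    have : classProd P (α * β) % 8 ^ 1 = classProd P (α * β) % 8 := by simp
    rcases (by omega : classProd P (α * β) % 8 = 1 ∨ classProd P (α * β) % 8 = 3 ∨
      classProd P (α * β) % 8 = 5 ∨ classProd P (α * β) % 8 = 7) with e | e | e | e <;>
      rw [e] <;> simp
  by_cases hex : ∃ i, q = P i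
  · obtain ⟨i, rfl⟩ := hex
    haveI := Fact.mk (hP.prime i)
    exact (soluble_iff_rows hP i α β).2 ((mulVec_eq_zero_iff α β).1 h i)
  have hne : ∀ f, (classProd P f : ZMod q) ≠ 0 := fun f h0 => by
    rw [ZMod.natCast_eq_zero_iff, classProd, (hq.out.prime.dvd_finsetProd_iff _)] at h0
    obtain ⟨i, -, hi⟩ := h0
    split_ifs at hi
    · exact hex ⟨i, (Nat.prime_dvd_prime_iff_eq hq.out (hP.prime i)).1 hi⟩
    · exact hq.out.not_dvd_one hi
  have hn : ((∏ j, P j : ℕ) : ZMod q) ≠ 0 := by
    rw [show ∏ j, P j = classProd P 1 by simp [classProd]]; exact hne 1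
  refine soluble_of_good hq2 (by rw [Int.cast_natCast]; exact hn)
    (by rw [Int.cast_natCast]; exact hne α) (by rw [Int.cast_natCast]; exact hne β)
    (by rw [Int.cast_natCast]; exact hne (α + β)) ?_
  simp only [Int.cast_natCast]
  have e := congrArg (fun m : ℕ => sym q (m : ZMod q)) (classProd_mul (P := P) α β)
  simp only [Nat.cast_mul, Nat.cast_pow] at e
  rw [sym_mul hq2 (hne α) (hne β),
    sym_mul hq2 (hne (α + β)) (pow_ne_zero 2 (hne (α * β))), sym_sq, add_zero] at e
  exact e.symm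

/-- The soluble pairs of classes are as many as the vectors of the kernel. -/
theorem natCard_soluble (hP : OddPrimes P) :
    Nat.card {x : (Fin k → ZMod 2) × (Fin k → ZMod 2) //
      Soluble ℝ (∏ j, P j : ℕ) (classProd P x.1) (classProd P x.2) (classProd P (x.1 + x.2)) ∧
        ∀ (q : ℕ) [Fact q.Prime], Soluble ℚ_[q] (∏ j, P j : ℕ) (classProd P x.1) (classProd P x.2)
          (classProd P (x.1 + x.2))} =
      2 ^ Module.finrank (ZMod 2) (LinearMap.ker (matrix P).mulVecLin) := by
  have h := Module.natCard_eq_pow_finrank (K := ZMod 2) (V := LinearMap.ker (matrix P).mulVecLin)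
  rw [Nat.card_zmod] at h
  rw [← h]
  have cc : ∀ a b : Fin k → ZMod 2, a + b + b = a := fun a b => funext fun i => by
    show a i + b i + b i = a i
    rw [add_assoc, CharTwo.add_self_eq_zero, add_zero]
  exact Nat.card_congr
    { toFun := fun x => ⟨Sum.elim (x.1.1 + x.1.2) x.1.2,
        LinearMap.mem_ker.2 ((soluble_everywhere_iff hP x.1.1 x.1.2).1 x.2)⟩
      invFun := fun z => ⟨(z.1 ∘ Sum.inl + z.1 ∘ Sum.inr, z.1 ∘ Sum.inr),
        (soluble_everywhere_iff hP _ _).2 (by
          have hz : (matrix P).mulVec z.1 = 0 := LinearMap.mem_ker.1 z.2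
          rwa [cc, Sum.elim_comp_inl_inr])⟩
      left_inv := fun x => Subtype.ext (Prod.ext (by simp [cc]) (by simp))
      right_inv := fun z => Subtype.ext (by simp [cc, Sum.elim_comp_inl_inr]) }

section bastien

variable {p : ℕ} [hp : Fact p.Prime]

/-- A rational point with coprime integral coordinates. -/
theorem exists_int_point {n a b c : ℕ} (hb : Squarefree b) (hc : Squarefree c)
    (h : Soluble ℚ n a b c) :
    (∃ u v w : ℚ, u ≠ 0 ∧ (a : ℚ) * u ^ 2 = b * v ^ 2 ∧ (a : ℚ) * u ^ 2 = c * w ^ 2) ∨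
      ∃ U V W E : ℤ, IsCoprime U E ∧ (a : ℤ) * U ^ 2 - n * E ^ 2 = b * V ^ 2 ∧
        (a : ℤ) * U ^ 2 + n * E ^ 2 = c * W ^ 2 := by
  obtain ⟨u, v, w, e, hne, h1, h2⟩ := h
  push_cast at h1 h2
  rcases eq_or_ne e 0 with rfl | he
  · refine Or.inl ⟨u, v, w, hne.resolve_right fun h => h rfl, ?_, ?_⟩
    · linear_combination h1
    · linear_combination h2
  refine Or.inr ?_
  set σ : ℚ := u / e with hσ
  have hnum : (σ.num : ℚ) = σ * σ.den := (Rat.mul_den_eq_num σ).symm
  obtain ⟨V, hV⟩ := FA.CongruentNumber.exists_int_of_squarefree_mul_sq hb (s := v / e * σ.den)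
    (K := (a : ℤ) * σ.num ^ 2 - n * (σ.den : ℤ) ^ 2) (by
      push_cast; rw [hnum, hσ]; field_simp; linear_combination h1)
  obtain ⟨W, hW⟩ := FA.CongruentNumber.exists_int_of_squarefree_mul_sq hc (s := w / e * σ.den)
    (K := (a : ℤ) * σ.num ^ 2 + n * (σ.den : ℤ) ^ 2) (by
      push_cast; rw [hnum, hσ]; field_simp; linear_combination h2)
  refine ⟨σ.num, V, W, σ.den, ?_, hV, hW⟩
  rw [Int.isCoprime_iff_gcd_eq_one, Int.gcd, Int.natAbs_natCast]
  exact σ.reduced

/-- **The Hasse principle fails** for the three torsors of a Bastien prime. -/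
theorem no_rational_point (h8 : p % 8 = 1) (hB : ∀ s : ZMod p, s ^ 2 = 2 → ¬ IsSquare (1 + s)) :
    ¬ Soluble ℚ p (1 : ℕ) p p ∧ ¬ Soluble ℚ p p (1 : ℕ) p ∧ ¬ Soluble ℚ p p p (1 : ℕ) := by
  have hsf := hp.out.squarefree
  have hpI : Prime (p : ℤ) := Nat.prime_iff_prime_int.1 hp.out
  have hpZ : (p : ℤ) ≠ 0 := hpI.ne_zero
  have nsq : ∀ {u v : ℚ}, u ≠ 0 → v ^ 2 ≠ p * u ^ 2 := fun {u v} hu h =>
    hp.out.not_isSquare (Rat.isSquare_natCast_iff.1 ⟨v / u, by
      field_simp; linear_combination -h⟩)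
  refine ⟨fun h => ?_, fun h => ?_, fun h => ?_⟩
  · rcases exists_int_point hsf hsf h with
      ⟨u, v, w, hu, h1, -⟩ | ⟨U, V, W, E, hco, h1, h2⟩
    · push_cast at h1
      have hv : v ≠ 0 := fun h0 => pow_ne_zero 2 hu (by rw [h0] at h1; linear_combination h1)
      exact nsq hv (v := u) (by linear_combination h1)
    · push_cast at h1 h2
      obtain ⟨u, rfl⟩ : (p : ℤ) ∣ U :=
        hpI.dvd_of_dvd_pow (n := 2) ⟨V ^ 2 + E ^ 2, by linear_combination h1⟩
      exact false_of_one_p h8 hB (v := V) (w := W) hco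
        (mul_left_cancel₀ hpZ (by linear_combination h1))
        (mul_left_cancel₀ hpZ (by linear_combination h2))
  · rcases exists_int_point squarefree_one hsf h with
      ⟨u, v, w, hu, h1, -⟩ | ⟨U, V, W, E, hco, h1, h2⟩
    · push_cast at h1
      exact nsq hu (v := v) (by linear_combination -h1)
    · push_cast at h1 h2
      obtain ⟨v, rfl⟩ : (p : ℤ) ∣ V :=
        hpI.dvd_of_dvd_pow (n := 2) ⟨U ^ 2 - E ^ 2, by linear_combination -h1⟩
      exact false_of_p_one h8 hB (v := v) (w := W) hco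
        (mul_left_cancel₀ hpZ (by linear_combination h1))
        (mul_left_cancel₀ hpZ (by linear_combination h2))
  · rcases exists_int_point hsf squarefree_one h with
      ⟨u, v, w, hu, -, h2⟩ | ⟨U, V, W, E, hco, h1, h2⟩
    · push_cast at h2
      exact nsq hu (v := w) (by linear_combination -h2)
    · push_cast at h1 h2
      obtain ⟨w, rfl⟩ : (p : ℤ) ∣ W :=
        hpI.dvd_of_dvd_pow (n := 2) ⟨U ^ 2 + E ^ 2, by linear_combination -h2⟩
      exact false_of_p_p h8 hB (v := V) (w := w) hco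
        (mul_left_cancel₀ hpZ (by linear_combination h1))
        (mul_left_cancel₀ hpZ (by linear_combination h2))

/-- Every torsor of `n = p ≡ 1 (mod 8)` has points everywhere locally. -/
theorem soluble_everywhere_prime (h8 : p % 8 = 1) (a b c : ℕ)
    (h : (a, b, c) = (1, p, p) ∨ (a, b, c) = (p, 1, p) ∨ (a, b, c) = (p, p, 1)) :
    Soluble ℝ p a b c ∧ ∀ (q : ℕ) [Fact q.Prime], Soluble ℚ_[q] p a b c := by
  have hP : OddPrimes (fun _ : Fin 1 => p) :=
    ⟨fun _ => hp.out, fun _ => by omega, Function.injective_of_subsingleton _⟩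
  haveI : NeZero p := ⟨hp.out.ne_zero⟩
  have hker : ∀ α β : Fin 1 → ZMod 2,
      (matrix fun _ : Fin 1 => p).mulVec (Sum.elim (α + β) β) = 0 := fun α β => by
    rw [mulVec_eq_zero_iff]
    intro i
    obtain rfl := Fin.fin_one_eq_zero i
    have h2 : sym p (2 : ZMod p) = 0 :=
      sym_of_isSquare ((ZMod.exists_sq_eq_two_iff (by omega)).2 (Or.inl h8))
    have h1 : sym p (-1 : ZMod p) = 0 :=
      sym_of_isSquare (ZMod.exists_sq_eq_neg_one_iff.2 (by omega))
    have hD : diagA (fun _ : Fin 1 => p) 0 = 0 := by simp [diagA]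
    simp [h1, h2, hD]
  have key := fun α β => (soluble_everywhere_iff hP α β).2 (hker α β)
  rcases h with h | h | h <;> simp only [Prod.mk.injEq] at h <;> obtain ⟨rfl, rfl, rfl⟩ := h
  · simpa [classProd] using key 0 1
  · simpa [classProd] using key 1 0
  · simpa [classProd, CharTwo.add_self_eq_zero] using key 1 1

end bastien

end FA.Monsky

end
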