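import Fermat.Agent.Monsky.Classes
import Fermat.Agent.Monsky.LowerHalf

/-!
# Non-congruent numbers with any number of prime factors

Dirichlet's theorem gives primes with any residues modulo `8` and any symbols of the later modulo
the earlier. For three patterns, one in each class `1, 2, 3 (mod 8)`, the matrix is nonsingular
whatever the number of primes.
-/

set_option autoImplicit false
set_option linter.style.haveILetI false

noncomputable section

namespace FA.Monsky

/-- A residue with a given symbol. -/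
theorem exists_residue {p : ℕ} (hp : p.Prime) (hp2 : p ≠ 2) (z : ZMod 2) :
    ∃ u : ℕ, Nat.Coprime u p ∧ (z = 0 ↔ IsSquare (u : ZMod p)) := by
  haveI := Fact.mk hp
  rcases (show ∀ z : ZMod 2, z = 0 ∨ z = 1 by decide) z with rfl | rfl
  · exact ⟨1, Nat.coprime_one_left p, by simp⟩
  · obtain ⟨a, ha⟩ := FiniteField.exists_nonsquare (F := ZMod p) (by
      rw [ZMod.ringChar_zmod_n]; exact hp2)
    refine ⟨a.val, ?_, by simp [ha]⟩
    rw [Nat.coprime_comm, hp.coprime_iff_not_dvd, ← ZMod.natCast_eq_zero_iff,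
      ZMod.natCast_zmod_val]
    rintro rfl
    exact ha IsSquare.zero

/-- **Primes of a prescribed pattern**: residues modulo `8`, symbols modulo the earlier primes. -/
theorem exists_pattern (r : ℕ → ℕ) (hr : ∀ i, r i % 2 = 1 ∧ r i < 8) (e : ℕ → ℕ → ZMod 2)
    (k B : ℕ) :
    ∃ P : Fin k → ℕ, ∃ _ : ∀ i, NeZero (P i), OddPrimes P ∧ (∀ i, P i % 8 = r i ∧ B < P i) ∧
      ∀ j i : Fin k, j < i → entry P j i = e j i := by
  suffices h : ∃ P : Fin k → ℕ, OddPrimes P ∧ (∀ i, P i % 8 = r i ∧ B < P i) ∧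
      ∀ j i : Fin k, j < i → (e j i = 0 ↔ IsSquare (P i : ZMod (P j))) by
    obtain ⟨P, hP, h8, he⟩ := h
    refine ⟨P, fun i => ⟨(hP.prime i).ne_zero⟩, hP, h8, fun j i hji => ?_⟩
    rw [entry, sym]
    split_ifs with hsq
    · exact ((he j i hji).2 hsq).symm
    · exact ((show ∀ z : ZMod 2, z ≠ 0 → z = 1 by decide) _
        fun h => hsq ((he j i hji).1 h)).symm
  induction k with
  | zero => exact ⟨Fin.elim0, ⟨fun i => i.elim0, fun i => i.elim0, fun i => i.elim0⟩,
      fun i => i.elim0, fun i => i.elim0⟩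
  | succ k ih =>
    obtain ⟨P, hP, h8, he⟩ := ih
    choose u hu hus using fun j : Fin k => exists_residue (hP.prime j) (hP.odd j) (e j k)
    obtain ⟨w, hw⟩ := Nat.chineseRemainderOfFinset u P Finset.univ
      (fun j _ => (hP.prime j).ne_zero)
      fun i _ j _ hij => (Nat.coprime_primes (hP.prime i) (hP.prime j)).2 fun h =>
        hij (hP.injective h)
    have h8m : Nat.Coprime 8 (∏ i, P i) := by
      simpa using (Nat.prime_two.coprime_iff_not_dvd.2 fun h =>
        (Nat.not_even_iff_odd.2 hP.odd_prod) (even_iff_two_dvd.2 h)).pow_left 3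
    obtain ⟨c, hc8, hcm⟩ := Nat.chineseRemainder h8m (r k) w
    have hcop : c.Coprime (8 * ∏ i, P i) := by
      refine Nat.Coprime.mul_right ?_ ?_
      · rw [Nat.Coprime, hc8.gcd_eq]
        obtain ⟨h1, h2⟩ := hr k
        rcases (by omega : r k = 1 ∨ r k = 3 ∨ r k = 5 ∨ r k = 7) with h | h | h | h <;> rw [h] <;>
          decide
      · refine Nat.Coprime.prod_right fun i _ => ?_
        rw [Nat.Coprime, ((hcm.of_dvd (Finset.dvd_prod_of_mem P (Finset.mem_univ i))).trans
          (hw i (Finset.mem_univ i))).gcd_eq]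
        exact hu i
    obtain ⟨p, hpgt, hp, hpc⟩ := Nat.forall_exists_prime_gt_and_modEq (B + 2 + ∑ i, P i)
      (q := 8 * ∏ i, P i) (mul_ne_zero (by norm_num) hP.odd_prod.pos.ne') hcop
    have hlt : ∀ i, P i < p := fun i =>
      lt_of_le_of_lt ((Finset.single_le_sum (fun j _ => Nat.zero_le (P j))
        (Finset.mem_univ i)).trans (Nat.le_add_left _ _)) hpgt
    have hp8 : p % 8 = r k := by
      rw [(hpc.of_mul_right (∏ i, P i)).trans hc8, Nat.mod_eq_of_lt (hr k).2]
    refine ⟨Fin.snoc P p, ⟨fun i => ?_, fun i => ?_, Fin.snoc_injective_iff.2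
      ⟨hP.injective, fun ⟨i, hi⟩ => (hlt i).ne hi⟩⟩, fun i => ?_, fun j i hji => ?_⟩
    · refine Fin.lastCases ?_ (fun i => ?_) i <;> simp [hp, hP.prime]
    · induction i using Fin.lastCases with
      | last => simp only [Fin.snoc_last]; omega
      | cast i => simpa using hP.odd i
    · induction i using Fin.lastCases with
      | last => rw [Fin.snoc_last, Fin.val_last]; exact ⟨hp8, by omega⟩
      | cast i => rw [Fin.snoc_castSucc, Fin.val_castSucc]; exact h8 i
    · induction i using Fin.lastCases with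
      | last =>
        induction j using Fin.lastCases with
        | last => exact absurd hji (lt_irrefl _)
        | cast j =>
          rw [Fin.snoc_castSucc, Fin.snoc_last, Fin.val_last, Fin.val_castSucc,
            (ZMod.natCast_eq_natCast_iff _ _ _).2
              (((hpc.of_mul_left 8).of_dvd (Finset.dvd_prod_of_mem P (Finset.mem_univ j))).trans
                ((hcm.of_dvd (Finset.dvd_prod_of_mem P (Finset.mem_univ j))).trans
                  (hw j (Finset.mem_univ j))))]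
          exact hus j
      | cast i =>
        induction j using Fin.lastCases with
        | last => exact absurd hji (not_lt.2 (Fin.le_last _))
        | cast j =>
          rw [Fin.snoc_castSucc, Fin.snoc_castSucc, Fin.val_castSucc, Fin.val_castSucc]
          exact he j i (Fin.castSucc_lt_castSucc_iff.1 hji)

variable {k : ℕ} {P : Fin k → ℕ} [∀ i, NeZero (P i)]

/-- A matrix with trivial kernel for odd `n`. -/
theorem det_ne_zero_of_rows (h : ∀ α β : Fin k → ZMod 2, (∀ i,
      (∑ j ∈ Finset.univ.erase i, α j * entry P i j) + diagA P i * α i +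
          sym (P i) (-1) * β i = 0 ∧
        (∑ j ∈ Finset.univ.erase i, β j * entry P i j) + sym (P i) 2 * α i +
          (diagA P i + sym (P i) (-1)) * β i = 0) → α = 0 ∧ β = 0) :
    (matrix P).det ≠ 0 := fun h0 => by
  obtain ⟨z, hz, hz0⟩ := Matrix.exists_mulVec_eq_zero_iff.2 h0
  have key : ∀ a b : ZMod 2, a + b + b = a := by decide
  have hzz : z = Sum.elim (z ∘ Sum.inl + z ∘ Sum.inr + z ∘ Sum.inr) (z ∘ Sum.inr) := by
    funext w
    rcases w with i | i
    · exact (key _ _).symm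
    · rfl
  rw [hzz] at hz0
  obtain ⟨h1, h2⟩ := h _ _ ((mulVec_eq_zero_iff _ _).1 hz0)
  exact hz (by rw [hzz, h1, h2]; funext w; rcases w with i | i <;> simp)

theorem syms_of_mod_eight (hP : OddPrimes P) (i : Fin k) :
    (P i % 8 = 1 → sym (P i) (-1) = 0 ∧ sym (P i) 2 = 0) ∧
      (P i % 8 = 3 → sym (P i) (-1) = 1 ∧ sym (P i) 2 = 1) ∧
      (P i % 8 = 5 → sym (P i) (-1) = 0 ∧ sym (P i) 2 = 1) := by
  rw [sym_neg_one hP i, sym_two hP i]
  refine ⟨fun h => ⟨if_neg (by omega), if_neg (by omega)⟩,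
    fun h => ⟨if_pos (by omega), if_pos (by omega)⟩,
    fun h => ⟨if_neg (by omega), if_pos (by omega)⟩⟩

/-- One prime `≡ 3 (mod 8)` and primes `≡ 1` linked only to it. -/
theorem det_ne_zero_star {l : ℕ} {P : Fin (l + 1) → ℕ} [∀ i, NeZero (P i)] (hP : OddPrimes P)
    (h0 : P 0 % 8 = 3) (h8 : ∀ i, i ≠ 0 → P i % 8 = 1)
    (he : ∀ j i, j < i → entry P j i = if j = 0 then 1 else 0) : (matrix P).det ≠ 0 := by
  have s1 := fun i hi => (syms_of_mod_eight hP i).1 (h8 i hi)
  obtain ⟨m0, d0⟩ := (syms_of_mod_eight hP 0).2.1 h0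
  have e0 : ∀ i, i ≠ 0 → entry P 0 i = 1 ∧ entry P i 0 = 1 := fun i hi => by
    have h01 : entry P 0 i = 1 := by rw [he 0 i (Fin.pos_iff_ne_zero.2 hi), if_pos rfl]
    exact ⟨h01, by rw [entry_symm hP (Ne.symm hi), h01, (s1 i hi).1]; simp⟩
  have e1 : ∀ i j, i ≠ 0 → j ≠ 0 → i ≠ j → entry P i j = 0 := fun i j hi hj hij => by
    rcases hij.lt_or_gt with h | h
    · rw [he i j h, if_neg hi]
    · rw [entry_symm hP hij.symm, he j i h, if_neg hj, (s1 i hi).1]; simp
  have hsum : ∀ (f : Fin (l + 1) → ZMod 2) (i : Fin (l + 1)), i ≠ 0 →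
      ∑ j ∈ Finset.univ.erase i, f j * entry P i j = f 0 := fun f i hi => by
    rw [Finset.sum_eq_single_of_mem 0 (by simp [Ne.symm hi]) fun j hj hj0 => by
      rw [e1 i j hi hj0 (Finset.ne_of_mem_erase hj).symm, mul_zero], (e0 i hi).2, mul_one]
  have hD : ∀ i, i ≠ 0 → diagA P i = 1 := fun i hi => by
    simpa [diagA] using hsum 1 i hi
  refine det_ne_zero_of_rows fun α β h => ?_
  have he1 : ∀ i, i ≠ 0 → α i = α 0 ∧ β i = β 0 := fun i hi => by
    obtain ⟨r1, r2⟩ := h i
    rw [hsum α i hi, hD i hi, (s1 i hi).1] at r1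
    rw [hsum β i hi, hD i hi, (s1 i hi).1, (s1 i hi).2] at r2
    have key : ∀ a b c : ZMod 2, (a + 1 * b + 0 * c = 0 → b = a) ∧
        (a + 0 * c + (1 + 0) * b = 0 → b = a) := by decide
    exact ⟨(key _ _ _).1 r1, (key _ _ _).2 r2⟩
  obtain ⟨r1, r2⟩ := h 0
  set s : ZMod 2 := ((Finset.univ.erase (0 : Fin (l + 1))).card : ZMod 2)
  have hs : ∀ f : Fin (l + 1) → ZMod 2, (∀ i, i ≠ 0 → f i = f 0) →
      ∑ j ∈ Finset.univ.erase 0, f j * entry P 0 j = s * f 0 := fun f hf => by
    rw [Finset.sum_congr rfl fun j hj => by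
      rw [hf j (Finset.ne_of_mem_erase hj), (e0 j (Finset.ne_of_mem_erase hj)).1, mul_one],
      Finset.sum_const, nsmul_eq_mul]
  have hD0 : diagA P 0 = s := by simpa [diagA] using hs 1 fun _ _ => rfl
  rw [hs α fun i hi => (he1 i hi).1, hD0, m0] at r1
  rw [hs β fun i hi => (he1 i hi).2, hD0, m0, d0] at r2
  have key : ∀ s a b : ZMod 2, s * a + s * a + 1 * b = 0 → s * b + 1 * a + (s + 1) * b = 0 →
      a = 0 ∧ b = 0 := by decide
  obtain ⟨ha, hb⟩ := key s _ _ r1 r2
  exact ⟨funext fun i => (eq_or_ne i 0).elim (fun e => e ▸ ha) fun e => (he1 i e).1.trans ha,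
    funext fun i => (eq_or_ne i 0).elim (fun e => e ▸ hb) fun e => (he1 i e).2.trans hb⟩

/-- Two primes `≡ 3 (mod 8)` and primes `≡ 1` linked only to the first. -/
theorem det_ne_zero_double_star {l : ℕ} {P : Fin (l + 2) → ℕ} [∀ i, NeZero (P i)]
    (hP : OddPrimes P) (h0 : P 0 % 8 = 3) (h1 : P 1 % 8 = 3)
    (h8 : ∀ i, i ≠ 0 → i ≠ 1 → P i % 8 = 1)
    (he : ∀ j i, j < i → entry P j i = if j = 0 then 1 else 0) : (matrix P).det ≠ 0 := by
  have s1 := fun i hi hi' => (syms_of_mod_eight hP i).1 (h8 i hi hi')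
  obtain ⟨m0, d0⟩ := (syms_of_mod_eight hP 0).2.1 h0
  obtain ⟨m1, d1⟩ := (syms_of_mod_eight hP 1).2.1 h1
  have e0 : ∀ i, i ≠ 0 → entry P 0 i = 1 := fun i hi => by
    rw [he 0 i (Fin.pos_iff_ne_zero.2 hi), if_pos rfl]
  have e1 : ∀ i j, i ≠ 0 → j ≠ 0 → i ≠ j → entry P i j = 0 := fun i j hi hj hij => by
    rcases hij.lt_or_gt with h | h
    · rw [he i j h, if_neg hi]
    · rw [entry_symm hP hij.symm, he j i h, if_neg hj]
      by_cases hi1 : i = 1
      · subst hi1
        rw [(s1 j hj hij.symm).1]; simp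
      · rw [(s1 i hi hi1).1]; simp
  have e2 : ∀ i, i ≠ 0 → entry P i 0 = if i = 1 then 0 else 1 := fun i hi => by
    rw [entry_symm hP (Ne.symm hi), e0 i hi, m0]
    split_ifs with h
    · subst h; rw [m1]; decide
    · rw [(s1 i hi h).1]; simp
  have hsum : ∀ (f : Fin (l + 2) → ZMod 2) (i : Fin (l + 2)), i ≠ 0 →
      ∑ j ∈ Finset.univ.erase i, f j * entry P i j = if i = 1 then 0 else f 0 := fun f i hi => by
    rw [Finset.sum_eq_single_of_mem 0 (by simp [Ne.symm hi]) fun j hj hj0 => by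
      rw [e1 i j hi hj0 (Finset.ne_of_mem_erase hj).symm, mul_zero], e2 i hi]
    split_ifs <;> simp
  have hD : ∀ i, i ≠ 0 → diagA P i = if i = 1 then 0 else 1 := fun i hi => by
    simpa [diagA] using hsum 1 i hi
  refine det_ne_zero_of_rows fun α β h => ?_
  have h10 : (1 : Fin (l + 2)) ≠ 0 := one_ne_zero
  have he1 : ∀ i, i ≠ 0 → i ≠ 1 → α i = α 0 ∧ β i = β 0 := fun i hi hi' => by
    obtain ⟨r1, r2⟩ := h i
    rw [hsum α i hi, hD i hi, (s1 i hi hi').1, if_neg hi', if_neg hi'] at r1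
    rw [hsum β i hi, hD i hi, (s1 i hi hi').1, (s1 i hi hi').2, if_neg hi', if_neg hi'] at r2
    have key : ∀ a b c : ZMod 2, (a + 1 * b + 0 * c = 0 → b = a) ∧
        (a + 0 * c + (1 + 0) * b = 0 → b = a) := by decide
    exact ⟨(key _ _ _).1 r1, (key _ _ _).2 r2⟩
  obtain ⟨q1, q2⟩ := h 1
  rw [hsum α 1 h10, hD 1 h10, m1, if_pos rfl, if_pos rfl] at q1
  rw [hsum β 1 h10, hD 1 h10, m1, d1, if_pos rfl, if_pos rfl] at q2
  have key1 : ∀ a b : ZMod 2, 0 + 0 * a + 1 * b = 0 → 0 + 1 * a + (0 + 1) * b = 0 →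
      a = 0 ∧ b = 0 := by decide
  obtain ⟨ha1, hb1⟩ := key1 _ _ q1 q2
  obtain ⟨r1, r2⟩ := h 0
  set T := (Finset.univ.erase (0 : Fin (l + 2))).erase 1
  set s : ZMod 2 := (T.card : ZMod 2)
  have hmem : (1 : Fin (l + 2)) ∈ Finset.univ.erase 0 := by simp
  have hs : ∀ f : Fin (l + 2) → ZMod 2, (∀ i, i ≠ 0 → i ≠ 1 → f i = f 0) →
      ∑ j ∈ Finset.univ.erase 0, f j * entry P 0 j = f 1 + s * f 0 := fun f hf => by
    rw [← Finset.add_sum_erase _ _ hmem, e0 1 h10, mul_one, Finset.sum_congr rfl fun j hj => by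
      rw [hf j (Finset.ne_of_mem_erase (Finset.mem_of_mem_erase hj)) (Finset.ne_of_mem_erase hj),
        e0 j (Finset.ne_of_mem_erase (Finset.mem_of_mem_erase hj)), mul_one],
      Finset.sum_const, nsmul_eq_mul]
  have hD0 : diagA P 0 = 1 + s := by simpa [diagA] using hs 1 fun _ _ _ => rfl
  rw [hs α fun i hi hi' => (he1 i hi hi').1, hD0, m0, ha1] at r1
  rw [hs β fun i hi hi' => (he1 i hi hi').2, hD0, m0, d0, hb1] at r2
  have key : ∀ s a b : ZMod 2, 0 + s * a + (1 + s) * a + 1 * b = 0 →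
      0 + s * b + 1 * a + (1 + s + 1) * b = 0 → a = 0 ∧ b = 0 := by decide
  obtain ⟨ha, hb⟩ := key s _ _ r1 r2
  constructor <;> funext i <;> rcases eq_or_ne i 0 with rfl | hi
  · exact ha
  · rcases eq_or_ne i 1 with rfl | hi'
    · exact ha1
    · exact (he1 i hi hi').1.trans ha
  · exact hb
  · rcases eq_or_ne i 1 with rfl | hi'
    · exact hb1
    · exact (he1 i hi hi').2.trans hb

/-- Twice primes `≡ 5 (mod 8)`, squares modulo each other. -/
theorem det_ne_zero_five (hP : OddPrimes P) (h8 : ∀ i, P i % 8 = 5)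
    (he : ∀ j i, j < i → entry P j i = 0) : (matrixTwo P).det ≠ 0 := fun h0 => by
  obtain ⟨z, hz, hz0⟩ := Matrix.exists_mulVec_eq_zero_iff.2 h0
  have s5 := fun i => (syms_of_mod_eight hP i).2.2 (h8 i)
  have hent : ∀ i j, i ≠ j → entry P i j = 0 := fun i j hij => by
    rcases hij.lt_or_gt with h | h
    · exact he i j h
    · rw [entry_symm hP hij.symm, he j i h, (s5 i).1]; simp
  have hD : ∀ i, diagA P i = 0 := fun i =>
    Finset.sum_eq_zero fun j hj => hent i j (Finset.ne_of_mem_erase hj).symm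
  have hM : matrixTwo P = Matrix.fromBlocks 1 1 1 0 := by
    rw [matrixTwo]
    congr 1
    · rw [show (fun i => sym (P i) 2) = fun _ => 1 from funext fun i => (s5 i).2]
      exact Matrix.diagonal_one
    · ext i j
      rcases eq_or_ne i j with rfl | h
      · simp [hD, (s5 i).2]
      · simp [h, hent i j h]
    · ext i j
      rcases eq_or_ne i j with rfl | h
      · simp [hD, (s5 i).2]
      · simp [h, hent j i h.symm]
    · rw [show (fun i => sym (P i) (-1)) = fun _ => 0 from funext fun i => (s5 i).1]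
      exact Matrix.diagonal_zero
  rw [hM, Matrix.fromBlocks_mulVec] at hz0
  refine hz (funext fun w => ?_)
  have b : ∀ i, z (Sum.inl i) = 0 := fun i => by simpa using congrFun hz0 (Sum.inr i)
  rcases w with i | i
  · exact b i
  · simpa [b i] using congrFun hz0 (Sum.inl i)

/-- **Non-congruent numbers with any number of prime factors in each class `1, 2, 3`.** -/
theorem exists_family (s k B : ℕ) (hs : s = 1 ∧ 2 ≤ k ∨ s = 2 ∧ 1 ≤ k ∨ s = 3 ∧ 1 ≤ k) :
    ∃ (n : ℕ) (P : Fin k → ℕ), (∀ i, (P i).Prime ∧ P i ≠ 2 ∧ B < P i) ∧ Function.Injective P ∧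
      n = (if s = 2 then 2 else 1) * ∏ i, P i ∧ n % 8 = s ∧
      Nonempty ((FA.CongruentNumber.congCurve n).toAffine.Point ≃+ ZMod 2 × ZMod 2) := by
  rcases hs with ⟨rfl, hk⟩ | ⟨rfl, hk⟩ | ⟨rfl, hk⟩
  · obtain ⟨l, rfl⟩ := Nat.exists_eq_add_of_le' hk
    obtain ⟨P, _, hP, h8, he⟩ := exists_pattern (fun i => if i < 2 then 3 else 1)
      (fun i => by split_ifs <;> decide) (fun j _ => if j = 0 then 1 else 0) (l + 2) B
    have h3 : ∀ i, i ≠ 0 → i ≠ 1 → P i % 8 = 1 := fun i hi hi' => by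
      rw [(h8 i).1, if_neg]
      have a0 : (i : ℕ) ≠ 0 := fun h => hi (Fin.ext (by rw [h, Fin.val_zero]))
      have a1 : (i : ℕ) ≠ 1 := fun h => hi' (Fin.ext (by rw [h, Fin.val_one]))
      omega
    have hdet := det_ne_zero_double_star hP (by rw [(h8 0).1, Fin.val_zero, if_pos two_pos])
      (by rw [(h8 1).1, Fin.val_one, if_pos one_lt_two]) h3
      fun j i hji => (he j i hji).trans (if_congr Fin.val_eq_zero_iff rfl rfl)
    refine ⟨_, P, fun i => ⟨hP.prime i, hP.odd i, (h8 i).2⟩, hP.injective, ?_, ?_,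
      point_equiv hP hdet⟩
    · rw [if_neg (by decide), one_mul]
    · rw [Finset.prod_nat_mod, Finset.prod_congr rfl fun i _ => (h8 i).1, Fin.prod_univ_succ,
        Fin.prod_univ_succ]
      simp
  · obtain ⟨P, _, hP, h8, he⟩ := exists_pattern (fun _ => 5) (fun _ => by decide) (fun _ _ => 0)
      k B
    have hdet := det_ne_zero_five hP (fun i => (h8 i).1) he
    refine ⟨_, P, fun i => ⟨hP.prime i, hP.odd i, (h8 i).2⟩, hP.injective, rfl, ?_,
      point_equiv_two hP hdet⟩
    have h4 : (∏ i, P i) % 4 = 1 := by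
      rw [Finset.prod_nat_mod, Finset.prod_congr rfl fun i _ =>
        show P i % 4 = 1 by have := (h8 i).1; omega]
      simp
    rw [if_pos rfl]
    omega
  · obtain ⟨l, rfl⟩ := Nat.exists_eq_add_of_le' hk
    obtain ⟨P, _, hP, h8, he⟩ := exists_pattern (fun i => if i = 0 then 3 else 1)
      (fun i => by split_ifs <;> decide) (fun j _ => if j = 0 then 1 else 0) (l + 1) B
    have hdet := det_ne_zero_star hP (by rw [(h8 0).1, Fin.val_zero, if_pos rfl])
      (fun i hi => by rw [(h8 i).1, if_neg fun h => hi (Fin.val_eq_zero_iff.1 h)])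
      fun j i hji => (he j i hji).trans (if_congr Fin.val_eq_zero_iff rfl rfl)
    refine ⟨_, P, fun i => ⟨hP.prime i, hP.odd i, (h8 i).2⟩, hP.injective, ?_, ?_,
      point_equiv hP hdet⟩
    · rw [if_neg (by decide), one_mul]
    · rw [Finset.prod_nat_mod, Finset.prod_congr rfl fun i _ => (h8 i).1, Fin.prod_univ_succ]
      simp

end FA.Monsky

end
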