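import Fermat.Agent.Monsky.Matrix
import Mathlib.NumberTheory.LegendreSymbol.QuadraticReciprocity

/-!
# Monsky's matrix for even `n`

For `n = 2 N`, `N` the product of distinct odd primes, let `a u²`, `b v² = a u² - n e²` and
`c w² = a u² + n e²` with `a` odd. Then `b` is even exactly when `a ≡ 3 (mod 4)`; with `η` the
parity of `b` and `α`, `β` the odd primes of `a`, `b`, the vector `(α, α + β + η)` is killed by
`(D₂, A + D₂; Aᵀ + D₂, D₋₁)`: two residue conditions at each prime and quadratic reciprocity.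
-/

set_option autoImplicit false
set_option linter.style.haveILetI false

noncomputable section

namespace FA.Monsky

variable {k : ℕ} {P : Fin k → ℕ}

/-- **Monsky's matrix for even `n`**: `(D₂, A + D₂; Aᵀ + D₂, D₋₁)`. -/
def matrixTwo (P : Fin k → ℕ) [∀ i, NeZero (P i)] :
    Matrix (Fin k ⊕ Fin k) (Fin k ⊕ Fin k) (ZMod 2) :=
  Matrix.fromBlocks (Matrix.diagonal fun i => sym (P i) 2)
    (Matrix.of fun i j => if i = j then diagA P i + sym (P i) 2 else entry P i j)
    (Matrix.of fun i j => if i = j then diagA P i + sym (P i) 2 else entry P j i)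
    (Matrix.diagonal fun i => sym (P i) (-1))

/-- The parity of the second class: that of the primes `≡ 3 (mod 4)` in the first. -/
def eta (P : Fin k → ℕ) [∀ i, NeZero (P i)] (α : Fin k → ZMod 2) : ZMod 2 :=
  ∑ j, α j * sym (P j) (-1)

variable [∀ i, NeZero (P i)]

theorem sym_neg_one (hP : OddPrimes P) (i : Fin k) :
    sym (P i) (-1) = if P i % 4 = 3 then 1 else 0 := by
  haveI := Fact.mk (hP.prime i)
  simp only [sym, ZMod.exists_sq_eq_neg_one_iff]
  by_cases h : P i % 4 = 3 <;> simp [h]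

/-- Quadratic reciprocity in `ℤ/2`. -/
theorem entry_symm (hP : OddPrimes P) {i j : Fin k} (hij : i ≠ j) :
    entry P j i = entry P i j + sym (P i) (-1) * sym (P j) (-1) := by
  haveI := Fact.mk (hP.prime i)
  haveI := Fact.mk (hP.prime j)
  have hne : P i ≠ P j := fun h => hij (hP.injective h)
  have hi : P i % 2 = 1 := (hP.prime i).eq_two_or_odd.resolve_left (hP.odd i)
  have hj : P j % 2 = 1 := (hP.prime j).eq_two_or_odd.resolve_left (hP.odd j)
  rw [sym_neg_one hP i, sym_neg_one hP j]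
  simp only [entry, sym]
  by_cases h1 : P i % 4 = 3 <;> by_cases h2 : P j % 4 = 3
  · have := ZMod.exists_sq_eq_prime_iff_of_mod_four_eq_three h1 h2 hne
    rw [if_pos h1, if_pos h2]
    by_cases h : IsSquare (P j : ZMod (P i))
    · rw [if_pos h, if_neg (this.1 h)]; decide
    · rw [if_neg h, if_pos (not_not.1 fun h' => h (this.2 h'))]; decide
  · rw [if_congr (ZMod.exists_sq_eq_prime_iff_of_mod_four_eq_one (p := P j) (q := P i)
      (by omega) (hP.odd i)) rfl rfl]
    simp [h2]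
  all_goals rw [if_congr (ZMod.exists_sq_eq_prime_iff_of_mod_four_eq_one (p := P i) (q := P j)
      (by omega) (hP.odd j)).symm rfl rfl]
  all_goals simp [h1]

/-- A product of the primes modulo `4`. -/
theorem cast_classProd_four (hP : OddPrimes P) (α : Fin k → ZMod 2) :
    (classProd P α : ZMod 4) = if eta P α = 1 then -1 else 1 := by
  rw [classProd, Nat.cast_prod, eta]
  refine Finset.induction_on (Finset.univ : Finset (Fin k)) (by simp) fun j T hj ih => ?_
  rw [Finset.prod_insert hj, Finset.sum_insert hj, ih, sym_neg_one hP j]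
  have h2 : P j % 2 = 1 := (hP.prime j).eq_two_or_odd.resolve_left (hP.odd j)
  have hP4 : (P j : ZMod 4) = if P j % 4 = 3 then -1 else 1 := by
    rw [← ZMod.natCast_mod]
    rcases (by omega : P j % 4 = 1 ∨ P j % 4 = 3) with h | h <;> rw [h] <;> decide
  have key : ∀ (f s : ZMod 2) (m : Prop) [Decidable m],
      (if f = 1 then (if m then (-1 : ZMod 4) else 1) else 1) * (if s = 1 then -1 else 1) =
        if f * (if m then 1 else 0) + s = 1 then -1 else 1 := by
    intro f s m _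
    by_cases hm : m <;> simp only [hm, if_true, if_false] <;> revert f s <;> decide
  rw [← key, ← hP4]
  congr 1
  split_ifs <;> simp

/-- The symbol of a squarefree number made of `2` and the primes. -/
theorem sym_cast_two (hP : OddPrimes P) (i : Fin k) {m : ℕ} (hm : Squarefree m)
    (h : ∀ q : ℕ, q.Prime → q ∣ m → q = 2 ∨ ∃ j, q = P j) (him : ¬ P i ∣ m) :
    sym (P i) (m : ZMod (P i)) = (if 2 ∣ m then 1 else 0) * sym (P i) 2 +
      ∑ j ∈ Finset.univ.erase i, indicator P m j * entry P i j := by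
  haveI := Fact.mk (hP.prime i)
  by_cases h2 : 2 ∣ m
  · obtain ⟨m', rfl⟩ := h2
    have hm' : ¬ 2 ∣ m' := fun hd =>
      Nat.prime_two.ne_one (Nat.isUnit_iff.1 (hm 2 (mul_dvd_mul_left 2 hd)))
    have him' : ¬ P i ∣ m' := fun hd => him (hd.mul_left 2)
    rw [if_pos (dvd_mul_right 2 m'), one_mul, Nat.cast_mul, Nat.cast_ofNat,
      sym_mul (hP.odd i) (Ring.two_ne_zero (by rw [ZMod.ringChar_zmod_n]; exact hP.odd i))
        (fun h0 => him' ((ZMod.natCast_eq_zero_iff _ _).1 h0)),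
      hP.sym_cast i (hm.squarefree_of_dvd (dvd_mul_left _ _)) (fun q hq hd =>
        (h q hq (hd.mul_left 2)).resolve_left fun e => hm' (e ▸ hd)) him']
    congr 1
    refine Finset.sum_congr rfl fun j _ => ?_
    have hiff : P j ∣ 2 * m' ↔ P j ∣ m' := ⟨fun hd => ((hP.prime j).dvd_mul.1 hd).resolve_left
      fun e => hP.odd j ((Nat.prime_dvd_prime_iff_eq (hP.prime j) Nat.prime_two).1 e),
      fun hd => hd.mul_left 2⟩
    simp only [indicator, hiff]
  · rw [if_neg h2, zero_mul, zero_add,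
      hP.sym_cast i hm (fun q hq hd => (h q hq hd).resolve_left fun e => h2 (e ▸ hd)) him]

/-- The classes are odd except for a `2` in `b` and `c` when `a ≡ 3 (mod 4)`. -/
theorem parity {a b c : ℕ} (habc : IsSquare (a * b * c)) (ha2 : ¬ 2 ∣ a)
    {N : ℕ} (hN : Odd N) {u v w e : ℤ} (hB : (b : ℤ) * v ^ 2 = a * u ^ 2 - (2 * N : ℕ) * e ^ 2)
    (hC : (c : ℤ) * w ^ 2 = a * u ^ 2 + (2 * N : ℕ) * e ^ 2)
    (hco : IsCoprime ((a : ℤ) * u ^ 2) e) : 2 ∣ b ↔ a % 4 = 3 := by
  obtain ⟨s, hs⟩ := habc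
  have hS : (a : ℤ) * ((a * u ^ 2 - (2 * N : ℕ) * e ^ 2) * (a * u ^ 2 + (2 * N : ℕ) * e ^ 2)) =
      (s * v * w) ^ 2 := by
    rw [← hB, ← hC]
    have := congrArg (Nat.cast : ℕ → ℤ) hs
    push_cast at this
    linear_combination v ^ 2 * w ^ 2 * this
  have ho : ∀ z : ℤ, Odd z → (z : ZMod 4) ^ 2 = 1 := by
    rintro z ⟨l, rfl⟩
    have hkey : ∀ t : ZMod 4, (2 * t + 1) ^ 2 = 1 := by decide
    push_cast
    exact hkey _
  have ha : (a : ZMod 4) = 1 ∨ (a : ZMod 4) = -1 := by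
    rw [← ZMod.natCast_mod]
    rcases (by omega : a % 4 = 1 ∨ a % 4 = 3) with h | h <;> rw [h] <;> decide
  have ha4 : a % 4 = 3 ↔ (a : ZMod 4) = -1 := by
    rw [← ZMod.natCast_mod a 4]
    rcases (by omega : a % 4 = 1 ∨ a % 4 = 3) with h | h <;> simp [h] <;> decide
  rcases Int.even_or_odd u with ⟨u', rfl⟩ | hu
  · -- `u` even: the class `b` is even
    have he : Odd e := Int.not_even_iff_odd.1 fun ⟨e', he'⟩ => Int.prime_two.not_isUnit
      (hco.isUnit_of_dvd' ⟨2 * a * u' ^ 2, by ring⟩ ⟨e', by rw [he']; ring⟩)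
    obtain ⟨S, hS'⟩ : (2 : ℤ) ∣ s * v * w := Int.prime_two.dvd_of_dvd_pow (n := 2)
      (hS ▸ dvd_mul_of_dvd_right (dvd_mul_of_dvd_left
        ⟨2 * (a * u' ^ 2) - N * e ^ 2, by push_cast; ring⟩ _) _)
    have hA : (a : ℤ) * ((2 * a * u' ^ 2 - N * e ^ 2) * (2 * a * u' ^ 2 + N * e ^ 2)) = S ^ 2 := by
      refine mul_left_cancel₀ (four_ne_zero' ℤ) ?_
      rw [hS'] at hS
      push_cast at hS
      linear_combination hS
    have hSo : Odd S := Int.not_even_iff_odd.1 fun hev => by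
      have : Even ((a : ℤ) * ((2 * a * u' ^ 2 - N * e ^ 2) * (2 * a * u' ^ 2 + N * e ^ 2))) := by
        rw [hA]; exact Int.even_pow.2 ⟨hev, two_ne_zero⟩
      simp [Int.even_mul, Int.even_add, Int.even_sub, Int.even_pow, Int.not_even_iff_odd.2 he,
        Int.even_coe_nat, Nat.not_even_iff_odd.2 hN,
        Nat.not_even_iff_odd.2 (Nat.odd_iff.2 (show a % 2 = 1 by omega))] at this
    have c1 := congrArg (Int.cast : ℤ → ZMod 4) hA
    push_cast at c1
    rw [ho S hSo] at c1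
    have hNe : ((N : ZMod 4) * (e : ZMod 4) ^ 2) ^ 2 = 1 := by
      have := ho ((N : ℤ) * e ^ 2) ((Int.odd_coe_nat N).2 hN |>.mul he.pow)
      push_cast at this
      exact this
    have hu2 : ((2 : ZMod 4) * a * (u' : ZMod 4) ^ 2) ^ 2 = 0 := by
      linear_combination ((a : ZMod 4) * (u' : ZMod 4) ^ 2) ^ 2 * (by decide : (4 : ZMod 4) = 0)
    have hneg : (a : ZMod 4) = -1 := by
      linear_combination -c1 + (a : ZMod 4) * hu2 - (a : ZMod 4) * hNe
    refine ⟨fun _ => ha4.2 hneg, fun _ => ?_⟩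
    by_contra hb2
    obtain ⟨v', hv'⟩ : (2 : ℤ) ∣ v := Int.prime_two.dvd_of_dvd_pow (n := 2)
      ((Int.prime_two.dvd_or_dvd (show (2 : ℤ) ∣ b * v ^ 2 from hB ▸
        ⟨2 * (a * u' ^ 2) - N * e ^ 2, by push_cast; ring⟩)).resolve_left fun h => hb2
          (Int.natCast_dvd_natCast.1 h))
    have : Even ((N : ℤ) * e ^ 2) := ⟨a * u' ^ 2 - b * v' ^ 2, by
      rw [hv'] at hB; push_cast at hB
      have h2 : (2 : ℤ) ≠ 0 := two_ne_zero
      refine mul_left_cancel₀ h2 ?_
      linear_combination hB⟩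
    exact Int.not_even_iff_odd.2 ((Int.odd_coe_nat N).2 hN |>.mul he.pow) this
  · -- `u` odd: all classes are odd
    have hau : Odd ((a : ℤ) * u ^ 2) :=
      ((Int.odd_coe_nat a).2 (Nat.odd_iff.2 (by omega))).mul hu.pow
    have hBo : Odd ((b : ℤ) * v ^ 2) := by
      rw [hB]; push_cast
      exact hau.sub_even ⟨N * e ^ 2, by ring⟩
    have hb2 : ¬ 2 ∣ b := fun h => Int.not_even_iff_odd.2 hBo
      (even_iff_two_dvd.2 (dvd_mul_of_dvd_left (Int.natCast_dvd_natCast.2 h) _))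
    refine ⟨fun h => absurd h hb2, fun h => ?_⟩
    have hCo : Odd ((c : ℤ) * w ^ 2) := by
      rw [hC]; push_cast
      exact hau.add_even ⟨N * e ^ 2, by ring⟩
    have hso : Odd ((s : ℤ) * v * w) := by
      rw [← Int.odd_pow' two_ne_zero, ← hS, ← hB, ← hC]
      exact ((Int.odd_coe_nat a).2 (Nat.odd_iff.2 (by omega))).mul (hBo.mul hCo)
    have c1 := congrArg (Int.cast : ℤ → ZMod 4) hS
    push_cast at c1
    rw [show ((s : ZMod 4) * (v : ZMod 4) * (w : ZMod 4)) ^ 2 = 1 by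
      have := ho _ hso; push_cast at this; exact this] at c1
    have hu1 := ho u hu
    rw [hu1, ha4.1 h] at c1
    have hbad : ∀ t : ZMod 4,
        -1 * ((-1 * 1 - 2 * t) * (-1 * 1 + 2 * t)) ≠ 1 := by decide
    exact absurd c1 (by
      rw [mul_assoc (2 : ZMod 4)]
      exact hbad _)

/-- **The classes lie in the kernel of Monsky's matrix for even `n`.** -/
theorem mulVec_classes_two (hP : OddPrimes P) {a b c : ℕ} (ha : Squarefree a)
    (hb : Squarefree b) (hc : Squarefree c) (habc : IsSquare (a * b * c)) (ha2 : ¬ 2 ∣ a)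
    {u v w e : ℤ} (hB : (b : ℤ) * v ^ 2 = a * u ^ 2 - (2 * ∏ i, P i : ℕ) * e ^ 2)
    (hC : (c : ℤ) * w ^ 2 = a * u ^ 2 + (2 * ∏ i, P i : ℕ) * e ^ 2)
    (hco : IsCoprime ((a : ℤ) * u ^ 2) e) :
    (∀ q : ℕ, q.Prime → q ∣ a ∨ q ∣ b ∨ q ∣ c → q = 2 ∨ ∃ j, q = P j) ∧
      ((if 2 ∣ b then 1 else 0 : ZMod 2) = eta P (indicator P a)) ∧
      (matrixTwo P).mulVec (Sum.elim (indicator P a)
        (indicator P a + indicator P b + fun _ : Fin k => eta P (indicator P a))) = 0 := by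
  set M : ℕ := 2 * ∏ i, P i with hM
  have hodd : Odd (∏ i, P i) := hP.odd_prod
  have hab' : IsSquare (b * a * c) := by rwa [mul_comm b a]
  have hca' : IsSquare (c * a * b) := by rwa [mul_assoc, mul_comm c]
  -- the primes of the classes
  have mem : ∀ q : ℕ, q.Prime → q ∣ a ∨ q ∣ b ∨ q ∣ c → q = 2 ∨ ∃ j, q = P j := by
    intro q hq hd
    rcases eq_or_ne q 2 with rfl | hq2'
    · exact Or.inl rfl
    refine Or.inr ?_
    have hqI : Prime (q : ℤ) := Nat.prime_iff_prime_int.1 hq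
    have hq2 : ¬ (q : ℤ) ∣ 2 := fun h => hq2'
      ((Nat.prime_dvd_prime_iff_eq hq Nat.prime_two).1 (Int.natCast_dvd_natCast.1 h))
    have key : (q : ℤ) ∣ (a : ℤ) * u ^ 2 → (q : ℤ) ∣ (M : ℤ) * e ^ 2 → ∃ j, q = P j := by
      intro h1 h2
      have hqM : q ∣ M := Int.natCast_dvd_natCast.1 ((hqI.dvd_or_dvd h2).resolve_right fun h =>
        hqI.not_isUnit (hco.isUnit_of_dvd' h1 (hqI.dvd_of_dvd_pow h)))
      obtain ⟨j, -, hj⟩ := (hq.prime.dvd_finsetProd_iff _).1
        ((hq.dvd_mul.1 hqM).resolve_left fun h =>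
          hq2' ((Nat.prime_dvd_prime_iff_eq hq Nat.prime_two).1 h))
      exact ⟨j, (Nat.prime_dvd_prime_iff_eq hq (hP.prime j)).1 hj⟩
    have hcast : ∀ {m : ℕ} {z : ℤ}, q ∣ m → (q : ℤ) ∣ (m : ℤ) * z := fun h =>
      dvd_mul_of_dvd_left (Int.natCast_dvd_natCast.2 h) _
    have two : (q ∣ a ∧ q ∣ b) ∨ (q ∣ a ∧ q ∣ c) ∨ (q ∣ b ∧ q ∣ c) := by
      rcases hd with h | h | h
      · exact (FA.Iskra.dvd_of_square ha hq h habc).elim (fun h' => Or.inl ⟨h, h'⟩)
          fun h' => Or.inr (Or.inl ⟨h, h'⟩)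
      · exact (FA.Iskra.dvd_of_square hb hq h hab').elim (fun h' => Or.inl ⟨h', h⟩)
          fun h' => Or.inr (Or.inr ⟨h, h'⟩)
      · exact (FA.Iskra.dvd_of_square hc hq h hca').elim (fun h' => Or.inr (Or.inl ⟨h', h⟩))
          fun h' => Or.inr (Or.inr ⟨h', h⟩)
    rcases two with ⟨h1, h2⟩ | ⟨h1, h2⟩ | ⟨h1, h2⟩
    · refine key (hcast h1) ?_
      rw [show (M : ℤ) * e ^ 2 = (a : ℤ) * u ^ 2 - (b : ℤ) * v ^ 2 by linear_combination hB]
      exact dvd_sub (hcast h1) (hcast h2)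
    · refine key (hcast h1) ?_
      rw [show (M : ℤ) * e ^ 2 = (c : ℤ) * w ^ 2 - (a : ℤ) * u ^ 2 by linear_combination -hC]
      exact dvd_sub (hcast h2) (hcast h1)
    · refine key ((hqI.dvd_or_dvd ?_).resolve_left hq2) ((hqI.dvd_or_dvd ?_).resolve_left hq2)
      · rw [show 2 * ((a : ℤ) * u ^ 2) = (b : ℤ) * v ^ 2 + (c : ℤ) * w ^ 2 by
          linear_combination -hB - hC]
        exact dvd_add (hcast h1) (hcast h2)
      · rw [show 2 * ((M : ℤ) * e ^ 2) = (c : ℤ) * w ^ 2 - (b : ℤ) * v ^ 2 by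
          linear_combination hB - hC]
        exact dvd_sub (hcast h2) (hcast h1)
  have ma : ∀ q : ℕ, q.Prime → q ∣ a → ∃ j, q = P j := fun q hq h =>
    (mem q hq (Or.inl h)).resolve_left fun e => ha2 (e ▸ h)
  have mb : ∀ q : ℕ, q.Prime → q ∣ b → q = 2 ∨ ∃ j, q = P j := fun q hq h =>
    mem q hq (Or.inr (Or.inl h))
  have heta : (if 2 ∣ b then 1 else 0 : ZMod 2) = eta P (indicator P a) := by
    have hpar := parity habc ha2 hodd hB hC hco
    have h4 := cast_classProd_four hP (indicator P a)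
    rw [hP.classProd_indicator ha ma] at h4
    have hne : (1 : ZMod 4) ≠ -1 := by decide
    rcases (show ∀ z : ZMod 2, z = 0 ∨ z = 1 by decide) (eta P (indicator P a)) with h | h <;>
      rw [h] at h4 ⊢ <;> simp only [zero_ne_one, if_false, if_true] at h4
    · rw [if_neg fun hb2 => ?_]
      rw [← ZMod.natCast_mod a 4, hpar.1 hb2] at h4
      exact absurd h4 (by decide)
    · rw [if_pos (hpar.2 ?_)]
      rcases (by omega : a % 4 = 1 ∨ a % 4 = 3) with h' | h'
      · rw [← ZMod.natCast_mod a 4, h', Nat.cast_one] at h4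
        exact absurd h4 hne
      · exact h'
  refine ⟨mem, heta, ?_⟩
  rw [← heta]
  -- the two conditions at each prime
  suffices hrow : ∀ i,
      (∑ j ∈ Finset.univ.erase i, indicator P a j * entry P i j) +
          (diagA P i + sym (P i) 2) * indicator P a i + sym (P i) (-1) * indicator P b i = 0 ∧
        (∑ j ∈ Finset.univ.erase i, indicator P b j * entry P i j) +
          (if 2 ∣ b then 1 else 0) * sym (P i) 2 + sym (P i) 2 * indicator P a i +
          (diagA P i + sym (P i) (-1) + sym (P i) 2) * indicator P b i = 0 by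
    have hz : ∀ z : ZMod 2, z + z = 0 := CharTwo.add_self_eq_zero
    funext z
    rw [matrixTwo, Matrix.fromBlocks_mulVec, Pi.zero_apply]
    set η : ZMod 2 := if 2 ∣ b then 1 else 0 with hη
    rcases z with i | i <;> obtain ⟨h1, h2⟩ := hrow i <;>
      simp only [Sum.elim_inl, Sum.elim_inr, Pi.add_apply, Matrix.mulVec_diagonal,
        Sum.elim_comp_inl, Sum.elim_comp_inr]
    · show _ + ∑ j, (if i = j then _ else entry P i j) *
        (indicator P a + indicator P b + fun _ : Fin k => η) j = 0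
      rw [← Finset.add_sum_erase _ _ (Finset.mem_univ i), if_pos rfl,
        Finset.sum_congr rfl fun j hj => by rw [if_neg (Finset.ne_of_mem_erase hj).symm]]
      simp only [Pi.add_apply, mul_add, Finset.sum_add_distrib, ← Finset.sum_mul]
      rw [← diagA, Finset.sum_congr rfl fun j _ => mul_comm (entry P i j) (indicator P a j),
        Finset.sum_congr rfl fun j _ => mul_comm (entry P i j) (indicator P b j)]
      linear_combination h1 + h2 + hz (diagA P i * η) - hz (sym (P i) (-1) * indicator P b i)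
    · show ∑ j, (if i = j then _ else entry P j i) * indicator P a j + _ = 0
      rw [← Finset.add_sum_erase _ _ (Finset.mem_univ i), if_pos rfl,
        Finset.sum_congr rfl fun j hj => by
          rw [if_neg (Finset.ne_of_mem_erase hj).symm,
            entry_symm hP (Finset.ne_of_mem_erase hj).symm]]
      have hsum : η = sym (P i) (-1) * indicator P a i +
          ∑ j ∈ Finset.univ.erase i, indicator P a j * sym (P j) (-1) := by
        rw [heta, eta, ← Finset.add_sum_erase _ _ (Finset.mem_univ i), mul_comm]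
      have hidem : ∀ z : ZMod 2, z * z = z := by decide
      simp only [add_mul, Finset.sum_add_distrib, mul_assoc, ← Finset.mul_sum]
      rw [Finset.sum_congr rfl fun j _ => mul_comm (entry P i j) (indicator P a j),
        Finset.sum_congr rfl fun j _ => mul_comm (sym (P j) (-1)) (indicator P a j)]
      linear_combination h1 + hz (sym (P i) (-1) * η) - sym (P i) (-1) * hsum -
        indicator P a i * hidem (sym (P i) (-1))
  intro i
  haveI := Fact.mk (hP.prime i)
  have hp := hP.prime i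
  have hp2 := hP.odd i
  have h2 : (2 : ZMod (P i)) ≠ 0 := Ring.two_ne_zero (by rwa [ZMod.ringChar_zmod_n])
  have hpI : Prime ((P i : ℕ) : ℤ) := Nat.prime_iff_prime_int.1 hp
  obtain ⟨L, hL⟩ : P i ∣ ∏ j, P j := Finset.dvd_prod_of_mem P (Finset.mem_univ i)
  have hLd : ¬ P i ∣ L := fun h => hp.ne_one (Nat.isUnit_iff.1
    ((hP.squarefree_prod Finset.univ) (P i) (by rw [hL]; exact mul_dvd_mul_left _ h)))
  have hL0 : (L : ZMod (P i)) ≠ 0 := fun h => hLd ((ZMod.natCast_eq_zero_iff _ _).1 h)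
  have hLsym : sym (P i) (L : ZMod (P i)) = diagA P i := by
    have hsq : Squarefree L :=
      (hP.squarefree_prod Finset.univ).squarefree_of_dvd (Dvd.intro_left _ hL.symm)
    have hmemL : ∀ q : ℕ, q.Prime → q ∣ L → ∃ j, q = P j := fun q hq h => by
      obtain ⟨j, -, hj⟩ := (hq.prime.dvd_finsetProd_iff P).1 (hL.symm ▸ h.mul_left _)
      exact ⟨j, (Nat.prime_dvd_prime_iff_eq hq (hP.prime j)).1 hj⟩
    rw [hP.sym_cast i hsq hmemL hLd, diagA]
    refine Finset.sum_congr rfl fun j hj => ?_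
    have hji : j ≠ i := Finset.ne_of_mem_erase hj
    have hdvd : P j ∣ L :=
      ((hP.prime j).dvd_mul.1 (hL ▸ Finset.dvd_prod_of_mem P (Finset.mem_univ j))).resolve_left
        fun h => hji (hP.injective ((Nat.prime_dvd_prime_iff_eq (hP.prime j) hp).1 h))
    simp [indicator, hdvd]
  have hN' : M = P i * (2 * L) := by rw [hM, hL]; ring
  set N' : ℕ := 2 * L with hN'def
  have hN'0 : (N' : ZMod (P i)) ≠ 0 := by
    rw [hN'def, Nat.cast_mul, Nat.cast_ofNat]; exact mul_ne_zero h2 hL0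
  have hN'd : ¬ P i ∣ N' := fun h => hN'0 ((ZMod.natCast_eq_zero_iff _ _).2 h)
  have hN'sym : sym (P i) (N' : ZMod (P i)) = sym (P i) 2 + diagA P i := by
    rw [hN'def, Nat.cast_mul, Nat.cast_ofNat, sym_mul hp2 h2 hL0, hLsym]
  -- a quotient by the prime
  have quot : ∀ {m : ℕ}, Squarefree m →
      (∀ q : ℕ, q.Prime → q ∣ m → q = 2 ∨ ∃ j, q = P j) → P i ∣ m →
      ∃ m', m = P i * m' ∧ (m' : ZMod (P i)) ≠ 0 ∧ sym (P i) (m' : ZMod (P i)) =
        (if 2 ∣ m then 1 else 0) * sym (P i) 2 +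
          ∑ j ∈ Finset.univ.erase i, indicator P m j * entry P i j := by
    intro m hm hmm hd
    obtain ⟨m', rfl⟩ := hd
    have hnd : ¬ P i ∣ m' := fun h =>
      hp.ne_one (Nat.isUnit_iff.1 (hm _ (mul_dvd_mul_left _ h)))
    refine ⟨m', rfl, fun h => hnd ((ZMod.natCast_eq_zero_iff _ _).1 h), ?_⟩
    rw [sym_cast_two hP i (hm.squarefree_of_dvd (dvd_mul_left _ _))
      (fun q hq h => hmm q hq (h.mul_left _)) hnd]
    have h2iff : 2 ∣ P i * m' ↔ 2 ∣ m' := ⟨fun h => (Nat.prime_two.dvd_mul.1 h).resolve_left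
      fun h => hp2 ((Nat.prime_dvd_prime_iff_eq Nat.prime_two hp).1 h).symm,
      fun h => h.mul_left _⟩
    simp only [h2iff]
    congr 1
    refine Finset.sum_congr rfl fun j hj => ?_
    have hji : j ≠ i := Finset.ne_of_mem_erase hj
    have hiff : P j ∣ P i * m' ↔ P j ∣ m' := ⟨fun h => ((hP.prime j).dvd_mul.1 h).resolve_left
      fun h => hji (hP.injective ((Nat.prime_dvd_prime_iff_eq (hP.prime j) hp).1 h)),
      fun h => h.mul_left _⟩
    simp only [indicator, hiff]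
  have hp0 : ((P i : ℕ) : ℤ) ≠ 0 := hpI.ne_zero
  have reduce : ∀ {s t : ℤ}, ((P i : ℕ) : ℤ) * s = ((P i : ℕ) : ℤ) * t →
      (s : ZMod (P i)) = (t : ZMod (P i)) := fun h => by rw [mul_left_cancel₀ hp0 h]
  have toDvd : ∀ {z : ℤ}, (z : ZMod (P i)) = 0 → ((P i : ℕ) : ℤ) ∣ z := fun h =>
    (ZMod.intCast_zmod_eq_zero_iff_dvd _ _).1 h
  have he : ((P i : ℕ) : ℤ) ∣ (a : ℤ) * u ^ 2 → (e : ZMod (P i)) ≠ 0 := fun h h0 =>
    hpI.not_isUnit (hco.isUnit_of_dvd' h (toDvd h0))
  have hdvd_of : ∀ {m : ℕ} {z : ℤ}, ¬ P i ∣ m → ((P i : ℕ) : ℤ) ∣ (m : ℤ) * z ^ 2 →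
      ((P i : ℕ) : ℤ) ∣ z := fun hm h => hpI.dvd_of_dvd_pow (n := 2)
    ((hpI.dvd_or_dvd h).resolve_left fun h' => hm (Int.natCast_dvd_natCast.1 h'))
  have hind : ∀ m : ℕ, indicator P m i = if P i ∣ m then 1 else 0 := fun m => rfl
  have hz : ∀ z : ZMod 2, z + z = 0 := CharTwo.add_self_eq_zero
  obtain ⟨s, hs⟩ := habc
  by_cases hpa : P i ∣ a
  · have he' := he (dvd_mul_of_dvd_left (Int.natCast_dvd_natCast.2 hpa) _)
    obtain ⟨a', rfl, ha'0, hsa⟩ := quot ha (fun q hq h => Or.inr (ma q hq h)) hpa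
    rw [if_neg ha2, zero_mul, zero_add] at hsa
    by_cases hpb : P i ∣ b
    · -- `p` divides `a`, `b`
      have hpc : ¬ P i ∣ c := fun h =>
        FA.Iskra.not_dvd_three ha hb hc hp ⟨s, hs⟩ ⟨hpa, hpb, h⟩
      obtain ⟨b', rfl, hb'0, hsb⟩ := quot hb mb hpb
      obtain ⟨w', rfl⟩ : ((P i : ℕ) : ℤ) ∣ w :=
        hdvd_of hpc ⟨a' * u ^ 2 + N' * e ^ 2, by rw [hC, hN']; push_cast; ring⟩
      have e1 := reduce (s := (b' : ℤ) * v ^ 2) (t := a' * u ^ 2 - N' * e ^ 2)
        (by rw [hN'] at hB; push_cast at hB; linear_combination hB)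
      have e2 := reduce (s := (a' : ℤ) * u ^ 2 + N' * e ^ 2)
        (t := ((P i : ℕ) : ℤ) * (c * w' ^ 2))
        (by rw [hN'] at hC; push_cast at hC; linear_combination -hC)
      push_cast at e1 e2
      rw [ZMod.natCast_self, zero_mul] at e2
      have hu : (u : ZMod (P i)) ≠ 0 := fun h => mul_ne_zero hN'0 (pow_ne_zero 2 he') (by
        rw [h] at e2; linear_combination e2)
      have hv : (v : ZMod (P i)) ≠ 0 := fun h => mul_ne_zero (mul_ne_zero h2 hN'0)
        (pow_ne_zero 2 he') (by rw [h] at e1; linear_combination e1 + e2)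
      have s1 := sym_eq_of_mul_sq hp2 (x := (a' : ZMod (P i))) (y := -1 * (N' : ZMod (P i)))
        (mul_ne_zero (neg_ne_zero.2 one_ne_zero) hN'0) hu he' (by linear_combination e2)
      have s2 := sym_eq_of_mul_sq hp2 (x := (b' : ZMod (P i))) (y := -1 * (2 * (N' : ZMod (P i))))
        (mul_ne_zero (neg_ne_zero.2 one_ne_zero) (mul_ne_zero h2 hN'0)) hv he'
        (by linear_combination e1 + e2)
      rw [sym_mul hp2 (neg_ne_zero.2 one_ne_zero) hN'0, hN'sym, hsa] at s1
      rw [sym_mul hp2 (neg_ne_zero.2 one_ne_zero) (mul_ne_zero h2 hN'0), sym_mul hp2 h2 hN'0,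
        hN'sym, hsb] at s2
      rw [hind, hind, if_pos hpa, if_pos hpb]
      constructor
      · linear_combination s1 + hz (sym (P i) (-1)) + hz (diagA P i) + hz (sym (P i) 2)
      · linear_combination s2 + hz (sym (P i) (-1)) + hz (diagA P i) + 2 * hz (sym (P i) 2)
    · -- `p` divides `a`, `c`
      have hpc : P i ∣ c := (FA.Iskra.dvd_of_square ha hp hpa ⟨s, hs⟩).resolve_left hpb
      obtain ⟨c', rfl, hc'0, -⟩ := quot hc (fun q hq h => mem q hq (Or.inr (Or.inr h))) hpc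
      obtain ⟨v', rfl⟩ : ((P i : ℕ) : ℤ) ∣ v :=
        hdvd_of hpb ⟨a' * u ^ 2 - N' * e ^ 2, by rw [hB, hN']; push_cast; ring⟩
      have e1 := reduce (s := (c' : ℤ) * w ^ 2) (t := a' * u ^ 2 + N' * e ^ 2)
        (by rw [hN'] at hC; push_cast at hC; linear_combination hC)
      have e2 := reduce (s := (a' : ℤ) * u ^ 2 - N' * e ^ 2)
        (t := ((P i : ℕ) : ℤ) * (b * v' ^ 2))
        (by rw [hN'] at hB; push_cast at hB; linear_combination -hB)
      push_cast at e1 e2
      rw [ZMod.natCast_self, zero_mul] at e2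
      have hu : (u : ZMod (P i)) ≠ 0 := fun h => mul_ne_zero hN'0 (pow_ne_zero 2 he') (by
        rw [h] at e2; linear_combination -e2)
      have hw : (w : ZMod (P i)) ≠ 0 := fun h => mul_ne_zero (mul_ne_zero h2 hN'0)
        (pow_ne_zero 2 he') (by rw [h] at e1; linear_combination -e1 - e2)
      have s1 := sym_eq_of_mul_sq hp2 (x := (a' : ZMod (P i))) (y := (N' : ZMod (P i))) hN'0 hu he'
        (by linear_combination e2)
      have s2 := sym_eq_of_mul_sq hp2 (x := (c' : ZMod (P i))) (y := 2 * (N' : ZMod (P i)))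
        (mul_ne_zero h2 hN'0) hw he' (by linear_combination e1 + e2)
      have hb'0 : (b : ZMod (P i)) ≠ 0 := fun h => hpb ((ZMod.natCast_eq_zero_iff _ _).1 h)
      have hs' : IsSquare (((a' * b * c' : ℕ)) : ZMod (P i)) := by
        obtain ⟨t, rfl⟩ : P i ∣ s :=
          (hp.dvd_mul.1 (⟨a' * b * (P i * c'), by rw [← hs]; ring⟩ : P i ∣ s * s)).elim id id
        rw [show a' * b * c' = t * t from Nat.eq_of_mul_eq_mul_left (Nat.mul_pos hp.pos hp.pos)
          (by linear_combination hs)]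
        exact ⟨(t : ZMod (P i)), by push_cast; rfl⟩
      have s3 := sym_of_isSquare hs'
      rw [Nat.cast_mul, Nat.cast_mul, sym_mul hp2 (mul_ne_zero ha'0 hb'0) hc'0,
        sym_mul hp2 ha'0 hb'0, s1, s2, sym_mul hp2 h2 hN'0, hN'sym,
        sym_cast_two hP i hb mb hpb] at s3
      rw [hsa, hN'sym] at s1
      rw [hind, hind, if_pos hpa, if_neg hpb]
      constructor
      · linear_combination s1 + hz (diagA P i) + hz (sym (P i) 2)
      · linear_combination s3 - hz (diagA P i) - hz (sym (P i) 2)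
  have hind_a : indicator P a i = 0 := by rw [hind, if_neg hpa]
  have ha0 : (a : ZMod (P i)) ≠ 0 := fun h => hpa ((ZMod.natCast_eq_zero_iff _ _).1 h)
  have hsa := hP.sym_cast i ha ma hpa
  by_cases hpb : P i ∣ b
  · -- `p` divides `b`, `c`
    have hpc : P i ∣ c := (FA.Iskra.dvd_of_square hb hp hpb hab').resolve_left hpa
    obtain ⟨b', rfl, hb'0, hsb⟩ := quot hb mb hpb
    obtain ⟨c', rfl, hc'0, -⟩ := quot hc (fun q hq h => mem q hq (Or.inr (Or.inr h))) hpc
    obtain ⟨u', rfl⟩ : ((P i : ℕ) : ℤ) ∣ u := hdvd_of hpa ⟨b' * v ^ 2 + N' * e ^ 2, by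
      rw [hN'] at hB; push_cast at hB; linear_combination -hB⟩
    have he' := he (Dvd.intro_left ((a : ℤ) * ((P i : ℕ) : ℤ) * u' ^ 2) (by ring))
    have e1 := reduce (s := (b' : ℤ) * v ^ 2 + N' * e ^ 2)
      (t := ((P i : ℕ) : ℤ) * (a * u' ^ 2))
      (by rw [hN'] at hB; push_cast at hB; linear_combination hB)
    have e2 := reduce (s := (c' : ℤ) * w ^ 2 - N' * e ^ 2)
      (t := ((P i : ℕ) : ℤ) * (a * u' ^ 2))
      (by rw [hN'] at hC; push_cast at hC; linear_combination hC)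
    push_cast at e1 e2
    rw [ZMod.natCast_self, zero_mul] at e1 e2
    have hv : (v : ZMod (P i)) ≠ 0 := fun h => mul_ne_zero hN'0 (pow_ne_zero 2 he') (by
      rw [h] at e1; linear_combination e1)
    have hw : (w : ZMod (P i)) ≠ 0 := fun h => mul_ne_zero hN'0 (pow_ne_zero 2 he') (by
      rw [h] at e2; linear_combination -e2)
    have s1 := sym_eq_of_mul_sq hp2 (x := (b' : ZMod (P i))) (y := -1 * (N' : ZMod (P i)))
      (mul_ne_zero (neg_ne_zero.2 one_ne_zero) hN'0) hv he' (by linear_combination e1)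
    have s2 := sym_eq_of_mul_sq hp2 (x := (c' : ZMod (P i))) (y := (N' : ZMod (P i))) hN'0 hw he'
      (by linear_combination e2)
    have hs' : IsSquare (((a * b' * c' : ℕ)) : ZMod (P i)) := by
      obtain ⟨t, rfl⟩ : P i ∣ s :=
        (hp.dvd_mul.1 (⟨a * b' * (P i * c'), by rw [← hs]; ring⟩ : P i ∣ s * s)).elim id id
      rw [show a * b' * c' = t * t from Nat.eq_of_mul_eq_mul_left (Nat.mul_pos hp.pos hp.pos)
        (by linear_combination hs)]
      exact ⟨(t : ZMod (P i)), by push_cast; rfl⟩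
    have s3 := sym_of_isSquare hs'
    rw [Nat.cast_mul, Nat.cast_mul, sym_mul hp2 (mul_ne_zero ha0 hb'0) hc'0,
      sym_mul hp2 ha0 hb'0, s1, s2, sym_mul hp2 (neg_ne_zero.2 one_ne_zero) hN'0, hN'sym,
      hsa] at s3
    rw [hsb, sym_mul hp2 (neg_ne_zero.2 one_ne_zero) hN'0, hN'sym] at s1
    rw [hind_a, hind, if_pos hpb]
    constructor
    · linear_combination s3 - hz (diagA P i) - hz (sym (P i) 2)
    · linear_combination s1 + hz (sym (P i) (-1)) + hz (diagA P i) + hz (sym (P i) 2)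
  -- `p` divides none
  have hpc : ¬ P i ∣ c := fun h =>
    ((FA.Iskra.dvd_of_square hc hp h hca').elim hpa hpb)
  have hb0 : (b : ZMod (P i)) ≠ 0 := fun h => hpb ((ZMod.natCast_eq_zero_iff _ _).1 h)
  have hc0 : (c : ZMod (P i)) ≠ 0 := fun h => hpc ((ZMod.natCast_eq_zero_iff _ _).1 h)
  have e1 := congrArg (Int.cast : ℤ → ZMod (P i)) hB
  have e2 := congrArg (Int.cast : ℤ → ZMod (P i)) hC
  simp only [Int.cast_mul, Int.cast_sub, Int.cast_add, Int.cast_pow, Int.cast_natCast] at e1 e2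
  rw [(ZMod.natCast_eq_zero_iff M (P i)).2 ⟨_, hN'⟩, zero_mul] at e1 e2
  rw [sub_zero] at e1
  rw [add_zero] at e2
  have hu : (u : ZMod (P i)) ≠ 0 := fun h => by
    have hd := toDvd h
    have hv : ((P i : ℕ) : ℤ) ∣ v := by
      refine toDvd ?_
      rw [h, zero_pow two_ne_zero, mul_zero] at e1
      exact pow_eq_zero_iff two_ne_zero |>.1 ((mul_eq_zero.1 e1).resolve_left hb0)
    obtain ⟨u', rfl⟩ := hd
    obtain ⟨v', rfl⟩ := hv
    have hNe : ((P i : ℕ) : ℤ) * ((P i : ℕ) : ℤ) ∣ ((P i : ℕ) : ℤ) * ((N' : ℤ) * e ^ 2) :=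
      ⟨a * u' ^ 2 - b * v' ^ 2, by rw [hN'] at hB; push_cast at hB; linear_combination hB⟩
    have := (hpI.dvd_or_dvd ((mul_dvd_mul_iff_left hp0).1 hNe)).resolve_left
      fun h => hN'd (Int.natCast_dvd_natCast.1 h)
    exact hpI.not_isUnit (hco.isUnit_of_dvd' (dvd_mul_of_dvd_right
      (dvd_pow (dvd_mul_right _ _) two_ne_zero) _) (hpI.dvd_of_dvd_pow this))
  have hv : (v : ZMod (P i)) ≠ 0 := fun h => mul_ne_zero ha0 (pow_ne_zero 2 hu) (by
    rw [h] at e1; linear_combination -e1)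
  have hw : (w : ZMod (P i)) ≠ 0 := fun h => mul_ne_zero ha0 (pow_ne_zero 2 hu) (by
    rw [h] at e2; linear_combination -e2)
  have s1 := sym_eq_of_mul_sq hp2 ha0 hv hu e1
  have s2 := sym_eq_of_mul_sq hp2 ha0 hw hu e2
  have s3 := sym_of_isSquare (p := P i) (x := ((a * b * c : ℕ) : ZMod (P i)))
    ⟨(s : ZMod (P i)), by rw [hs]; push_cast; rfl⟩
  rw [Nat.cast_mul, Nat.cast_mul, sym_mul hp2 (mul_ne_zero ha0 hb0) hc0, sym_mul hp2 ha0 hb0,
    s1, s2, hsa] at s3
  rw [sym_cast_two hP i hb mb hpb, hsa] at s1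
  rw [hind_a, hind, if_neg hpb]
  constructor
  · linear_combination s3 - hz (∑ j ∈ Finset.univ.erase i, indicator P a j * entry P i j)
  · linear_combination s1 + s3 - hz (∑ j ∈ Finset.univ.erase i, indicator P a j * entry P i j)

end FA.Monsky

end
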