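import Fermat.Agent.Monsky.Points
import Fermat.Agent.Monsky.EvenMatrix

/-!
# The rank bound of Monsky's matrix for even `n`

A translate by torsion has `x > n` and an even exponent of `2` in `x`; its classes give a vector
killed by the matrix for even `n`.
-/

set_option autoImplicit false
set_option linter.style.haveILetI false

noncomputable section

open WeierstrassCurve
open FA.CongruentNumber

namespace FA.Monsky

/-- A torsion translate of a point of infinite order in the normal position for even `n`. -/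
theorem exists_normal_two {N : ℕ} (hN : Odd N) {Q : (congCurve (2 * N)).toAffine.Point}
    (hQ : ¬ IsOfFinAddOrder Q) :
    ∃ t, IsOfFinAddOrder t ∧ ∃ x y h, Q + t = Affine.Point.some x y h ∧ y ≠ 0 ∧
      ((2 * N : ℕ) : ℚ) < x ∧ Even (padicValRat 2 x) := by
  set n : ℕ := 2 * N with hnN
  have hn : n ≠ 0 := by have := hN.pos; omega
  have hnQ : (0 : ℚ) < n := Nat.cast_pos.2 (Nat.pos_of_ne_zero hn)
  haveI := Fact.mk Nat.prime_two
  let U : (congCurve n).toAffine.Point := .some (n : ℚ) 0 (nonsingular_congCurve hn (by ring))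
  have hU : IsOfFinAddOrder U := isOfFinAddOrder_of_y_eq_zero rfl
  obtain ⟨t, ht, x, y, h, ha, hy, hx⟩ := exists_large hn hQ
  by_cases h2 : Even (padicValRat 2 x)
  · exact ⟨t, ht, x, y, h, ha, hy, hx, h2⟩
  obtain ⟨x', y', h', hadd, hxv⟩ := exists_add h
    (nonsingular_congCurve hn (x := (n : ℚ)) (y := 0) (by ring)) hx.ne'
  have hd : x - n ≠ 0 := (sub_pos.2 hx).ne'
  have hx0 : x ≠ 0 := (hnQ.trans hx).ne'
  have hx' : x' - n = 2 * (n : ℚ) ^ 2 / (x - n) := by
    rw [hxv, sub_zero, div_pow]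
    field_simp
    linear_combination equation_congCurve h
  have hy' : y' ≠ 0 := fun hy0 => not_isOfFinAddOrder_add (not_isOfFinAddOrder_add hQ ht) hU
    (by rw [ha, hadd]; exact isOfFinAddOrder_of_y_eq_zero hy0)
  refine ⟨t + U, ht.add hU, x', y', h', by rw [← add_assoc, ha]; exact hadd, hy',
    sub_pos.1 (by rw [hx']; exact div_pos (by positivity) (sub_pos.2 hx)), ?_⟩
  have hxx : x' = (n : ℚ) * y ^ 2 / (x * (x - n) ^ 2) := by
    rw [← sub_eq_zero, show x' = (x' - n) + n by ring, hx', equation_congCurve h]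
    field_simp
    ring
  rw [hxx, padicValRat.div (by positivity) (mul_ne_zero hx0 (pow_ne_zero 2 hd)),
    padicValRat.mul (Nat.cast_ne_zero.2 hn) (pow_ne_zero 2 hy),
    padicValRat.mul hx0 (pow_ne_zero 2 hd), padicValRat.pow, padicValRat.pow,
    padicValRat.of_nat, hnN, padicValNat.mul two_ne_zero hN.pos.ne',
    padicValNat.self one_lt_two, padicValNat.eq_zero_of_not_dvd (n := N) fun h =>
      (Nat.not_even_iff_odd.2 hN) (even_iff_two_dvd.2 h)]
  rw [Int.not_even_iff] at h2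
  rw [Int.even_iff]
  push_cast
  omega

variable {k : ℕ} {P : Fin k → ℕ}

/-- The power of `2` in the second class. -/
def twoClass (η : ZMod 2) : ℕ := if η = 1 then 2 else 1

/-- A squarefree number made of `2` and the primes. -/
theorem eq_twoClass_mul (hP : OddPrimes P) {b : ℕ} (hb : Squarefree b)
    (h : ∀ q : ℕ, q.Prime → q ∣ b → q = 2 ∨ ∃ j, q = P j) :
    b = twoClass (if 2 ∣ b then 1 else 0) * classProd P (indicator P b) := by
  by_cases h2 : 2 ∣ b
  · obtain ⟨b', rfl⟩ := h2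
    have hb' : ¬ 2 ∣ b' := fun hd =>
      Nat.prime_two.ne_one (Nat.isUnit_iff.1 (hb 2 (mul_dvd_mul_left 2 hd)))
    have hind : indicator P (2 * b') = indicator P b' := funext fun j => by
      have hiff : P j ∣ 2 * b' ↔ P j ∣ b' := ⟨fun hd => ((hP.prime j).dvd_mul.1 hd).resolve_left
        fun e => hP.odd j ((Nat.prime_dvd_prime_iff_eq (hP.prime j) Nat.prime_two).1 e),
        fun hd => hd.mul_left 2⟩
      simp only [indicator, hiff]
    rw [hind, hP.classProd_indicator (hb.squarefree_of_dvd (dvd_mul_left _ _)) fun q hq hd =>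
      (h q hq (hd.mul_left 2)).resolve_left fun e => hb' (e ▸ hd)]
    simp [twoClass]
  · rw [hP.classProd_indicator hb fun q hq hd => (h q hq hd).resolve_left fun e => h2 (e ▸ hd)]
    simp [twoClass, h2]

/-- A torsion translate of `Q` has the classes of the vector `z`. -/
def ClassifiedTwo (P : Fin k → ℕ) [∀ i, NeZero (P i)]
    (Q : (congCurve (2 * ∏ i, P i)).toAffine.Point) (z : Fin k ⊕ Fin k → ZMod 2) : Prop :=
  ∃ t, IsOfFinAddOrder t ∧ ∃ x y h, Q + t = Affine.Point.some x y h ∧ y ≠ 0 ∧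
    IsSquare ((classProd P (z ∘ Sum.inl) : ℚ) * x) ∧
    IsSquare (((twoClass (eta P (z ∘ Sum.inl)) *
      classProd P (z ∘ Sum.inr + z ∘ Sum.inl + fun _ : Fin k => eta P (z ∘ Sum.inl)) : ℕ) : ℚ) *
        (x - ((2 * ∏ i, P i : ℕ) : ℚ)))

variable [∀ i, NeZero (P i)]

theorem exists_classified_two (hP : OddPrimes P)
    {Q : (congCurve (2 * ∏ i, P i)).toAffine.Point} (hQ : ¬ IsOfFinAddOrder Q) :
    ∃ z, (matrixTwo P).mulVec z = 0 ∧ ClassifiedTwo P Q z := by
  obtain ⟨t, ht, x, y, h, hadd, hy, hx, h2⟩ := exists_normal_two hP.odd_prod hQ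
  obtain ⟨a, b, c, u, v, w, r, ha, hb, hcs, habc, hco, hB, hC, hxu, hxv⟩ :=
    exists_integral_classes (equation_congCurve h) hx
  have hx0 : x ≠ 0 := ((Nat.cast_nonneg _).trans_lt hx).ne'
  have ha2 := not_two_dvd_of_even ha hx0 hxu h2
  obtain ⟨mem, heta, hker⟩ := mulVec_classes_two hP ha hb hcs habc ha2 hB hC hco
  refine ⟨_, hker, t, ht, x, y, h, hadd, hy, ?_, ?_⟩
  · rw [Sum.elim_comp_inl, hP.classProd_indicator ha fun q hq hd =>
      (mem q hq (Or.inl hd)).resolve_left fun e => ha2 (e ▸ hd), hxu]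
    exact ⟨(a : ℚ) * u / r, by ring⟩
  · have hvec : ∀ α β : Fin k → ZMod 2, ∀ c : ZMod 2,
        α + β + (fun _ => c) + α + (fun _ => c) = β := fun α β c => funext fun i => by
      have key : ∀ a b c : ZMod 2, a + b + c + a + c = b := by decide
      exact key _ _ _
    rw [Sum.elim_comp_inl, Sum.elim_comp_inr, hvec, ← heta,
      ← eq_twoClass_mul hP hb fun q hq hd => mem q hq (Or.inr (Or.inl hd)), hxv]
    exact ⟨(b : ℚ) * v / r, by ring⟩

omit [∀ i, NeZero (P i)] in
theorem two_mul_prod_ne_zero (hP : OddPrimes P) : 2 * ∏ i, P i ≠ 0 :=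
  mul_ne_zero two_ne_zero hP.odd_prod.pos.ne'

theorem halved_of_classified_two (hP : OddPrimes P)
    {Q : (congCurve (2 * ∏ i, P i)).toAffine.Point} (h : ClassifiedTwo P Q 0) : Halved Q := by
  obtain ⟨t, ht, x, y, hns, ha, hy, h1, h2⟩ := h
  have e0 : ∀ f : Fin k → ZMod 2, f = 0 → classProd P f = 1 := by
    rintro f rfl; simp [classProd]
  have eη : eta P ((0 : Fin k ⊕ Fin k → ZMod 2) ∘ Sum.inl) = 0 := by simp [eta]
  rw [e0 _ (by ext; simp), Nat.cast_one, one_mul] at h1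
  rw [eη, e0 _ (by ext; simp)] at h2
  obtain ⟨R, hR⟩ := exists_half (two_mul_prod_ne_zero hP) hns hy h1 (by simpa [twoClass] using h2)
  exact halved_of_add ht ⟨R, by rw [ha, hR, sub_self]; exact IsOfFinAddOrder.zero⟩

theorem halved_add_of_classified_two (hP : OddPrimes P)
    {Q Q' : (congCurve (2 * ∏ i, P i)).toAffine.Point} {z : Fin k ⊕ Fin k → ZMod 2}
    (h : ClassifiedTwo P Q z) (h' : ClassifiedTwo P Q' z) : Halved (Q + Q') := by
  obtain ⟨t, ht, x₁, y₁, h₁, ha, hy₁, a₁, b₁⟩ := h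
  obtain ⟨s, hs, x₂, y₂, h₂, hb, hy₂, a₂, b₂⟩ := h'
  refine halved_of_add (ht.add hs) ?_
  rw [show Q + Q' + (t + s) = (Q + t) + (Q' + s) by abel, ha, hb]
  refine halved_add_classes (two_mul_prod_ne_zero hP) (classProd_ne_zero hP _) ?_ hy₁ hy₂
    a₁ a₂ b₁ b₂
  rw [Nat.cast_mul]
  exact mul_ne_zero (Nat.cast_ne_zero.2 (by rw [twoClass]; split_ifs <;> omega))
    (classProd_ne_zero hP _)

/-- **The rank bound for even `n`.** -/
theorem exists_rank_le_two (hP : OddPrimes P) :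
    ∃ r ≤ Module.finrank (ZMod 2) (LinearMap.ker (matrixTwo P).mulVecLin),
      Nonempty ((congCurve (2 * ∏ i, P i)).toAffine.Point ≃+ (ZMod 2 × ZMod 2) × (Fin r → ℤ)) :=
  exists_rank_le_of_classified (two_mul_prod_ne_zero hP) (fun Q z => ClassifiedTwo P Q z.1)
    (fun _ hQ => (exists_classified_two hP hQ).elim fun z hz => ⟨⟨z, hz.1⟩, hz.2⟩)
    (fun _ h => halved_of_classified_two hP h)
    fun _ _ _ h h' => halved_add_of_classified_two hP h h'

theorem finrank_le_two (hP : OddPrimes P) :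
    Module.finrank ℤ (congCurve (2 * ∏ i, P i)).toAffine.Point ≤
      Module.finrank (ZMod 2) (LinearMap.ker (matrixTwo P).mulVecLin) := by
  obtain ⟨r, hr, ⟨e⟩⟩ := exists_rank_le_two hP
  exact (finrank_eq_of_equiv e).trans_le hr

/-- **A nonsingular matrix leaves only the torsion.** -/
theorem point_equiv_two (hP : OddPrimes P) (hdet : (matrixTwo P).det ≠ 0) :
    Nonempty ((congCurve (2 * ∏ i, P i)).toAffine.Point ≃+ ZMod 2 × ZMod 2) := by
  obtain ⟨r, hr, ⟨e⟩⟩ := exists_rank_le_two hP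
  rw [LinearMap.ker_eq_bot.2 (Matrix.mulVec_injective_iff_isUnit.2
    ((Matrix.isUnit_iff_isUnit_det _).2 (isUnit_iff_ne_zero.2 hdet))), finrank_bot,
    Nat.le_zero] at hr
  subst hr
  exact ⟨e.trans AddEquiv.prodUnique⟩

omit [∀ i, NeZero (P i)] in
theorem not_congruent_of_equiv {n : ℕ} (hn : n ≠ 0)
    (he : Nonempty ((congCurve n).toAffine.Point ≃+ ZMod 2 × ZMod 2)) :
    ¬ ∃ a b c : ℚ, 0 < a ∧ 0 < b ∧ 0 < c ∧ a ^ 2 + b ^ 2 = c ^ 2 ∧ a * b / 2 = (n : ℚ) := by
  intro h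
  haveI := (FA.Summary.congruentNumber_iff_infinite n hn).1 h
  obtain ⟨e⟩ := he
  exact not_finite_iff_infinite.mpr ‹_› (Finite.of_equiv _ e.toEquiv.symm)

/-- **A nonsingular matrix makes `2 N` non-congruent.** -/
theorem not_congruent_two (hP : OddPrimes P) (hdet : (matrixTwo P).det ≠ 0) :
    ¬ ∃ a b c : ℚ, 0 < a ∧ 0 < b ∧ 0 < c ∧ a ^ 2 + b ^ 2 = c ^ 2 ∧
      a * b / 2 = ((2 * ∏ i, P i : ℕ) : ℚ) :=
  not_congruent_of_equiv (two_mul_prod_ne_zero hP) (point_equiv_two hP hdet)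

end FA.Monsky

end
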