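import Fermat.Agent.Monsky.Parity
import Fermat.Agent.Monsky.EvenPoints
import Mathlib.NumberTheory.LSeries.PrimesInAP

/-!
# The parity by residue classes and two families of two primes

The kernel is odd dimensional exactly for `n ≡ 5, 6, 7 (mod 8)`. For two primes the determinant
gives non-congruent numbers in each of the classes `1, 2, 3 (mod 8)`.
-/

set_option autoImplicit false
set_option linter.style.haveILetI false

noncomputable section

open Module

namespace FA.Monsky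

variable {k : ℕ} {P : Fin k → ℕ}

theorem sym_two (hP : OddPrimes P) [∀ i, NeZero (P i)] (i : Fin k) :
    sym (P i) 2 = if P i % 8 = 3 ∨ P i % 8 = 5 then 1 else 0 := by
  haveI := Fact.mk (hP.prime i)
  have h2 : P i % 2 = 1 := (hP.prime i).eq_two_or_odd.resolve_left (hP.odd i)
  simp only [sym, ZMod.exists_sq_eq_two_iff (hP.odd i)]
  split_ifs <;> first | rfl | omega

theorem sum_syms_eq_one_iff (hP : OddPrimes P) [∀ i, NeZero (P i)] :
    (∑ i, sym (P i) (-1)) + ∑ i, sym (P i) 2 = 1 ↔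
      (∏ i, P i) % 8 = 5 ∨ (∏ i, P i) % 8 = 7 := by
  rw [← Finset.sum_add_distrib]
  suffices h : ∀ T : Finset (Fin k), (∏ i ∈ T, P i) % 2 = 1 ∧
      (∑ i ∈ T, (sym (P i) (-1) + sym (P i) 2) = 1 ↔
        (∏ i ∈ T, P i) % 8 = 5 ∨ (∏ i ∈ T, P i) % 8 = 7) from (h _).2
  intro T
  induction T using Finset.induction with
  | empty => simp
  | insert i T hi ih =>
    obtain ⟨hodd, ih⟩ := ih
    have h2 : P i % 2 = 1 := (hP.prime i).eq_two_or_odd.resolve_left (hP.odd i)
    rw [Finset.prod_insert hi, Finset.sum_insert hi]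
    refine ⟨by rw [Nat.mul_mod, h2, hodd], ?_⟩
    rw [sym_neg_one hP i, sym_two hP i, show P i % 4 = P i % 8 % 4 by omega]
    set s : ZMod 2 := ∑ j ∈ T, (sym (P j) (-1) + sym (P j) 2)
    set r := ∏ j ∈ T, P j
    have key : ∀ a ∈ [1, 3, 5, 7], ∀ b ∈ [1, 3, 5, 7],
        ((if a % 4 = 3 then 1 else 0) + (if a = 3 ∨ a = 5 then 1 else 0) +
          (if b = 5 ∨ b = 7 then 1 else 0) = (1 : ZMod 2) ↔
            a * b % 8 = 5 ∨ a * b % 8 = 7) := by decide
    have hs : s = if r % 8 = 5 ∨ r % 8 = 7 then 1 else 0 := by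
      have two : ∀ z : ZMod 2, z ≠ 1 → z = 0 := by decide
      split_ifs with h
      · exact ih.2 h
      · exact two _ fun h' => h (ih.1 h')
    rw [Nat.mul_mod, hs]
    refine key _ ?_ _ ?_ <;> simp only [List.mem_cons, List.not_mem_nil, or_false] <;> omega

theorem sum_sym_neg_one_eq_one_iff (hP : OddPrimes P) [∀ i, NeZero (P i)] :
    ∑ i, sym (P i) (-1) = 1 ↔ (2 * ∏ i, P i) % 8 = 6 := by
  have h := cast_classProd_four hP 1
  have hprod : classProd P 1 = ∏ i, P i := by simp [classProd]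
  have heta : eta P 1 = ∑ i, sym (P i) (-1) := by simp [eta]
  rw [hprod, heta, ← ZMod.natCast_mod] at h
  have hodd := Nat.odd_iff.1 hP.odd_prod
  constructor
  · intro h1
    rw [if_pos h1] at h
    rcases (by omega : (∏ i, P i) % 4 = 1 ∨ (∏ i, P i) % 4 = 3) with h' | h'
    · rw [h'] at h; exact absurd h (by decide)
    · omega
  · intro h6
    by_contra h1
    rw [if_neg h1, show (∏ i, P i) % 4 = 3 by omega] at h
    exact absurd h (by decide)

theorem odd_finrank_ker_matrix (hP : OddPrimes P) [∀ i, NeZero (P i)] :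
    Odd (finrank (ZMod 2) (LinearMap.ker (matrix P).mulVecLin)) ↔
      (∏ i, P i) % 8 = 5 ∨ (∏ i, P i) % 8 = 7 := by
  rw [← sum_syms_eq_one_iff hP, ← finrank_ker_matrix hP, ZMod.natCast_eq_one_iff_odd]

theorem odd_finrank_ker_matrixTwo (hP : OddPrimes P) [∀ i, NeZero (P i)] :
    Odd (finrank (ZMod 2) (LinearMap.ker (matrixTwo P).mulVecLin)) ↔
      (2 * ∏ i, P i) % 8 = 6 := by
  rw [← sum_sym_neg_one_eq_one_iff hP, ← finrank_ker_matrixTwo, ZMod.natCast_eq_one_iff_odd]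

/-- An odd dimensional kernel kills the determinant. -/
theorem det_eq_zero_of_odd {M : Matrix (Fin k ⊕ Fin k) (Fin k ⊕ Fin k) (ZMod 2)}
    (h : Odd (finrank (ZMod 2) (LinearMap.ker M.mulVecLin))) : M.det = 0 := by
  by_contra hd
  rw [LinearMap.ker_eq_bot.2 (Matrix.mulVec_injective_iff_isUnit.2
    ((Matrix.isUnit_iff_isUnit_det _).2 (isUnit_iff_ne_zero.2 hd))), finrank_bot] at h
  simp at h

section twoPrimes

variable {p q : ℕ}

theorem oddPrimes_pair (hp : p.Prime) (hq : q.Prime) (hp2 : p ≠ 2) (hq2 : q ≠ 2) (hne : p ≠ q) :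
    OddPrimes ![p, q] :=
  ⟨fun i => by fin_cases i <;> assumption, fun i => by fin_cases i <;> assumption, fun i j h => by
    fin_cases i <;> fin_cases j <;> simp_all⟩

/-- The matrix of two primes. -/
theorem matrix_pair (hP : OddPrimes ![p, q]) [∀ i, NeZero (![p, q] i)] :
    matrix ![p, q] = Matrix.fromBlocks
      !![entry ![p, q] 0 1 + sym (![p, q] 0) 2, entry ![p, q] 0 1;
        entry ![p, q] 0 1 + sym (![p, q] 0) (-1) * sym (![p, q] 1) (-1),
        entry ![p, q] 0 1 + sym (![p, q] 0) (-1) * sym (![p, q] 1) (-1) + sym (![p, q] 1) 2]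
      (Matrix.diagonal ![sym (![p, q] 0) 2, sym (![p, q] 1) 2])
      (Matrix.diagonal ![sym (![p, q] 0) 2, sym (![p, q] 1) 2])
      !![entry ![p, q] 0 1 + sym (![p, q] 0) (-1) + sym (![p, q] 0) 2, entry ![p, q] 0 1;
        entry ![p, q] 0 1 + sym (![p, q] 0) (-1) * sym (![p, q] 1) (-1),
        entry ![p, q] 0 1 + sym (![p, q] 0) (-1) * sym (![p, q] 1) (-1) +
          sym (![p, q] 1) (-1) + sym (![p, q] 1) 2] := by
  have h10 := entry_symm hP (show (0 : Fin 2) ≠ 1 by decide)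
  have d0 : diagA ![p, q] 0 = entry ![p, q] 0 1 := by
    rw [diagA, show (Finset.univ : Finset (Fin 2)).erase 0 = {1} by decide, Finset.sum_singleton]
  have d1 : diagA ![p, q] 1 = entry ![p, q] 1 0 := by
    rw [diagA, show (Finset.univ : Finset (Fin 2)).erase 1 = {0} by decide, Finset.sum_singleton]
  ext i j
  rcases i with i | i <;> rcases j with j | j <;> fin_cases i <;> fin_cases j <;>
    simp [matrix, Matrix.diagonal, d0, d1, h10]

/-- The matrix of twice two primes. -/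
theorem matrixTwo_pair (hP : OddPrimes ![p, q]) [∀ i, NeZero (![p, q] i)] :
    matrixTwo ![p, q] = Matrix.fromBlocks
      (Matrix.diagonal ![sym (![p, q] 0) 2, sym (![p, q] 1) 2])
      !![entry ![p, q] 0 1 + sym (![p, q] 0) 2, entry ![p, q] 0 1;
        entry ![p, q] 0 1 + sym (![p, q] 0) (-1) * sym (![p, q] 1) (-1),
        entry ![p, q] 0 1 + sym (![p, q] 0) (-1) * sym (![p, q] 1) (-1) + sym (![p, q] 1) 2]
      !![entry ![p, q] 0 1 + sym (![p, q] 0) 2,
        entry ![p, q] 0 1 + sym (![p, q] 0) (-1) * sym (![p, q] 1) (-1);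
        entry ![p, q] 0 1,
        entry ![p, q] 0 1 + sym (![p, q] 0) (-1) * sym (![p, q] 1) (-1) + sym (![p, q] 1) 2]
      (Matrix.diagonal ![sym (![p, q] 0) (-1), sym (![p, q] 1) (-1)]) := by
  have h10 := entry_symm hP (show (0 : Fin 2) ≠ 1 by decide)
  have d0 : diagA ![p, q] 0 = entry ![p, q] 0 1 := by
    rw [diagA, show (Finset.univ : Finset (Fin 2)).erase 0 = {1} by decide, Finset.sum_singleton]
  have d1 : diagA ![p, q] 1 = entry ![p, q] 1 0 := by
    rw [diagA, show (Finset.univ : Finset (Fin 2)).erase 1 = {0} by decide, Finset.sum_singleton]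
  ext i j
  rcases i with i | i <;> rcases j with j | j <;> fin_cases i <;> fin_cases j <;>
    simp [matrixTwo, Matrix.diagonal, d0, d1, h10]

theorem sym_values (hP : OddPrimes P) [∀ i, NeZero (P i)] {i : Fin k} {r : ℕ} (h : P i % 8 = r) :
    sym (P i) (-1) = (if r % 4 = 3 then 1 else 0) ∧
      sym (P i) 2 = if r = 3 ∨ r = 5 then 1 else 0 := by
  rw [sym_neg_one hP i, sym_two hP i, ← h, show P i % 8 % 4 = P i % 4 by omega]
  exact ⟨rfl, rfl⟩

/-- `p q` with `p ≡ q ≡ 3 (mod 8)`. -/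
theorem not_congruent_three_three (hp : p.Prime) (hq : q.Prime) (hne : p ≠ q) (hp8 : p % 8 = 3)
    (hq8 : q % 8 = 3) :
    ¬ ∃ a b c : ℚ, 0 < a ∧ 0 < b ∧ 0 < c ∧ a ^ 2 + b ^ 2 = c ^ 2 ∧
      a * b / 2 = ((p * q : ℕ) : ℚ) := by
  have hP := oddPrimes_pair hp hq (by omega) (by omega) hne
  haveI : ∀ i, NeZero (![p, q] i) := fun i => ⟨(hP.prime i).ne_zero⟩
  obtain ⟨m0, d0⟩ := sym_values hP (i := 0) (r := 3) (by simpa using hp8)
  obtain ⟨m1, d1⟩ := sym_values hP (i := 1) (r := 3) (by simpa using hq8)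
  have h := not_congruent hP (by
    rw [matrix_pair hP, m0, m1, d0, d1]
    generalize entry ![p, q] 0 1 = e
    revert e
    decide)
  simpa [Fin.prod_univ_two] using h

/-- `2 p q` with `p ≡ q ≡ 5 (mod 8)`. -/
theorem not_congruent_two_five_five (hp : p.Prime) (hq : q.Prime) (hne : p ≠ q) (hp8 : p % 8 = 5)
    (hq8 : q % 8 = 5) :
    ¬ ∃ a b c : ℚ, 0 < a ∧ 0 < b ∧ 0 < c ∧ a ^ 2 + b ^ 2 = c ^ 2 ∧
      a * b / 2 = ((2 * (p * q) : ℕ) : ℚ) := by
  have hP := oddPrimes_pair hp hq (by omega) (by omega) hne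
  haveI : ∀ i, NeZero (![p, q] i) := fun i => ⟨(hP.prime i).ne_zero⟩
  obtain ⟨m0, d0⟩ := sym_values hP (i := 0) (r := 5) (by simpa using hp8)
  obtain ⟨m1, d1⟩ := sym_values hP (i := 1) (r := 5) (by simpa using hq8)
  have h := not_congruent_two hP (by
    rw [matrixTwo_pair hP, m0, m1, d0, d1]
    generalize entry ![p, q] 0 1 = e
    revert e
    decide)
  simpa [Fin.prod_univ_two] using h

/-- `p q` with `p ≡ 5`, `q ≡ 7 (mod 8)` and `q` not a square modulo `p`. -/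
theorem not_congruent_five_seven (hp : p.Prime) (hq : q.Prime) (hp8 : p % 8 = 5)
    (hq8 : q % 8 = 7) (hns : ¬ IsSquare (q : ZMod p)) :
    ¬ ∃ a b c : ℚ, 0 < a ∧ 0 < b ∧ 0 < c ∧ a ^ 2 + b ^ 2 = c ^ 2 ∧
      a * b / 2 = ((p * q : ℕ) : ℚ) := by
  have hP := oddPrimes_pair hp hq (by omega) (by omega) (by omega)
  haveI : ∀ i, NeZero (![p, q] i) := fun i => ⟨(hP.prime i).ne_zero⟩
  obtain ⟨m0, d0⟩ := sym_values hP (i := 0) (r := 5) (by simpa using hp8)
  obtain ⟨m1, d1⟩ := sym_values hP (i := 1) (r := 7) (by simpa using hq8)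
  have he : entry ![p, q] 0 1 = 1 := if_neg hns
  have h := not_congruent hP (by
    rw [matrix_pair hP, m0, m1, d0, d1, he]
    decide)
  simpa [Fin.prod_univ_two] using h

/-- Two large primes making a non-congruent number in each of the classes `1, 2, 3 (mod 8)`. -/
theorem exists_two_primes (a : ℕ) (ha : a = 1 ∨ a = 2 ∨ a = 3) (X : ℕ) :
    ∃ n p q : ℕ, p.Prime ∧ q.Prime ∧ X < p ∧ p < q ∧ n % 8 = a ∧ (n = p * q ∨ n = 2 * (p * q)) ∧
      ¬ ∃ a b c : ℚ, 0 < a ∧ 0 < b ∧ 0 < c ∧ a ^ 2 + b ^ 2 = c ^ 2 ∧ a * b / 2 = (n : ℚ) := by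
  have pick : ∀ (r Y : ℕ), r.Coprime 8 → ∃ l, Y < l ∧ l.Prime ∧ l % 8 = r % 8 := fun r Y h =>
    let ⟨l, h1, h2, h3⟩ := Nat.forall_exists_prime_gt_and_modEq Y (by norm_num : (8 : ℕ) ≠ 0) h
    ⟨l, h1, h2, h3⟩
  rcases ha with rfl | rfl | rfl
  · obtain ⟨p, hpX, hp, hp8⟩ := pick 3 X (by norm_num)
    obtain ⟨q, hqp, hq, hq8⟩ := pick 3 p (by norm_num)
    exact ⟨p * q, p, q, hp, hq, hpX, hqp, by rw [Nat.mul_mod, hp8, hq8], Or.inl rfl,
      not_congruent_three_three hp hq hqp.ne hp8 hq8⟩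
  · obtain ⟨p, hpX, hp, hp8⟩ := pick 5 X (by norm_num)
    obtain ⟨q, hqp, hq, hq8⟩ := pick 5 p (by norm_num)
    exact ⟨2 * (p * q), p, q, hp, hq, hpX, hqp,
      by rw [Nat.mul_mod, Nat.mul_mod p, hp8, hq8], Or.inr rfl,
      not_congruent_two_five_five hp hq hqp.ne hp8 hq8⟩
  · obtain ⟨p, hpX, hp, hp8⟩ := pick 5 X (by norm_num)
    haveI := Fact.mk hp
    obtain ⟨z, hz⟩ := FiniteField.exists_nonsquare (F := ZMod p)
      (by rw [ZMod.ringChar_zmod_n]; omega)
    have hz0 : z.val ≠ 0 := fun h => hz (by rw [(ZMod.val_eq_zero z).1 h]; exact IsSquare.zero)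
    have hco : Nat.Coprime 8 p :=
      Nat.Coprime.pow_left 3 ((Nat.coprime_primes Nat.prime_two hp).2 (by omega))
    set c := Nat.chineseRemainder hco 7 z.val
    have hc8 : (c : ℕ) % 8 = 7 := c.2.1
    have hcp : ((c : ℕ) : ZMod p) = z := by
      rw [(ZMod.natCast_eq_natCast_iff' _ _ _).2 c.2.2, ZMod.natCast_zmod_val]
    have hcop : Nat.Coprime c (8 * p) := by
      refine Nat.Coprime.mul_right ?_ ?_
      · exact Nat.Coprime.pow_right 3 ((Nat.coprime_two_right).2 (Nat.odd_iff.2 (by omega)))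
      · exact ((hp.coprime_iff_not_dvd).2 fun h => hz (by
          rw [← hcp, (ZMod.natCast_eq_zero_iff _ _).2 h]; exact IsSquare.zero)).symm
    obtain ⟨q, hqp, hq, hqm⟩ :=
      Nat.forall_exists_prime_gt_and_modEq p (by have := hp.pos; omega : 8 * p ≠ 0) hcop
    have hq8 : q % 8 = 7 := by
      rw [Nat.ModEq.of_mul_right p hqm, hc8]
    refine ⟨p * q, p, q, hp, hq, hpX, hqp, by rw [Nat.mul_mod, hp8, hq8], Or.inl rfl,
      not_congruent_five_seven hp hq hp8 hq8 ?_⟩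
    rw [(ZMod.natCast_eq_natCast_iff' _ _ _).2 (Nat.ModEq.of_mul_left 8 hqm), hcp]
    exact hz

end twoPrimes

end FA.Monsky

end
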