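import Mathlib

/-!
# Congruent numbers in residue classes

The triangle with legs `a² - 1`, `2 a` scaled by a square gives the congruent numbers
`a (a² - 1) / s²`. With `a = M² r'` every class modulo `M` is hit, and a prime dividing `r'`
exactly once makes the squarefree parts unbounded.
-/

set_option autoImplicit false

namespace FA.Monsky

/-- The area `a (a² - 1) / s²` is congruent. -/
theorem congruent_of_cubic {a s n : ℕ} (ha : 1 < a) (hs : 0 < s)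
    (h : (n : ℤ) * (s : ℤ) ^ 2 = a * ((a : ℤ) ^ 2 - 1)) :
    ∃ x y z : ℚ, 0 < x ∧ 0 < y ∧ 0 < z ∧ x ^ 2 + y ^ 2 = z ^ 2 ∧ x * y / 2 = (n : ℚ) := by
  have ha' : (1 : ℚ) < a := Nat.one_lt_cast.2 ha
  have hs' : (0 : ℚ) < s := Nat.cast_pos.2 hs
  have hq : (n : ℚ) * (s : ℚ) ^ 2 = a * ((a : ℚ) ^ 2 - 1) := by exact_mod_cast h
  refine ⟨((a : ℚ) ^ 2 - 1) / s, 2 * a / s, ((a : ℚ) ^ 2 + 1) / s,
    div_pos (by nlinarith) hs', by positivity, by positivity, ?_, ?_⟩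
  · field_simp; ring
  · field_simp; linear_combination -hq

/-- Natural numbers in a given class with a large prime dividing exactly once. -/
theorem exists_class_exact_prime {m : ℕ} (hm : 0 < m) (t B : ℕ) :
    ∃ r q : ℕ, q.Prime ∧ B < q ∧ m < q ∧ q ≤ r ∧ r % m = t % m ∧ q ∣ r ∧ ¬ q ^ 2 ∣ r := by
  obtain ⟨q, hq, hqp⟩ := Nat.exists_infinite_primes (max B m + 1)
  have hBq : B < q := by omega
  have hmq : m < q := by omega
  have hco : Nat.Coprime m (q ^ 2) := Nat.Coprime.pow_right 2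
    ((hqp.coprime_iff_not_dvd.2 fun h => absurd (Nat.le_of_dvd hm h) (by omega)).symm)
  obtain ⟨r, h1, h2⟩ := Nat.chineseRemainder hco t q
  have hsq : q < q ^ 2 := lt_self_pow₀ hqp.one_lt one_lt_two
  have hr : r % q ^ 2 = q := by rw [h2, Nat.mod_eq_of_lt hsq]
  refine ⟨r, q, hqp, hBq, hmq, hr ▸ Nat.mod_le r (q ^ 2), h1, ?_, fun h => ?_⟩
  · exact (Nat.dvd_mod_iff (dvd_pow_self q two_ne_zero)).1 (hr.symm ▸ dvd_rfl)
  · rw [Nat.mod_eq_zero_of_dvd h] at hr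
    exact hqp.ne_zero hr.symm

/-- A prime dividing `r` exactly once divides `r (b² - 1)` exactly once when it divides `b`. -/
theorem not_sq_dvd_mul_pred_sq {q r b : ℕ} (hq : q.Prime) (hr : ¬ q ^ 2 ∣ r) (hb : q ∣ b)
    (hb0 : 0 < b) : ¬ q ^ 2 ∣ r * (b ^ 2 - 1) := fun h => by
  refine hr (Nat.Coprime.dvd_of_dvd_mul_right
    (Nat.Coprime.pow_left 2 (hq.coprime_iff_not_dvd.2 fun hd => ?_)) h)
  have h1 : q ∣ b ^ 2 - (b ^ 2 - 1) := Nat.dvd_sub (dvd_pow hb two_ne_zero) hd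
  have hb2 : 1 ≤ b ^ 2 := Nat.one_le_pow _ _ hb0
  rw [show b ^ 2 - (b ^ 2 - 1) = 1 by omega] at h1
  exact hq.not_dvd_one h1

/-- Every class modulo `M` has a congruent number with a large prime dividing exactly once. -/
theorem exists_congruent_modEq {M : ℕ} (hM : 0 < M) (r B : ℕ) :
    ∃ n q : ℕ, n ≡ r [MOD M] ∧ q.Prime ∧ B < q ∧ q ∣ n ∧ ¬ q ^ 2 ∣ n ∧
      ∃ x y z : ℚ, 0 < x ∧ 0 < y ∧ 0 < z ∧ x ^ 2 + y ^ 2 = z ^ 2 ∧ x * y / 2 = (n : ℚ) := by
  obtain ⟨t, q, hq, hB, -, hqt, ht, hdvd, hexact⟩ := exists_class_exact_prime hM ((M - 1) * r) B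
  have ha : 1 < M ^ 2 * t :=
    lt_of_lt_of_le (hq.one_lt.trans_le hqt) (Nat.le_mul_of_pos_left t (pow_pos hM 2))
  have hone : 1 ≤ (M ^ 2 * t) ^ 2 := Nat.one_le_pow _ _ (by omega)
  refine ⟨t * ((M ^ 2 * t) ^ 2 - 1), q, ?_, hq, hB, dvd_mul_of_dvd_left hdvd _,
    not_sq_dvd_mul_pred_sq hq hexact (dvd_mul_of_dvd_right hdvd _) (by omega),
    congruent_of_cubic ha hM ?_⟩
  · rw [← ZMod.natCast_eq_natCast_iff, Nat.cast_mul, Nat.cast_sub hone]
    have e : (t : ZMod M) = ((M - 1) * r : ℕ) := (ZMod.natCast_eq_natCast_iff' _ _ _).2 ht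
    push_cast
    rw [e, Nat.cast_mul, Nat.cast_sub hM, Nat.cast_one, ZMod.natCast_self]
    ring
  · rw [Nat.cast_mul (t : ℕ), Nat.cast_sub hone]
    push_cast
    ring

/-- A squarefree congruent number in each admissible class modulo `8`. -/
theorem exists_squarefree_congruent (s : ℕ) (hs : s ∈ [1, 2, 3, 5, 6, 7]) (B : ℕ) :
    ∃ n : ℕ, Squarefree n ∧ n % 8 = s ∧ B < n ∧
      ∃ x y z : ℚ, 0 < x ∧ 0 < y ∧ 0 < z ∧ x ^ 2 + y ^ 2 = z ^ 2 ∧ x * y / 2 = (n : ℚ) := by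
  suffices key : ∀ e u, e = 1 ∨ e = 2 → u % 2 = 1 → u < 8 →
      ∃ m, Squarefree (e * m) ∧ m % 8 = u ∧ B < m ∧
        ∃ x y z : ℚ, 0 < x ∧ 0 < y ∧ 0 < z ∧ x ^ 2 + y ^ 2 = z ^ 2 ∧
          x * y / 2 = ((e * m : ℕ) : ℚ) by
    simp only [List.mem_cons, List.not_mem_nil, or_false] at hs
    by_cases he : s % 2 = 1
    · obtain ⟨m, h1, h2, h3, h4⟩ := key 1 s (Or.inl rfl) he (by omega)
      exact ⟨1 * m, h1, by omega, by omega, h4⟩
    · obtain ⟨m, h1, h2, h3, h4⟩ := key 2 (s / 2) (Or.inr rfl) (by omega) (by omega)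
      exact ⟨2 * m, h1, by omega, by omega, h4⟩
  intro e u he hu hu8
  obtain ⟨t, q, hq, hB, h8q, hqt, ht, hdvd, hexact⟩ :=
    exists_class_exact_prime (show 0 < 8 by norm_num) (8 - u) B
  set a := 4 * e * t with ha
  have he0 : 0 < e := by omega
  have ha1 : 1 < a := by
    have : t ≤ a := Nat.le_mul_of_pos_left t (by omega)
    have := hq.one_lt
    omega
  have hone : 1 ≤ a ^ 2 := Nat.one_le_pow _ _ (by omega)
  set N := t * (a ^ 2 - 1) with hN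
  have hqN : q ∣ N := dvd_mul_of_dvd_left hdvd _
  have hqN2 : ¬ q ^ 2 ∣ N :=
    not_sq_dvd_mul_pred_sq hq hexact (dvd_mul_of_dvd_right hdvd _) (by omega)
  have hN8 : N % 8 = u := by
    have ha8 : a ^ 2 % 8 = 0 := by
      rw [ha, show (4 * e * t) ^ 2 = 8 * (2 * e ^ 2 * t ^ 2) by ring]
      exact Nat.mul_mod_right _ _
    rw [hN, Nat.mul_mod, show (a ^ 2 - 1) % 8 = 7 by omega, ht]
    omega
  obtain ⟨m, l, hml, hm⟩ := Nat.sq_mul_squarefree N
  have hl : Odd l := by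
    rw [Nat.odd_iff]
    by_contra h
    obtain ⟨l', rfl⟩ : 2 ∣ l := by omega
    rw [← hml, show (2 * l') ^ 2 * m = 4 * (l' ^ 2 * m) by ring] at hN8
    omega
  have hl8 : l ^ 2 % 8 = 1 := by
    have := Nat.odd_iff.1 hl
    rw [Nat.pow_mod]
    rcases (by omega : l % 8 = 1 ∨ l % 8 = 3 ∨ l % 8 = 5 ∨ l % 8 = 7) with h | h | h | h <;>
      rw [h]
  have hm8 : m % 8 = u := by
    rw [← hml, Nat.mul_mod, hl8, one_mul, Nat.mod_mod] at hN8
    exact hN8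
  have hqm : q ∣ m := ((hq.dvd_mul).1 (hml ▸ hqN)).resolve_left fun h =>
    hqN2 (hml ▸ dvd_mul_of_dvd_left (pow_dvd_pow_of_dvd (hq.dvd_of_dvd_pow h) 2) m)
  have hm0 : 0 < m := Nat.pos_of_ne_zero hm.ne_zero
  refine ⟨m, ?_, hm8, hB.trans_le (Nat.le_of_dvd hm0 hqm), congruent_of_cubic (s := 2 * l) ha1
    (by have := hl.pos; omega) ?_⟩
  · rcases he with rfl | rfl
    · rwa [one_mul]
    · exact Nat.squarefree_mul_iff.2
        ⟨Nat.prime_two.coprime_iff_not_dvd.2 (by omega), Nat.prime_two.squarefree, hm⟩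
  · have h : ((l : ℤ) ^ 2 * m) = (t : ℤ) * ((a : ℤ) ^ 2 - 1) := by
      have := congrArg (Nat.cast : ℕ → ℤ) (hml.trans hN)
      push_cast [Nat.cast_sub hone] at this
      exact this
    rw [ha] at h ⊢
    push_cast at h ⊢
    linear_combination (4 * (e : ℤ)) * h

end FA.Monsky
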