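import Fermat.Agent.Monsky.Rank
import Fermat.Agent.Monsky.LowerHalf
import Fermat.Agent.TwoDescent.IsogenyClass
import Fermat.Agent.Frob.VarChange

/-!
# The descent homomorphism of Monsky's matrix

For odd `n = ∏ P i` the parities of the exponents of `P i` in `x` and in `x - n`, corrected by that
of `2` in `x - n` and by the sign of `x`, form a homomorphism vanishing on the torsion. Its kernel
is twice the group plus torsion and its image lies in the kernel of the matrix.
-/

set_option autoImplicit false
set_option linter.style.haveILetI false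

noncomputable section

open WeierstrassCurve
open FA.CongruentNumber
open FA.CM.Seven (twoCurve)
open FA.TwoDescent (Classes classOf classHom classFun classOf_mul classFun_some_of_ne
  classFun_some_zero)

namespace FA.Monsky

variable {k : ℕ} {P : Fin k → ℕ}

/-- The primes of the descent: `2` and those of `n`. -/
def descentPrimes (P : Fin k → ℕ) : Finset ℕ := insert 2 (Finset.univ.image P)

theorem prime_of_mem_descentPrimes (hP : OddPrimes P) : ∀ q ∈ descentPrimes P, q.Prime := by
  intro q hq
  rcases Finset.mem_insert.1 hq with rfl | h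
  · exact Nat.prime_two
  · obtain ⟨i, -, rfl⟩ := Finset.mem_image.1 h
    exact hP.prime i

/-- The index of `2`. -/
def atTwo (P : Fin k → ℕ) : Option (descentPrimes P) := some ⟨2, Finset.mem_insert_self _ _⟩

/-- The index of `P i`. -/
def atPrime (P : Fin k → ℕ) (i : Fin k) : Option (descentPrimes P) :=
  some ⟨P i, Finset.mem_insert_of_mem (Finset.mem_image_of_mem P (Finset.mem_univ i))⟩

/-- The vector of two classes. -/
def normalise (P : Fin k → ℕ) (c : Classes (descentPrimes P) × Classes (descentPrimes P)) :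
    Fin k ⊕ Fin k → ZMod 2 :=
  Sum.elim (fun i => (c.1 (atPrime P i) + c.2 (atTwo P)) + (c.2 (atPrime P i) + c.1 none))
    fun i => c.2 (atPrime P i) + c.1 none

theorem normalise_add (c c' : Classes (descentPrimes P) × Classes (descentPrimes P)) :
    normalise P (c + c') = normalise P c + normalise P c' := by
  funext w
  rcases w with i | i <;>
    simp only [normalise, Sum.elim_inl, Sum.elim_inr, Pi.add_apply, Prod.fst_add, Prod.snd_add] <;>
    ring

/-- The shift by `n`. -/
def shiftChange (n : ℕ) : VariableChange ℚ := ⟨1, (n : ℚ), 0, 0⟩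

theorem shiftChange_smul (n : ℕ) :
    shiftChange n • congCurve n = twoCurve (3 * (n : ℚ)) (2 * (n : ℚ) ^ 2) := by
  ext <;> simp [shiftChange, WeierstrassCurve.variableChange_a₁,
    WeierstrassCurve.variableChange_a₂, WeierstrassCurve.variableChange_a₃,
    WeierstrassCurve.variableChange_a₄, WeierstrassCurve.variableChange_a₆, congCurve] <;> ring

theorem isElliptic_shift {n : ℕ} (hn : n ≠ 0) :
    (twoCurve (3 * (n : ℚ)) (2 * (n : ℚ) ^ 2)).IsElliptic := by
  haveI := isElliptic_congCurve hn
  rw [← shiftChange_smul]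
  infer_instance

/-- The classes of `x` and of `x - n`. -/
def classPair (hP : OddPrimes P) {n : ℕ} (hn : n ≠ 0) :
    (congCurve n).toAffine.Point →+ Classes (descentPrimes P) × Classes (descentPrimes P) :=
  haveI := isElliptic_congCurve hn
  haveI : (twoCurve (0 : ℚ) (-(n : ℚ) ^ 2)).IsElliptic := isElliptic_congCurve hn
  haveI := isElliptic_shift hn
  (classHom (a := 0) (b := -(n : ℚ) ^ 2) (prime_of_mem_descentPrimes hP)).prod
    ((classHom (a := 3 * (n : ℚ)) (b := 2 * (n : ℚ) ^ 2) (prime_of_mem_descentPrimes hP)).comp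
      (FA.Frob.vcEquiv (shiftChange n) (shiftChange_smul n)).symm.toAddMonoidHom)

theorem classPair_some (hP : OddPrimes P) {n : ℕ} (hn : n ≠ 0) {x y : ℚ}
    (h : (congCurve n).toAffine.Nonsingular x y) :
    classPair hP hn (.some x y h) =
      (if x = 0 then classOf (descentPrimes P) (-(n : ℚ) ^ 2) else classOf (descentPrimes P) x,
      if x - (n : ℚ) = 0 then classOf (descentPrimes P) (2 * (n : ℚ) ^ 2)
        else classOf (descentPrimes P) (x - (n : ℚ))) := by
  haveI := isElliptic_congCurve hn
  haveI := isElliptic_shift hn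
  have h' : (twoCurve (3 * (n : ℚ)) (2 * (n : ℚ) ^ 2)).toAffine.Nonsingular (x - n) y :=
    Affine.equation_iff_nonsingular.mp ((FA.Frob.equation_vc (shiftChange n) (shiftChange_smul n)
      _ _).1 (by simpa [FA.Frob.vcX, FA.Frob.vcY, shiftChange] using h.1))
  have hs : (FA.Frob.vcEquiv (shiftChange n) (shiftChange_smul n)).symm (.some x y h) =
      .some (x - n) y h' := by
    rw [AddEquiv.symm_apply_eq, FA.Frob.vcEquiv_some, Affine.Point.some.injEq]
    simp [FA.Frob.vcX, FA.Frob.vcY, shiftChange]
  show (classFun (descentPrimes P) 0 (-(n : ℚ) ^ 2) (.some x y h),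
    classFun (descentPrimes P) (3 * (n : ℚ)) (2 * (n : ℚ) ^ 2)
      ((FA.Frob.vcEquiv (shiftChange n) (shiftChange_smul n)).symm (.some x y h))) = _
  rw [hs]
  rfl

/-- **The descent homomorphism.** -/
def descentMap (hP : OddPrimes P) :
    (congCurve (∏ i, P i)).toAffine.Point →+ (Fin k ⊕ Fin k → ZMod 2) :=
  (AddMonoidHom.mk' (normalise P) normalise_add).comp (classPair hP hP.odd_prod.pos.ne')

theorem descentMap_some (hP : OddPrimes P) {x y : ℚ}
    (h : (congCurve (∏ i, P i)).toAffine.Nonsingular x y) :
    descentMap hP (.some x y h) = normalise P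
      (if x = 0 then classOf (descentPrimes P) (-((∏ i, P i : ℕ) : ℚ) ^ 2)
        else classOf (descentPrimes P) x,
      if x - ((∏ i, P i : ℕ) : ℚ) = 0 then
          classOf (descentPrimes P) (2 * ((∏ i, P i : ℕ) : ℚ) ^ 2)
        else classOf (descentPrimes P) (x - ((∏ i, P i : ℕ) : ℚ))) :=
  congrArg (normalise P) (classPair_some hP _ h)

/-- A homomorphism killing exactly the doubles up to torsion has image of dimension the rank. -/
theorem finrank_range_eq_rank {n r : ℕ} {V : Type*} [AddCommGroup V] [Module (ZMod 2) V] [Finite V]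
    (e : (congCurve n).toAffine.Point ≃+ (ZMod 2 × ZMod 2) × (Fin r → ℤ))
    (f : (congCurve n).toAffine.Point →+ V) (hf : ∀ Q, f Q = 0 ↔ Halved Q) :
    Module.finrank (ZMod 2) (AddSubgroup.toZModSubmodule 2 f.range) =
      Module.finrank ℤ (congCurve n).toAffine.Point := by
  rw [finrank_eq_of_equiv e]
  let g : (congCurve n).toAffine.Point →+ (Fin r → ZMod 2) :=
    ((Int.castAddHom (ZMod 2)).compLeft (Fin r)).comp
      ((AddMonoidHom.snd (ZMod 2 × ZMod 2) (Fin r → ℤ)).comp e.toAddMonoidHom)
  have hg : Function.Surjective g := fun v =>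
    ⟨e.symm (0, fun l => ((v l).val : ℤ)), funext fun l => by simp [g]⟩
  have hker : f.ker = g.ker := by
    ext Q
    rw [AddMonoidHom.mem_ker, hf, AddMonoidHom.mem_ker]
    constructor
    · rintro ⟨R, hR⟩
      have h0 := (((AddMonoidHom.snd _ _).comp e.toAddMonoidHom).isOfFinAddOrder hR)
      obtain ⟨m, hm, hm0⟩ := isOfFinAddOrder_iff_nsmul_eq_zero.mp h0
      funext l
      have := congrFun hm0 l
      simp [hm.ne', map_nsmul] at this
      show (((e Q).2 l : ℤ) : ZMod 2) = 0
      rw [show (e Q).2 l = 2 * (e R).2 l by linarith, Int.cast_mul,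
        show ((2 : ℤ) : ZMod 2) = 0 from rfl, zero_mul]
    · intro hQ
      have hev : ∀ l, (2 : ℤ) ∣ (e Q).2 l := fun l =>
        (ZMod.intCast_zmod_eq_zero_iff_dvd _ 2).1 (congrFun hQ l)
      choose w hw using hev
      refine ⟨e.symm (0, w), isOfFinAddOrder_iff_nsmul_eq_zero.mpr ⟨2, two_pos, e.injective ?_⟩⟩
      rw [map_nsmul, map_sub, map_nsmul, e.apply_symm_apply, map_zero]
      refine Prod.ext ((by decide : ∀ z : ZMod 2 × ZMod 2, 2 • z = 0) _) (funext fun l => ?_)
      show (2 : ℕ) • ((e Q).2 l - (2 : ℕ) • w l) = 0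
      rw [hw l]
      simp
  have h1 : Nat.card (AddSubgroup.toZModSubmodule 2 f.range) = Nat.card f.range := rfl
  rw [← AddSubgroup.index_ker, hker, AddSubgroup.index_ker,
    AddMonoidHom.range_eq_top.2 hg, AddSubgroup.card_top, Nat.card_fun, Nat.card_fin,
    Nat.card_zmod, Module.natCard_eq_pow_finrank (K := ZMod 2), Nat.card_zmod] at h1
  exact Nat.pow_right_injective le_rfl h1

section classes

variable (hP : OddPrimes P)

include hP in
theorem classOf_two : classOf (descentPrimes P) (2 : ℚ) none = 0 ∧
    classOf (descentPrimes P) (2 : ℚ) (atTwo P) = 1 ∧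
    ∀ i, classOf (descentPrimes P) (2 : ℚ) (atPrime P i) = 0 := by
  refine ⟨by simp [classOf], ?_, fun i => ?_⟩
  · show ((padicValRat 2 (2 : ℚ) : ℤ) : ZMod 2) = 1
    rw [show (2 : ℚ) = ((2 : ℕ) : ℚ) by norm_num, padicValRat.of_nat, padicValNat.self one_lt_two]
    simp
  · show ((padicValRat (P i) (2 : ℚ) : ℤ) : ZMod 2) = 0
    rw [show (2 : ℚ) = ((2 : ℕ) : ℚ) by norm_num, padicValRat.of_nat,
      padicValNat.eq_zero_of_not_dvd fun h =>
        hP.odd i ((Nat.prime_dvd_prime_iff_eq (hP.prime i) Nat.prime_two).1 h)]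
    simp

omit hP in
theorem classOf_neg_one : classOf (descentPrimes P) (-1 : ℚ) none = 1 ∧
    ∀ w, classOf (descentPrimes P) (-1 : ℚ) (some w) = 0 := by
  refine ⟨by simp [classOf], fun w => ?_⟩
  simp [classOf, padicValRat.neg]

include hP in
/-- The class of a product of the primes. -/
theorem classOf_classProd (f : Fin k → ZMod 2) :
    classOf (descentPrimes P) (classProd P f : ℚ) none = 0 ∧
    classOf (descentPrimes P) (classProd P f : ℚ) (atTwo P) = 0 ∧
    ∀ i, classOf (descentPrimes P) (classProd P f : ℚ) (atPrime P i) = f i := by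
  have hpos : 0 < classProd P f := classProd_pos hP f
  refine ⟨by simp [classOf], ?_, fun i => ?_⟩
  · show ((padicValRat 2 (classProd P f : ℚ) : ℤ) : ZMod 2) = 0
    rw [padicValRat.of_nat, padicValNat.eq_zero_of_not_dvd fun h => by
      have := classProd_odd hP f
      omega]
    simp
  · haveI := Fact.mk (hP.prime i)
    show ((padicValRat (P i) (classProd P f : ℚ) : ℤ) : ZMod 2) = f i
    rw [padicValRat.of_nat]
    have hiff : P i ∣ classProd P f ↔ f i = 1 := by
      refine ⟨fun h => ?_, fun h => dvd_trans (dvd_of_eq (by rw [if_pos h]))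
        (Finset.dvd_prod_of_mem _ (Finset.mem_univ i))⟩
      rw [classProd, ((hP.prime i).prime.dvd_finsetProd_iff _)] at h
      obtain ⟨j, -, hj⟩ := h
      split_ifs at hj with hf
      · rwa [hP.injective ((Nat.prime_dvd_prime_iff_eq (hP.prime i) (hP.prime j)).1 hj)]
      · exact absurd hj (hP.prime i).not_dvd_one
    by_cases h : f i = 1
    · have hsf : Squarefree (classProd P f) :=
        (hP.squarefree_prod Finset.univ).squarefree_of_dvd
          (Finset.prod_dvd_prod_of_dvd _ _ fun j _ => by split_ifs <;> simp)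
      have h1 : padicValNat (P i) (classProd P f) = 1 := by
        refine le_antisymm ?_ (one_le_padicValNat_of_dvd hpos.ne' (hiff.2 h))
        rw [← Nat.factorization_def _ (hP.prime i)]
        exact (Nat.squarefree_iff_factorization_le_one hpos.ne').mp hsf (P i)
      rw [h1, h]
      simp
    · rw [padicValNat.eq_zero_of_not_dvd (fun hd => h (hiff.1 hd)),
        (show ∀ z : ZMod 2, z ≠ 1 → z = 0 by decide) _ h]
      simp

include hP in
theorem classOf_of_isSquare {x : ℚ} (hx : x ≠ 0) {f : Fin k → ZMod 2}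
    (h : IsSquare ((classProd P f : ℚ) * x)) :
    classOf (descentPrimes P) x = classOf (descentPrimes P) (classProd P f : ℚ) := by
  obtain ⟨r, hr⟩ := h
  have hf := classProd_ne_zero hP f
  have hr0 : r ≠ 0 := fun h0 => mul_ne_zero hf hx (by rw [hr, h0, mul_zero])
  have hS := prime_of_mem_descentPrimes hP
  have e := classOf_mul hS hf hx
  rw [hr, classOf_mul hS hr0 hr0, FA.TwoDescent.class_add_self] at e
  exact (neg_eq_of_add_eq_zero_right e.symm).symm.trans
    (neg_eq_of_add_eq_zero_right (FA.TwoDescent.class_add_self _))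

include hP in
/-- The classes of the first coordinates of the torsion points. -/
theorem classOf_torsion :
    let S := descentPrimes P
    let n : ℚ := ((∏ i, P i : ℕ) : ℚ)
    normalise P (classOf S (-n ^ 2), classOf S (-n)) = 0 ∧
      normalise P (classOf S n, classOf S (2 * n ^ 2)) = 0 ∧
      normalise P (classOf S (-n), classOf S (-n - n)) = 0 := by
  intro S n
  have hnQ : n ≠ 0 := Nat.cast_ne_zero.2 hP.odd_prod.pos.ne'
  have hS := prime_of_mem_descentPrimes hP
  have hN : (∏ i, P i : ℕ) = classProd P 1 := by simp [classProd]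
  obtain ⟨a0, a2, ap⟩ := classOf_classProd hP 1
  rw [← hN] at a0 a2 ap
  obtain ⟨b0, b2, bp⟩ := classOf_two hP
  obtain ⟨c0, cs⟩ := classOf_neg_one (P := P)
  have cT : classOf (descentPrimes P) (-1 : ℚ) (atTwo P) = 0 := cs _
  have cP : ∀ i, classOf (descentPrimes P) (-1 : ℚ) (atPrime P i) = 0 := fun i => cs _
  have sq : classOf S (n ^ 2) = 0 := FA.TwoDescent.classOf_sq hS hnQ
  have h1 : (-1 : ℚ) ≠ 0 := by norm_num
  have e1 : classOf S (-n ^ 2) = classOf S (-1) := by
    rw [show -n ^ 2 = -1 * n ^ 2 by ring, classOf_mul hS h1 (pow_ne_zero 2 hnQ), sq, add_zero]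
  have e2 : classOf S (2 * n ^ 2) = classOf S 2 := by
    rw [classOf_mul hS two_ne_zero (pow_ne_zero 2 hnQ), sq, add_zero]
  have e3 : classOf S (-n) = classOf S (-1) + classOf S n := by
    rw [← classOf_mul hS h1 hnQ, neg_one_mul]
  have e4 : classOf S (-n - n) = classOf S (-1) + (classOf S 2 + classOf S n) := by
    rw [← classOf_mul hS two_ne_zero hnQ, ← classOf_mul hS h1 (mul_ne_zero two_ne_zero hnQ)]
    exact congrArg (classOf S) (by ring)
  rw [e1, e2, e3, e4]
  refine ⟨?_, ?_, ?_⟩ <;> funext w <;> rcases w with i | i <;>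
    simp only [S, n, normalise, Sum.elim_inl, Sum.elim_inr, Pi.add_apply, Pi.zero_apply, a0, a2,
      ap, b2, bp, c0, cT, cP, Pi.one_apply] <;> decide

/-- **The torsion has the zero vector.** -/
theorem descentMap_torsion {t : (congCurve (∏ i, P i)).toAffine.Point} (ht : IsOfFinAddOrder t) :
    descentMap hP t = 0 := by
  have hn := hP.odd_prod.pos.ne'
  rcases t with _ | ⟨x, y, h⟩
  · exact map_zero _
  have hy := y_eq_zero_of_torsion hn ht
  subst hy
  have e := equation_congCurve h
  obtain ⟨t1, t2, t3⟩ := classOf_torsion hP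
  rw [descentMap_some hP h]
  set n : ℚ := ((∏ i, P i : ℕ) : ℚ) with hndef
  have hnQ : n ≠ 0 := Nat.cast_ne_zero.2 hn
  have hx : x * (x - n) * (x + n) = 0 := by linear_combination -e
  rcases mul_eq_zero.1 hx with hx' | hx'
  · rcases mul_eq_zero.1 hx' with hx' | hx'
    · subst hx'
      rw [if_pos rfl, if_neg (by simpa using hnQ), zero_sub]
      exact t1
    · obtain rfl : x = n := by linarith
      rw [if_neg hnQ, sub_self, if_pos rfl]
      exact t2
  · obtain rfl : x = -n := by linarith
    rw [if_neg (neg_ne_zero.2 hnQ), if_neg (fun h0 => hnQ (by linarith))]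
    exact t3

theorem descentMap_classified {Q : (congCurve (∏ i, P i)).toAffine.Point}
    {z : Fin k ⊕ Fin k → ZMod 2} (h : Classified P Q z) : descentMap hP Q = z := by
  obtain ⟨t, ht, x, y, hns, ha, hy, a, b⟩ := h
  have hQ : descentMap hP Q = descentMap hP (Q + t) := by
    rw [map_add, descentMap_torsion hP ht, add_zero]
  rw [hQ, ha, descentMap_some hP hns]
  have e := equation_congCurve hns
  have hx : x ≠ 0 := fun h0 => hy (by rw [h0] at e; simpa using e)
  have hxn : x - ((∏ i, P i : ℕ) : ℚ) ≠ 0 := fun h0 => hy (by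
    rw [show x = ((∏ i, P i : ℕ) : ℚ) by linarith] at e
    simpa using e.trans (by ring : _ = (0 : ℚ)))
  rw [if_neg hx, if_neg hxn, classOf_of_isSquare hP hx a, classOf_of_isSquare hP hxn b]
  obtain ⟨a0, a2, ap⟩ := classOf_classProd hP (z ∘ Sum.inl + z ∘ Sum.inr)
  obtain ⟨b0, b2, bp⟩ := classOf_classProd hP (z ∘ Sum.inr)
  funext w
  rcases w with i | i <;> simp [normalise, a0, b2, ap, bp, CharTwo.add_self_eq_zero, add_assoc]

variable [∀ i, NeZero (P i)]

/-- **The image lies in the kernel of the matrix.** -/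
theorem descentMap_mem_ker (Q : (congCurve (∏ i, P i)).toAffine.Point) :
    descentMap hP Q ∈ LinearMap.ker (matrix P).mulVecLin := by
  by_cases hQ : IsOfFinAddOrder Q
  · rw [descentMap_torsion hP hQ]
    exact zero_mem _
  · obtain ⟨z, hz, hc⟩ := exists_classified hP hQ
    rw [descentMap_classified hP hc]
    exact hz

/-- **The kernel is twice the group plus torsion.** -/
theorem descentMap_eq_zero_iff (Q : (congCurve (∏ i, P i)).toAffine.Point) :
    descentMap hP Q = 0 ↔ Halved Q := by
  refine ⟨fun h => ?_, fun ⟨R, hR⟩ => ?_⟩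
  · by_cases hQ : IsOfFinAddOrder Q
    · exact halved_of_torsion hQ
    obtain ⟨z, -, hc⟩ := exists_classified hP hQ
    rw [descentMap_classified hP hc] at h
    exact halved_of_classified hP (h ▸ hc)
  · have := descentMap_torsion hP hR
    rw [map_sub, map_nsmul, two_nsmul] at this
    rw [sub_eq_zero.1 this]
    exact funext fun w => CharTwo.add_self_eq_zero _

/-- The classes of the rational points. -/
def globalClasses : Submodule (ZMod 2) (Fin k ⊕ Fin k → ZMod 2) :=
  AddSubgroup.toZModSubmodule 2 (descentMap hP).range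

/-- **The image has the dimension of the rank.** -/
theorem finrank_globalClasses :
    Module.finrank (ZMod 2) (globalClasses hP) =
      Module.finrank ℤ (congCurve (∏ i, P i)).toAffine.Point := by
  obtain ⟨r, -, ⟨e⟩⟩ := exists_rank_le hP
  exact finrank_range_eq_rank e _ (descentMap_eq_zero_iff hP)

theorem globalClasses_le : globalClasses hP ≤ LinearMap.ker (matrix P).mulVecLin := by
  rintro _ ⟨Q, rfl⟩
  exact descentMap_mem_ker hP Q

/-- The classes soluble everywhere locally modulo those of rational points; classically `Ш[2]`. -/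
abbrev ShaTwo : Type :=
  LinearMap.ker (matrix P).mulVecLin ⧸
    (globalClasses hP).comap (LinearMap.ker (matrix P).mulVecLin).subtype

/-- **The exact descent sequence, in dimensions.** -/
theorem finrank_add_shaTwo :
    Module.finrank ℤ (congCurve (∏ i, P i)).toAffine.Point +
        Module.finrank (ZMod 2) (ShaTwo hP) =
      Module.finrank (ZMod 2) (LinearMap.ker (matrix P).mulVecLin) := by
  rw [← finrank_globalClasses hP,
    ← (Submodule.comapSubtypeEquivOfLe (globalClasses_le hP)).finrank_eq, add_comm]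
  exact Submodule.finrank_quotient_add_finrank _

end classes

end FA.Monsky

end
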