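import Fermat.Agent.Monsky.Descent
import Fermat.Agent.Monsky.EvenPoints

/-!
# The descent homomorphism for even `n`

For `n = 2 N` the exponents are corrected by that of `2` in `x` and by the sign of `x`; the second
half of the vector carries the shift by the parity of the first class.
-/

set_option autoImplicit false
set_option linter.style.haveILetI false

noncomputable section

open WeierstrassCurve
open FA.CongruentNumber
open FA.TwoDescent (Classes classOf classOf_mul)

namespace FA.Monsky

variable {k : ℕ} {P : Fin k → ℕ} [∀ i, NeZero (P i)]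

/-- The vector of two classes for even `n`. -/
def normaliseTwo (P : Fin k → ℕ) [∀ i, NeZero (P i)]
    (c : Classes (descentPrimes P) × Classes (descentPrimes P)) : Fin k ⊕ Fin k → ZMod 2 :=
  Sum.elim (fun i => c.1 (atPrime P i) + c.1 (atTwo P)) fun i =>
    (c.1 (atPrime P i) + c.1 (atTwo P)) + (c.2 (atPrime P i) + c.1 none) +
      eta P fun j => c.1 (atPrime P j) + c.1 (atTwo P)

theorem normaliseTwo_add (c c' : Classes (descentPrimes P) × Classes (descentPrimes P)) :
    normaliseTwo P (c + c') = normaliseTwo P c + normaliseTwo P c' := by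
  funext w
  rcases w with i | i <;>
    simp only [normaliseTwo, Sum.elim_inl, Sum.elim_inr, Pi.add_apply, Prod.fst_add, Prod.snd_add,
      eta, add_mul, Finset.sum_add_distrib] <;>
    ring

/-- **The descent homomorphism for even `n`.** -/
def descentMapTwo (hP : OddPrimes P) :
    (congCurve (2 * ∏ i, P i)).toAffine.Point →+ (Fin k ⊕ Fin k → ZMod 2) :=
  (AddMonoidHom.mk' (normaliseTwo P) normaliseTwo_add).comp
    (classPair hP (two_mul_prod_ne_zero hP))

theorem descentMapTwo_some (hP : OddPrimes P) {x y : ℚ}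
    (h : (congCurve (2 * ∏ i, P i)).toAffine.Nonsingular x y) :
    descentMapTwo hP (.some x y h) = normaliseTwo P
      (if x = 0 then classOf (descentPrimes P) (-((2 * ∏ i, P i : ℕ) : ℚ) ^ 2)
        else classOf (descentPrimes P) x,
      if x - ((2 * ∏ i, P i : ℕ) : ℚ) = 0 then
          classOf (descentPrimes P) (2 * ((2 * ∏ i, P i : ℕ) : ℚ) ^ 2)
        else classOf (descentPrimes P) (x - ((2 * ∏ i, P i : ℕ) : ℚ))) :=
  congrArg (normaliseTwo P) (classPair_some hP _ h)

theorem classOf_eq_of_isSquare {S : Finset ℕ} (hS : ∀ q ∈ S, q.Prime) {δ x : ℚ} (hδ : δ ≠ 0)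
    (hx : x ≠ 0) (h : IsSquare (δ * x)) : classOf S x = classOf S δ := by
  obtain ⟨r, hr⟩ := h
  have hr0 : r ≠ 0 := fun h0 => mul_ne_zero hδ hx (by rw [hr, h0, mul_zero])
  have e := classOf_mul hS hδ hx
  rw [hr, classOf_mul hS hr0 hr0, FA.TwoDescent.class_add_self] at e
  exact (neg_eq_of_add_eq_zero_right e.symm).symm.trans
    (neg_eq_of_add_eq_zero_right (FA.TwoDescent.class_add_self _))

omit [∀ i, NeZero (P i)] in
theorem classOf_twoClass (hP : OddPrimes P) (η : ZMod 2) (i : Fin k) :
    classOf (descentPrimes P) (twoClass η : ℚ) (atPrime P i) = 0 := by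
  rcases (show ∀ z : ZMod 2, z = 0 ∨ z = 1 by decide) η with rfl | rfl
  · simp [twoClass, classOf, atPrime]
  · simpa [twoClass] using (classOf_two hP).2.2 i

variable (hP : OddPrimes P)

include hP in
/-- The torsion points have the zero vector. -/
theorem classOf_torsion_two :
    let S := descentPrimes P
    let n : ℚ := ((2 * ∏ i, P i : ℕ) : ℚ)
    normaliseTwo P (classOf S (-n ^ 2), classOf S (-n)) = 0 ∧
      normaliseTwo P (classOf S n, classOf S (2 * n ^ 2)) = 0 ∧
      normaliseTwo P (classOf S (-n), classOf S (-n - n)) = 0 := by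
  intro S n
  have hnQ : n ≠ 0 := Nat.cast_ne_zero.2 (two_mul_prod_ne_zero hP)
  have hS := prime_of_mem_descentPrimes hP
  set N : ℚ := (classProd P 1 : ℚ)
  have hN0 : N ≠ 0 := classProd_ne_zero hP 1
  have hn : n = 2 * N := by simp [n, N, classProd]
  obtain ⟨a0, a2, ap⟩ := classOf_classProd hP 1
  obtain ⟨b0, b2, bp⟩ := classOf_two hP
  obtain ⟨c0, cs⟩ := classOf_neg_one (P := P)
  have cT : classOf (descentPrimes P) (-1 : ℚ) (atTwo P) = 0 := cs _
  have cP : ∀ i, classOf (descentPrimes P) (-1 : ℚ) (atPrime P i) = 0 := fun i => cs _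
  have sq : classOf S (n ^ 2) = 0 := FA.TwoDescent.classOf_sq hS hnQ
  have h1 : (-1 : ℚ) ≠ 0 := by norm_num
  have en : classOf S n = classOf S 2 + classOf S N := by
    rw [hn, classOf_mul hS two_ne_zero hN0]
  have e1 : classOf S (-n ^ 2) = classOf S (-1) := by
    rw [show -n ^ 2 = -1 * n ^ 2 by ring, classOf_mul hS h1 (pow_ne_zero 2 hnQ), sq, add_zero]
  have e2 : classOf S (2 * n ^ 2) = classOf S 2 := by
    rw [classOf_mul hS two_ne_zero (pow_ne_zero 2 hnQ), sq, add_zero]
  have e3 : classOf S (-n) = classOf S (-1) + (classOf S 2 + classOf S N) := by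
    rw [← en, ← classOf_mul hS h1 hnQ, neg_one_mul]
  have e4 : classOf S (-n - n) = classOf S (-1) + classOf S N := by
    have hsq : classOf S ((2 : ℚ) ^ 2) = 0 := FA.TwoDescent.classOf_sq hS two_ne_zero
    rw [show -n - n = (2 : ℚ) ^ 2 * (-1 * N) by rw [hn]; ring,
      classOf_mul hS (pow_ne_zero 2 two_ne_zero) (mul_ne_zero h1 hN0), hsq, zero_add,
      classOf_mul hS h1 hN0]
  have etaZero : eta P (fun _ => (0 : ZMod 2)) = 0 := by simp [eta]
  rw [e1, e2, e3, e4, en]
  refine ⟨?_, ?_, ?_⟩ <;> funext w <;> rcases w with i | i <;>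
    simp only [S, N, normaliseTwo, Sum.elim_inl, Sum.elim_inr, Pi.add_apply, Pi.zero_apply, a0, a2,
      ap, b0, b2, bp, c0, cT, cP, Pi.one_apply, add_zero, zero_add, CharTwo.add_self_eq_zero,
      etaZero]

/-- **The torsion has the zero vector.** -/
theorem descentMapTwo_torsion {t : (congCurve (2 * ∏ i, P i)).toAffine.Point}
    (ht : IsOfFinAddOrder t) : descentMapTwo hP t = 0 := by
  have hn := two_mul_prod_ne_zero hP
  rcases t with _ | ⟨x, y, h⟩
  · exact map_zero _
  have hy := y_eq_zero_of_torsion hn ht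
  subst hy
  have e := equation_congCurve h
  obtain ⟨t1, t2, t3⟩ := classOf_torsion_two hP
  rw [descentMapTwo_some hP h]
  set n : ℚ := ((2 * ∏ i, P i : ℕ) : ℚ) with hndef
  have hnQ : n ≠ 0 := Nat.cast_ne_zero.2 hn
  have hx : x * (x - n) * (x + n) = 0 := by linear_combination -e
  rcases mul_eq_zero.1 hx with hx' | hx'
  · rcases mul_eq_zero.1 hx' with hx' | hx'
    · subst hx'
      rw [if_pos rfl, if_neg (by simpa using hnQ), zero_sub]
      exact t1
    · obtain rfl : x = n := by linarith
      rw [if_neg hnQ, sub_self, if_pos rfl]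
      exact t2
  · obtain rfl : x = -n := by linarith
    rw [if_neg (neg_ne_zero.2 hnQ), if_neg (fun h0 => hnQ (by linarith))]
    exact t3

theorem descentMapTwo_classified {Q : (congCurve (2 * ∏ i, P i)).toAffine.Point}
    {z : Fin k ⊕ Fin k → ZMod 2} (h : ClassifiedTwo P Q z) : descentMapTwo hP Q = z := by
  obtain ⟨t, ht, x, y, hns, ha, hy, a, b⟩ := h
  have hQ : descentMapTwo hP Q = descentMapTwo hP (Q + t) := by
    rw [map_add, descentMapTwo_torsion hP ht, add_zero]
  rw [hQ, ha, descentMapTwo_some hP hns]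
  have hS := prime_of_mem_descentPrimes hP
  have e := equation_congCurve hns
  have hx : x ≠ 0 := fun h0 => hy (by rw [h0] at e; simpa using e)
  have hxn : x - ((2 * ∏ i, P i : ℕ) : ℚ) ≠ 0 := fun h0 => hy (by
    rw [show x = ((2 * ∏ i, P i : ℕ) : ℚ) by linarith] at e
    simpa using e.trans (by ring : _ = (0 : ℚ)))
  have ht0 : (twoClass (eta P (z ∘ Sum.inl)) : ℚ) ≠ 0 := by
    rw [twoClass]; split_ifs <;> norm_num
  rw [if_neg hx, if_neg hxn, classOf_eq_of_isSquare hS (classProd_ne_zero hP _) hx a,
    classOf_eq_of_isSquare hS (Nat.cast_ne_zero.2 (mul_ne_zero (by exact_mod_cast ht0)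
      (classProd_pos hP _).ne')) hxn b, Nat.cast_mul,
    classOf_mul hS ht0 (classProd_ne_zero hP _)]
  obtain ⟨a0, a2, ap⟩ := classOf_classProd hP (z ∘ Sum.inl)
  obtain ⟨-, -, bp⟩ := classOf_classProd hP
    (z ∘ Sum.inr + z ∘ Sum.inl + fun _ : Fin k => eta P (z ∘ Sum.inl))
  have et := classOf_twoClass hP (eta P (z ∘ Sum.inl))
  funext w
  rcases w with i | i
  · simp [normaliseTwo, a2, ap]
  · have key : ∀ a b c : ZMod 2, a + (b + a + c) + c = b := by decide
    simp only [normaliseTwo, Sum.elim_inr, Pi.add_apply, ap, a2, a0, bp, et, add_zero, zero_add]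
    exact key _ _ _

/-- **The image lies in the kernel of the matrix.** -/
theorem descentMapTwo_mem_ker (Q : (congCurve (2 * ∏ i, P i)).toAffine.Point) :
    descentMapTwo hP Q ∈ LinearMap.ker (matrixTwo P).mulVecLin := by
  by_cases hQ : IsOfFinAddOrder Q
  · rw [descentMapTwo_torsion hP hQ]
    exact zero_mem _
  · obtain ⟨z, hz, hc⟩ := exists_classified_two hP hQ
    rw [descentMapTwo_classified hP hc]
    exact hz

/-- **The kernel is twice the group plus torsion.** -/
theorem descentMapTwo_eq_zero_iff (Q : (congCurve (2 * ∏ i, P i)).toAffine.Point) :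
    descentMapTwo hP Q = 0 ↔ Halved Q := by
  refine ⟨fun h => ?_, fun ⟨R, hR⟩ => ?_⟩
  · by_cases hQ : IsOfFinAddOrder Q
    · exact halved_of_torsion hQ
    obtain ⟨z, -, hc⟩ := exists_classified_two hP hQ
    rw [descentMapTwo_classified hP hc] at h
    exact halved_of_classified_two hP (h ▸ hc)
  · have := descentMapTwo_torsion hP hR
    rw [map_sub, map_nsmul, two_nsmul] at this
    rw [sub_eq_zero.1 this]
    exact funext fun w => CharTwo.add_self_eq_zero _

/-- The classes of the rational points for even `n`. -/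
def globalClassesTwo : Submodule (ZMod 2) (Fin k ⊕ Fin k → ZMod 2) :=
  AddSubgroup.toZModSubmodule 2 (descentMapTwo hP).range

theorem globalClassesTwo_le : globalClassesTwo hP ≤ LinearMap.ker (matrixTwo P).mulVecLin := by
  rintro _ ⟨Q, rfl⟩
  exact descentMapTwo_mem_ker hP Q

/-- The classes soluble everywhere locally modulo those of rational points, even `n`. -/
abbrev ShaTwoEven : Type :=
  LinearMap.ker (matrixTwo P).mulVecLin ⧸
    (globalClassesTwo hP).comap (LinearMap.ker (matrixTwo P).mulVecLin).subtype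

/-- **The exact descent sequence for even `n`, in dimensions.** -/
theorem finrank_add_shaTwoEven :
    Module.finrank ℤ (congCurve (2 * ∏ i, P i)).toAffine.Point +
        Module.finrank (ZMod 2) (ShaTwoEven hP) =
      Module.finrank (ZMod 2) (LinearMap.ker (matrixTwo P).mulVecLin) := by
  obtain ⟨r, -, ⟨e⟩⟩ := exists_rank_le_two hP
  rw [← finrank_range_eq_rank e _ (descentMapTwo_eq_zero_iff hP), add_comm]
  rw [show AddSubgroup.toZModSubmodule 2 (descentMapTwo hP).range = globalClassesTwo hP from rfl,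
    ← (Submodule.comapSubtypeEquivOfLe (globalClassesTwo_le hP)).finrank_eq]
  exact Submodule.finrank_quotient_add_finrank _

end FA.Monsky

end
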