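import Fermat.Agent.Monsky.Bastien
import Fermat.Agent.Monsky.EvenPoints

/-!
# Twice a prime `≡ 9 (mod 16)`

For `n = 2 p`, `p ≡ 1 (mod 8)`, Monsky's matrix vanishes. In each of the three nontrivial classes an
integer whose odd primes have `p` as a square makes `√2 (1 + √2)` or `√2 (1 + √-1)` a square
modulo `p`. Both are squares times a primitive eighth root of unity, so `p ≡ 1 (mod 16)`.
-/

set_option autoImplicit false
set_option linter.style.haveILetI false

noncomputable section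

open WeierstrassCurve
open FA.CongruentNumber

namespace FA.Monsky

variable {p : ℕ} [hp : Fact p.Prime]

/-- `√2 (1 + √-1)` is not a square modulo `p ≡ 9 (mod 16)`. -/
theorem not_isSquare_sqrt_two_one_add_i (h16 : p % 16 = 9) {s i : ZMod p} (hs : s ^ 2 = 2)
    (hi : i ^ 2 = -1) : ¬ IsSquare (s * (1 + i)) := by
  rintro ⟨t, ht⟩
  have h8 : p % 8 = 1 := by omega
  have h2 := two_ne_zero_mod h8
  have hs0 : s ≠ 0 := fun h => h2 (by rw [← hs, h]; ring)
  -- `t / s` has order `16`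
  set z : ZMod p := t / s with hz
  have hz2 : z ^ 2 = (1 + i) / s := by
    rw [hz, div_pow, div_eq_div_iff (pow_ne_zero 2 hs0) hs0]
    linear_combination -s * ht
  have hz4 : z ^ 4 = i := by
    rw [show z ^ 4 = (z ^ 2) ^ 2 by ring, hz2, div_pow, hs, div_eq_iff h2]
    linear_combination hi
  have hz8 : z ^ 8 = -1 := by rw [show z ^ 8 = (z ^ 4) ^ 2 by ring, hz4, hi]
  have hz0 : z ≠ 0 := fun h => by
    rw [h, zero_pow (by norm_num)] at hz8
    exact one_ne_zero (α := ZMod p) (neg_eq_zero.1 hz8.symm)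
  have := ZMod.pow_card_sub_one_eq_one hz0
  rw [show p - 1 = 8 * (2 * ((p - 1) / 16) + 1) by omega, pow_mul, hz8, Odd.neg_one_pow ⟨_, rfl⟩]
    at this
  exact h2 (by linear_combination -this)

/-- `√2 (1 + √2)` is not a square modulo `p ≡ 9 (mod 16)`. -/
theorem not_isSquare_sqrt_two_one_add (h16 : p % 16 = 9) {s : ZMod p} (hs : s ^ 2 = 2) :
    ¬ IsSquare (s * (1 + s)) := by
  rintro ⟨t, ht⟩
  have h8 : p % 8 = 1 := by omega
  have h2 := two_ne_zero_mod h8
  have hs0 : s ≠ 0 := fun h => h2 (by rw [← hs, h]; ring)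
  obtain ⟨i, hi'⟩ := ZMod.exists_sq_eq_neg_one_iff.2 (show p % 4 ≠ 3 by omega)
  have hi : i ^ 2 = -1 := by rw [sq, hi']
  have ht0 : t ≠ 0 := fun h => by
    rw [h, zero_mul] at ht
    rcases mul_eq_zero.1 ht with h0 | h0
    · exact hs0 h0
    · exact one_ne_zero (α := ZMod p) (by linear_combination -hs + (s - 1) * h0)
  -- `2 (1 + s) (1 + i) = (1 + s + i)²`
  refine not_isSquare_sqrt_two_one_add_i h16 hs hi ⟨(1 + s + i) / t, ?_⟩
  rw [div_mul_div_comm, eq_div_iff (mul_ne_zero ht0 ht0)]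
  linear_combination -s * (1 + i) * ht + ((1 + s) * (1 + i) - 1) * hs - hi

/-- The class `(1, p, p)` of `2 p` has no points. -/
theorem false_two_one_p (h16 : p % 16 = 9) {u e v w : ℤ} (hco : IsCoprime ((p : ℤ) * u) e)
    (h1 : p * u ^ 2 - 2 * e ^ 2 = v ^ 2) (h2 : p * u ^ 2 + 2 * e ^ 2 = w ^ 2) : False := by
  have h8 : p % 8 = 1 := by omega
  have hpI : Prime (p : ℤ) := Nat.prime_iff_prime_int.1 hp.out
  have h20 := two_ne_zero_mod h8
  have he : (e : ZMod p) ≠ 0 := fun h => hpI.not_isUnit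
    (hco.isUnit_of_dvd' (dvd_mul_right _ _) ((ZMod.intCast_zmod_eq_zero_iff_dvd _ _).1 h))
  have res : ∀ q : ℕ, q.Prime → (q : ℤ) ∣ e → IsSquare (p : ZMod q) := by
    intro q hq hd
    haveI := Fact.mk hq
    have hu : (u : ZMod q) ≠ 0 := fun h => (Nat.prime_iff_prime_int.1 hq).not_isUnit
      (hco.isUnit_of_dvd' (dvd_mul_of_dvd_right
        ((ZMod.intCast_zmod_eq_zero_iff_dvd _ _).1 h) _) hd)
    have c1 := congrArg (Int.cast : ℤ → ZMod q) h1
    push_cast at c1
    rw [(ZMod.intCast_zmod_eq_zero_iff_dvd _ _).2 hd] at c1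
    refine ⟨(v : ZMod q) / u, ?_⟩
    rw [div_mul_div_comm, eq_div_iff (mul_ne_zero hu hu)]
    linear_combination c1
  have sqe := isSquare_intCast_of_residues (z := e) h8 fun q hq _ hd => res q hq hd
  have c1 := congrArg (Int.cast : ℤ → ZMod p) h1
  have c2 := congrArg (Int.cast : ℤ → ZMod p) h2
  push_cast at c1 c2
  rw [ZMod.natCast_self, zero_mul] at c1 c2
  set s : ZMod p := (w : ZMod p) / e with hsdef
  have hs : s ^ 2 = 2 := by
    rw [hsdef, div_pow, div_eq_iff (pow_ne_zero 2 he)]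
    linear_combination -c2
  have hw : (w : ZMod p) ≠ 0 := fun h => h20 (by rw [← hs, hsdef, h]; ring)
  set i : ZMod p := (v : ZMod p) / w with hidef
  have hi : i ^ 2 = -1 := by
    rw [hidef, div_pow, div_eq_iff (pow_ne_zero 2 hw)]
    linear_combination -c1 - c2
  refine not_isSquare_sqrt_two_one_add_i h16 hs hi ?_
  rw [show s * (1 + i) = ((v + w : ℤ) : ZMod p) * (e : ZMod p)⁻¹ by
    rw [hsdef, hidef]; push_cast; field_simp; ring]
  refine (isSquare_intCast_of_residues h8 fun q hq hq2 hd => res q hq ?_).mul sqe.inv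
  -- `q` divides `4 e²`
  have hqI : Prime (q : ℤ) := Nat.prime_iff_prime_int.1 hq
  have : (q : ℤ) ∣ 2 * (2 * e ^ 2) := by
    rw [show 2 * (2 * e ^ 2) = (v + w) * (w - v) by linear_combination h2 - h1]
    exact hd.mul_right _
  have hnd : ¬ (q : ℤ) ∣ 2 := fun h => hq2
    ((Nat.prime_dvd_prime_iff_eq hq Nat.prime_two).1 (Int.natCast_dvd_natCast.1 h))
  exact hqI.dvd_of_dvd_pow
    ((hqI.dvd_or_dvd ((hqI.dvd_or_dvd this).resolve_left hnd)).resolve_left hnd)

/-- The class `(p, 1, p)` of `2 p` has no points. -/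
theorem false_two_p_one (h16 : p % 16 = 9) {u e v w : ℤ} (hco : IsCoprime u e)
    (h1 : u ^ 2 - 2 * e ^ 2 = p * v ^ 2) (h2 : u ^ 2 + 2 * e ^ 2 = w ^ 2) : False := by
  have h8 : p % 8 = 1 := by omega
  have h20 := two_ne_zero_mod h8
  have c1 := congrArg (Int.cast : ℤ → ZMod p) h1
  have c2 := congrArg (Int.cast : ℤ → ZMod p) h2
  push_cast at c1 c2
  rw [ZMod.natCast_self, zero_mul] at c1
  have he : (e : ZMod p) ≠ 0 := fun h => by
    rw [h] at c1
    have hu : (u : ZMod p) = 0 := pow_eq_zero_iff two_ne_zero |>.1 (by linear_combination c1)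
    exact (Nat.prime_iff_prime_int.1 hp.out).not_isUnit (hco.isUnit_of_dvd'
      ((ZMod.intCast_zmod_eq_zero_iff_dvd _ _).1 hu) ((ZMod.intCast_zmod_eq_zero_iff_dvd _ _).1 h))
  have res : ∀ q : ℕ, q.Prime → (q : ℤ) ∣ e → IsSquare (p : ZMod q) := by
    intro q hq hd
    haveI := Fact.mk hq
    have hqI : Prime (q : ℤ) := Nat.prime_iff_prime_int.1 hq
    have hv : (v : ZMod q) ≠ 0 := fun h => hqI.not_isUnit (hco.isUnit_of_dvd'
      (hqI.dvd_of_dvd_pow (n := 2) (show (q : ℤ) ∣ u ^ 2 by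
        rw [show u ^ 2 = p * v ^ 2 + 2 * e ^ 2 by linear_combination h1]
        exact dvd_add (dvd_mul_of_dvd_right (dvd_pow
          ((ZMod.intCast_zmod_eq_zero_iff_dvd _ _).1 h) two_ne_zero) _)
          (dvd_mul_of_dvd_right (dvd_pow hd two_ne_zero) _))) hd)
    have c := congrArg (Int.cast : ℤ → ZMod q) h1
    push_cast at c
    rw [(ZMod.intCast_zmod_eq_zero_iff_dvd _ _).2 hd] at c
    refine ⟨(u : ZMod q) / v, ?_⟩
    rw [div_mul_div_comm, eq_div_iff (mul_ne_zero hv hv)]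
    linear_combination -c
  have sqe := isSquare_intCast_of_residues (z := e) h8 fun q hq _ hd => res q hq hd
  set s : ZMod p := (u : ZMod p) / e with hsdef
  have hs : s ^ 2 = 2 := by
    rw [hsdef, div_pow, div_eq_iff (pow_ne_zero 2 he)]
    linear_combination c1
  -- `w = ± 2 e`
  have hw : (w : ZMod p) ^ 2 = (2 * (e : ZMod p)) ^ 2 := by linear_combination c1 - c2
  have sqz : IsSquare ((u + w : ℤ) : ZMod p) := by
    refine isSquare_intCast_of_residues h8 fun q hq hq2 hd => res q hq ?_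
    have hqI : Prime (q : ℤ) := Nat.prime_iff_prime_int.1 hq
    have : (q : ℤ) ∣ 2 * e ^ 2 := by
      rw [show 2 * e ^ 2 = (u + w) * (w - u) by linear_combination h2]
      exact hd.mul_right _
    exact hqI.dvd_of_dvd_pow ((hqI.dvd_or_dvd this).resolve_left fun h => hq2
      ((Nat.prime_dvd_prime_iff_eq hq Nat.prime_two).1 (Int.natCast_dvd_natCast.1 h)))
  rcases sq_eq_sq_iff_eq_or_eq_neg.1 hw with h | h
  · refine not_isSquare_sqrt_two_one_add h16 hs ?_
    rw [show s * (1 + s) = ((u + w : ℤ) : ZMod p) * (e : ZMod p)⁻¹ by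
      rw [mul_add, mul_one, ← sq, hs, hsdef]; push_cast; rw [h]; field_simp]
    exact sqz.mul sqe.inv
  · refine not_isSquare_sqrt_two_one_add h16 (s := -s) (by rw [neg_sq, hs]) ?_
    rw [show -s * (1 + -s) = -1 * (((u + w : ℤ) : ZMod p) * (e : ZMod p)⁻¹) by
      rw [show -s * (1 + -s) = s ^ 2 - s by ring, hs, hsdef]; push_cast; rw [h]; field_simp; ring]
    exact (ZMod.exists_sq_eq_neg_one_iff.2 (by omega)).mul (sqz.mul sqe.inv)

/-- The class `(p, p, 1)` of `2 p` has no points. -/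
theorem false_two_p_p (h16 : p % 16 = 9) {u e v w : ℤ} (hco : IsCoprime u e)
    (h1 : u ^ 2 - 2 * e ^ 2 = v ^ 2) (h2 : u ^ 2 + 2 * e ^ 2 = p * w ^ 2) : False := by
  have h8 : p % 8 = 1 := by omega
  have h20 := two_ne_zero_mod h8
  have c1 := congrArg (Int.cast : ℤ → ZMod p) h1
  have c2 := congrArg (Int.cast : ℤ → ZMod p) h2
  push_cast at c1 c2
  rw [ZMod.natCast_self, zero_mul] at c2
  have he : (e : ZMod p) ≠ 0 := fun h => by
    rw [h] at c2
    have hu : (u : ZMod p) = 0 := pow_eq_zero_iff two_ne_zero |>.1 (by linear_combination c2)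
    exact (Nat.prime_iff_prime_int.1 hp.out).not_isUnit (hco.isUnit_of_dvd'
      ((ZMod.intCast_zmod_eq_zero_iff_dvd _ _).1 hu) ((ZMod.intCast_zmod_eq_zero_iff_dvd _ _).1 h))
  have hu0 : (u : ZMod p) ≠ 0 := fun h => mul_ne_zero h20 (pow_ne_zero 2 he) (by
    rw [h] at c2; linear_combination c2)
  have res : ∀ q : ℕ, q.Prime → (q : ℤ) ∣ e → IsSquare (p : ZMod q) := by
    intro q hq hd
    haveI := Fact.mk hq
    have hqI : Prime (q : ℤ) := Nat.prime_iff_prime_int.1 hq
    have hw : (w : ZMod q) ≠ 0 := fun h => hqI.not_isUnit (hco.isUnit_of_dvd'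
      (hqI.dvd_of_dvd_pow (n := 2) (show (q : ℤ) ∣ u ^ 2 by
        rw [show u ^ 2 = p * w ^ 2 - 2 * e ^ 2 by linear_combination h2]
        exact dvd_sub (dvd_mul_of_dvd_right (dvd_pow
          ((ZMod.intCast_zmod_eq_zero_iff_dvd _ _).1 h) two_ne_zero) _)
          (dvd_mul_of_dvd_right (dvd_pow hd two_ne_zero) _))) hd)
    have c := congrArg (Int.cast : ℤ → ZMod q) h2
    push_cast at c
    rw [(ZMod.intCast_zmod_eq_zero_iff_dvd _ _).2 hd] at c
    refine ⟨(u : ZMod q) / w, ?_⟩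
    rw [div_mul_div_comm, eq_div_iff (mul_ne_zero hw hw)]
    linear_combination -c
  have sqe := isSquare_intCast_of_residues (z := e) h8 fun q hq _ hd => res q hq hd
  -- `u² = -2 e²`, `v = s u`
  set s : ZMod p := (v : ZMod p) / u with hsdef
  have hs : s ^ 2 = 2 := by
    rw [hsdef, div_pow, div_eq_iff (pow_ne_zero 2 hu0)]
    linear_combination -c1 - c2
  have hs0 : s ≠ 0 := fun h => h20 (by rw [← hs, h]; ring)
  set i : ZMod p := (u : ZMod p) / (s * e) with hidef
  have hi : i ^ 2 = -1 := by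
    rw [hidef, div_pow, div_eq_iff (pow_ne_zero 2 (mul_ne_zero hs0 he)), mul_pow, hs]
    linear_combination c2
  have sqz : IsSquare ((u + v : ℤ) : ZMod p) := by
    refine isSquare_intCast_of_residues h8 fun q hq hq2 hd => res q hq ?_
    have hqI : Prime (q : ℤ) := Nat.prime_iff_prime_int.1 hq
    have : (q : ℤ) ∣ 2 * e ^ 2 := by
      rw [show 2 * e ^ 2 = (u + v) * (u - v) by linear_combination -h1]
      exact hd.mul_right _
    exact hqI.dvd_of_dvd_pow ((hqI.dvd_or_dvd this).resolve_left fun h => hq2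
      ((Nat.prime_dvd_prime_iff_eq hq Nat.prime_two).1 (Int.natCast_dvd_natCast.1 h)))
  refine not_isSquare_sqrt_two_one_add h16 hs ?_
  have hi0 : i ≠ 0 := fun h => one_ne_zero (α := ZMod p) (by
    rw [h] at hi; linear_combination hi)
  rw [show s * (1 + s) = ((u + v : ℤ) : ZMod p) * (e : ZMod p)⁻¹ * i⁻¹ by
    rw [hidef, hsdef]; push_cast; field_simp]
  exact (sqz.mul sqe.inv).mul (isSquare_sqrt_neg_one h8 hi).inv

/-- A squarefree number whose only possible prime is `q`. -/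
theorem eq_one_or_prime {a q : ℕ} (ha : Squarefree a) (hq : q.Prime)
    (h : ∀ l : ℕ, l.Prime → l ∣ a → l = q) : a = 1 ∨ a = q := by
  by_cases hd : q ∣ a
  · obtain ⟨a', rfl⟩ := hd
    refine Or.inr ?_
    obtain rfl : a' = 1 := Nat.eq_one_iff_not_exists_prime_dvd.2 fun l hl hla => by
      obtain rfl := h l hl (hla.mul_left q)
      exact hl.ne_one (Nat.isUnit_iff.1 (ha l (mul_dvd_mul_left l hla)))
    exact mul_one q
  · exact Or.inl (Nat.eq_one_iff_not_exists_prime_dvd.2 fun l hl hla => hd (h l hl hla ▸ hla))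

/-- Only the trivial class of `2 p` has points. -/
theorem halved_two_prime (h16 : p % 16 = 9) (Q : (congCurve (2 * p)).toAffine.Point) :
    Halved Q := by
  by_cases hQ : IsOfFinAddOrder Q
  · exact halved_of_torsion hQ
  have hpo : Odd p := Nat.odd_iff.2 (by omega)
  have hn : 2 * p ≠ 0 := by omega
  obtain ⟨t, ht, x, y, h, hadd, hy, hx, h2⟩ := exists_normal_two hpo hQ
  obtain ⟨a, b, c, u, v, w, r, ha, hb, hcs, habc, hco, hB, hC, hxu, hxv⟩ :=
    exists_integral_classes (equation_congCurve h) hx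
  have hx0 : x ≠ 0 := ((Nat.cast_nonneg _).trans_lt hx).ne'
  have ha2 := not_two_dvd_of_even ha hx0 hxu h2
  haveI : NeZero p := ⟨hp.out.ne_zero⟩
  have hP : OddPrimes (fun _ : Fin 1 => p) :=
    ⟨fun _ => hp.out, fun _ => by omega, Function.injective_of_subsingleton _⟩
  have hprod : (∏ _i : Fin 1, p) = p := Fin.prod_univ_one _
  obtain ⟨mem, -, -⟩ := mulVec_classes_two hP ha hb hcs habc ha2 (by rw [hprod]; exact hB)
    (by rw [hprod]; exact hC) hco
  have mem' : ∀ l : ℕ, l.Prime → l ∣ a ∨ l ∣ b ∨ l ∣ c → l = 2 ∨ l = p := fun l hl hd =>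
    (mem l hl hd).imp_right fun ⟨_, hj⟩ => hj
  have hA := eq_one_or_prime ha hp.out fun l hl hd =>
    (mem' l hl (Or.inl hd)).resolve_left fun e => ha2 (e ▸ hd)
  have hb2 : ¬ 2 ∣ b := fun hb2 => by
    have h4 := (parity habc ha2 hpo hB hC hco).1 hb2
    rcases hA with hA | hA <;> omega
  have hc2 : ¬ 2 ∣ c := fun hc2 => (FA.Iskra.dvd_of_square hcs Nat.prime_two hc2
    (by rwa [mul_assoc, mul_comm c] : IsSquare (c * a * b))).elim ha2 hb2
  have hBb := eq_one_or_prime hb hp.out fun l hl hd =>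
    (mem' l hl (Or.inr (Or.inl hd))).resolve_left fun e => hb2 (e ▸ hd)
  have hCc := eq_one_or_prime hcs hp.out fun l hl hd =>
    (mem' l hl (Or.inr (Or.inr hd))).resolve_left fun e => hc2 (e ▸ hd)
  have hpI : Prime (p : ℤ) := Nat.prime_iff_prime_int.1 hp.out
  have hpZ : (p : ℤ) ≠ 0 := hpI.ne_zero
  have hnp : ¬ IsSquare p := hp.out.not_isSquare
  have hnp3 : ¬ IsSquare (p * p * p) := fun ⟨s, hs⟩ => hnp (by
    obtain ⟨t, rfl⟩ : p ∣ s :=
      (hp.out.dvd_mul.1 (⟨p * p, by rw [← hs]; ring⟩ : p ∣ s * s)).elim id id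
    exact ⟨t, Nat.eq_of_mul_eq_mul_left (Nat.mul_pos hp.out.pos hp.out.pos)
      (by linear_combination hs)⟩)
  push_cast at hB hC
  rcases hA with hA | hA <;> rcases hBb with hBb | hBb <;> rcases hCc with hCc | hCc <;>
    rw [hA, hBb, hCc] at habc <;> rw [hA] at hB hC hco hxu <;> rw [hBb] at hB hxv <;>
    rw [hCc] at hC <;> try simp only [one_mul, mul_one] at habc
  all_goals first
    | exact absurd habc hnp
    | exact absurd habc hnp3
    | skip
  · rw [Nat.cast_one, one_mul] at hxu hxv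
    obtain ⟨R, hR⟩ := exists_half hn h hy (hxu ▸ IsSquare.sq _) (hxv ▸ IsSquare.sq _)
    exact halved_of_add ht ⟨R, by rw [hadd, hR, sub_self]; exact IsOfFinAddOrder.zero⟩
  · push_cast at hB hC hco
    rw [one_mul] at hco
    have hco' : IsCoprime u r := (IsCoprime.pow_left_iff two_pos).1 hco
    obtain ⟨u', rfl⟩ : (p : ℤ) ∣ u :=
      hpI.dvd_of_dvd_pow (n := 2) ⟨v ^ 2 + 2 * r ^ 2, by linear_combination -hB⟩
    exact (false_two_one_p h16 (v := v) (w := w) hco'
      (mul_left_cancel₀ hpZ (by linear_combination -hB))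
      (mul_left_cancel₀ hpZ (by linear_combination -hC))).elim
  · push_cast at hB hC hco
    have hco' : IsCoprime u r :=
      (IsCoprime.pow_left_iff two_pos).1 (IsCoprime.of_mul_left_right hco)
    obtain ⟨v', rfl⟩ : (p : ℤ) ∣ v :=
      hpI.dvd_of_dvd_pow (n := 2) ⟨u ^ 2 - 2 * r ^ 2, by linear_combination hB⟩
    exact (false_two_p_one h16 (v := v') (w := w) hco'
      (mul_left_cancel₀ hpZ (by linear_combination -hB))
      (mul_left_cancel₀ hpZ (by linear_combination -hC))).elim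
  · push_cast at hB hC hco
    have hco' : IsCoprime u r :=
      (IsCoprime.pow_left_iff two_pos).1 (IsCoprime.of_mul_left_right hco)
    obtain ⟨w', rfl⟩ : (p : ℤ) ∣ w :=
      hpI.dvd_of_dvd_pow (n := 2) ⟨u ^ 2 + 2 * r ^ 2, by linear_combination hC⟩
    exact (false_two_p_p h16 (v := v) (w := w') hco'
      (mul_left_cancel₀ hpZ (by linear_combination -hB))
      (mul_left_cancel₀ hpZ (by linear_combination -hC))).elim

/-- **Twice a prime `≡ 9 (mod 16)`**: the group is the torsion. -/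
theorem point_equiv_two_prime (h16 : p % 16 = 9) :
    Nonempty ((congCurve (2 * p)).toAffine.Point ≃+ ZMod 2 × ZMod 2) := by
  obtain ⟨r, hr, ⟨e⟩⟩ := exists_rank_le_of_classified (n := 2 * p) (by omega) (V := Fin 0 → ZMod 2)
    (fun _ _ => True) (fun _ _ => ⟨0, trivial⟩) (fun Q _ => halved_two_prime h16 Q)
    fun Q Q' _ _ _ => halved_two_prime h16 (Q + Q')
  rw [Module.finrank_pi, Fintype.card_fin, Nat.le_zero] at hr
  subst hr
  exact ⟨e.trans AddEquiv.prodUnique⟩

end FA.Monsky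

end
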