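import Fermat.Agent.Monsky.LowerHalf
import Fermat.Agent.Monsky.EvenPrime

/-!
# The lower half of Monsky's theorem for even `n`

For `n = 2 N` the classes are `a`, `2^η b`, `2^η c` with odd `a, b, c`. Modulo `4` a point over `ℚ₂`
forces `η` to be the parity of the primes `≡ 3 (mod 4)` of `a`; the rows at the odd primes are those
of the matrix; conversely the kernel gives two congruences at `2` and four points cover the cases.
-/

set_option autoImplicit false
set_option linter.style.haveILetI false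

noncomputable section

namespace FA.Monsky

section residues

/-- `1` for residues `3 (mod 4)`. -/
def bitFour (x : ℕ) : ZMod 2 := if x % 4 = 3 then 1 else 0

/-- `1` for residues `± 3 (mod 8)`. -/
def bitEight (x : ℕ) : ZMod 2 := if x % 8 = 3 ∨ x % 8 = 5 then 1 else 0

theorem bitFour_mod (x : ℕ) : bitFour (x % 8) = bitFour x := by
  simp only [bitFour, show x % 8 % 4 = x % 4 by omega]

theorem bitEight_mod (x : ℕ) : bitEight (x % 8) = bitEight x := by
  simp only [bitEight, Nat.mod_mod]

/-- The four points over `ℚ₂` for `n = 2 N`. -/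
theorem soluble_two_of_bits {a b c N : ℕ} (ha2 : a % 2 = 1) (hb2 : b % 2 = 1) (hN : N % 2 = 1)
    (hc : c % 8 = a * b % 8) {t : ℕ} (ht : t = if bitFour a = 1 then 2 else 1)
    (q1 : bitEight a + bitFour a + bitFour b + bitFour a * bitFour N = 0)
    (q2 : bitEight a + (bitEight a + bitEight b + bitFour a * bitEight N) +
      (1 + bitFour N) * (bitFour a + bitFour b + bitFour a * bitFour N) = 0) :
    Soluble ℚ_[2] (2 * N : ℕ) a (t * b : ℕ) (t * c : ℕ) := by
  have key : ∀ a ∈ [1, 3, 5, 7], ∀ b ∈ [1, 3, 5, 7], ∀ N ∈ [1, 3, 5, 7],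
      bitEight a + bitFour a + bitFour b + bitFour a * bitFour N = 0 →
      bitEight a + (bitEight a + bitEight b + bitFour a * bitEight N) +
        (1 + bitFour N) * (bitFour a + bitFour b + bitFour a * bitFour N) = 0 →
      (bitFour a = 0 ∧ ((b = a ∧ a * b % 8 = a) ∨
        ((b + 2 * N) % 8 = a ∧ a * b % 8 = (a + 2 * N) % 8))) ∨
      (bitFour a = 1 ∧ (((b + N) % 8 = 0 ∧ a * b % 8 = N) ∨
        ((b + N) % 8 = 2 * a % 8 ∧ a * b % 8 = (2 * a + N) % 8))) := by
    decide
  have mem : ∀ x : ℕ, x % 2 = 1 → x % 8 ∈ [1, 3, 5, 7] := fun x hx => by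
    simp only [List.mem_cons, List.not_mem_nil, or_false]; omega
  have h := key _ (mem a ha2) _ (mem b hb2) _ (mem N hN)
    (by simpa only [bitFour_mod, bitEight_mod] using q1)
    (by simpa only [bitFour_mod, bitEight_mod] using q2)
  rw [← Nat.mul_mod, ← hc, bitFour_mod] at h
  have hc2 : c % 2 = 1 := by
    have h := Nat.mul_mod a b 2
    rw [ha2, hb2] at h
    omega
  have hbZ : (b : ℤ) % 2 = 1 := by omega
  have hcZ : (c : ℤ) % 2 = 1 := by omega
  rcases h with ⟨h4, h⟩ | ⟨h4, h⟩
  · rw [ht, h4, if_neg zero_ne_one, one_mul, one_mul]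
    rcases h with ⟨e1, e2⟩ | ⟨e1, e2⟩
    · obtain ⟨v, hv⟩ := exists_two_adic_sq hbZ (C := a) (by omega)
      obtain ⟨w, hw⟩ := exists_two_adic_sq hcZ (C := a) (by omega)
      exact ⟨1, v, w, 0, Or.inl one_ne_zero, by push_cast at hv ⊢; linear_combination -hv,
        by push_cast at hw ⊢; linear_combination -hw⟩
    · obtain ⟨v, hv⟩ := exists_two_adic_sq hbZ (C := a - 2 * N) (by omega)
      obtain ⟨w, hw⟩ := exists_two_adic_sq hcZ (C := a + 2 * N) (by omega)
      exact ⟨1, v, w, 1, Or.inl one_ne_zero, by push_cast at hv ⊢; linear_combination -hv,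
        by push_cast at hw ⊢; linear_combination -hw⟩
  · rw [ht, h4, if_pos rfl]
    rcases h with ⟨e1, e2⟩ | ⟨e1, e2⟩
    · obtain ⟨v, hv⟩ := exists_two_adic_sq hbZ (C := -N) (by omega)
      obtain ⟨w, hw⟩ := exists_two_adic_sq hcZ (C := N) (by omega)
      exact ⟨0, v, w, 1, Or.inr one_ne_zero, by push_cast at hv ⊢; linear_combination -2 * hv,
        by push_cast at hw ⊢; linear_combination -2 * hw⟩
    · obtain ⟨v, hv⟩ := exists_two_adic_sq hbZ (C := 2 * a - N) (by omega)
      obtain ⟨w, hw⟩ := exists_two_adic_sq hcZ (C := 2 * a + N) (by omega)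
      exact ⟨2, v, w, 1, Or.inl (by norm_num), by push_cast at hv ⊢; linear_combination -2 * hv,
        by push_cast at hw ⊢; linear_combination -2 * hw⟩

/-- A point over `ℚ₂` fixes the parity of the second class. -/
theorem bitFour_of_soluble_two {a b c N : ℕ} {η : ZMod 2} (ha2 : a % 2 = 1) (hb2 : b % 2 = 1)
    (hN : N % 2 = 1) (hc : c % 8 = a * b % 8)
    (h : Soluble ℚ_[2] (2 * N : ℕ) a ((if η = 1 then 2 else 1) * b : ℕ)
      ((if η = 1 then 2 else 1) * c : ℕ)) : η = bitFour a := by
  have hc2 : c % 2 = 1 := by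
    have h := Nat.mul_mod a b 2
    rw [ha2, hb2] at h
    omega
  have odd4 : ∀ x : ℕ, x % 2 = 1 → (x : ZMod 4) = 1 ∨ (x : ZMod 4) = 3 := fun x hx => by
    rw [← ZMod.natCast_mod]
    rcases (by omega : x % 4 = 1 ∨ x % 4 = 3) with h | h <;> rw [h] <;> simp
  have sq4 : ∀ x : ZMod 4, x ^ 2 = 0 ∨ x ^ 2 = 1 := by decide
  have hc4 : (c : ZMod 4) = (a : ZMod 4) * (b : ZMod 4) := by
    rw [← Nat.cast_mul, ZMod.natCast_eq_natCast_iff']
    omega
  have hB : ((b : ℤ) : ZMod 2) ≠ 0 := by
    rw [Int.cast_natCast, ← ZMod.natCast_mod, hb2]; simp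
  have hC : ((c : ℤ) : ZMod 2) ≠ 0 := by
    rw [Int.cast_natCast, ← ZMod.natCast_mod, hc2]; simp
  have two : ∀ z : ZMod 2, z = 0 ∨ z = 1 := by decide
  rcases two η with rfl | rfl
  · -- odd second class
    obtain ⟨U, V, W, E, hone, e1, e2⟩ := exists_integral (s := 1) (t := 1) (n := (2 * N : ℕ))
      (a := a) hB hC (Or.inl rfl) (Or.inl rfl) (by simpa using h)
    have c1 := congrArg (PadicInt.toZModPow (p := 2) 2) e1
    have c2 := congrArg (PadicInt.toZModPow (p := 2) 2) e2
    simp only [map_sub, map_add, map_mul, map_pow, map_intCast] at c1 c2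
    have key : ∀ a b N : ZMod 4, (a = 1 ∨ a = 3) → (b = 1 ∨ b = 3) → (N = 1 ∨ N = 3) →
        ∀ U ∈ [(0 : ZMod 4), 1], ∀ E ∈ [(0 : ZMod 4), 1], ∀ V ∈ [(0 : ZMod 4), 1],
        ∀ W ∈ [(0 : ZMod 4), 1], (U = 1 ∨ E = 1) → a * U - 2 * N * E = b * V →
          a * U + 2 * N * E = a * b * W → a = 1 := by decide
    have mem : ∀ x : ZMod 4, x ^ 2 ∈ [(0 : ZMod 4), 1] := fun x => by simpa using sq4 x
    have h1 : (a : ZMod 4) = 1 := by
      refine key _ _ _ (odd4 a ha2) (odd4 b hb2) (odd4 N hN) _ (mem (PadicInt.toZModPow 2 U)) _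
        (mem (PadicInt.toZModPow 2 E)) _ (mem (PadicInt.toZModPow 2 V)) _
        (mem (PadicInt.toZModPow 2 W))
        (hone.imp (fun e => by simp [e]) fun e => by simp [e]) ?_ ?_
      · push_cast at c1; linear_combination c1
      · rw [← hc4]; push_cast at c2; linear_combination c2
    rw [← ZMod.natCast_mod] at h1
    simp only [bitFour]
    rw [if_neg fun h3 => absurd (h3 ▸ h1) (by decide)]
  · -- even second class
    obtain ⟨U, V, W, E, hone, e1, e2⟩ := exists_integral (s := 2) (t := 2) (n := (2 * N : ℕ))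
      (a := a) hB hC (Or.inr rfl) (Or.inr rfl) (by simpa using h)
    have c0 := congrArg (PadicInt.toZMod (p := 2)) e1
    simp only [map_sub, map_mul, map_pow, map_intCast] at c0
    push_cast at c0
    simp only [show (2 : ZMod 2) = 0 from rfl, zero_mul, sub_zero] at c0
    have ha0 : (a : ZMod 2) ≠ 0 := by rw [← ZMod.natCast_mod, ha2]; simp
    have hU : PadicInt.toZMod U = 0 :=
      pow_eq_zero_iff two_ne_zero |>.1 ((mul_eq_zero.1 c0).resolve_left ha0)
    obtain ⟨U', rfl⟩ := exists_mul_of_toZMod hU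
    have hE : E = 1 := hone.resolve_left fun h0 => by
      rw [h0, map_one] at hU
      exact one_ne_zero hU
    subst hE
    have f1 : 2 * (a : ℤ_[2]) * U' ^ 2 - N = b * V ^ 2 :=
      mul_left_cancel₀ (two_ne_zero : (2 : ℤ_[2]) ≠ 0)
        (by push_cast at e1; linear_combination e1)
    have f2 : 2 * (a : ℤ_[2]) * U' ^ 2 + N = c * W ^ 2 :=
      mul_left_cancel₀ (two_ne_zero : (2 : ℤ_[2]) ≠ 0)
        (by push_cast at e2; linear_combination e2)
    have c1 := congrArg (PadicInt.toZModPow (p := 2) 2) f1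
    have c2 := congrArg (PadicInt.toZModPow (p := 2) 2) f2
    simp only [map_sub, map_add, map_mul, map_pow, map_natCast, map_ofNat] at c1 c2
    have key : ∀ a b N : ZMod 4, (a = 1 ∨ a = 3) → (b = 1 ∨ b = 3) → (N = 1 ∨ N = 3) →
        ∀ U ∈ [(0 : ZMod 4), 1], ∀ V ∈ [(0 : ZMod 4), 1], ∀ W ∈ [(0 : ZMod 4), 1],
          2 * a * U - N = b * V → 2 * a * U + N = a * b * W → a = 3 := by decide
    have mem : ∀ x : ZMod 4, x ^ 2 ∈ [(0 : ZMod 4), 1] := fun x => by simpa using sq4 x
    have h3 : (a : ZMod 4) = 3 := by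
      refine key _ _ _ (odd4 a ha2) (odd4 b hb2) (odd4 N hN) _ (mem (PadicInt.toZModPow 2 U')) _
        (mem (PadicInt.toZModPow 2 V)) _ (mem (PadicInt.toZModPow 2 W)) c1 ?_
      rw [← hc4]; exact c2
    rw [← ZMod.natCast_mod] at h3
    simp only [bitFour]
    rw [if_pos ?_]
    rcases (by omega : a % 4 = 1 ∨ a % 4 = 3) with e | e
    · rw [e] at h3; exact absurd h3 (by decide)
    · exact e

end residues

variable {k : ℕ} {P : Fin k → ℕ}

theorem twoClass_pos (η : ZMod 2) : 0 < twoClass η := by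
  rw [twoClass]; split_ifs <;> norm_num

variable [∀ i, NeZero (P i)]

theorem bitFour_classProd (hP : OddPrimes P) (f : Fin k → ZMod 2) :
    bitFour (classProd P f) = eta P f := by
  rw [bitFour]
  split_ifs with h
  · exact ((classProd_mod_four hP f).1 h).symm
  · exact ((show ∀ z : ZMod 2, z ≠ 1 → z = 0 by decide) _
      fun h' => h ((classProd_mod_four hP f).2 h')).symm

theorem bitEight_classProd (hP : OddPrimes P) (f : Fin k → ZMod 2) :
    bitEight (classProd P f) = ∑ i, f i * sym (P i) 2 := by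
  rw [bitEight]
  split_ifs with h
  · exact ((classProd_mod_eight hP f).1 h).symm
  · exact ((show ∀ z : ZMod 2, z ≠ 1 → z = 0 by decide) _
      fun h' => h ((classProd_mod_eight hP f).2 h')).symm

/-- The rows for even `n` at a prime. -/
theorem soluble_iff_rows_two (hP : OddPrimes P) (i : Fin k) [Fact (P i).Prime]
    (α β : Fin k → ZMod 2) (η : ZMod 2) :
    Soluble ℚ_[P i] (2 * ∏ j, P j : ℕ) (classProd P α) (twoClass η * classProd P β : ℕ)
        (twoClass η * classProd P (α + β) : ℕ) ↔
      (∑ j ∈ Finset.univ.erase i, α j * entry P i j) + (diagA P i + sym (P i) 2) * α i +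
          sym (P i) (-1) * β i = 0 ∧
        (∑ j ∈ Finset.univ.erase i, β j * entry P i j) + η * sym (P i) 2 + sym (P i) 2 * α i +
          (diagA P i + sym (P i) (-1) + sym (P i) 2) * β i = 0 := by
  have hp2 := hP.odd i
  have h2 := two_ne_zero_zmod hp2
  have ht : (twoClass η : ZMod (P i)) ≠ 0 := by
    rw [twoClass]; split_ifs <;> simp [h2]
  have st : sym (P i) (twoClass η : ZMod (P i)) = η * sym (P i) 2 := by
    rcases (show ∀ z : ZMod 2, z = 0 ∨ z = 1 by decide) η with rfl | rfl <;>
      simp [twoClass, sym_of_isSquare]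
  have hA : (((cofactor P i α : ℕ) : ℤ) : ZMod (P i)) ≠ 0 := by
    rw [Int.cast_natCast]; exact cofactor_cast_ne_zero hP i α
  have hu : ∀ f, (((twoClass η * cofactor P i f : ℕ) : ℤ) : ZMod (P i)) ≠ 0 := fun f => by
    rw [Int.cast_natCast, Nat.cast_mul]
    exact mul_ne_zero ht (cofactor_cast_ne_zero hP i f)
  have hL : (((2 * cofactor P i 1 : ℕ) : ℤ) : ZMod (P i)) ≠ 0 := by
    rw [Int.cast_natCast, Nat.cast_mul, Nat.cast_ofNat]
    exact mul_ne_zero h2 (cofactor_cast_ne_zero hP i 1)
  have hn : ((2 * ∏ j, P j : ℕ) : ℤ) = (P i : ℤ) * (2 * cofactor P i 1 : ℕ) := by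
    rw [prod_eq_mul_cofactor i]; push_cast; ring
  have sA : sym (P i) (((cofactor P i α : ℕ) : ℤ) : ZMod (P i)) =
      ∑ j ∈ Finset.univ.erase i, α j * entry P i j := by
    rw [Int.cast_natCast, sym_cofactor hP]
  have sB : ∀ f, sym (P i) (((twoClass η * cofactor P i f : ℕ) : ℤ) : ZMod (P i)) =
      η * sym (P i) 2 + ∑ j ∈ Finset.univ.erase i, f j * entry P i j := fun f => by
    rw [Int.cast_natCast, Nat.cast_mul, sym_mul hp2 ht (cofactor_cast_ne_zero hP i f), st,
      sym_cofactor hP]
  have sL : sym (P i) (((2 * cofactor P i 1 : ℕ) : ℤ) : ZMod (P i)) =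
      sym (P i) 2 + diagA P i := by
    rw [Int.cast_natCast, Nat.cast_mul, Nat.cast_ofNat,
      sym_mul hp2 h2 (cofactor_cast_ne_zero hP i 1), sym_cofactor hP, diagA]
    simp
  have h := soluble_iff_syms hp2 (α i) (β i) hn hA (hu β) (hu (α + β)) hL (by
    rw [sA, sB, sB]
    simp only [Pi.add_apply, add_mul, Finset.sum_add_distrib]
    ring)
  rw [sA, sB β, sL] at h
  have e : ∀ f, twoClass η * classProd P f =
      (if f i = 1 then P i else 1) * (twoClass η * cofactor P i f) := fun f => by
    rw [classProd_eq_mul i f]; ring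
  rw [e β, e (α + β), classProd_eq_mul i α, cast_ite_mul, cast_ite_mul, cast_ite_mul]
  refine h.trans ?_
  have key : ∀ S T D d m a b e : ZMod 2,
      (S + (d + D) * a + m * b = 0 ∧ e * d + T + d * a + (d + D + m) * b = 0) ↔
        (S + (D + d) * a + m * b = 0 ∧ T + e * d + d * a + (D + m + d) * b = 0) := by decide
  exact key _ _ _ _ _ _ _ _

/-- The rows of the matrix for even `n` on a pair of classes. -/
theorem mulVec_two_eq_zero_iff (hP : OddPrimes P) (α β : Fin k → ZMod 2) :
    (matrixTwo P).mulVec (Sum.elim α (α + β + fun _ : Fin k => eta P α)) = 0 ↔ ∀ i,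
      (∑ j ∈ Finset.univ.erase i, α j * entry P i j) + (diagA P i + sym (P i) 2) * α i +
          sym (P i) (-1) * β i = 0 ∧
        (∑ j ∈ Finset.univ.erase i, β j * entry P i j) + eta P α * sym (P i) 2 +
          sym (P i) 2 * α i + (diagA P i + sym (P i) (-1) + sym (P i) 2) * β i = 0 := by
  have top : ∀ i, (matrixTwo P).mulVec (Sum.elim α (α + β + fun _ : Fin k => eta P α)) (Sum.inl i) =
      sym (P i) 2 * α i + ((diagA P i + sym (P i) 2) * (α i + β i + eta P α) +
        ((∑ j ∈ Finset.univ.erase i, α j * entry P i j) +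
          (∑ j ∈ Finset.univ.erase i, β j * entry P i j) + diagA P i * eta P α)) := fun i => by
    rw [matrixTwo, Matrix.fromBlocks_mulVec]
    simp only [Sum.elim_inl, Pi.add_apply, Matrix.mulVec_diagonal, Sum.elim_comp_inl,
      Sum.elim_comp_inr]
    show _ + ∑ j, (if i = j then _ else entry P i j) *
      (α + β + fun _ : Fin k => eta P α) j = _
    rw [← Finset.add_sum_erase _ _ (Finset.mem_univ i), if_pos rfl,
      Finset.sum_congr rfl fun j hj => by rw [if_neg (Finset.ne_of_mem_erase hj).symm]]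
    simp only [Pi.add_apply, mul_add, Finset.sum_add_distrib, ← Finset.sum_mul]
    rw [← diagA, Finset.sum_congr rfl fun j _ => mul_comm (entry P i j) (α j),
      Finset.sum_congr rfl fun j _ => mul_comm (entry P i j) (β j)]
  have bot : ∀ i, (matrixTwo P).mulVec (Sum.elim α (α + β + fun _ : Fin k => eta P α)) (Sum.inr i) =
      (diagA P i + sym (P i) 2) * α i + ((∑ j ∈ Finset.univ.erase i, α j * entry P i j) +
        sym (P i) (-1) * (eta P α + α i * sym (P i) (-1))) +
          sym (P i) (-1) * (α i + β i + eta P α) := fun i => by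
    rw [matrixTwo, Matrix.fromBlocks_mulVec]
    simp only [Sum.elim_inr, Pi.add_apply, Matrix.mulVec_diagonal, Sum.elim_comp_inl,
      Sum.elim_comp_inr]
    show ∑ j, (if i = j then _ else entry P j i) * α j + _ = _
    rw [← Finset.add_sum_erase _ _ (Finset.mem_univ i), if_pos rfl,
      Finset.sum_congr rfl fun j hj => by
        rw [if_neg (Finset.ne_of_mem_erase hj).symm,
          entry_symm hP (Finset.ne_of_mem_erase hj).symm]]
    have hs : eta P α + α i * sym (P i) (-1) =
        ∑ j ∈ Finset.univ.erase i, α j * sym (P j) (-1) := by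
      rw [eta, ← Finset.add_sum_erase _ _ (Finset.mem_univ i)]
      linear_combination CharTwo.add_self_eq_zero (α i * sym (P i) (-1))
    rw [hs, Finset.mul_sum, ← Finset.sum_add_distrib]
    refine congrArg₂ _ (congrArg₂ _ rfl (Finset.sum_congr rfl fun j _ => ?_)) rfl
    ring
  have key : ∀ S T D d m a b e : ZMod 2,
      (d * a + ((D + d) * (a + b + e) + (S + T + D * e)) = 0 ∧
        (D + d) * a + (S + m * (e + a * m)) + m * (a + b + e) = 0) ↔
      (S + (D + d) * a + m * b = 0 ∧ T + e * d + d * a + (D + m + d) * b = 0) := by decide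
  constructor
  · intro h i
    exact (key _ _ _ _ _ _ _ _).1 ⟨by rw [← top i, h]; rfl, by rw [← bot i, h]; rfl⟩
  · intro h
    funext z
    rcases z with i | i
    · rw [top i]; exact ((key _ _ _ _ _ _ _ _).2 (h i)).1
    · rw [bot i]; exact ((key _ _ _ _ _ _ _ _).2 (h i)).2

/-- The conditions at `2` of a vector in the kernel for even `n`. -/
theorem bits_of_kernel (hP : OddPrimes P) {α β : Fin k → ZMod 2}
    (h : (matrixTwo P).mulVec (Sum.elim α (α + β + fun _ : Fin k => eta P α)) = 0) :
    let a := bitFour (classProd P α)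
    let n := bitFour (∏ i, P i)
    bitEight (classProd P α) + a + bitFour (classProd P β) + a * n = 0 ∧
      bitEight (classProd P α) + (bitEight (classProd P α) + bitEight (classProd P β) +
          a * bitEight (∏ i, P i)) +
        (1 + n) * (a + bitFour (classProd P β) + a * n) = 0 := by
  intro a n
  set z := Sum.elim α (α + β + fun _ : Fin k => eta P α) with hz
  have hsymm : (matrixTwo P).IsSymm := by
    refine Matrix.IsSymm.fromBlocks (Matrix.isSymm_diagonal _) ?_ (Matrix.isSymm_diagonal _)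
    ext i j
    rcases eq_or_ne i j with rfl | hij
    · simp
    · simp [hij, hij.symm]
  have h1 := dotProduct_mulVec_self hsymm z
  rw [h, dotProduct_zero] at h1
  have h2 : Matrix.vecMul (Sum.elim 1 0) (matrixTwo P) ⬝ᵥ z = 0 := by
    rw [← Matrix.dotProduct_mulVec, h, dotProduct_zero]
  have hcol : Matrix.vecMul (Sum.elim 1 0) (matrixTwo P) =
      Sum.elim (fun j => sym (P j) 2)
        fun j => sym (P j) 2 + sym (P j) (-1) * ((∑ i, sym (P i) (-1)) + 1) := by
    funext w
    rw [matrixTwo, Matrix.vecMul_fromBlocks, Sum.elim_comp_inl, Sum.elim_comp_inr]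
    rcases w with j | j <;>
      simp only [Sum.elim_inl, Sum.elim_inr, Matrix.zero_vecMul, add_zero]
    · rw [Matrix.vecMul_diagonal, Pi.one_apply, one_mul]
    · simp only [Matrix.vecMul, dotProduct, Pi.one_apply, one_mul, Matrix.of_apply]
      exact sum_col hP j fun i => sym (P i) 2
  rw [hcol] at h2
  have hN : ∏ i, P i = classProd P 1 := by simp [classProd]
  have ea : a = eta P α := bitFour_classProd hP α
  have en : n = ∑ i, sym (P i) (-1) := by
    show bitFour (∏ i, P i) = _
    rw [hN, bitFour_classProd hP]; simp [eta]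
  have e8 : bitEight (∏ i, P i) = ∑ i, sym (P i) 2 := by
    rw [hN, bitEight_classProd hP]; simp
  rw [ea, en, e8, bitFour_classProd hP, bitEight_classProd hP, bitEight_classProd hP]
  constructor
  · refine Eq.trans ?_ h1.symm
    simp only [dotProduct, Fintype.sum_sum_type, matrixTwo, Matrix.fromBlocks_apply₁₁,
      Matrix.fromBlocks_apply₂₂, Matrix.diagonal_apply_eq, z, Sum.elim_inl, Sum.elim_inr,
      Pi.add_apply, mul_add, Finset.sum_add_distrib, ← Finset.sum_mul, eta]
    simp only [mul_comm (sym _ _)]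
    ring
  · have key : ∀ (e S : ZMod 2),
        (Sum.elim (fun j => sym (P j) 2) fun j => sym (P j) 2 + sym (P j) (-1) * (S + 1)) ⬝ᵥ
            Sum.elim α (α + β + fun _ : Fin k => e) =
          (∑ j, α j * sym (P j) 2) + ((∑ j, α j * sym (P j) 2) + (∑ j, β j * sym (P j) 2) +
              e * ∑ j, sym (P j) 2) +
            (1 + S) * ((∑ j, α j * sym (P j) (-1)) + (∑ j, β j * sym (P j) (-1)) +
              e * ∑ j, sym (P j) (-1)) := fun e S => by
      simp only [dotProduct, Fintype.sum_sum_type, Sum.elim_inl, Sum.elim_inr, Pi.add_apply,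
        Finset.mul_sum, ← Finset.sum_add_distrib]
      exact Finset.sum_congr rfl fun i _ => by ring
    rw [hz, key] at h2
    exact h2

/-- **Monsky's theorem for even `n`**: the torsor has points over every completion exactly when the
parity is right and the vector is in the kernel. -/
theorem soluble_everywhere_two_iff (hP : OddPrimes P) (α β : Fin k → ZMod 2) (η : ZMod 2) :
    (Soluble ℝ (2 * ∏ j, P j : ℕ) (classProd P α) (twoClass η * classProd P β : ℕ)
        (twoClass η * classProd P (α + β) : ℕ) ∧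
      ∀ (q : ℕ) [Fact q.Prime], Soluble ℚ_[q] (2 * ∏ j, P j : ℕ) (classProd P α)
        (twoClass η * classProd P β : ℕ) (twoClass η * classProd P (α + β) : ℕ)) ↔
      η = eta P α ∧
        (matrixTwo P).mulVec (Sum.elim α (α + β + fun _ : Fin k => eta P α)) = 0 := by
  have hc8 : classProd P (α + β) % 8 = classProd P α * classProd P β % 8 := by
    rw [classProd_mul, Nat.mul_mod _ (classProd P (α * β) ^ 2), Nat.pow_mod]
    have ho := classProd_odd hP (α * β)
    rcases (by omega : classProd P (α * β) % 8 = 1 ∨ classProd P (α * β) % 8 = 3 ∨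
      classProd P (α * β) % 8 = 5 ∨ classProd P (α * β) % 8 = 7) with e | e | e | e <;>
      rw [e] <;> simp
  have ho := classProd_odd hP
  have hN := Nat.odd_iff.1 hP.odd_prod
  constructor
  · rintro ⟨-, h⟩
    haveI := Fact.mk Nat.prime_two
    have hη : η = eta P α :=
      (bitFour_of_soluble_two (ho α) (ho β) hN hc8 (h 2)).trans (bitFour_classProd hP α)
    refine ⟨hη, (mulVec_two_eq_zero_iff hP α β).2 fun i => ?_⟩
    haveI := Fact.mk (hP.prime i)
    have := (soluble_iff_rows_two hP i α β η).1 (h (P i))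
    rwa [hη] at this
  rintro ⟨rfl, h⟩
  have hpos := fun f => classProd_pos hP f
  have hpos2 := twoClass_pos (eta P α)
  refine ⟨soluble_real (by exact_mod_cast hpos α)
    (by exact_mod_cast Nat.mul_pos hpos2 (hpos β))
    (by exact_mod_cast Nat.mul_pos hpos2 (hpos (α + β))), fun q hq => ?_⟩
  rcases eq_or_ne q 2 with rfl | hq2
  · obtain ⟨q1, q2⟩ := bits_of_kernel hP h
    exact soluble_two_of_bits (ho α) (ho β) hN hc8
      (by rw [bitFour_classProd hP]; rfl) q1 q2
  by_cases hex : ∃ i, q = P i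
  · obtain ⟨i, rfl⟩ := hex
    haveI := Fact.mk (hP.prime i)
    exact (soluble_iff_rows_two hP i α β _).2 ((mulVec_two_eq_zero_iff hP α β).1 h i)
  have hne : ∀ f, (classProd P f : ZMod q) ≠ 0 := fun f h0 => by
    rw [ZMod.natCast_eq_zero_iff, classProd, (hq.out.prime.dvd_finsetProd_iff _)] at h0
    obtain ⟨i, -, hi⟩ := h0
    split_ifs at hi
    · exact hex ⟨i, (Nat.prime_dvd_prime_iff_eq hq.out (hP.prime i)).1 hi⟩
    · exact hq.out.not_dvd_one hi
  have h2 := two_ne_zero_zmod hq2
  have ht : (twoClass (eta P α) : ZMod q) ≠ 0 := by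
    rw [twoClass]; split_ifs <;> simp [h2]
  have hn : ((2 * ∏ j, P j : ℕ) : ZMod q) ≠ 0 := by
    rw [show ∏ j, P j = classProd P 1 by simp [classProd], Nat.cast_mul, Nat.cast_ofNat]
    exact mul_ne_zero h2 (hne 1)
  refine soluble_of_good hq2 (by rw [Int.cast_natCast]; exact hn)
    (by rw [Int.cast_natCast]; exact hne α)
    (by rw [Int.cast_natCast, Nat.cast_mul]; exact mul_ne_zero ht (hne β))
    (by rw [Int.cast_natCast, Nat.cast_mul]; exact mul_ne_zero ht (hne (α + β))) ?_
  push_cast
  have e := congrArg (fun m : ℕ => sym q (m : ZMod q)) (classProd_mul (P := P) α β)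
  simp only [Nat.cast_mul, Nat.cast_pow] at e
  rw [sym_mul hq2 (hne α) (hne β),
    sym_mul hq2 (hne (α + β)) (pow_ne_zero 2 (hne (α * β))), sym_sq, add_zero] at e
  rw [sym_mul hq2 ht (hne (α + β)), sym_mul hq2 ht (hne β), ← e]
  ring

/-- The soluble triples of classes are as many as the vectors of the kernel. -/
theorem natCard_soluble_two (hP : OddPrimes P) :
    Nat.card {x : (Fin k → ZMod 2) × (Fin k → ZMod 2) × ZMod 2 //
      Soluble ℝ (2 * ∏ j, P j : ℕ) (classProd P x.1) (twoClass x.2.2 * classProd P x.2.1 : ℕ)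
          (twoClass x.2.2 * classProd P (x.1 + x.2.1) : ℕ) ∧
        ∀ (q : ℕ) [Fact q.Prime], Soluble ℚ_[q] (2 * ∏ j, P j : ℕ) (classProd P x.1)
          (twoClass x.2.2 * classProd P x.2.1 : ℕ)
          (twoClass x.2.2 * classProd P (x.1 + x.2.1) : ℕ)} =
      2 ^ Module.finrank (ZMod 2) (LinearMap.ker (matrixTwo P).mulVecLin) := by
  have h := Module.natCard_eq_pow_finrank (K := ZMod 2)
    (V := LinearMap.ker (matrixTwo P).mulVecLin)
  rw [Nat.card_zmod] at h
  rw [← h]
  have cc : ∀ a b : Fin k → ZMod 2, ∀ e : ZMod 2,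
      a + (a + b + fun _ : Fin k => e) + (fun _ : Fin k => e) = b := fun a b e => funext fun i => by
    have key : ∀ x y z : ZMod 2, x + (x + y + z) + z = y := by decide
    exact key _ _ _
  have cc' : ∀ a g : Fin k → ZMod 2, ∀ e : ZMod 2,
      a + (a + g + fun _ : Fin k => e) + (fun _ : Fin k => e) = g := cc
  exact Nat.card_congr
    { toFun := fun x => ⟨Sum.elim x.1.1 (x.1.1 + x.1.2.1 + fun _ : Fin k => eta P x.1.1),
        LinearMap.mem_ker.2 ((soluble_everywhere_two_iff hP x.1.1 x.1.2.1 x.1.2.2).1 x.2).2⟩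
      invFun := fun z => ⟨(z.1 ∘ Sum.inl,
          z.1 ∘ Sum.inl + z.1 ∘ Sum.inr + (fun _ : Fin k => eta P (z.1 ∘ Sum.inl)),
          eta P (z.1 ∘ Sum.inl)),
        (soluble_everywhere_two_iff hP _ _ _).2 ⟨rfl, by
          have hz : (matrixTwo P).mulVec z.1 = 0 := LinearMap.mem_ker.1 z.2
          convert hz using 2
          funext w
          rcases w with i | i
          · rfl
          · have key : ∀ x y z : ZMod 2, x + (x + y + z) + z = y := by decide
            exact key _ _ _⟩⟩
      left_inv := fun x => by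
        refine Subtype.ext (Prod.ext rfl (Prod.ext ?_ ?_))
        · simpa using cc x.1.1 x.1.2.1 (eta P x.1.1)
        · exact ((soluble_everywhere_two_iff hP x.1.1 x.1.2.1 x.1.2.2).1 x.2).1.symm
      right_inv := fun z => by
        refine Subtype.ext (funext fun w => ?_)
        rcases w with i | i
        · rfl
        · exact congrFun (cc' (z.1 ∘ Sum.inl) (z.1 ∘ Sum.inr) (eta P (z.1 ∘ Sum.inl))) i }

section twicePrime

variable {p : ℕ} [hp : Fact p.Prime]

/-- **The Hasse principle fails** for the three torsors of twice a prime `≡ 9 (mod 16)`. -/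
theorem no_rational_point_two (h16 : p % 16 = 9) :
    ¬ Soluble ℚ (2 * p : ℕ) (1 : ℕ) p p ∧ ¬ Soluble ℚ (2 * p : ℕ) p (1 : ℕ) p ∧
      ¬ Soluble ℚ (2 * p : ℕ) p p (1 : ℕ) := by
  have hsf := hp.out.squarefree
  have hpI : Prime (p : ℤ) := Nat.prime_iff_prime_int.1 hp.out
  have hpZ : (p : ℤ) ≠ 0 := hpI.ne_zero
  have nsq : ∀ {u v : ℚ}, u ≠ 0 → v ^ 2 ≠ p * u ^ 2 := fun {u v} hu h =>
    hp.out.not_isSquare (Rat.isSquare_natCast_iff.1 ⟨v / u, by
      field_simp; linear_combination -h⟩)
  refine ⟨fun h => ?_, fun h => ?_, fun h => ?_⟩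
  · rcases exists_int_point hsf hsf h with ⟨u, v, w, hu, h1, -⟩ | ⟨U, V, W, E, hco, h1, h2⟩
    · push_cast at h1
      have hv : v ≠ 0 := fun h0 => pow_ne_zero 2 hu (by rw [h0] at h1; linear_combination h1)
      exact nsq hv (v := u) (by linear_combination h1)
    · push_cast at h1 h2
      obtain ⟨u, rfl⟩ : (p : ℤ) ∣ U :=
        hpI.dvd_of_dvd_pow (n := 2) ⟨V ^ 2 + 2 * E ^ 2, by linear_combination h1⟩
      exact false_two_one_p h16 (v := V) (w := W) hco
        (mul_left_cancel₀ hpZ (by linear_combination h1))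
        (mul_left_cancel₀ hpZ (by linear_combination h2))
  · rcases exists_int_point squarefree_one hsf h with
      ⟨u, v, w, hu, h1, -⟩ | ⟨U, V, W, E, hco, h1, h2⟩
    · push_cast at h1
      exact nsq hu (v := v) (by linear_combination -h1)
    · push_cast at h1 h2
      obtain ⟨v, rfl⟩ : (p : ℤ) ∣ V :=
        hpI.dvd_of_dvd_pow (n := 2) ⟨U ^ 2 - 2 * E ^ 2, by linear_combination -h1⟩
      exact false_two_p_one h16 (v := v) (w := W) hco
        (mul_left_cancel₀ hpZ (by linear_combination h1))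
        (mul_left_cancel₀ hpZ (by linear_combination h2))
  · rcases exists_int_point hsf squarefree_one h with
      ⟨u, v, w, hu, -, h2⟩ | ⟨U, V, W, E, hco, h1, h2⟩
    · push_cast at h2
      exact nsq hu (v := w) (by linear_combination -h2)
    · push_cast at h1 h2
      obtain ⟨w, rfl⟩ : (p : ℤ) ∣ W :=
        hpI.dvd_of_dvd_pow (n := 2) ⟨U ^ 2 + 2 * E ^ 2, by linear_combination -h2⟩
      exact false_two_p_p h16 (v := V) (w := w) hco
        (mul_left_cancel₀ hpZ (by linear_combination h1))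
        (mul_left_cancel₀ hpZ (by linear_combination h2))

/-- The three torsors of `2 p`, `p ≡ 1 (mod 8)`, have points everywhere locally. -/
theorem soluble_everywhere_twice_prime (h8 : p % 8 = 1) (a b c : ℕ)
    (h : (a, b, c) = (1, p, p) ∨ (a, b, c) = (p, 1, p) ∨ (a, b, c) = (p, p, 1)) :
    Soluble ℝ (2 * p : ℕ) a b c ∧ ∀ (q : ℕ) [Fact q.Prime], Soluble ℚ_[q] (2 * p : ℕ) a b c := by
  have hP : OddPrimes (fun _ : Fin 1 => p) :=
    ⟨fun _ => hp.out, fun _ => by omega, Function.injective_of_subsingleton _⟩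
  haveI : NeZero p := ⟨hp.out.ne_zero⟩
  have h2 : sym p (2 : ZMod p) = 0 :=
    sym_of_isSquare ((ZMod.exists_sq_eq_two_iff (by omega)).2 (Or.inl h8))
  have h1 : sym p (-1 : ZMod p) = 0 :=
    sym_of_isSquare (ZMod.exists_sq_eq_neg_one_iff.2 (by omega))
  have hη : ∀ α, eta (fun _ : Fin 1 => p) α = 0 := fun α => by simp [eta, h1]
  have key : ∀ α β : Fin 1 → ZMod 2, _ := fun α β =>
    (soluble_everywhere_two_iff hP α β 0).2 ⟨(hη α).symm,
      (mulVec_two_eq_zero_iff hP α β).2 fun i => by
        obtain rfl := Fin.fin_one_eq_zero i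
        have hD : diagA (fun _ : Fin 1 => p) 0 = 0 := by simp [diagA]
        simp [h1, h2, hD]⟩
  rcases h with h | h | h <;> simp only [Prod.mk.injEq] at h <;> obtain ⟨rfl, rfl, rfl⟩ := h
  · simpa [classProd, twoClass] using key 0 1
  · simpa [classProd, twoClass] using key 1 0
  · simpa [classProd, twoClass, CharTwo.add_self_eq_zero] using key 1 1

end twicePrime

/-- Arbitrarily many primes `≡ 1 (mod 8)`, each a square modulo every other one. -/
theorem exists_mutual_squares (k : ℕ) : ∃ P : Fin k → ℕ, OddPrimes P ∧ (∀ i, P i % 8 = 1) ∧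
    ∀ i j, i ≠ j → IsSquare (P j : ZMod (P i)) := by
  induction k with
  | zero => exact ⟨Fin.elim0, ⟨fun i => i.elim0, fun i => i.elim0, fun i => i.elim0⟩,
      fun i => i.elim0, fun i => i.elim0⟩
  | succ k ih =>
    obtain ⟨P, hP, h8, hsq⟩ := ih
    have h0 : 8 * ∏ i, P i ≠ 0 := mul_ne_zero (by norm_num) hP.odd_prod.pos.ne'
    obtain ⟨q, hgt, hq, hmod⟩ :=
      Nat.forall_exists_prime_gt_and_modEq (8 * ∏ i, P i) h0 (Nat.coprime_one_left _)
    have hq8 : q % 8 = 1 := by rw [Nat.ModEq.of_mul_right _ hmod]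
    have hgtP : ∀ i, P i < q := fun i => lt_of_le_of_lt ((Nat.le_of_dvd hP.odd_prod.pos
      (Finset.dvd_prod_of_mem P (Finset.mem_univ i))).trans
        (Nat.le_mul_of_pos_left _ (by norm_num))) hgt
    have hqi : ∀ i, IsSquare (q : ZMod (P i)) := fun i => by
      have : (q : ZMod (P i)) = ((1 : ℕ) : ZMod (P i)) :=
        (ZMod.natCast_eq_natCast_iff _ _ _).2 ((Nat.ModEq.of_mul_left 8 hmod).of_dvd
          (Finset.dvd_prod_of_mem P (Finset.mem_univ i)))
      rw [this, Nat.cast_one]
      exact IsSquare.one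
    have hiq : ∀ i, IsSquare (P i : ZMod q) := fun i => by
      haveI := Fact.mk hq
      haveI := Fact.mk (hP.prime i)
      exact (ZMod.exists_sq_eq_prime_iff_of_mod_four_eq_one (by omega) (hP.odd i)).2 (hqi i)
    refine ⟨Fin.snoc P q, ⟨fun i => ?_, fun i => ?_, fun i j h => ?_⟩, fun i => ?_,
      fun i j hij => ?_⟩
    · refine Fin.lastCases ?_ (fun i => ?_) i <;> simp [hq, hP.prime]
    · refine Fin.lastCases ?_ (fun i => ?_) i <;> simp [hP.odd]
      omega
    · induction i using Fin.lastCases with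
      | last =>
        induction j using Fin.lastCases with
        | last => rfl
        | cast j => simp at h; exact absurd h.symm (hgtP j).ne
      | cast i =>
        induction j using Fin.lastCases with
        | last => simp at h; exact absurd h (hgtP i).ne
        | cast j => simp at h; rw [hP.injective h]
    · refine Fin.lastCases ?_ (fun i => ?_) i <;> simp [hq8, h8]
    · induction i using Fin.lastCases with
      | last =>
        induction j using Fin.lastCases with
        | last => exact absurd rfl hij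
        | cast j => rw [Fin.snoc_last, Fin.snoc_castSucc]; exact hiq j
      | cast i =>
        induction j using Fin.lastCases with
        | last => rw [Fin.snoc_last, Fin.snoc_castSucc]; exact hqi i
        | cast j =>
          rw [Fin.snoc_castSucc, Fin.snoc_castSucc]
          exact hsq i j fun h => hij (h ▸ rfl)

/-- For such primes every pair of classes has points everywhere locally. -/
theorem soluble_everywhere_mutual (hP : OddPrimes P) (h8 : ∀ i, P i % 8 = 1)
    (hsq : ∀ i j, i ≠ j → IsSquare (P j : ZMod (P i))) (α β : Fin k → ZMod 2) :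
    Soluble ℝ (∏ j, P j : ℕ) (classProd P α) (classProd P β) (classProd P (α + β)) ∧
      ∀ (q : ℕ) [Fact q.Prime],
        Soluble ℚ_[q] (∏ j, P j : ℕ) (classProd P α) (classProd P β) (classProd P (α + β)) := by
  refine (soluble_everywhere_iff hP α β).2 ((mulVec_eq_zero_iff α β).2 fun i => ?_)
  haveI := Fact.mk (hP.prime i)
  have h2 : sym (P i) 2 = 0 :=
    sym_of_isSquare ((ZMod.exists_sq_eq_two_iff (hP.odd i)).2 (Or.inl (h8 i)))
  have h1 : sym (P i) (-1) = 0 :=
    sym_of_isSquare (ZMod.exists_sq_eq_neg_one_iff.2 (by have := h8 i; omega))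
  have he : ∀ j ∈ Finset.univ.erase i, entry P i j = 0 := fun j hj =>
    sym_of_isSquare (hsq i j (Finset.ne_of_mem_erase hj).symm)
  have hD : diagA P i = 0 := Finset.sum_eq_zero he
  have hs : ∀ f : Fin k → ZMod 2, ∑ j ∈ Finset.univ.erase i, f j * entry P i j = 0 := fun f =>
    Finset.sum_eq_zero fun j hj => by rw [he j hj, mul_zero]
  simp [h1, h2, hD, hs]

end FA.Monsky

end
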