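import Fermat.Agent.Monsky.SelmerRanks

/-!
# An exact descent group, and squares in progression

For twice a prime `p ≡ 9 (mod 16)` four triples of classes are soluble everywhere locally and only
the trivial one has a rational point. For a non-congruent `n` the surface equation
`x⁴ - n² y⁴ = z²` has no solution with `y ≠ 0`.
-/

set_option autoImplicit false
set_option linter.style.haveILetI false

noncomputable section

open WeierstrassCurve
open FA.CongruentNumber

namespace FA.Monsky

/-- Without points of infinite order `x⁴ - n² y⁴ = z²` forces `y = 0`. -/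
theorem quartic_trivial {n : ℕ} (hn : n ≠ 0) (hns : ¬ IsSquare n)
    (he : Nonempty ((congCurve n).toAffine.Point ≃+ ZMod 2 × ZMod 2)) {x y z : ℚ}
    (h : x ^ 4 - (n : ℚ) ^ 2 * y ^ 4 = z ^ 2) : y = 0 := by
  by_contra hy
  have hn' : (0 : ℚ) < n := Nat.cast_pos.2 (Nat.pos_of_ne_zero hn)
  have hx : x ≠ 0 := fun h0 => by
    subst h0
    have : 0 < (n : ℚ) ^ 2 * y ^ 4 := by positivity
    nlinarith [sq_nonneg z]
  have hz : z ≠ 0 := fun h0 => by
    subst h0
    rcases mul_eq_zero.1 (show (x ^ 2 - n * y ^ 2) * (x ^ 2 + n * y ^ 2) = 0 by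
      linear_combination h) with h' | h'
    · exact hns (Rat.isSquare_natCast_iff.1 ⟨x / y, by field_simp; linear_combination -h'⟩)
    · have : 0 < (n : ℚ) * y ^ 2 := by positivity
      nlinarith [sq_nonneg x]
  have hns' := nonsingular_congCurve hn (x := (x / y) ^ 2) (y := x / y * (z / y ^ 2)) (by
    field_simp
    linear_combination -h)
  obtain ⟨e⟩ := he
  haveI := Finite.of_equiv _ e.toEquiv.symm
  exact mul_ne_zero (div_ne_zero hx hy) (div_ne_zero hz (pow_ne_zero 2 hy))
    (y_eq_zero_of_torsion hn (h := hns') (isOfFinAddOrder_of_finite _))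

variable {p : ℕ} [hp : Fact p.Prime]

/-- The counts for twice a prime `≡ 9 (mod 16)`. -/
theorem exact_descent (h16 : p % 16 = 9) :
    Module.finrank ℤ (congCurve (2 * p)).toAffine.Point = 0 ∧
    Nat.card {x : (Fin 1 → ZMod 2) × (Fin 1 → ZMod 2) × ZMod 2 //
      Soluble ℝ (2 * p : ℕ) (classProd (fun _ => p) x.1)
          (twoClass x.2.2 * classProd (fun _ => p) x.2.1 : ℕ)
          (twoClass x.2.2 * classProd (fun _ => p) (x.1 + x.2.1) : ℕ) ∧
        ∀ (q : ℕ) [Fact q.Prime], Soluble ℚ_[q] (2 * p : ℕ) (classProd (fun _ => p) x.1)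
          (twoClass x.2.2 * classProd (fun _ => p) x.2.1 : ℕ)
          (twoClass x.2.2 * classProd (fun _ => p) (x.1 + x.2.1) : ℕ)} = 4 ∧
    Nat.card {x : (Fin 1 → ZMod 2) × (Fin 1 → ZMod 2) × ZMod 2 //
      (Soluble ℝ (2 * p : ℕ) (classProd (fun _ => p) x.1)
          (twoClass x.2.2 * classProd (fun _ => p) x.2.1 : ℕ)
          (twoClass x.2.2 * classProd (fun _ => p) (x.1 + x.2.1) : ℕ) ∧
        ∀ (q : ℕ) [Fact q.Prime], Soluble ℚ_[q] (2 * p : ℕ) (classProd (fun _ => p) x.1)
          (twoClass x.2.2 * classProd (fun _ => p) x.2.1 : ℕ)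
          (twoClass x.2.2 * classProd (fun _ => p) (x.1 + x.2.1) : ℕ)) ∧
        Soluble ℚ (2 * p : ℕ) (classProd (fun _ => p) x.1)
          (twoClass x.2.2 * classProd (fun _ => p) x.2.1 : ℕ)
          (twoClass x.2.2 * classProd (fun _ => p) (x.1 + x.2.1) : ℕ)} = 1 := by
  haveI : NeZero p := ⟨hp.out.ne_zero⟩
  have hP : OddPrimes (fun _ : Fin 1 => p) :=
    ⟨fun _ => hp.out, fun _ => by omega, Function.injective_of_subsingleton _⟩
  have hprod : ∏ _j : Fin 1, p = p := by simp
  obtain ⟨m0, d0⟩ := (syms_of_mod_eight hP 0).1 (by omega)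
  refine ⟨(point_equiv_two_prime h16).elim fun e =>
    finrank_eq_of_equiv (r := 0) (e.trans AddEquiv.prodUnique.symm), ?_, ?_⟩
  · have h := natCard_soluble_two hP
    rw [finrank_ker_two_of_entry fun i j h => absurd (Subsingleton.elim i j) h, Fin.sum_univ_one,
      if_pos d0, if_pos m0] at h
    rw [hprod] at h
    exact h
  · obtain ⟨n1, n2, n3⟩ := no_rational_point_two h16
    rw [Nat.card_eq_one_iff_unique]
    refine ⟨⟨fun x y => Subtype.ext ?_⟩, ⟨⟨(0, 0, 0), ?_, ?_⟩⟩⟩
    · suffices key : ∀ z : {x : (Fin 1 → ZMod 2) × (Fin 1 → ZMod 2) × ZMod 2 // _}, z.1 = (0, 0, 0)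
        from (key x).trans (key y).symm
      rintro ⟨⟨α, β, η⟩, ⟨hR, hq⟩, hQ⟩
      have hη : η = eta (fun _ => p) α :=
        ((soluble_everywhere_two_iff hP α β η).1
          ⟨by rw [hprod]; exact hR, fun q _ => by rw [hprod]; exact hq q⟩).1
      have hη0 : η = 0 := by rw [hη]; simp [eta, m0]
      subst hη0
      have two : ∀ f : Fin 1 → ZMod 2, f = 0 ∨ f = 1 := by decide
      rcases two α with rfl | rfl <;> rcases two β with rfl | rfl
      · rfl
      · exact absurd (by simpa [classProd, twoClass] using hQ) n1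
      · exact absurd (by simpa [classProd, twoClass] using hQ) n2
      · exact absurd (by simpa [classProd, twoClass, CharTwo.add_self_eq_zero] using hQ) n3
    · have h := (soluble_everywhere_two_iff hP 0 0 0).2 ⟨by simp [eta],
        (mulVec_two_eq_zero_iff hP 0 0).2 fun i => by simp [eta]⟩
      rw [hprod] at h
      exact h
    · exact ⟨1, 1, 1, 0, Or.inl one_ne_zero, by simp [classProd, twoClass],
        by simp [classProd, twoClass]⟩

end FA.Monsky

end
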