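import Fermat.Agent.Iskra.Classify
import Mathlib.LinearAlgebra.Matrix.ToLin
import Mathlib.NumberTheory.LegendreSymbol.QuadraticChar.Basic

/-!
# Monsky's matrix

For distinct odd primes `P i` with product `n` let `A` have the entries `(P j / P i)` off the
diagonal and their sum on it, and `D₋₁`, `D₂` the diagonals of `(-1 / P i)`, `(2 / P i)`, all read
in `ℤ/2`. If `a u², b v² = a u² - n e², c w² = a u² + n e²` with `a, b, c` squarefree of square
product and `b` odd, then with `α`, `β` the primes of `a`, `b` the vector `(α + β, β)` is killed by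
`(A + D₂, D₂; D₂, A + D₋₁ + D₂)`: at each prime of `n` these are two quadratic residue conditions.
-/

set_option autoImplicit false
set_option linter.style.haveILetI false

noncomputable section

namespace FA.Monsky

/-- The quadratic residue symbol in `ℤ/2`: `0` for squares. -/
def sym (p : ℕ) [NeZero p] (x : ZMod p) : ZMod 2 := if IsSquare x then 0 else 1

section symbol

variable {p : ℕ} [hp : Fact p.Prime]

theorem sym_of_isSquare {x : ZMod p} (h : IsSquare x) : sym p x = 0 := if_pos h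

theorem sym_eq_zero {x : ZMod p} (h : sym p x = 0) : IsSquare x := by
  by_contra hne
  rw [sym, if_neg hne] at h
  exact one_ne_zero h

theorem sym_mul (hp2 : p ≠ 2) {x y : ZMod p} (hx : x ≠ 0) (hy : y ≠ 0) :
    sym p (x * y) = sym p x + sym p y := by
  have key : ∀ {z : ZMod p}, z ≠ 0 → (IsSquare z ↔ quadraticChar (ZMod p) z = 1) := fun hz =>
    (quadraticChar_one_iff_isSquare hz).symm
  have hc : ringChar (ZMod p) ≠ 2 := by rwa [ZMod.ringChar_zmod_n]
  simp only [sym, key hx, key hy, key (mul_ne_zero hx hy), map_mul]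
  rcases quadraticChar_dichotomy hx with h | h <;>
    rcases quadraticChar_dichotomy hy with h' | h' <;>
    simp [h, h', CharTwo.add_self_eq_zero]

theorem sym_sq {x : ZMod p} : sym p (x ^ 2) = 0 := sym_of_isSquare (IsSquare.sq x)

/-- Equal symbols from an equation between square multiples. -/
theorem sym_eq_of_mul_sq (hp2 : p ≠ 2) {x y u v : ZMod p} (hy : y ≠ 0) (hu : u ≠ 0) (hv : v ≠ 0)
    (h : x * u ^ 2 = y * v ^ 2) : sym p x = sym p y := by
  have hx : x ≠ 0 := fun h0 => mul_ne_zero hy (pow_ne_zero 2 hv) (by rw [← h, h0, zero_mul])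
  have := congrArg (sym p) h
  rwa [sym_mul hp2 hx (pow_ne_zero 2 hu), sym_mul hp2 hy (pow_ne_zero 2 hv), sym_sq, sym_sq,
    add_zero, add_zero] at this

end symbol

/-- Distinct odd primes. -/
structure OddPrimes {k : ℕ} (P : Fin k → ℕ) : Prop where
  prime : ∀ i, (P i).Prime
  odd : ∀ i, P i ≠ 2
  injective : Function.Injective P

variable {k : ℕ} (P : Fin k → ℕ)

/-- The symbol of `P j` modulo `P i`. -/
def entry [∀ i, NeZero (P i)] (i j : Fin k) : ZMod 2 := sym (P i) (P j : ZMod (P i))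

/-- The diagonal of `A`. -/
def diagA [∀ i, NeZero (P i)] (i : Fin k) : ZMod 2 := ∑ j ∈ Finset.univ.erase i, entry P i j

/-- **Monsky's matrix** `(A + D₂, D₂; D₂, A + D₋₁ + D₂)`. -/
def matrix [∀ i, NeZero (P i)] : Matrix (Fin k ⊕ Fin k) (Fin k ⊕ Fin k) (ZMod 2) :=
  Matrix.fromBlocks
    (Matrix.of fun i j => if i = j then diagA P i + sym (P i) 2 else entry P i j)
    (Matrix.diagonal fun i => sym (P i) 2) (Matrix.diagonal fun i => sym (P i) 2)
    (Matrix.of fun i j => if i = j then diagA P i + sym (P i) (-1) + sym (P i) 2 else entry P i j)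

/-- The number with the primes marked by `f`. -/
def classProd (f : Fin k → ZMod 2) : ℕ := ∏ i, if f i = 1 then P i else 1

/-- The primes of `a` as a vector. -/
def indicator (a : ℕ) (i : Fin k) : ZMod 2 := if P i ∣ a then 1 else 0

variable {P}

theorem OddPrimes.squarefree_prod (hP : OddPrimes P) (T : Finset (Fin k)) :
    Squarefree (∏ i ∈ T, P i) := by
  refine Finset.squarefree_prod_of_pairwise_isCoprime (fun i _ j _ hij => ?_)
    fun i _ => (hP.prime i).squarefree
  exact Nat.coprime_iff_isRelPrime.1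
    ((Nat.coprime_primes (hP.prime i) (hP.prime j)).2 fun h => hij (hP.injective h))

theorem OddPrimes.odd_prod (hP : OddPrimes P) : Odd (∏ i, P i) := by
  rw [Nat.odd_iff, Finset.prod_nat_mod, Finset.prod_congr rfl fun i _ =>
    (hP.prime i).eq_two_or_odd.resolve_left (hP.odd i)]
  simp

/-- A squarefree number made of the primes is the product of those dividing it. -/
theorem OddPrimes.eq_prod (hP : OddPrimes P) {a : ℕ} (ha : Squarefree a)
    (h : ∀ q : ℕ, q.Prime → q ∣ a → ∃ j, q = P j) :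
    a = ∏ i ∈ Finset.univ.filter (fun i => P i ∣ a), P i := by
  refine Nat.dvd_antisymm ?_ ?_
  · conv_lhs => rw [← Nat.prod_primeFactors_of_squarefree ha]
    rw [← Finset.prod_image (f := fun q => q) (g := P) hP.injective.injOn]
    refine Finset.prod_dvd_prod_of_subset _ _ _ fun q hq => ?_
    obtain ⟨hqp, hqa, -⟩ := Nat.mem_primeFactors.1 hq
    obtain ⟨j, rfl⟩ := h q hqp hqa
    exact Finset.mem_image.2 ⟨j, by simp [hqa], rfl⟩
  · rw [← Finset.prod_image (f := fun q => q) (g := P) hP.injective.injOn]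
    refine Finset.prod_primes_dvd _ (fun q hq => ?_) fun q hq => ?_
    · obtain ⟨i, -, rfl⟩ := Finset.mem_image.1 hq
      exact (hP.prime i).prime
    · obtain ⟨i, hi, rfl⟩ := Finset.mem_image.1 hq
      exact (Finset.mem_filter.1 hi).2

theorem OddPrimes.classProd_indicator (hP : OddPrimes P) {a : ℕ} (ha : Squarefree a)
    (h : ∀ q : ℕ, q.Prime → q ∣ a → ∃ j, q = P j) : classProd P (indicator P a) = a := by
  conv_rhs => rw [hP.eq_prod ha h]
  rw [classProd, Finset.prod_filter]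
  refine Finset.prod_congr rfl fun i _ => ?_
  by_cases hd : P i ∣ a <;> simp [indicator, hd]

/-- The symbol of a number made of the primes. -/
theorem OddPrimes.sym_cast (hP : OddPrimes P) [∀ i, NeZero (P i)] (i : Fin k) {a : ℕ}
    (ha : Squarefree a) (h : ∀ q : ℕ, q.Prime → q ∣ a → ∃ j, q = P j) (hia : ¬ P i ∣ a) :
    sym (P i) (a : ZMod (P i)) = ∑ j ∈ Finset.univ.erase i, indicator P a j * entry P i j := by
  haveI := Fact.mk (hP.prime i)
  have hmem : ∀ T : Finset (Fin k), i ∉ T →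
      sym (P i) ((∏ j ∈ T, P j : ℕ) : ZMod (P i)) = ∑ j ∈ T, entry P i j := by
    intro T hi
    induction T using Finset.induction with
    | empty => simpa using sym_of_isSquare IsSquare.one
    | insert j T hj ih =>
      simp only [Finset.mem_insert, not_or] at hi
      have ne : ∀ l, i ≠ l → (P l : ZMod (P i)) ≠ 0 := fun l hl h0 => hl (hP.injective
        ((Nat.prime_dvd_prime_iff_eq (hP.prime i) (hP.prime l)).1
          ((ZMod.natCast_eq_zero_iff _ _).1 h0)))
      rw [Finset.prod_insert hj, Finset.sum_insert hj, Nat.cast_mul,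
        sym_mul (hP.odd i) (ne j hi.1) (by
          rw [Nat.cast_prod]
          exact Finset.prod_ne_zero_iff.2 fun l hl => ne l fun e => hi.2 (e ▸ hl)),
        ih hi.2]
      rfl
  conv_lhs => rw [hP.eq_prod ha h]
  rw [hmem _ (by simp [hia])]
  simp only [indicator, ite_mul, one_mul, zero_mul, ← Finset.sum_filter]
  refine Finset.sum_congr (Finset.ext fun j => ?_) fun _ _ => rfl
  simp only [Finset.mem_filter, Finset.mem_univ, Finset.mem_erase, true_and, and_true]
  exact ⟨fun hj => ⟨fun e => hia (e ▸ hj), hj⟩, fun hj => hj.2⟩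

/-- **The classes lie in the kernel of Monsky's matrix.** -/
theorem mulVec_classes (hP : OddPrimes P) [∀ i, NeZero (P i)] {a b c : ℕ} (ha : Squarefree a)
    (hb : Squarefree b) (hc : Squarefree c) (habc : IsSquare (a * b * c)) (hb2 : ¬ 2 ∣ b)
    {u v w e : ℤ} (hB : (b : ℤ) * v ^ 2 = a * u ^ 2 - (∏ i, P i : ℕ) * e ^ 2)
    (hC : (c : ℤ) * w ^ 2 = a * u ^ 2 + (∏ i, P i : ℕ) * e ^ 2)
    (hco : IsCoprime ((a : ℤ) * u ^ 2) e) :
    (∀ q : ℕ, q.Prime → q ∣ a ∨ q ∣ b ∨ q ∣ c → ∃ j, q = P j) ∧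
      (matrix P).mulVec (Sum.elim (indicator P a + indicator P b) (indicator P b)) = 0 := by
  set N : ℕ := ∏ i, P i with hN
  have hodd : Odd N := hP.odd_prod
  have hab' : IsSquare (b * a * c) := by rwa [mul_comm b a]
  have hca' : IsSquare (c * a * b) := by rwa [mul_assoc, mul_comm c]
  -- the primes of the classes
  have mem : ∀ q : ℕ, q.Prime → q ∣ a ∨ q ∣ b ∨ q ∣ c → ∃ j, q = P j := by
    intro q hq hd
    have hqI : Prime (q : ℤ) := Nat.prime_iff_prime_int.1 hq
    have key : (q : ℤ) ∣ (a : ℤ) * u ^ 2 → (q : ℤ) ∣ (N : ℤ) * e ^ 2 →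
        ∃ j, q = P j := fun h1 h2 => by
      have hqN : q ∣ N := Int.natCast_dvd_natCast.1 ((hqI.dvd_or_dvd h2).resolve_right fun h =>
        hqI.not_isUnit (hco.isUnit_of_dvd' h1 (hqI.dvd_of_dvd_pow h)))
      obtain ⟨j, -, hj⟩ := (hq.prime.dvd_finsetProd_iff _).1 hqN
      exact ⟨j, (Nat.prime_dvd_prime_iff_eq hq (hP.prime j)).1 hj⟩
    have hcast : ∀ {m : ℕ} {z : ℤ}, q ∣ m → (q : ℤ) ∣ (m : ℤ) * z := fun h =>
      dvd_mul_of_dvd_left (Int.natCast_dvd_natCast.2 h) _
    have two : (q ∣ a ∧ q ∣ b) ∨ (q ∣ a ∧ q ∣ c) ∨ (q ∣ b ∧ q ∣ c) := by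
      rcases hd with h | h | h
      · exact (FA.Iskra.dvd_of_square ha hq h habc).elim (fun h' => Or.inl ⟨h, h'⟩)
          fun h' => Or.inr (Or.inl ⟨h, h'⟩)
      · exact (FA.Iskra.dvd_of_square hb hq h hab').elim (fun h' => Or.inl ⟨h', h⟩)
          fun h' => Or.inr (Or.inr ⟨h, h'⟩)
      · exact (FA.Iskra.dvd_of_square hc hq h hca').elim (fun h' => Or.inr (Or.inl ⟨h', h⟩))
          fun h' => Or.inr (Or.inr ⟨h', h⟩)
    rcases two with ⟨h1, h2⟩ | ⟨h1, h2⟩ | ⟨h1, h2⟩
    · refine key (hcast h1) ?_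
      rw [show (N : ℤ) * e ^ 2 = (a : ℤ) * u ^ 2 - (b : ℤ) * v ^ 2 by linear_combination hB]
      exact dvd_sub (hcast h1) (hcast h2)
    · refine key (hcast h1) ?_
      rw [show (N : ℤ) * e ^ 2 = (c : ℤ) * w ^ 2 - (a : ℤ) * u ^ 2 by linear_combination -hC]
      exact dvd_sub (hcast h2) (hcast h1)
    · have hq2 : ¬ (q : ℤ) ∣ 2 := fun h => hb2
        ((Nat.prime_dvd_prime_iff_eq hq Nat.prime_two).1 (Int.natCast_dvd_natCast.1 h) ▸ h1)
      refine key ((hqI.dvd_or_dvd ?_).resolve_left hq2) ((hqI.dvd_or_dvd ?_).resolve_left hq2)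
      · rw [show 2 * ((a : ℤ) * u ^ 2) = (b : ℤ) * v ^ 2 + (c : ℤ) * w ^ 2 by
          linear_combination -hB - hC]
        exact dvd_add (hcast h1) (hcast h2)
      · rw [show 2 * ((N : ℤ) * e ^ 2) = (c : ℤ) * w ^ 2 - (b : ℤ) * v ^ 2 by
          linear_combination hB - hC]
        exact dvd_sub (hcast h2) (hcast h1)
  refine ⟨mem, ?_⟩
  have ma : ∀ q : ℕ, q.Prime → q ∣ a → ∃ j, q = P j := fun q hq h => mem q hq (Or.inl h)
  have mb : ∀ q : ℕ, q.Prime → q ∣ b → ∃ j, q = P j := fun q hq h => mem q hq (Or.inr (Or.inl h))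
  -- the two conditions at each prime
  suffices hrow : ∀ i,
      (∑ j ∈ Finset.univ.erase i, indicator P a j * entry P i j) + diagA P i * indicator P a i +
          sym (P i) (-1) * indicator P b i = 0 ∧
        (∑ j ∈ Finset.univ.erase i, indicator P b j * entry P i j) +
          sym (P i) 2 * indicator P a i + (diagA P i + sym (P i) (-1)) * indicator P b i = 0 by
    have hchar : ∀ z : ZMod 2, z + z = 0 := CharTwo.add_self_eq_zero
    have hofs : ∀ (i : Fin k) (d : ZMod 2) (f : Fin k → ZMod 2),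
        ∑ j, (if i = j then d else entry P i j) * f j =
          d * f i + ∑ j ∈ Finset.univ.erase i, f j * entry P i j := fun i d f => by
      rw [← Finset.add_sum_erase _ _ (Finset.mem_univ i), if_pos rfl]
      congr 1
      exact Finset.sum_congr rfl fun j hj => by
        rw [if_neg (Finset.ne_of_mem_erase hj).symm, mul_comm]
    funext z
    rw [matrix, Matrix.fromBlocks_mulVec, Pi.zero_apply]
    rcases z with i | i <;> obtain ⟨h1, h2⟩ := hrow i <;>
      simp only [Sum.elim_inl, Sum.elim_inr, Pi.add_apply, Matrix.mulVec_diagonal,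
        Sum.elim_comp_inl,
        Sum.elim_comp_inr]
    · show ∑ j, (if i = j then _ else entry P i j) * (indicator P a + indicator P b) j + _ = 0
      rw [hofs]
      simp only [Pi.add_apply, add_mul, Finset.sum_add_distrib]
      linear_combination h1 + h2 - hchar (sym (P i) 2 * indicator P a i) +
        hchar (sym (P i) 2 * indicator P a i) - hchar (sym (P i) (-1) * indicator P b i) +
        hchar (sym (P i) 2 * indicator P b i)
    · show _ + ∑ j, (if i = j then _ else entry P i j) * indicator P b j = 0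
      rw [hofs]
      linear_combination h2 + hchar (sym (P i) 2 * indicator P b i)
  intro i
  haveI := Fact.mk (hP.prime i)
  have hp := hP.prime i
  have hp2 := hP.odd i
  have h2 : (2 : ZMod (P i)) ≠ 0 := Ring.two_ne_zero (by rwa [ZMod.ringChar_zmod_n])
  have hpI : Prime ((P i : ℕ) : ℤ) := Nat.prime_iff_prime_int.1 hp
  obtain ⟨N', hN'⟩ : P i ∣ N := Finset.dvd_prod_of_mem P (Finset.mem_univ i)
  have hN'd : ¬ P i ∣ N' := fun h => hp.ne_one (Nat.isUnit_iff.1
    ((hP.squarefree_prod Finset.univ) (P i) (by rw [← hN, hN']; exact mul_dvd_mul_left _ h)))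
  have hN'0 : (N' : ZMod (P i)) ≠ 0 := fun h => hN'd ((ZMod.natCast_eq_zero_iff _ _).1 h)
  have hN'sym : sym (P i) (N' : ZMod (P i)) = diagA P i := by
    have hsq : Squarefree N' :=
      (hP.squarefree_prod Finset.univ).squarefree_of_dvd (Dvd.intro_left _ hN'.symm)
    have hmemN : ∀ q : ℕ, q.Prime → q ∣ N' → ∃ j, q = P j := fun q hq h => by
      obtain ⟨j, -, hj⟩ := (hq.prime.dvd_finsetProd_iff P).1 (hN ▸ hN'.symm ▸ h.mul_left _)
      exact ⟨j, (Nat.prime_dvd_prime_iff_eq hq (hP.prime j)).1 hj⟩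
    rw [hP.sym_cast i hsq hmemN hN'd, diagA]
    refine Finset.sum_congr rfl fun j hj => ?_
    have hji : j ≠ i := Finset.ne_of_mem_erase hj
    have hdvd : P j ∣ N' :=
      ((hP.prime j).dvd_mul.1 (hN' ▸ Finset.dvd_prod_of_mem P (Finset.mem_univ j))).resolve_left
        fun h => hji (hP.injective ((Nat.prime_dvd_prime_iff_eq (hP.prime j) hp).1 h))
    simp [indicator, hdvd]
  -- a quotient by the prime
  have quot : ∀ {m : ℕ}, Squarefree m → (∀ q : ℕ, q.Prime → q ∣ m → ∃ j, q = P j) → P i ∣ m →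
      ∃ m', m = P i * m' ∧ (m' : ZMod (P i)) ≠ 0 ∧ sym (P i) (m' : ZMod (P i)) =
        ∑ j ∈ Finset.univ.erase i, indicator P m j * entry P i j := by
    intro m hm hmm hd
    obtain ⟨m', rfl⟩ := hd
    have hnd : ¬ P i ∣ m' := fun h =>
      hp.ne_one (Nat.isUnit_iff.1 (hm _ (mul_dvd_mul_left _ h)))
    refine ⟨m', rfl, fun h => hnd ((ZMod.natCast_eq_zero_iff _ _).1 h), ?_⟩
    rw [hP.sym_cast i (hm.squarefree_of_dvd (dvd_mul_left _ _))
      (fun q hq h => hmm q hq (h.mul_left _)) hnd]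
    refine Finset.sum_congr rfl fun j hj => ?_
    have hji : j ≠ i := Finset.ne_of_mem_erase hj
    have hiff : P j ∣ P i * m' ↔ P j ∣ m' := ⟨fun h => ((hP.prime j).dvd_mul.1 h).resolve_left
      fun h => hji (hP.injective ((Nat.prime_dvd_prime_iff_eq (hP.prime j) hp).1 h)),
      fun h => h.mul_left _⟩
    simp only [indicator, hiff]
  have hp0 : ((P i : ℕ) : ℤ) ≠ 0 := hpI.ne_zero
  have reduce : ∀ {s t : ℤ}, ((P i : ℕ) : ℤ) * s = ((P i : ℕ) : ℤ) * t →
      (s : ZMod (P i)) = (t : ZMod (P i)) := fun h => by rw [mul_left_cancel₀ hp0 h]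
  have ofDvd : ∀ {m : ℕ}, P i ∣ m → ((m : ℤ) : ZMod (P i)) = 0 := fun h => by
    rw [Int.cast_natCast]; exact (ZMod.natCast_eq_zero_iff _ _).2 h
  have toDvd : ∀ {z : ℤ}, (z : ZMod (P i)) = 0 → ((P i : ℕ) : ℤ) ∣ z := fun h =>
    (ZMod.intCast_zmod_eq_zero_iff_dvd _ _).1 h
  have he : ((P i : ℕ) : ℤ) ∣ (a : ℤ) * u ^ 2 → (e : ZMod (P i)) ≠ 0 := fun h h0 =>
    hpI.not_isUnit (hco.isUnit_of_dvd' h (toDvd h0))
  have hdvd_of : ∀ {m : ℕ} {z : ℤ}, ¬ P i ∣ m → ((P i : ℕ) : ℤ) ∣ (m : ℤ) * z ^ 2 →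
      ((P i : ℕ) : ℤ) ∣ z := fun hm h => hpI.dvd_of_dvd_pow (n := 2)
    ((hpI.dvd_or_dvd h).resolve_left fun h' => hm (Int.natCast_dvd_natCast.1 h'))
  have hind : ∀ m : ℕ, indicator P m i = if P i ∣ m then 1 else 0 := fun m => rfl
  have hN0 : ((N : ℤ) : ZMod (P i)) = 0 := ofDvd ⟨N', hN'⟩
  have hz : ∀ z : ZMod 2, z + z = 0 := CharTwo.add_self_eq_zero
  obtain ⟨s, hs⟩ := habc
  by_cases hpa : P i ∣ a
  · have he' := he (dvd_mul_of_dvd_left (Int.natCast_dvd_natCast.2 hpa) _)
    obtain ⟨a', rfl, ha'0, hsa⟩ := quot ha ma hpa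
    by_cases hpb : P i ∣ b
    · -- `p` divides `a`, `b`
      have hpc : ¬ P i ∣ c := fun h =>
        FA.Iskra.not_dvd_three ha hb hc hp ⟨s, hs⟩ ⟨hpa, hpb, h⟩
      obtain ⟨b', rfl, hb'0, hsb⟩ := quot hb mb hpb
      obtain ⟨w', rfl⟩ : ((P i : ℕ) : ℤ) ∣ w :=
        hdvd_of hpc ⟨a' * u ^ 2 + N' * e ^ 2, by rw [hC, hN']; push_cast; ring⟩
      have e1 := reduce (s := (b' : ℤ) * v ^ 2) (t := a' * u ^ 2 - N' * e ^ 2)
        (by rw [hN'] at hB; push_cast at hB; linear_combination hB)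
      have e2 := reduce (s := (a' : ℤ) * u ^ 2 + N' * e ^ 2)
        (t := ((P i : ℕ) : ℤ) * (c * w' ^ 2))
        (by rw [hN'] at hC; push_cast at hC; linear_combination -hC)
      push_cast at e1 e2
      rw [ZMod.natCast_self, zero_mul] at e2
      have hu : (u : ZMod (P i)) ≠ 0 := fun h => mul_ne_zero hN'0 (pow_ne_zero 2 he') (by
        rw [h] at e2; linear_combination e2)
      have hv : (v : ZMod (P i)) ≠ 0 := fun h => mul_ne_zero (mul_ne_zero h2 hN'0)
        (pow_ne_zero 2 he') (by rw [h] at e1; linear_combination e1 + e2)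
      have s1 := sym_eq_of_mul_sq hp2 (x := (a' : ZMod (P i))) (y := -1 * (N' : ZMod (P i)))
        (mul_ne_zero (neg_ne_zero.2 one_ne_zero) hN'0) hu he' (by linear_combination e2)
      have s2 := sym_eq_of_mul_sq hp2 (x := (b' : ZMod (P i))) (y := -1 * (2 * (N' : ZMod (P i))))
        (mul_ne_zero (neg_ne_zero.2 one_ne_zero) (mul_ne_zero h2 hN'0)) hv he'
        (by linear_combination e1 + e2)
      rw [sym_mul hp2 (neg_ne_zero.2 one_ne_zero) hN'0, hN'sym, hsa] at s1
      rw [sym_mul hp2 (neg_ne_zero.2 one_ne_zero) (mul_ne_zero h2 hN'0), sym_mul hp2 h2 hN'0,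
        hN'sym, hsb] at s2
      rw [hind, hind, if_pos hpa, if_pos hpb]
      constructor
      · linear_combination s1 + hz (sym (P i) (-1)) + hz (diagA P i)
      · linear_combination s2 + hz (sym (P i) (-1)) + hz (diagA P i) + hz (sym (P i) 2)
    · -- `p` divides `a`, `c`
      have hpc : P i ∣ c := (FA.Iskra.dvd_of_square ha hp hpa ⟨s, hs⟩).resolve_left hpb
      obtain ⟨c', rfl, hc'0, -⟩ := quot hc (fun q hq h => mem q hq (Or.inr (Or.inr h))) hpc
      obtain ⟨v', rfl⟩ : ((P i : ℕ) : ℤ) ∣ v :=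
        hdvd_of hpb ⟨a' * u ^ 2 - N' * e ^ 2, by rw [hB, hN']; push_cast; ring⟩
      have e1 := reduce (s := (c' : ℤ) * w ^ 2) (t := a' * u ^ 2 + N' * e ^ 2)
        (by rw [hN'] at hC; push_cast at hC; linear_combination hC)
      have e2 := reduce (s := (a' : ℤ) * u ^ 2 - N' * e ^ 2)
        (t := ((P i : ℕ) : ℤ) * (b * v' ^ 2))
        (by rw [hN'] at hB; push_cast at hB; linear_combination -hB)
      push_cast at e1 e2
      rw [ZMod.natCast_self, zero_mul] at e2
      have hu : (u : ZMod (P i)) ≠ 0 := fun h => mul_ne_zero hN'0 (pow_ne_zero 2 he') (by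
        rw [h] at e2; linear_combination -e2)
      have hw : (w : ZMod (P i)) ≠ 0 := fun h => mul_ne_zero (mul_ne_zero h2 hN'0)
        (pow_ne_zero 2 he') (by rw [h] at e1; linear_combination -e1 - e2)
      have s1 := sym_eq_of_mul_sq hp2 (x := (a' : ZMod (P i))) (y := (N' : ZMod (P i))) hN'0 hu he'
        (by linear_combination e2)
      have s2 := sym_eq_of_mul_sq hp2 (x := (c' : ZMod (P i))) (y := 2 * (N' : ZMod (P i)))
        (mul_ne_zero h2 hN'0) hw he' (by linear_combination e1 + e2)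
      have hb'0 : (b : ZMod (P i)) ≠ 0 := fun h => hpb ((ZMod.natCast_eq_zero_iff _ _).1 h)
      have hs' : IsSquare (((a' * b * c' : ℕ)) : ZMod (P i)) := by
        obtain ⟨t, rfl⟩ : P i ∣ s :=
          (hp.dvd_mul.1 (⟨a' * b * (P i * c'), by rw [← hs]; ring⟩ : P i ∣ s * s)).elim id id
        rw [show a' * b * c' = t * t from Nat.eq_of_mul_eq_mul_left (Nat.mul_pos hp.pos hp.pos)
          (by linear_combination hs)]
        exact ⟨(t : ZMod (P i)), by push_cast; rfl⟩
      have s3 := sym_of_isSquare hs'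
      rw [Nat.cast_mul, Nat.cast_mul, sym_mul hp2 (mul_ne_zero ha'0 hb'0) hc'0,
        sym_mul hp2 ha'0 hb'0, s1, s2, sym_mul hp2 h2 hN'0, hN'sym, hP.sym_cast i hb mb hpb] at s3
      rw [hsa, hN'sym] at s1
      rw [hind, hind, if_pos hpa, if_neg hpb]
      constructor
      · linear_combination s1 + hz (diagA P i)
      · linear_combination s3 - hz (diagA P i)
  have hind_a : indicator P a i = 0 := by rw [hind, if_neg hpa]
  have ha0 : (a : ZMod (P i)) ≠ 0 := fun h => hpa ((ZMod.natCast_eq_zero_iff _ _).1 h)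
  have hsa := hP.sym_cast i ha ma hpa
  by_cases hpb : P i ∣ b
  · -- `p` divides `b`, `c`
    have hpc : P i ∣ c := (FA.Iskra.dvd_of_square hb hp hpb hab').resolve_left hpa
    obtain ⟨b', rfl, hb'0, hsb⟩ := quot hb mb hpb
    obtain ⟨c', rfl, hc'0, -⟩ := quot hc (fun q hq h => mem q hq (Or.inr (Or.inr h))) hpc
    obtain ⟨u', rfl⟩ : ((P i : ℕ) : ℤ) ∣ u := hdvd_of hpa ⟨b' * v ^ 2 + N' * e ^ 2, by
      rw [hN'] at hB; push_cast at hB; linear_combination -hB⟩
    have he' := he (Dvd.intro_left ((a : ℤ) * ((P i : ℕ) : ℤ) * u' ^ 2) (by ring))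
    have e1 := reduce (s := (b' : ℤ) * v ^ 2 + N' * e ^ 2)
      (t := ((P i : ℕ) : ℤ) * (a * u' ^ 2))
      (by rw [hN'] at hB; push_cast at hB; linear_combination hB)
    have e2 := reduce (s := (c' : ℤ) * w ^ 2 - N' * e ^ 2)
      (t := ((P i : ℕ) : ℤ) * (a * u' ^ 2))
      (by rw [hN'] at hC; push_cast at hC; linear_combination hC)
    push_cast at e1 e2
    rw [ZMod.natCast_self, zero_mul] at e1 e2
    have hv : (v : ZMod (P i)) ≠ 0 := fun h => mul_ne_zero hN'0 (pow_ne_zero 2 he') (by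
      rw [h] at e1; linear_combination e1)
    have hw : (w : ZMod (P i)) ≠ 0 := fun h => mul_ne_zero hN'0 (pow_ne_zero 2 he') (by
      rw [h] at e2; linear_combination -e2)
    have s1 := sym_eq_of_mul_sq hp2 (x := (b' : ZMod (P i))) (y := -1 * (N' : ZMod (P i)))
      (mul_ne_zero (neg_ne_zero.2 one_ne_zero) hN'0) hv he' (by linear_combination e1)
    have s2 := sym_eq_of_mul_sq hp2 (x := (c' : ZMod (P i))) (y := (N' : ZMod (P i))) hN'0 hw he'
      (by linear_combination e2)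
    have hs' : IsSquare (((a * b' * c' : ℕ)) : ZMod (P i)) := by
      obtain ⟨t, rfl⟩ : P i ∣ s :=
        (hp.dvd_mul.1 (⟨a * b' * (P i * c'), by rw [← hs]; ring⟩ : P i ∣ s * s)).elim id id
      rw [show a * b' * c' = t * t from Nat.eq_of_mul_eq_mul_left (Nat.mul_pos hp.pos hp.pos)
        (by linear_combination hs)]
      exact ⟨(t : ZMod (P i)), by push_cast; rfl⟩
    have s3 := sym_of_isSquare hs'
    rw [Nat.cast_mul, Nat.cast_mul, sym_mul hp2 (mul_ne_zero ha0 hb'0) hc'0,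
      sym_mul hp2 ha0 hb'0, s1, s2, sym_mul hp2 (neg_ne_zero.2 one_ne_zero) hN'0, hN'sym,
      hsa] at s3
    rw [hsb, sym_mul hp2 (neg_ne_zero.2 one_ne_zero) hN'0, hN'sym] at s1
    rw [hind_a, hind, if_pos hpb]
    constructor
    · linear_combination s3 - hz (diagA P i)
    · linear_combination s1 + hz (sym (P i) (-1)) + hz (diagA P i)
  -- `p` divides none
  have hpc : ¬ P i ∣ c := fun h =>
    ((FA.Iskra.dvd_of_square hc hp h hca').elim hpa hpb)
  have hb0 : (b : ZMod (P i)) ≠ 0 := fun h => hpb ((ZMod.natCast_eq_zero_iff _ _).1 h)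
  have hc0 : (c : ZMod (P i)) ≠ 0 := fun h => hpc ((ZMod.natCast_eq_zero_iff _ _).1 h)
  have e1 := congrArg (Int.cast : ℤ → ZMod (P i)) hB
  have e2 := congrArg (Int.cast : ℤ → ZMod (P i)) hC
  simp only [Int.cast_mul, Int.cast_sub, Int.cast_add, Int.cast_pow, Int.cast_natCast] at e1 e2
  rw [show (N : ZMod (P i)) = 0 by simpa using hN0, zero_mul] at e1 e2
  rw [sub_zero] at e1
  rw [add_zero] at e2
  have hu : (u : ZMod (P i)) ≠ 0 := fun h => by
    have hd := toDvd h
    have hv : ((P i : ℕ) : ℤ) ∣ v := by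
      refine toDvd ?_
      rw [h, zero_pow two_ne_zero, mul_zero] at e1
      exact pow_eq_zero_iff two_ne_zero |>.1 ((mul_eq_zero.1 e1).resolve_left hb0)
    obtain ⟨u', rfl⟩ := hd
    obtain ⟨v', rfl⟩ := hv
    have hNe : ((P i : ℕ) : ℤ) * ((P i : ℕ) : ℤ) ∣ ((P i : ℕ) : ℤ) * ((N' : ℤ) * e ^ 2) :=
      ⟨a * u' ^ 2 - b * v' ^ 2, by rw [hN'] at hB; push_cast at hB; linear_combination hB⟩
    have := (hpI.dvd_or_dvd ((mul_dvd_mul_iff_left hp0).1 hNe)).resolve_left
      fun h => hN'd (Int.natCast_dvd_natCast.1 h)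
    exact hpI.not_isUnit (hco.isUnit_of_dvd' (dvd_mul_of_dvd_right
      (dvd_pow (dvd_mul_right _ _) two_ne_zero) _) (hpI.dvd_of_dvd_pow this))
  have hv : (v : ZMod (P i)) ≠ 0 := fun h => mul_ne_zero ha0 (pow_ne_zero 2 hu) (by
    rw [h] at e1; linear_combination -e1)
  have hw : (w : ZMod (P i)) ≠ 0 := fun h => mul_ne_zero ha0 (pow_ne_zero 2 hu) (by
    rw [h] at e2; linear_combination -e2)
  have s1 := sym_eq_of_mul_sq hp2 ha0 hv hu e1
  have s2 := sym_eq_of_mul_sq hp2 ha0 hw hu e2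
  have s3 := sym_of_isSquare (p := P i) (x := ((a * b * c : ℕ) : ZMod (P i)))
    ⟨(s : ZMod (P i)), by rw [hs]; push_cast; rfl⟩
  rw [Nat.cast_mul, Nat.cast_mul, sym_mul hp2 (mul_ne_zero ha0 hb0) hc0, sym_mul hp2 ha0 hb0,
    s1, s2, hsa] at s3
  rw [hP.sym_cast i hb mb hpb, hsa] at s1
  rw [hind_a, hind, if_neg hpb]
  constructor
  · linear_combination s3 - hz (∑ j ∈ Finset.univ.erase i, indicator P a j * entry P i j)
  · linear_combination s1 + s3 - hz (∑ j ∈ Finset.univ.erase i, indicator P a j * entry P i j)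

end FA.Monsky

end
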