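import Fermat.Agent.Monsky.Matrix
import Fermat.Agent.CongruentNumber.RankOne
import Mathlib.FieldTheory.Finiteness
import Mathlib.LinearAlgebra.Matrix.NonsingularInverse

/-!
# The rank bound of Monsky's matrix

A translate by torsion has `x > n` and an even exponent of `2` in `x - n`; its classes give a vector
killed by the matrix. Points with the same vector differ by twice a point up to torsion, so a basis
of the free part gives `2 ^ r` vectors.
-/

set_option autoImplicit false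
set_option linter.style.haveILetI false

noncomputable section

open WeierstrassCurve
open FA.CongruentNumber

namespace FA.Monsky

variable {k : ℕ} {P : Fin k → ℕ}

/-- The square classes of `x`, `x - n`, `x + n` for a point with `x > n`, as integers. -/
theorem exists_integral_classes {n : ℕ} {x y : ℚ} (e : y ^ 2 = x ^ 3 - (n : ℚ) ^ 2 * x)
    (hx : (n : ℚ) < x) :
    ∃ a b c : ℕ, ∃ u v w r : ℤ, Squarefree a ∧ Squarefree b ∧ Squarefree c ∧
      IsSquare (a * b * c) ∧ IsCoprime ((a : ℤ) * u ^ 2) r ∧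
      (b : ℤ) * v ^ 2 = a * u ^ 2 - n * r ^ 2 ∧ (c : ℤ) * w ^ 2 = a * u ^ 2 + n * r ^ 2 ∧
      x = (a : ℚ) * ((u : ℚ) / r) ^ 2 ∧ x - n = (b : ℚ) * ((v : ℚ) / r) ^ 2 := by
  have hN : (0 : ℚ) ≤ n := Nat.cast_nonneg n
  have hx0 : 0 < x := lt_of_le_of_lt hN hx
  set d : ℤ := (x.den : ℤ) with hd
  have hdQ : (0 : ℚ) < (d : ℚ) := by rw [hd]; exact_mod_cast x.den_pos
  have hnd : (x.num : ℚ) = x * (d : ℚ) := by exact_mod_cast (Rat.mul_den_eq_num x).symm
  -- the denominator is a square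
  obtain ⟨W, hW⟩ : IsSquare (d * (x.num * (x.num ^ 2 - (n : ℤ) ^ 2 * d ^ 2))) := by
    refine Rat.isSquare_intCast_iff.1 ⟨y * (d : ℚ) ^ 2, ?_⟩
    push_cast
    rw [hnd]
    linear_combination -(d : ℚ) ^ 4 * e
  have hco : IsCoprime x.num d := by
    rw [Int.isCoprime_iff_gcd_eq_one, Int.gcd, Int.natAbs_natCast]
    exact x.reduced
  have hc : IsCoprime d (x.num * (x.num ^ 2 - (n : ℤ) ^ 2 * d ^ 2)) := by
    refine hco.symm.mul_right ?_
    have := (hco.pow_left (m := 2)).symm.add_mul_left_right (-(n : ℤ) ^ 2 * d)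
    rwa [show x.num ^ 2 + d * (-(n : ℤ) ^ 2 * d) = x.num ^ 2 - (n : ℤ) ^ 2 * d ^ 2 by ring]
      at this
  obtain ⟨r, hr⟩ := sq_of_coprime_pos hc (by rw [hd]; exact_mod_cast x.den_pos)
    (hW.trans (sq W).symm)
  have hr0 : (r : ℚ) ≠ 0 := fun h => hdQ.ne' (by rw [hr]; push_cast; rw [h]; ring)
  -- the three factors
  have hB : (0 : ℤ) < x.num - n * d := by
    have : (0 : ℚ) < ((x.num - n * d : ℤ) : ℚ) := by
      push_cast
      rw [hnd, ← sub_mul]
      exact mul_pos (sub_pos.2 hx) hdQ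
    exact_mod_cast this
  have hC : (0 : ℤ) < x.num + n * d := by
    have : (0 : ℤ) < d := by rw [hd]; exact_mod_cast x.den_pos
    have := Rat.num_pos.2 hx0
    positivity
  obtain ⟨A₀, hA₀⟩ := Int.eq_ofNat_of_zero_le (Rat.num_pos.2 hx0).le
  obtain ⟨B₀, hB₀⟩ := Int.eq_ofNat_of_zero_le hB.le
  obtain ⟨C₀, hC₀⟩ := Int.eq_ofNat_of_zero_le hC.le
  obtain ⟨a, u, hau, ha⟩ := Nat.sq_mul_squarefree A₀
  obtain ⟨b, v, hbv, hb⟩ := Nat.sq_mul_squarefree B₀
  obtain ⟨c, w, hcw, hcs⟩ := Nat.sq_mul_squarefree C₀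
  have hau' : x.num = (a : ℤ) * (u : ℤ) ^ 2 := by rw [hA₀, ← hau]; push_cast; ring
  have hbv' : x.num - n * d = (b : ℤ) * (v : ℤ) ^ 2 := by rw [hB₀, ← hbv]; push_cast; ring
  have hcw' : x.num + n * d = (c : ℤ) * (w : ℤ) ^ 2 := by rw [hC₀, ← hcw]; push_cast; ring
  have hu0 : u ≠ 0 := by rintro rfl; simp [(Rat.num_pos.2 hx0).ne'] at hau'
  have hv0 : v ≠ 0 := by rintro rfl; simp [hB.ne'] at hbv'
  have hw0 : w ≠ 0 := by rintro rfl; simp [hC.ne'] at hcw'
  have habc : IsSquare (a * b * c) := by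
    have hr' : r ≠ 0 := fun h => hr0 (by simp [h])
    have hne : (r : ℚ) * u * v * w ≠ 0 := by
      simp [hr', hu0, hv0, hw0]
    have hsq : IsSquare ((a * b * c : ℕ) : ℚ) := by
      refine ⟨(W : ℚ) / ((r : ℚ) * u * v * w), ?_⟩
      rw [div_mul_div_comm, eq_div_iff (mul_ne_zero hne hne)]
      rw [show x.num * (x.num ^ 2 - (n : ℤ) ^ 2 * d ^ 2) =
        x.num * (x.num - n * d) * (x.num + n * d) by ring, hbv', hcw', hau', hr] at hW
      have := congrArg (Int.cast : ℤ → ℚ) hW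
      push_cast at this ⊢
      linear_combination this
    exact Rat.isSquare_natCast_iff.1 hsq
  refine ⟨a, b, c, u, v, w, r, ha, hb, hcs, habc, ?_, by rw [← hau', ← hbv', hr],
    by rw [← hau', ← hcw', hr], ?_, ?_⟩
  · rw [← hau']; exact (IsCoprime.pow_right_iff two_pos).1 (hr ▸ hco)
  · push_cast
    rw [div_pow, mul_div_assoc', eq_div_iff (pow_ne_zero 2 hr0)]
    have := congrArg (Int.cast : ℤ → ℚ) hau'
    push_cast at this
    rw [hnd, hr] at this
    push_cast at this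
    linear_combination this
  · push_cast
    rw [div_pow, mul_div_assoc', eq_div_iff (pow_ne_zero 2 hr0)]
    have := congrArg (Int.cast : ℤ → ℚ) hbv'
    push_cast at this
    rw [hnd, hr] at this
    push_cast at this
    linear_combination this

/-- A squarefree class of a number with even exponent of `2` is odd. -/
theorem not_two_dvd_of_even {b : ℕ} (hb : Squarefree b) {z t : ℚ} (hz : z ≠ 0)
    (e : z = (b : ℚ) * t ^ 2) (h2 : Even (padicValRat 2 z)) : ¬ 2 ∣ b := by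
  haveI := Fact.mk Nat.prime_two
  rintro ⟨b', rfl⟩
  have hb' : ¬ 2 ∣ b' := fun h => two_ne_zero
    (absurd (hb 2 (mul_dvd_mul_left 2 h)) (by simp))
  have hb'0 : b' ≠ 0 := by rintro rfl; exact hb' (dvd_zero 2)
  have ht : t ≠ 0 := by rintro rfl; exact hz (by rw [e]; ring)
  rw [e, padicValRat.mul (by simp [hb'0]) (pow_ne_zero 2 ht), padicValRat.pow,
    padicValRat.of_nat, padicValNat.mul two_ne_zero hb'0, padicValNat.self one_lt_two,
    padicValNat.eq_zero_of_not_dvd hb'] at h2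
  push_cast at h2
  rw [Int.even_iff] at h2
  omega

/-- A point with `x > n` and even exponent of `2` in `x - n` has classes killed by the matrix. -/
theorem exists_classes (hP : OddPrimes P) [∀ i, NeZero (P i)] {x y : ℚ}
    (e : y ^ 2 = x ^ 3 - ((∏ i, P i : ℕ) : ℚ) ^ 2 * x) (hx : ((∏ i, P i : ℕ) : ℚ) < x)
    (h2 : Even (padicValRat 2 (x - ((∏ i, P i : ℕ) : ℚ)))) :
    ∃ α β : Fin k → ZMod 2, (matrix P).mulVec (Sum.elim (α + β) β) = 0 ∧
      IsSquare ((classProd P α : ℚ) * x) ∧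
      IsSquare ((classProd P β : ℚ) * (x - ((∏ i, P i : ℕ) : ℚ))) := by
  obtain ⟨a, b, c, u, v, w, r, ha, hb, hcs, habc, hco, hB, hC, hxu, hxv⟩ :=
    exists_integral_classes e hx
  obtain ⟨mem, hker⟩ := mulVec_classes hP ha hb hcs habc
    (not_two_dvd_of_even hb (sub_pos.2 hx).ne' hxv h2) hB hC hco
  refine ⟨indicator P a, indicator P b, hker, ?_, ?_⟩
  · rw [hP.classProd_indicator ha fun q hq h => mem q hq (Or.inl h), hxu]
    exact ⟨(a : ℚ) * u / r, by ring⟩
  · rw [hP.classProd_indicator hb fun q hq h => mem q hq (Or.inr (Or.inl h)), hxv]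
    exact ⟨(b : ℚ) * v / r, by ring⟩

theorem not_isOfFinAddOrder_add {G : Type*} [AddCommGroup G] {Q t : G} (hQ : ¬ IsOfFinAddOrder Q)
    (ht : IsOfFinAddOrder t) : ¬ IsOfFinAddOrder (Q + t) := fun h => hQ (by
  simpa using h.add ht.neg)

/-- A torsion translate of a point of infinite order has `x > n`. -/
theorem exists_large {N : ℕ} (hn : N ≠ 0) {Q : (congCurve N).toAffine.Point}
    (hQ : ¬ IsOfFinAddOrder Q) :
    ∃ t, IsOfFinAddOrder t ∧ ∃ x y h, Q + t = Affine.Point.some x y h ∧ y ≠ 0 ∧ (N : ℚ) < x := by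
  have hN : (0 : ℚ) < N := Nat.cast_pos.2 (Nat.pos_of_ne_zero hn)
  let T : (congCurve N).toAffine.Point := .some 0 0 (nonsingular_congCurve hn (by ring))
  have hT : IsOfFinAddOrder T := isOfFinAddOrder_of_y_eq_zero rfl
  have yne : ∀ {x y : ℚ} {h}, ¬ IsOfFinAddOrder (Affine.Point.some x y h :
      (congCurve N).toAffine.Point) → y ≠ 0 := fun h hy => h (isOfFinAddOrder_of_y_eq_zero hy)
  have large : ∀ {x y : ℚ}, y ^ 2 = x ^ 3 - (N : ℚ) ^ 2 * x → y ≠ 0 → 0 < x → (N : ℚ) < x := by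
    intro x y e hy hx
    have h1 : 0 < x * (x ^ 2 - (N : ℚ) ^ 2) := by
      rw [show x * (x ^ 2 - (N : ℚ) ^ 2) = y ^ 2 by linear_combination -e]; positivity
    exact lt_of_pow_lt_pow_left₀ 2 hx.le (sub_pos.mp (pos_of_mul_pos_right h1 hx.le))
  rcases Q with _ | ⟨x, y, h⟩
  · exact absurd IsOfFinAddOrder.zero hQ
  have hy := yne hQ
  have e := equation_congCurve h
  have hx0 : x ≠ 0 := fun h0 => hy (by rw [h0] at e; simpa using e)
  rcases lt_or_gt_of_ne hx0 with hneg | hpos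
  · obtain ⟨x', y', h', hadd, hxv⟩ := exists_add h
      (nonsingular_congCurve hn (x := 0) (y := 0) (by ring)) hx0
    have hy' : y' ≠ 0 := by
      refine yne (h := h') ?_
      rw [← hadd]
      exact not_isOfFinAddOrder_add hQ hT
    refine ⟨T, hT, x', y', h', hadd, hy', large (equation_congCurve h') hy' ?_⟩
    rw [hxv, show ((y - 0) / (x - 0)) ^ 2 - x - 0 = (N : ℚ) ^ 2 / (-x) by
      rw [sub_zero, sub_zero, sub_zero]; field_simp; linear_combination e]
    have : (0 : ℚ) < -x := neg_pos.mpr hneg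
    positivity
  · exact ⟨0, IsOfFinAddOrder.zero, x, y, h, add_zero _, hy, large e hy hpos⟩

/-- A torsion translate of a point of infinite order in the normal position. -/
theorem exists_normal {N : ℕ} (hN2 : Odd N) {Q : (congCurve N).toAffine.Point}
    (hQ : ¬ IsOfFinAddOrder Q) :
    ∃ t, IsOfFinAddOrder t ∧ ∃ x y h, Q + t = Affine.Point.some x y h ∧ y ≠ 0 ∧ (N : ℚ) < x ∧
      Even (padicValRat 2 (x - N)) := by
  have hn : N ≠ 0 := hN2.pos.ne'
  have hN : (0 : ℚ) < N := Nat.cast_pos.2 hN2.pos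
  haveI := Fact.mk Nat.prime_two
  let U : (congCurve N).toAffine.Point := .some (N : ℚ) 0 (nonsingular_congCurve hn (by ring))
  have hU : IsOfFinAddOrder U := isOfFinAddOrder_of_y_eq_zero rfl
  obtain ⟨t, ht, x, y, h, ha, hy, hx⟩ := exists_large hn hQ
  by_cases h2 : Even (padicValRat 2 (x - N))
  · exact ⟨t, ht, x, y, h, ha, hy, hx, h2⟩
  obtain ⟨x', y', h', hadd, hxv⟩ := exists_add h
    (nonsingular_congCurve hn (x := (N : ℚ)) (y := 0) (by ring)) hx.ne'
  have hd : x - N ≠ 0 := (sub_pos.2 hx).ne'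
  have hx' : x' - N = 2 * (N : ℚ) ^ 2 / (x - N) := by
    rw [hxv, sub_zero, div_pow]
    field_simp
    linear_combination equation_congCurve h
  have hy' : y' ≠ 0 := fun hy0 => not_isOfFinAddOrder_add (not_isOfFinAddOrder_add hQ ht) hU
    (by rw [ha, hadd]; exact isOfFinAddOrder_of_y_eq_zero hy0)
  refine ⟨t + U, ht.add hU, x', y', h', by rw [← add_assoc, ha]; exact hadd, hy',
    sub_pos.1 (by rw [hx']; exact div_pos (by positivity) (sub_pos.2 hx)), ?_⟩
  rw [hx', padicValRat.div (by positivity) hd, padicValRat.mul two_ne_zero (by positivity),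
    padicValRat.pow, show (2 : ℚ) = ((2 : ℕ) : ℚ) by norm_num, padicValRat.of_nat,
    padicValRat.of_nat, padicValNat.self one_lt_two,
    padicValNat.eq_zero_of_not_dvd (n := N) (fun h => (Nat.not_even_iff_odd.2 hN2)
      (even_iff_two_dvd.2 h))]
  rw [Int.not_even_iff] at h2
  rw [Int.even_iff]
  omega

/-- Two points in the same classes sum to twice a point up to torsion. -/
theorem halved_add_classes {N : ℕ} (hn : N ≠ 0) {δ ε : ℚ} (hδ : δ ≠ 0) (hε : ε ≠ 0)
    {x₁ y₁ x₂ y₂ : ℚ} {h₁ : (congCurve N).toAffine.Nonsingular x₁ y₁}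
    {h₂ : (congCurve N).toAffine.Nonsingular x₂ y₂} (hy₁ : y₁ ≠ 0) (hy₂ : y₂ ≠ 0)
    (a₁ : IsSquare (δ * x₁)) (a₂ : IsSquare (δ * x₂))
    (b₁ : IsSquare (ε * (x₁ - N))) (b₂ : IsSquare (ε * (x₂ - N))) :
    Halved (Affine.Point.some x₁ y₁ h₁ + Affine.Point.some x₂ y₂ h₂) := by
  have e₁ := equation_congCurve h₁
  have e₂ := equation_congCurve h₂
  by_cases hx : x₁ = x₂
  · subst hx
    rcases sq_eq_sq_iff_eq_or_eq_neg.1 (e₁.trans e₂.symm) with rfl | rfl
    · exact ⟨Affine.Point.some x₁ y₁ h₁, by rw [two_nsmul, sub_self]; exact IsOfFinAddOrder.zero⟩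
    · rw [Affine.Point.add_of_Y_eq rfl (negY_congCurve x₁ y₂).symm]
      exact halved_of_torsion IsOfFinAddOrder.zero
  obtain ⟨x, y, h, hadd, hxv⟩ := exists_add h₁ h₂ hx
  rw [hadd]
  by_cases hy : y = 0
  · exact halved_of_torsion (isOfFinAddOrder_of_y_eq_zero hy)
  have ne : ∀ {x y : ℚ}, y ^ 2 = x ^ 3 - (N : ℚ) ^ 2 * x → y ≠ 0 → x ≠ 0 ∧ x - N ≠ 0 :=
    fun {x y} e hy => ⟨fun h0 => hy (by rw [h0] at e; simpa using e), fun h0 => hy (by
      rw [show x = (N : ℚ) by linarith] at e; simpa using e.trans (by ring : _ = (0 : ℚ)))⟩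
  obtain ⟨R, hR⟩ := exists_half hn h hy
    (isSquare_third hδ a₁ a₂ (ne e₁ hy₁).1 (ne e₂ hy₂).1
      (L := (y₁ - y₂) / (x₁ - x₂) * (0 - x₁) + y₁) (by
        rw [hxv]; linear_combination chord_product 0 e₁ e₂ hx))
    (isSquare_third hε b₁ b₂ (ne e₁ hy₁).2 (ne e₂ hy₂).2
      (L := (y₁ - y₂) / (x₁ - x₂) * ((N : ℚ) - x₁) + y₁) (by
        rw [hxv]; linear_combination chord_product (N : ℚ) e₁ e₂ hx))
  exact ⟨R, by rw [hR, sub_self]; exact IsOfFinAddOrder.zero⟩

/-- A torsion translate of `Q` has the classes of the vector `z`. -/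
def Classified (P : Fin k → ℕ) (Q : (congCurve (∏ i, P i)).toAffine.Point)
    (z : Fin k ⊕ Fin k → ZMod 2) : Prop :=
  ∃ t, IsOfFinAddOrder t ∧ ∃ x y h, Q + t = Affine.Point.some x y h ∧ y ≠ 0 ∧
    IsSquare ((classProd P (z ∘ Sum.inl + z ∘ Sum.inr) : ℚ) * x) ∧
    IsSquare ((classProd P (z ∘ Sum.inr) : ℚ) * (x - ((∏ i, P i : ℕ) : ℚ)))

theorem exists_classified (hP : OddPrimes P) [∀ i, NeZero (P i)]
    {Q : (congCurve (∏ i, P i)).toAffine.Point} (hQ : ¬ IsOfFinAddOrder Q) :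
    ∃ z, (matrix P).mulVec z = 0 ∧ Classified P Q z := by
  obtain ⟨t, ht, x, y, h, ha, hy, hx, h2⟩ := exists_normal hP.odd_prod hQ
  obtain ⟨α, β, hker, hα, hβ⟩ := exists_classes hP (equation_congCurve h) hx h2
  have hαβ : α + β + β = α := funext fun i => by
    show α i + β i + β i = α i
    rw [add_assoc, CharTwo.add_self_eq_zero, add_zero]
  exact ⟨_, hker, t, ht, x, y, h, ha, hy,
    by rw [Sum.elim_comp_inl, Sum.elim_comp_inr, hαβ]; exact hα,
    by rw [Sum.elim_comp_inr]; exact hβ⟩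

theorem classProd_ne_zero (hP : OddPrimes P) (f : Fin k → ZMod 2) : (classProd P f : ℚ) ≠ 0 :=
  Nat.cast_ne_zero.2 (Finset.prod_ne_zero_iff.2 fun i _ => by
    split_ifs <;> simp [(hP.prime i).ne_zero])

theorem halved_of_classified (hP : OddPrimes P) {Q : (congCurve (∏ i, P i)).toAffine.Point}
    (h : Classified P Q 0) : Halved Q := by
  obtain ⟨t, ht, x, y, hns, ha, hy, h1, h2⟩ := h
  have e0 : ∀ f : Fin k → ZMod 2, f = 0 → (classProd P f : ℚ) = 1 := by
    rintro f rfl; simp [classProd]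
  rw [e0 _ (by ext; simp), one_mul] at h1
  rw [e0 _ (by ext; simp), one_mul] at h2
  obtain ⟨R, hR⟩ := exists_half hP.odd_prod.pos.ne' hns hy h1 h2
  exact halved_of_add ht ⟨R, by rw [ha, hR, sub_self]; exact IsOfFinAddOrder.zero⟩

theorem halved_add_of_classified (hP : OddPrimes P)
    {Q Q' : (congCurve (∏ i, P i)).toAffine.Point} {z : Fin k ⊕ Fin k → ZMod 2}
    (h : Classified P Q z) (h' : Classified P Q' z) : Halved (Q + Q') := by
  obtain ⟨t, ht, x₁, y₁, h₁, ha, hy₁, a₁, b₁⟩ := h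
  obtain ⟨s, hs, x₂, y₂, h₂, hb, hy₂, a₂, b₂⟩ := h'
  refine halved_of_add (ht.add hs) ?_
  rw [show Q + Q' + (t + s) = (Q + t) + (Q' + s) by abel, ha, hb]
  exact halved_add_classes hP.odd_prod.pos.ne' (classProd_ne_zero hP _) (classProd_ne_zero hP _)
    hy₁ hy₂ a₁ a₂ b₁ b₂

/-- Points classified by a finite space, up to twice a point and torsion, bound the rank. -/
theorem exists_rank_le_of_classified {n : ℕ} (hn : n ≠ 0) {V : Type*} [AddCommGroup V]
    [Module (ZMod 2) V] [Finite V] (C : (congCurve n).toAffine.Point → V → Prop)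
    (hex : ∀ Q, ¬ IsOfFinAddOrder Q → ∃ z, C Q z) (h0 : ∀ Q, C Q 0 → Halved Q)
    (hadd : ∀ Q Q' z, C Q z → C Q' z → Halved (Q + Q')) :
    ∃ r ≤ Module.finrank (ZMod 2) V,
      Nonempty ((congCurve n).toAffine.Point ≃+ (ZMod 2 × ZMod 2) × (Fin r → ℤ)) := by
  haveI := isElliptic_congCurve hn
  haveI := FA.MordellWeil.mordell (congCurve n)
  obtain ⟨r, ⟨e⟩⟩ := FA.MordellWeil.exists_equiv_torsion_prod (congCurve n).toAffine.Point
  obtain ⟨-, ⟨f⟩⟩ := torsion_congCurve hn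
  refine ⟨r, ?_, ⟨e.trans (f.prodCongr (AddEquiv.refl _))⟩⟩
  have even : ∀ {Q}, Halved Q → ∀ l, (2 : ℤ) ∣ (e Q).2 l := by
    rintro Q ⟨R, hR⟩ l
    have h0 := (((AddMonoidHom.snd _ _).comp e.toAddMonoidHom).isOfFinAddOrder hR)
    obtain ⟨m, hm, hm0⟩ := isOfFinAddOrder_iff_nsmul_eq_zero.mp h0
    have := congrFun hm0 l
    simp [hm.ne', map_nsmul] at this
    exact ⟨(e R).2 l, by linarith⟩
  let u (s : Fin r → Bool) : (congCurve n).toAffine.Point :=
    e.symm (0, fun l => if s l then 1 else 0)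
  have not_halved : ∀ s, s ≠ (fun _ => false) → ¬ Halved (u s) := fun s hs h => by
    obtain ⟨l, hl⟩ := Function.ne_iff.1 hs
    have hl' : s l = true := by simpa using hl
    have h1 : (2 : ℤ) ∣ 1 := by simpa [u, hl'] using even h l
    omega
  have hex' : ∀ s, ∃ z : V,
      s = (fun _ => false) ∧ z = 0 ∨ s ≠ (fun _ => false) ∧ C (u s) z := fun s => by
    by_cases hs : s = fun _ => false
    · exact ⟨0, Or.inl ⟨hs, rfl⟩⟩
    · obtain ⟨z, hc⟩ := hex (u s) fun hf => not_halved s hs (halved_of_torsion hf)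
      exact ⟨z, Or.inr ⟨hs, hc⟩⟩
  choose z hzs using hex'
  have inj : Function.Injective z := fun s s' h => by
    rcases hzs s with ⟨hs, hz⟩ | ⟨hs, hc⟩ <;> rcases hzs s' with ⟨hs', hz'⟩ | ⟨hs', hc'⟩
    · rw [hs, hs']
    · rw [← h, hz] at hc'
      exact absurd (h0 _ hc') (not_halved s' hs')
    · rw [h, hz'] at hc
      exact absurd (h0 _ hc) (not_halved s hs)
    · rw [← h] at hc'
      funext l
      have := even (hadd _ _ _ hc hc') l
      revert this
      rcases Bool.eq_false_or_eq_true (s l) with e1 | e1 <;>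
        rcases Bool.eq_false_or_eq_true (s' l) with e2 | e2 <;> simp [u, e1, e2]
  have := Nat.card_le_card_of_injective _ inj
  rw [Module.natCard_eq_pow_finrank (K := ZMod 2) (V := V), Nat.card_zmod, Nat.card_fun,
    Nat.card_fin, Nat.card_eq_fintype_card, Fintype.card_bool] at this
  exact (Nat.pow_le_pow_iff_right one_lt_two).1 this

theorem finrank_eq_of_equiv {n r : ℕ}
    (e : (congCurve n).toAffine.Point ≃+ (ZMod 2 × ZMod 2) × (Fin r → ℤ)) :
    Module.finrank ℤ (congCurve n).toAffine.Point = r := by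
  let s := LinearMap.snd ℤ (ZMod 2 × ZMod 2) (Fin r → ℤ)
  have h0 : Module.finrank ℤ (LinearMap.ker s) = 0 := Module.finrank_eq_zero_iff.mpr fun x =>
    ⟨2, two_ne_zero, Subtype.ext (Prod.ext ((by decide : ∀ z : ZMod 2 × ZMod 2, (2 : ℤ) • z = 0) _)
      (by show (2 : ℤ) • x.1.2 = 0; rw [show x.1.2 = 0 from x.2, smul_zero]))⟩
  have h1 := (LinearMap.ker s).finrank_quotient_add_finrank
  rw [h0, (LinearMap.quotKerEquivOfSurjective s LinearMap.snd_surjective).finrank_eq,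
    Module.finrank_pi, Fintype.card_fin] at h1
  rw [show Module.finrank ℤ (congCurve n).toAffine.Point = _ from e.toIntLinearEquiv.finrank_eq]
  omega

/-- **The rank bound.** -/
theorem exists_rank_le (hP : OddPrimes P) [∀ i, NeZero (P i)] :
    ∃ r ≤ Module.finrank (ZMod 2) (LinearMap.ker (matrix P).mulVecLin),
      Nonempty ((congCurve (∏ i, P i)).toAffine.Point ≃+ (ZMod 2 × ZMod 2) × (Fin r → ℤ)) :=
  exists_rank_le_of_classified hP.odd_prod.pos.ne' (fun Q z => Classified P Q z.1)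
    (fun _ hQ => (exists_classified hP hQ).elim fun z hz => ⟨⟨z, hz.1⟩, hz.2⟩)
    (fun _ h => halved_of_classified hP h) fun _ _ _ h h' => halved_add_of_classified hP h h'

/-- The rank of the curve is at most the dimension of the kernel. -/
theorem finrank_le (hP : OddPrimes P) [∀ i, NeZero (P i)] :
    Module.finrank ℤ (congCurve (∏ i, P i)).toAffine.Point ≤
      Module.finrank (ZMod 2) (LinearMap.ker (matrix P).mulVecLin) := by
  obtain ⟨r, hr, ⟨e⟩⟩ := exists_rank_le hP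
  exact (finrank_eq_of_equiv e).trans_le hr

/-- **A nonsingular matrix leaves only the torsion.** -/
theorem point_equiv (hP : OddPrimes P) [∀ i, NeZero (P i)] (hdet : (matrix P).det ≠ 0) :
    Nonempty ((congCurve (∏ i, P i)).toAffine.Point ≃+ ZMod 2 × ZMod 2) := by
  obtain ⟨r, hr, ⟨e⟩⟩ := exists_rank_le hP
  rw [LinearMap.ker_eq_bot.2 (Matrix.mulVec_injective_iff_isUnit.2
    ((Matrix.isUnit_iff_isUnit_det _).2 (isUnit_iff_ne_zero.2 hdet))), finrank_bot,
    Nat.le_zero] at hr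
  subst hr
  exact ⟨e.trans AddEquiv.prodUnique⟩

/-- **A nonsingular matrix makes `n` non-congruent.** -/
theorem not_congruent (hP : OddPrimes P) [∀ i, NeZero (P i)] (hdet : (matrix P).det ≠ 0) :
    ¬ ∃ a b c : ℚ, 0 < a ∧ 0 < b ∧ 0 < c ∧ a ^ 2 + b ^ 2 = c ^ 2 ∧
      a * b / 2 = ((∏ i, P i : ℕ) : ℚ) := by
  intro h
  haveI := (FA.Summary.congruentNumber_iff_infinite _ hP.odd_prod.pos.ne').1 h
  obtain ⟨e⟩ := point_equiv hP hdet
  exact not_finite_iff_infinite.mpr ‹_› (Finite.of_equiv _ e.toEquiv.symm)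

end FA.Monsky

end
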