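import Fermat.Agent.Monsky.EvenPoints
import Fermat.Agent.CongruentNumber.One

/-!
# Exact ranks of congruent number curves

The matrices bound the rank from above. It is positive for a congruent number, and at least two
when there are two points such that neither they nor their sum is twice a point up to torsion,
which shows in the square classes of `x` and `x - n` of their four translates.
-/

set_option autoImplicit false
set_option linter.style.haveILetI false

noncomputable section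

open WeierstrassCurve
open FA.CongruentNumber

namespace FA.Monsky

/-- The point group is `(ℤ/2)² × ℤ^r`. -/
def HasRank (n r : ℕ) : Prop :=
  Nonempty ((congCurve n).toAffine.Point ≃+ (ZMod 2 × ZMod 2) × (Fin r → ℤ))

theorem finrank_ker_le {k d : ℕ} (M : Matrix (Fin k ⊕ Fin k) (Fin k ⊕ Fin k) (ZMod 2))
    (h : (Finset.univ.filter fun v => M.mulVec v = 0).card ≤ 2 ^ d) :
    Module.finrank (ZMod 2) (LinearMap.ker M.mulVecLin) ≤ d := by
  refine (Nat.pow_le_pow_iff_right one_lt_two).1 (le_trans (le_of_eq ?_) h)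
  have := Module.natCard_eq_pow_finrank (K := ZMod 2) (V := LinearMap.ker M.mulVecLin)
  rw [Nat.card_zmod] at this
  rw [← this, ← Nat.card_eq_finsetCard]
  exact Nat.card_congr (Equiv.subtypeEquivRight fun v => by simp)

theorem hasRank_zero {n : ℕ} (hn : n ≠ 0)
    (h : ¬ ∃ a b c : ℚ, 0 < a ∧ 0 < b ∧ 0 < c ∧ a ^ 2 + b ^ 2 = c ^ 2 ∧ a * b / 2 = (n : ℚ)) :
    HasRank n 0 :=
  (point_equiv_of_not_congruent hn h).map fun e => e.trans AddEquiv.prodUnique.symm

theorem pos_of_congruent {n r : ℕ} (hn : n ≠ 0)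
    (h : ∃ a b c : ℚ, 0 < a ∧ 0 < b ∧ 0 < c ∧ a ^ 2 + b ^ 2 = c ^ 2 ∧ a * b / 2 = (n : ℚ))
    (he : HasRank n r) : 1 ≤ r := by
  by_contra hr
  obtain rfl : r = 0 := by omega
  haveI := (FA.Summary.congruentNumber_iff_infinite n hn).1 h
  obtain ⟨e⟩ := he
  exact not_finite_iff_infinite.mpr ‹_› (Finite.of_equiv _ e.toEquiv.symm)

/-- Two independent points force rank two. -/
theorem two_le_of_not_halved {n r : ℕ} (he : HasRank n r) {Q R : (congCurve n).toAffine.Point}
    (hQ : ¬ Halved Q) (hR : ¬ Halved R) (hQR : ¬ Halved (Q + R)) : 2 ≤ r := by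
  obtain ⟨e⟩ := he
  have mk : ∀ {S : (congCurve n).toAffine.Point}, (∀ l, (2 : ℤ) ∣ (e S).2 l) → Halved S := by
    intro S hS
    choose w hw using hS
    refine ⟨e.symm (0, w), isOfFinAddOrder_iff_nsmul_eq_zero.mpr ⟨2, two_pos, e.injective ?_⟩⟩
    rw [map_nsmul, map_sub, map_nsmul, e.apply_symm_apply, map_zero]
    refine Prod.ext ((by decide : ∀ z : ZMod 2 × ZMod 2, 2 • z = 0) _) (funext fun l => ?_)
    show (2 : ℕ) • ((e S).2 l - (2 : ℕ) • w l) = 0
    rw [hw l]
    simp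
  by_contra hr
  rcases (by omega : r = 0 ∨ r = 1) with rfl | rfl
  · exact hQ (mk fun l => l.elim0)
  · have odd : ∀ {S : (congCurve n).toAffine.Point}, ¬ Halved S → (e S).2 0 % 2 = 1 :=
      fun {S} hS => by
      rcases Int.emod_two_eq_zero_or_one ((e S).2 0) with h | h
      · exact absurd (mk fun l => by rw [Fin.fin_one_eq_zero l]; omega) hS
      · exact h
    refine hQR (mk fun l => ?_)
    rw [Fin.fin_one_eq_zero l, map_add]
    show (2 : ℤ) ∣ (e Q).2 0 + (e R).2 0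
    have := odd hQ
    have := odd hR
    omega

/-- The square classes of all four translates show that a point is no double up to torsion. -/
theorem not_halved_of_classes {n : ℕ} (hn : n ≠ 0) {x y : ℚ}
    {h : (congCurve n).toAffine.Nonsingular x y} (hy : y ≠ 0)
    (c₀ : ¬ (IsSquare x ∧ IsSquare (x - n)))
    (c₁ : ¬ (IsSquare (-(n : ℚ) ^ 2 / x) ∧ IsSquare (-(n : ℚ) ^ 2 / x - n)))
    (c₂ : ¬ (IsSquare ((n : ℚ) * (x + n) / (x - n)) ∧
      IsSquare ((n : ℚ) * (x + n) / (x - n) - n)))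
    (c₃ : ¬ (IsSquare (-(n : ℚ) * (x - n) / (x + n)) ∧
      IsSquare (-(n : ℚ) * (x - n) / (x + n) - n))) :
    ¬ Halved (Affine.Point.some x y h) := by
  rintro ⟨R, hR⟩
  have e := equation_congCurve h
  -- a double has square classes
  have dbl : ∀ {R : (congCurve n).toAffine.Point} {x' y' : ℚ}
      {h' : (congCurve n).toAffine.Nonsingular x' y'},
      2 • R = Affine.Point.some x' y' h' → IsSquare x' ∧ IsSquare (x' - n) := by
    intro R x' y' h' hd
    rcases R with _ | ⟨a, b, hab⟩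
    · rw [← Affine.Point.zero_def] at hd
      simp at hd
    have hb : b ≠ 0 := fun hb0 => by
      subst hb0
      rw [two_smul_congCurve] at hd
      exact absurd hd.symm (Affine.Point.some_ne_zero _)
    have hne : b ≠ (congCurve n).toAffine.negY a b := by
      rw [negY_congCurve]
      intro h0
      exact hb (by linarith)
    rw [two_nsmul, Affine.Point.add_self_of_Y_ne hne] at hd
    obtain ⟨hx, -⟩ := Affine.Point.some.inj hd
    have e' := equation_congCurve hab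
    rw [Affine.slope_of_Y_ne rfl hne, negY_congCurve] at hx
    simp [Affine.addX] at hx
    have hs0 : IsSquare x' := by
      refine ⟨(a ^ 2 + (n : ℚ) ^ 2) / (2 * b), ?_⟩
      rw [← hx]
      field_simp
      linear_combination (32 * a) * (-e')
    have hs1 : IsSquare (x' - n) := by
      refine ⟨(a ^ 2 - 2 * n * a - (n : ℚ) ^ 2) / (2 * b), ?_⟩
      rw [← hx]
      field_simp
      linear_combination (32 * a + 16 * n) * (-e')
    exact ⟨hs0, hs1⟩
  -- the torsion points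
  obtain ⟨t, ht, hQ⟩ : ∃ t, IsOfFinAddOrder t ∧ Affine.Point.some x y h + t = 2 • R :=
    ⟨-(Affine.Point.some x y h - 2 • R), hR.neg, by abel⟩
  rcases t with _ | ⟨u, v, huv⟩
  · rw [← Affine.Point.zero_def, add_zero] at hQ
    exact c₀ (dbl hQ.symm)
  have hv : v = 0 := y_eq_zero_of_torsion hn ht
  subst hv
  have he := equation_congCurve huv
  have hu : u * (u - n) * (u + n) = 0 := by linear_combination -he
  have hxne : ∀ z : ℚ, z ^ 3 - (n : ℚ) ^ 2 * z = 0 → x ≠ z := fun z hz hxz => hy (by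
    rw [hxz, hz] at e; simpa using e)
  obtain ⟨x', y', h', hadd, hxv⟩ := exists_add h huv (hxne u (by linear_combination -he))
  rw [hadd] at hQ
  have hsq := dbl hQ.symm
  have h0 : x - 0 ≠ 0 := sub_ne_zero.2 (hxne 0 (by ring))
  have hp : x - n ≠ 0 := sub_ne_zero.2 (hxne n (by ring))
  have hm : x - -(n : ℚ) ≠ 0 := sub_ne_zero.2 (hxne (-n) (by ring))
  rw [sub_neg_eq_add] at hm
  rw [sub_zero] at h0
  rcases mul_eq_zero.1 hu with hu' | hu'
  · rcases mul_eq_zero.1 hu' with hu' | hu'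
    · subst hu'
      refine c₁ ?_
      rwa [show -(n : ℚ) ^ 2 / x = x' by
        rw [hxv, sub_zero, sub_zero, sub_zero, div_pow]; field_simp; linear_combination -e]
    · obtain rfl : u = n := by linarith
      refine c₂ ?_
      rwa [show (n : ℚ) * (x + n) / (x - n) = x' by
        rw [hxv, sub_zero, div_pow]; field_simp; linear_combination -e]
  · obtain rfl : u = -(n : ℚ) := by linarith
    refine c₃ ?_
    rwa [show -(n : ℚ) * (x - n) / (x + n) = x' by
      simp only [hxv, sub_zero, sub_neg_eq_add, div_pow]; field_simp; linear_combination -e]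

/-- A rational between consecutive squares is no square. -/
theorem not_isSquare_of_between {q : ℚ} (b k : ℕ) (m : ℤ) (e : q * (b : ℚ) ^ 2 = m)
    (h1 : (k : ℤ) ^ 2 < m) (h2 : m < ((k : ℤ) + 1) ^ 2) : ¬ IsSquare q := by
  rintro ⟨s, rfl⟩
  obtain ⟨M, hM⟩ := exists_int_of_sq (w := s * b) (k := m) (by rw [← e]; ring)
  have hMm : M ^ 2 = m := by
    have : (M : ℚ) ^ 2 = m := by rw [← hM, ← e]; ring
    exact_mod_cast this
  have l1 := abs_lt_of_sq_lt_sq (a := (k : ℤ)) (b := |M|) (by rw [sq_abs, hMm]; exact h1)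
    (abs_nonneg M)
  have l2 := abs_lt_of_sq_lt_sq (a := |M|) (b := (k : ℤ) + 1) (by rw [sq_abs, hMm]; exact h2)
    (by positivity)
  rw [Nat.abs_cast] at l1
  rw [abs_abs] at l2
  omega

theorem not_isSquare_of_lt_zero {q : ℚ} (h : q < 0) : ¬ IsSquare q := fun hs =>
  absurd hs.nonneg (not_le.2 h)

/-- No point with first coordinate `x` is a double up to torsion. -/
def NotDouble (n : ℕ) (x : ℚ) : Prop :=
  x ^ 3 - (n : ℚ) ^ 2 * x ≠ 0 ∧ ¬ (IsSquare x ∧ IsSquare (x - n)) ∧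
    ¬ (IsSquare (-(n : ℚ) ^ 2 / x) ∧ IsSquare (-(n : ℚ) ^ 2 / x - n)) ∧
    ¬ (IsSquare ((n : ℚ) * (x + n) / (x - n)) ∧
      IsSquare ((n : ℚ) * (x + n) / (x - n) - n)) ∧
    ¬ (IsSquare (-(n : ℚ) * (x - n) / (x + n)) ∧
      IsSquare (-(n : ℚ) * (x - n) / (x + n) - n))

theorem NotDouble.not_halved {n : ℕ} (hn : n ≠ 0) {x y : ℚ} (hx : NotDouble n x)
    {h : (congCurve n).toAffine.Nonsingular x y} : ¬ Halved (Affine.Point.some x y h) :=
  not_halved_of_classes hn
    (fun hy => hx.1 (by rw [← equation_congCurve h, hy]; ring)) hx.2.1 hx.2.2.1 hx.2.2.2.1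
      hx.2.2.2.2

variable {k : ℕ}

theorem exists_hasRank_le {Q : Fin k → ℕ} {n d : ℕ} (hn : ∏ i, (Q i + 1) = n)
    (hp : ∀ i, (Q i + 1).Prime) (h2 : ∀ i, Q i + 1 ≠ 2)
    (hinj : Function.Injective fun i => Q i + 1)
    (h : (Finset.univ.filter fun v => (matrix fun i => Q i + 1).mulVec v = 0).card ≤ 2 ^ d) :
    ∃ r ≤ d, HasRank n r := by
  obtain ⟨r, hr, he⟩ := exists_rank_le ⟨hp, h2, hinj⟩
  exact ⟨r, hr.trans (finrank_ker_le _ h), hn ▸ he⟩

theorem exists_hasRank_le_two {Q : Fin k → ℕ} {n d : ℕ} (hn : 2 * ∏ i, (Q i + 1) = n)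
    (hp : ∀ i, (Q i + 1).Prime) (h2 : ∀ i, Q i + 1 ≠ 2)
    (hinj : Function.Injective fun i => Q i + 1)
    (h : (Finset.univ.filter fun v => (matrixTwo fun i => Q i + 1).mulVec v = 0).card ≤ 2 ^ d) :
    ∃ r ≤ d, HasRank n r := by
  obtain ⟨r, hr, he⟩ := exists_rank_le_two ⟨hp, h2, hinj⟩
  exact ⟨r, hr.trans (finrank_ker_le _ h), hn ▸ he⟩

theorem hasRank_one {n : ℕ} (hn : n ≠ 0) (h : ∃ r ≤ 1, HasRank n r)
    (hc : ∃ a b c : ℚ, 0 < a ∧ 0 < b ∧ 0 < c ∧ a ^ 2 + b ^ 2 = c ^ 2 ∧ a * b / 2 = (n : ℚ)) :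
    HasRank n 1 := by
  obtain ⟨r, hr, he⟩ := h
  have := pos_of_congruent hn hc he
  obtain rfl : r = 1 := by omega
  exact he

theorem hasRank_two {n : ℕ} (h : ∃ r ≤ 2, HasRank n r) {Q R : (congCurve n).toAffine.Point}
    (hQ : ¬ Halved Q) (hR : ¬ Halved R) (hQR : ¬ Halved (Q + R)) : HasRank n 2 := by
  obtain ⟨r, hr, he⟩ := h
  have := two_le_of_not_halved he hQ hR hQR
  obtain rfl : r = 2 := by omega
  exact he

/-- Rank two from two points and the first coordinate of their sum. -/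
theorem hasRank_two_of_points {n : ℕ} (hn : n ≠ 0) (h : ∃ r ≤ 2, HasRank n r)
    (x₁ y₁ x₂ y₂ x₃ : ℚ) (e₁ : y₁ ^ 2 = x₁ ^ 3 - (n : ℚ) ^ 2 * x₁)
    (e₂ : y₂ ^ 2 = x₂ ^ 3 - (n : ℚ) ^ 2 * x₂) (hx : x₁ ≠ x₂)
    (e₃ : x₃ = ((y₁ - y₂) / (x₁ - x₂)) ^ 2 - x₁ - x₂) (d₁ : NotDouble n x₁)
    (d₂ : NotDouble n x₂) (d₃ : NotDouble n x₃) : HasRank n 2 := by
  have h₁ := nonsingular_congCurve hn e₁
  have h₂ := nonsingular_congCurve hn e₂
  obtain ⟨x, y, h₃, hadd, hxv⟩ := exists_add h₁ h₂ hx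
  obtain rfl : x = x₃ := by rw [hxv, e₃]
  refine hasRank_two h (d₁.not_halved hn (h := h₁)) (d₂.not_halved hn (h := h₂)) ?_
  rw [hadd]
  exact d₃.not_halved hn

end FA.Monsky

end
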