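import Fermat.Agent.Monsky.Rank
import Fermat.Agent.Monsky.Congruent

/-!
# Congruent number curves of rank at least two

For `a² + a b + b² = c²` three triangles share the area `N = a b c (a + b)`. Two of the points and
their sum have first coordinates `b c² (a + b)`, `a c² (a + b)`, `a b (a + b)²`; none is a double up
to torsion when six products of two of `a`, `b`, `c`, `a + b` are no squares.
-/

set_option autoImplicit false
set_option linter.style.haveILetI false

noncomputable section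

open WeierstrassCurve
open FA.CongruentNumber

namespace FA.Monsky

/-- Every congruent number curve has a rank. -/
theorem exists_hasRank {n : ℕ} (hn : n ≠ 0) : ∃ r, HasRank n r := by
  haveI := isElliptic_congCurve hn
  haveI := FA.MordellWeil.mordell (congCurve n)
  obtain ⟨r, ⟨e⟩⟩ := FA.MordellWeil.exists_equiv_torsion_prod (congCurve n).toAffine.Point
  obtain ⟨-, ⟨f⟩⟩ := torsion_congCurve hn
  exact ⟨r, ⟨e.trans (f.prodCongr (AddEquiv.refl _))⟩⟩

/-- Right of `n` a point is no double up to torsion if `x` and `n x` are no squares. -/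
theorem notDouble_of_lt {n : ℕ} {x y : ℚ} (hn : 0 < n) (hx : (n : ℚ) < x)
    (e : y ^ 2 = x ^ 3 - (n : ℚ) ^ 2 * x) (h1 : ¬ IsSquare x) (h2 : ¬ IsSquare ((n : ℚ) * x)) :
    NotDouble n x := by
  have hn' : (0 : ℚ) < n := Nat.cast_pos.2 hn
  have hx0 : 0 < x := hn'.trans hx
  have hm : 0 < x - n := sub_pos.2 hx
  have hp : 0 < x + n := by linarith
  have hne : x ^ 3 - (n : ℚ) ^ 2 * x ≠ 0 := by
    rw [show x ^ 3 - (n : ℚ) ^ 2 * x = x * (x - n) * (x + n) by ring]
    positivity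
  have hy : y ≠ 0 := fun h => hne (by rw [← e, h]; ring)
  refine ⟨hne, fun h => h1 h.1, fun h => not_isSquare_of_lt_zero ?_ h.1, fun h => h2 ?_,
    fun h => not_isSquare_of_lt_zero ?_ h.1⟩
  · exact div_neg_of_neg_of_pos (by nlinarith) hx0
  · obtain ⟨w, hw⟩ := h.1
    refine ⟨w * (x * (x - n) / y), ?_⟩
    rw [mul_mul_mul_comm, ← hw]
    field_simp
    linear_combination e
  · exact div_neg_of_neg_of_pos (mul_neg_of_neg_of_pos (neg_neg_of_pos hn') hm) hp

/-- The hypotheses of `notDouble_of_lt` pass to the squarefree part. -/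
theorem notDouble_scale {N m l : ℕ} {X Y : ℕ} (hml : l ^ 2 * m = N) (hN : 0 < N) (hX : N < X)
    (e : (Y : ℤ) ^ 2 = (X : ℤ) ^ 3 - (N : ℤ) ^ 2 * X) (h1 : ¬ IsSquare X)
    (h2 : ¬ IsSquare (N * X)) :
    ((Y : ℚ) / (l : ℚ) ^ 3) ^ 2 =
        ((X : ℚ) / (l : ℚ) ^ 2) ^ 3 - (m : ℚ) ^ 2 * ((X : ℚ) / (l : ℚ) ^ 2) ∧
      NotDouble m ((X : ℚ) / (l : ℚ) ^ 2) := by
  have hl0 : 0 < l := Nat.pos_of_ne_zero (by rintro rfl; simp at hml; omega)
  have hm0 : 0 < m := Nat.pos_of_ne_zero (by rintro rfl; simp at hml; omega)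
  have hl : (0 : ℚ) < l := Nat.cast_pos.2 hl0
  have hq : (N : ℚ) = (l : ℚ) ^ 2 * m := by exact_mod_cast hml.symm
  have eQ : (Y : ℚ) ^ 2 = (X : ℚ) ^ 3 - (N : ℚ) ^ 2 * X := by exact_mod_cast e
  have e' : ((Y : ℚ) / (l : ℚ) ^ 3) ^ 2 =
      ((X : ℚ) / (l : ℚ) ^ 2) ^ 3 - (m : ℚ) ^ 2 * ((X : ℚ) / (l : ℚ) ^ 2) := by
    rw [hq] at eQ
    field_simp
    linear_combination eQ
  refine ⟨e', notDouble_of_lt hm0 ?_ e' ?_ ?_⟩
  · rw [lt_div_iff₀ (pow_pos hl 2)]
    have : (N : ℚ) < X := Nat.cast_lt.2 hX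
    linarith
  · rintro ⟨w, hw⟩
    exact h1 (Rat.isSquare_natCast_iff.1 ⟨w * l, by
      field_simp at hw; linear_combination hw⟩)
  · rintro ⟨w, hw⟩
    exact h2 (Rat.isSquare_natCast_iff.1 ⟨w * l ^ 2, by
      push_cast; rw [hq]; field_simp at hw; linear_combination (l : ℚ) ^ 2 * hw⟩)

/-- A square multiple of a product of coprime numbers, one no square, is no square. -/
theorem not_isSquare_mul {u v d X : ℕ} (h : X = d ^ 2 * (u * v)) (hd : d ≠ 0)
    (hco : Nat.Coprime u v) (hu : ¬ IsSquare u) : ¬ IsSquare X := by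
  rintro ⟨w, hw⟩
  obtain ⟨z, rfl⟩ : d ∣ w := (Nat.pow_dvd_pow_iff two_ne_zero).1
    ⟨u * v, by rw [sq w, ← hw, h]⟩
  have huv : u * v = z ^ 2 := Nat.eq_of_mul_eq_mul_left (pow_pos (Nat.pos_of_ne_zero hd) 2)
    (by rw [← h, hw]; ring)
  obtain ⟨g, hg⟩ := exists_eq_pow_of_mul_eq_pow
    (by rw [Nat.isUnit_iff]; exact hco) huv
  exact hu ⟨g, hg.trans (sq g)⟩

/-- Coprimality from a relation with value `3`. -/
theorem coprime_of_three {u v : ℕ} (x y : ℤ) (h : x * u + y * v = 3) (h3 : u % 3 ≠ 0) :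
    Nat.Coprime u v := by
  refine Nat.coprime_of_dvd fun p hp hu hv => ?_
  have hp3 : (p : ℤ) ∣ 3 := by
    rw [← h]
    exact dvd_add (dvd_mul_of_dvd_right (Int.natCast_dvd_natCast.2 hu) _)
      (dvd_mul_of_dvd_right (Int.natCast_dvd_natCast.2 hv) _)
  obtain rfl : p = 3 := (Nat.prime_dvd_prime_iff_eq hp Nat.prime_three).1
    (Int.natCast_dvd_natCast.1 (by exact_mod_cast hp3))
  omega

/-- A triple `a² + a b + b² = c²` with the squarefree part `m` of `a b c (a + b)`. -/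
theorem two_le_finrank_of_triple {a b c e m l : ℕ} (he : e = a + b)
    (hc : a ^ 2 + a * b + b ^ 2 = c ^ 2) (hml : l ^ 2 * m = a * b * c * e) (hm : m ≠ 0)
    (ha0 : 0 < a) (hb0 : 0 < b) (hne : a ≠ b) (cbe : Nat.Coprime b e) (cac : Nat.Coprime a c)
    (cae : Nat.Coprime a e) (cbc : Nat.Coprime b c) (cab : Nat.Coprime a b)
    (cce : Nat.Coprime c e) (na : ¬ IsSquare a) (nb : ¬ IsSquare b) (ne : ¬ IsSquare e) :
    2 ≤ Module.finrank ℤ (congCurve m).toAffine.Point := by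
  have hac : a < c := lt_of_pow_lt_pow_left₀ 2 (Nat.zero_le _) (by nlinarith)
  have hbc : b < c := lt_of_pow_lt_pow_left₀ 2 (Nat.zero_le _) (by nlinarith)
  have hce : c < e := lt_of_pow_lt_pow_left₀ 2 (Nat.zero_le _) (by subst he; nlinarith)
  have hc0 : 0 < c := ha0.trans hac
  have he0 : 0 < e := hc0.trans hce
  have hN0 : 0 < a * b * c * e := by positivity
  have hsq : (a : ℤ) ^ 2 + a * b + (b : ℤ) ^ 2 = (c : ℤ) ^ 2 := by exact_mod_cast hc
  obtain ⟨eP, dP⟩ := notDouble_scale (X := b * c ^ 2 * e) (Y := (b * c * e) ^ 2) hml hN0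
    (by calc a * b * c * e < c * b * c * e := by gcongr
          _ = b * c ^ 2 * e := by ring)
    (by subst he; push_cast
        linear_combination ((b : ℤ) ^ 3 * c ^ 4 * (a + b) ^ 3) * hsq)
    (not_isSquare_mul (d := c) (u := b) (v := e) (by ring) hc0.ne' cbe nb)
    (not_isSquare_mul (d := b * c * e) (u := a) (v := c) (by ring) (by positivity) cac na)
  obtain ⟨eQ, dQ⟩ := notDouble_scale (X := a * c ^ 2 * e) (Y := (a * c * e) ^ 2) hml hN0
    (by calc a * b * c * e < a * c * c * e := by gcongr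
          _ = a * c ^ 2 * e := by ring)
    (by subst he; push_cast
        linear_combination ((a : ℤ) ^ 3 * c ^ 4 * (a + b) ^ 3) * hsq)
    (not_isSquare_mul (d := c) (u := a) (v := e) (by ring) hc0.ne' cae na)
    (not_isSquare_mul (d := a * c * e) (u := b) (v := c) (by ring) (by positivity) cbc nb)
  obtain ⟨-, dR⟩ := notDouble_scale (X := a * b * e ^ 2) (Y := (a * b * e) ^ 2) hml hN0
    (by calc a * b * c * e < a * b * e * e := by gcongr
          _ = a * b * e ^ 2 := by ring)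
    (by subst he; push_cast
        linear_combination -((a : ℤ) ^ 3 * b ^ 3 * (a + b) ^ 4) * hsq)
    (not_isSquare_mul (d := e) (u := a) (v := b) (by ring) he0.ne' cab na)
    (not_isSquare_mul (d := a * b * e) (u := e) (v := c) (by ring) (by positivity) cce.symm ne)
  obtain ⟨r, hr⟩ := exists_hasRank hm
  have hl : (l : ℚ) ≠ 0 := Nat.cast_ne_zero.2 (by rintro rfl; simp at hml; omega)
  have h₁ := nonsingular_congCurve hm eP
  have h₂ := nonsingular_congCurve hm eQ
  have hab : (a : ℚ) ≠ b := Nat.cast_injective.ne hne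
  have hx : ((b * c ^ 2 * e : ℕ) : ℚ) / (l : ℚ) ^ 2 ≠
      ((a * c ^ 2 * e : ℕ) : ℚ) / (l : ℚ) ^ 2 := fun h => by
    rw [div_left_inj' (pow_ne_zero 2 hl), Nat.cast_inj] at h
    exact hne ((Nat.eq_of_mul_eq_mul_right (pow_pos hc0 2)
      (Nat.eq_of_mul_eq_mul_right he0 h)).symm)
  obtain ⟨x, y, h₃, hadd, hxv⟩ := exists_add h₁ h₂ hx
  obtain rfl : x = ((a * b * e ^ 2 : ℕ) : ℚ) / (l : ℚ) ^ 2 := by
    have hsqQ : (a : ℚ) ^ 2 + a * b + (b : ℚ) ^ 2 = (c : ℚ) ^ 2 := by exact_mod_cast hc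
    have hba : (b : ℚ) - a ≠ 0 := sub_ne_zero.2 hab.symm
    have hc' : (c : ℚ) ≠ 0 := Nat.cast_ne_zero.2 hc0.ne'
    have he' : (e : ℚ) ≠ 0 := Nat.cast_ne_zero.2 he0.ne'
    have hs : ∀ {u v : ℚ}, u = (b - a) * ((b + a) * (c * e) ^ 2) → v = (b - a) * (c ^ 2 * e) →
        (u / (l : ℚ) ^ 3) / (v / (l : ℚ) ^ 2) = ((b : ℚ) + a) * e / l := fun hu hv => by
      rw [hu, hv]
      field_simp
    rw [hxv]
    push_cast
    rw [div_sub_div_same, div_sub_div_same, hs (by ring) (by ring)]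
    field_simp
    subst he
    push_cast
    linear_combination ((a : ℚ) + b) * hsqQ
  have h3le := two_le_of_not_halved hr (dP.not_halved hm (h := h₁)) (dQ.not_halved hm (h := h₂))
    (by rw [hadd]; exact dR.not_halved hm)
  exact hr.elim fun f => (finrank_eq_of_equiv f).symm ▸ h3le

/-- Squarefree `n` with a large prime whose curve has rank at least two. -/
theorem exists_rank_two (B : ℕ) : ∃ n : ℕ, Squarefree n ∧ B < n ∧
    2 ≤ Module.finrank ℤ (congCurve n).toAffine.Point := by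
  obtain ⟨s, q, hq, hB, h6q, hqs, hs6, hdvd, hexact⟩ :=
    exists_class_exact_prime (show 0 < 6 by norm_num) 3 B
  obtain ⟨a, ha⟩ : ∃ a, a + 1 = s ^ 2 :=
    ⟨s ^ 2 - 1, Nat.sub_add_cancel (Nat.one_le_pow _ _ (by omega))⟩
  set b := 2 * s + 1 with hb
  set c := s ^ 2 + s + 1 with hc
  set e := s * (s + 2) with he
  have haZ : (a : ℤ) = (s : ℤ) ^ 2 - 1 := by
    have := congrArg (Nat.cast : ℕ → ℤ) ha
    push_cast at this
    linarith
  have hs3 : s ^ 2 % 3 = 0 := by rw [Nat.pow_mod, show s % 3 = 0 by omega]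
  have hs4 : 7 ≤ s := by omega
  have nb : ¬ IsSquare b := by
    rintro ⟨w, hw⟩
    have h4 : b % 4 = w % 4 * (w % 4) % 4 := by rw [hw, Nat.mul_mod]
    rcases (by omega : w % 4 = 0 ∨ w % 4 = 1 ∨ w % 4 = 2 ∨ w % 4 = 3) with h | h | h | h <;>
      rw [h] at h4 <;> omega
  have na : ¬ IsSquare a := by
    rintro ⟨w, hw⟩
    have h1 : w < s := by nlinarith
    nlinarith
  have ne : ¬ IsSquare e := by
    rintro ⟨w, hw⟩
    have h1 : s < w := by nlinarith
    nlinarith
  have hsum : e = a + b := by zify; rw [haZ, hb, he]; push_cast; ring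
  have htri : a ^ 2 + a * b + b ^ 2 = c ^ 2 := by zify; rw [haZ, hb, hc]; push_cast; ring
  obtain ⟨m, l, hml, hm⟩ := Nat.sq_mul_squarefree (a * b * c * e)
  refine ⟨m, hm, ?_, two_le_finrank_of_triple hsum htri hml hm.ne_zero (by nlinarith) (by omega)
    (by intro h; rw [h] at ha; nlinarith)
    (coprime_of_three ((b : ℤ) + 2) (-4) (by push_cast [hb, he]; ring) (by omega))
    (coprime_of_three ((s : ℤ) - 1) (2 - (s : ℤ)) (by push_cast [haZ, hc]; ring) (by omega))
    (coprime_of_three (-(2 * (s : ℤ) + 3)) (2 * (s : ℤ) - 1) (by push_cast [haZ, he]; ring)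
      (by omega))
    (coprime_of_three (-(b : ℤ)) 4 (by push_cast [hb, hc]; ring) (by omega))
    (coprime_of_three (-4) ((b : ℤ) - 2) (by push_cast [haZ, hb]; ring) (by omega))
    (coprime_of_three ((s : ℤ) + 3) (-((s : ℤ) + 2)) (by push_cast [hc, he]; ring) (by omega))
    na nb ne⟩
  have hqN : q ∣ a * b * c * e := dvd_mul_of_dvd_right (dvd_mul_of_dvd_left hdvd _) _
  have hqN2 : ¬ q ^ 2 ∣ a * b * c * e := fun h => by
    have hqZ : (s : ZMod q) = 0 := (ZMod.natCast_eq_zero_iff s q).2 hdvd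
    have hco : Nat.Coprime q (a * b * c * (s + 2)) := hq.coprime_iff_not_dvd.2 fun hd => by
      have := Fact.mk hq
      have ha' : (a : ZMod q) = -1 := by
        have := congrArg (Nat.cast : ℕ → ZMod q) ha
        push_cast [hqZ] at this
        linear_combination this
      have h0 := (ZMod.natCast_eq_zero_iff _ q).2 hd
      push_cast [hb, hc, ha', hqZ] at h0
      have h2 : ((2 : ℕ) : ZMod q) = 0 := by push_cast; linear_combination -h0
      exact absurd (Nat.le_of_dvd two_pos ((ZMod.natCast_eq_zero_iff _ q).1 h2)) (by omega)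
    refine hexact ((Nat.Coprime.pow_left 2 hco).dvd_of_dvd_mul_right ?_)
    rwa [show s * (a * b * c * (s + 2)) = a * b * c * e by rw [he]; ring]
  have hqm : q ∣ m := ((hq.dvd_mul).1 (hml ▸ hqN)).resolve_left fun h =>
    hqN2 (hml ▸ dvd_mul_of_dvd_left (pow_dvd_pow_of_dvd (hq.dvd_of_dvd_pow h) 2) m)
  exact hB.trans_le (Nat.le_of_dvd (Nat.pos_of_ne_zero hm.ne_zero) hqm)

end FA.Monsky

end
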