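import Fermat.Agent.Monsky.Families
import Mathlib.NumberTheory.Pell

/-!
# Rédei's criterion for the negative Pell equation

For `d = ∏ P i` with primes `≡ 1 (mod 4)` the fundamental solution splits, `d` being odd and
`≡ 1 (mod 4)`, as `a r² - b s² = 1` with `a b = d`; the primes of `a` form a vector killed by the
Rédei matrix. If only the two constant vectors are, `a = d` and `s² - d r² = -1`.
-/

set_option autoImplicit false
set_option linter.style.haveILetI false

noncomputable section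

namespace FA.Monsky

variable {k : ℕ} {P : Fin k → ℕ} [∀ i, NeZero (P i)]

omit [∀ i, NeZero (P i)] in
theorem prod_mod_four (h4 : ∀ i, P i % 4 = 1) : (∏ i, P i) % 4 = 1 := by
  rw [Finset.prod_nat_mod, Finset.prod_congr rfl fun i _ => h4 i]
  simp

omit [∀ i, NeZero (P i)] in
theorem not_isSquare_prod_nonempty (hP : OddPrimes P) (i : Fin k) :
    ¬ IsSquare ((∏ j, P j : ℕ) : ℤ) := by
  rw [Int.isSquare_natCast_iff]
  rintro ⟨r, hr⟩
  have hd : P i ∣ r := by
    have := Finset.dvd_prod_of_mem P (Finset.mem_univ i)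
    rw [hr] at this
    exact ((hP.prime i).dvd_mul.1 this).elim id id
  exact (hP.prime i).ne_one (Nat.isUnit_iff.1 (hP.squarefree_prod Finset.univ (P i)
    (hr ▸ mul_dvd_mul hd hd)))

/-- **Rédei**: if only the constant vectors satisfy the conditions at the primes then
`x² - d y² = -1` is solvable. -/
theorem exists_negPell (hP : OddPrimes P) (h4 : ∀ i, P i % 4 = 1)
    (hker : ∀ α : Fin k → ZMod 2,
      (∀ i, (∑ j ∈ Finset.univ.erase i, α j * entry P i j) + diagA P i * α i = 0) →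
        α = 0 ∨ α = 1) :
    ∃ x y : ℤ, x ^ 2 - ((∏ i, P i : ℕ) : ℤ) * y ^ 2 = -1 := by
  rcases Nat.eq_zero_or_pos k with rfl | hk
  · exact ⟨0, 1, by simp⟩
  set d := ∏ i, P i with hdd
  have hd4 : d % 4 = 1 := prod_mod_four h4
  obtain ⟨s₁, h1x, h1y, hmin⟩ := Pell.IsFundamental.exists_of_not_isSquare
    (d := (d : ℤ)) (by omega) (not_isSquare_prod_nonempty hP ⟨0, hk⟩)
  obtain ⟨x, hx⟩ := Int.eq_ofNat_of_zero_le (show 0 ≤ s₁.x by omega)
  obtain ⟨y, hy⟩ := Int.eq_ofNat_of_zero_le h1y.le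
  have e : x ^ 2 = d * y ^ 2 + 1 := by
    have h := s₁.prop
    rw [hx, hy] at h
    zify
    linear_combination h
  have hpar : x % 2 = 1 ∧ y % 2 = 0 := by
    have hx4 : x ^ 2 % 4 = x % 4 * (x % 4) % 4 := by rw [sq, Nat.mul_mod]
    have hy4 : (d * y ^ 2 + 1) % 4 = (y % 4 * (y % 4) + 1) % 4 := by
      rw [Nat.add_mod, Nat.mul_mod, hd4, sq, Nat.mul_mod y y]
      simp [Nat.add_mod]
    rw [e] at hx4
    rcases (by omega : x % 4 = 0 ∨ x % 4 = 1 ∨ x % 4 = 2 ∨ x % 4 = 3) with h | h | h | h <;>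
      rcases (by omega : y % 4 = 0 ∨ y % 4 = 1 ∨ y % 4 = 2 ∨ y % 4 = 3) with h' | h' | h' | h' <;>
      rw [h] at hx4 <;> rw [h'] at hy4 <;> omega
  obtain ⟨u, rfl⟩ : ∃ u, x = 2 * u + 1 := ⟨x / 2, by omega⟩
  obtain ⟨v, rfl⟩ : ∃ v, y = 2 * v := ⟨y / 2, by omega⟩
  have huv : u * (u + 1) = d * v ^ 2 := by
    rw [show (2 * u + 1) ^ 2 = 4 * (u * (u + 1)) + 1 by ring,
      show d * (2 * v) ^ 2 = 4 * (d * v ^ 2) by ring] at e
    omega
  have hu : 0 < u := by
    rw [hx] at h1x
    omega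
  have hco : Nat.Coprime u (u + 1) := by simp
  set b := d.gcd u with hb
  set a := d.gcd (u + 1) with ha
  have hab : b * a = d := by
    rw [hb, ha, ← Nat.Coprime.gcd_mul d hco, huv, Nat.gcd_mul_right_right]
  obtain ⟨u₁, hu₁⟩ : b ∣ u := Nat.gcd_dvd_right d u
  obtain ⟨u₂, hu₂⟩ : a ∣ u + 1 := Nat.gcd_dvd_right d (u + 1)
  have hd0 : 0 < d := by omega
  have h12 : u₁ * u₂ = v ^ 2 := Nat.eq_of_mul_eq_mul_left hd0 (by
    rw [← huv, ← hab, hu₂, hu₁]; ring)
  have hco' : IsUnit (gcd u₁ u₂) := by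
    rw [Nat.isUnit_iff]
    exact Nat.Coprime.coprime_dvd_left (Dvd.intro_left _ hu₁.symm)
      (Nat.Coprime.coprime_dvd_right (Dvd.intro_left _ hu₂.symm) hco)
  obtain ⟨s, hs⟩ := exists_eq_pow_of_mul_eq_pow hco' h12
  obtain ⟨r, hr⟩ := exists_eq_pow_of_mul_eq_pow (a := u₂) (b := u₁)
    (by rwa [gcd_comm]) (by rwa [mul_comm])
  -- `a r² - b s² = 1`
  have hars : a * r ^ 2 = b * s ^ 2 + 1 := by rw [← hr, ← hs, ← hu₁, ← hu₂]
  have hsf : Squarefree d := hP.squarefree_prod Finset.univ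
  have back : ∀ {m : ℕ}, m ∣ d → ∀ q : ℕ, q.Prime → q ∣ m → ∃ j, q = P j := fun {m} hm q hq h => by
    obtain ⟨i, -, hi⟩ := (hq.prime.dvd_finsetProd_iff P).1 (h.trans hm)
    exact ⟨i, (Nat.prime_dvd_prime_iff_eq hq (hP.prime i)).1 hi⟩
  have had : a ∣ d := Nat.gcd_dvd_left d (u + 1)
  have hbd : b ∣ d := Nat.gcd_dvd_left d u
  have hP2 : ∀ i, indicator P b i = 1 + indicator P a i := fun i => by
    have h1 : P i ∣ a ∨ P i ∣ b := ((hP.prime i).dvd_mul.1
      (hab ▸ Finset.dvd_prod_of_mem P (Finset.mem_univ i))).symm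
    have h2 : ¬ (P i ∣ a ∧ P i ∣ b) := fun ⟨h, h'⟩ => (hP.prime i).ne_one
      (Nat.isUnit_iff.1 (hsf (P i) (hab ▸ mul_dvd_mul h' h)))
    simp only [indicator]
    split_ifs <;> first | rfl | (exfalso; tauto)
  have hrow : ∀ i, (∑ j ∈ Finset.univ.erase i, indicator P a j * entry P i j) +
      diagA P i * indicator P a i = 0 := fun i => by
    haveI := Fact.mk (hP.prime i)
    have cast := congrArg (Nat.cast : ℕ → ZMod (P i)) hars
    push_cast at cast
    by_cases hi : P i ∣ a
    · have hib : ¬ P i ∣ b := fun h => (hP.prime i).ne_one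
        (Nat.isUnit_iff.1 (hsf (P i) (hab ▸ mul_dvd_mul h hi)))
      rw [(ZMod.natCast_eq_zero_iff a (P i)).2 hi, zero_mul] at cast
      have hs0 : (s : ZMod (P i)) ≠ 0 := fun h => by
        rw [h] at cast
        simp at cast
      obtain ⟨j, hj⟩ := ZMod.exists_sq_eq_neg_one_iff.2
        (show P i % 4 ≠ 3 by have := h4 i; omega)
      have hsq : IsSquare (b : ZMod (P i)) := ⟨j / s, by
        field_simp
        linear_combination -cast + hj⟩
      have h0 := sym_of_isSquare (p := P i) hsq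
      rw [hP.sym_cast i (hsf.squarefree_of_dvd hbd) (back hbd) hib] at h0
      simp only [hP2, add_mul, one_mul, Finset.sum_add_distrib] at h0
      rw [show indicator P a i = 1 by simp [indicator, hi], mul_one, add_comm]
      exact h0
    · have hib : P i ∣ b := ((hP.prime i).dvd_mul.1
        (hab ▸ Finset.dvd_prod_of_mem P (Finset.mem_univ i))).resolve_right hi
      rw [(ZMod.natCast_eq_zero_iff b (P i)).2 hib, zero_mul, zero_add] at cast
      have hr0 : (r : ZMod (P i)) ≠ 0 := fun h => by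
        rw [h] at cast
        simp at cast
      have hsq : IsSquare (a : ZMod (P i)) := ⟨1 / r, by
        field_simp
        linear_combination cast⟩
      rw [← hP.sym_cast i (hsf.squarefree_of_dvd had) (back had) hi, sym_of_isSquare hsq,
        show indicator P a i = 0 by simp [indicator, hi], mul_zero, add_zero]
  have ea : classProd P (indicator P a) = a :=
    hP.classProd_indicator (hsf.squarefree_of_dvd had) (back had)
  rcases hker _ hrow with h | h
  · -- a smaller solution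
    rw [h, show classProd P 0 = 1 by simp [classProd]] at ea
    rw [← ea, one_mul] at hars
    rw [← ea, mul_one] at hab
    rw [hab] at hars
    have hs0 : 0 < s := Nat.pos_of_ne_zero fun h => by
      rw [hu₁, hs, h] at hu
      simp at hu
    have hr2 : r ^ 2 = u + 1 := by rw [← hr, hu₂, ← ea, one_mul]
    have hr1 : 1 < r := by
      by_contra hle
      have : r ^ 2 ≤ 1 := by nlinarith
      omega
    let t : Pell.Solution₁ (d : ℤ) := Pell.Solution₁.mk (r : ℤ) (s : ℤ) (by
      have := congrArg (Nat.cast : ℕ → ℤ) hars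
      push_cast at this
      linear_combination this)
    have := hmin (b := t) (by simp [t]; exact_mod_cast hr1)
    rw [hx, Pell.Solution₁.x_mk] at this
    have h3 : 2 * u + 1 ≤ r := by exact_mod_cast this
    nlinarith
  · rw [h, show classProd P 1 = d by simp [classProd, hdd]] at ea
    have hb1 : b = 1 := Nat.eq_of_mul_eq_mul_right hd0 (by rw [one_mul]; rwa [← ea] at hab)
    rw [← ea, hb1, one_mul] at hars
    refine ⟨s, r, ?_⟩
    have := congrArg (Nat.cast : ℕ → ℤ) hars
    push_cast at this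
    linear_combination -this

omit [∀ i, NeZero (P i)] in
/-- A prime `≡ 3 (mod 4)` of `d` excludes the equation. -/
theorem not_negPell {d q : ℕ} (hq : q.Prime) (h3 : q % 4 = 3) (hd : q ∣ d) :
    ¬ ∃ x y : ℤ, x ^ 2 - (d : ℤ) * y ^ 2 = -1 := by
  rintro ⟨x, y, h⟩
  haveI := Fact.mk hq
  have := congrArg (Int.cast : ℤ → ZMod q) h
  push_cast at this
  rw [(ZMod.natCast_eq_zero_iff d q).2 hd, zero_mul, sub_zero] at this
  exact ZMod.mod_four_ne_three_of_sq_eq_neg_one this h3

/-- One prime linked to all the others, these squares modulo each other. -/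
theorem ker_star {l : ℕ} {P : Fin (l + 1) → ℕ} [∀ i, NeZero (P i)] (hP : OddPrimes P)
    (h4 : ∀ i, P i % 4 = 1) (he : ∀ j i, j < i → entry P j i = if j = 0 then 1 else 0)
    (α : Fin (l + 1) → ZMod 2)
    (h : ∀ i, (∑ j ∈ Finset.univ.erase i, α j * entry P i j) + diagA P i * α i = 0) :
    α = 0 ∨ α = 1 := by
  have hm : ∀ i, sym (P i) (-1) = 0 := fun i => by
    rw [sym_neg_one hP i, if_neg (by have := h4 i; omega)]
  have hsym : ∀ i j, i ≠ j → entry P i j = entry P j i := fun i j hij => by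
    rw [entry_symm hP hij, hm i, zero_mul, add_zero]
  have e0 : ∀ i, i ≠ 0 → entry P i 0 = 1 := fun i hi => by
    rw [hsym i 0 hi, he 0 i (Fin.pos_iff_ne_zero.2 hi), if_pos rfl]
  have e1 : ∀ i j, i ≠ 0 → j ≠ 0 → i ≠ j → entry P i j = 0 := fun i j hi hj hij => by
    rcases hij.lt_or_gt with h | h
    · rw [he i j h, if_neg hi]
    · rw [hsym i j hij, he j i h, if_neg hj]
  have hc : ∀ i, α i = α 0 := fun i => by
    rcases eq_or_ne i 0 with rfl | hi
    · rfl
    have hsum : ∀ f : Fin (l + 1) → ZMod 2,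
        ∑ j ∈ Finset.univ.erase i, f j * entry P i j = f 0 := fun f => by
      rw [Finset.sum_eq_single_of_mem 0 (by simp [Ne.symm hi]) fun j hj hj0 => by
        rw [e1 i j hi hj0 (Finset.ne_of_mem_erase hj).symm, mul_zero], e0 i hi, mul_one]
    have hD : diagA P i = 1 := by simpa [diagA] using hsum 1
    have hrow := h i
    rw [hsum α, hD, one_mul] at hrow
    exact ((show ∀ a b : ZMod 2, a + b = 0 → b = a by decide) _ _ hrow)
  rcases (show ∀ z : ZMod 2, z = 0 ∨ z = 1 by decide) (α 0) with h0 | h0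
  · exact Or.inl (funext fun i => (hc i).trans h0)
  · exact Or.inr (funext fun i => (hc i).trans h0)

/-- Above any bound, `k + 1` primes whose product has negative Pell solvable. -/
theorem exists_negPell_family (l B : ℕ) :
    ∃ P : Fin (l + 1) → ℕ, OddPrimes P ∧ (∀ i, P i % 4 = 1 ∧ B < P i) ∧
      ∃ x y : ℤ, x ^ 2 - ((∏ i, P i : ℕ) : ℤ) * y ^ 2 = -1 := by
  obtain ⟨P, _, hP, h8, he⟩ := exists_pattern (fun _ => 5) (fun _ => by decide)
    (fun j _ => if j = 0 then 1 else 0) (l + 1) B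
  have h4 : ∀ i, P i % 4 = 1 := fun i => by have := (h8 i).1; omega
  exact ⟨P, hP, fun i => ⟨h4 i, (h8 i).2⟩, exists_negPell hP h4 (ker_star hP h4
    fun j i hji => (he j i hji).trans (if_congr Fin.val_eq_zero_iff rfl rfl))⟩

end FA.Monsky

end
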