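import Fermat.Agent.Monsky.Families
import Fermat.Agent.Monsky.EvenLowerHalf

/-!
# Every Selmer rank occurs

When the primes are squares modulo each other the matrix splits into pieces of size two, one for
each prime, so one prime fixes the class modulo `8` and primes `≡ 1 (mod 8)` add two each.
-/

set_option autoImplicit false
set_option linter.style.haveILetI false

noncomputable section

open Module

namespace FA.Monsky

variable {k : ℕ} {P : Fin k → ℕ} [∀ i, NeZero (P i)]

/-- The count of a decoupled system. -/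
theorem natCard_pi_pairs (d m : Fin k → ZMod 2) (C : ZMod 2 → ZMod 2 → ZMod 2 → ZMod 2 → Prop)
    (g : ZMod 2 → ZMod 2 → ℕ)
    (hg : ∀ a b, Nat.card {p : ZMod 2 × ZMod 2 // C a b p.1 p.2} = 2 ^ g a b) :
    Nat.card {x : (Fin k → ZMod 2) × (Fin k → ZMod 2) // ∀ i, C (d i) (m i) (x.1 i) (x.2 i)} =
      2 ^ ∑ i, g (d i) (m i) := by
  refine (Nat.card_congr ((Equiv.arrowProdEquivProdArrow (Fin k) (fun _ => ZMod 2)
      (fun _ => ZMod 2)).symm.subtypeEquiv (q := fun f => ∀ i, C (d i) (m i) (f i).1 (f i).2)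
      fun x => Iff.rfl)).trans ?_
  rw [Nat.card_congr (Equiv.subtypePiEquivPi
      (p := fun i (q : ZMod 2 × ZMod 2) => C (d i) (m i) q.1 q.2)),
    Nat.card_pi, Finset.prod_congr rfl fun i _ => hg _ _, Finset.prod_pow_eq_pow_sum]

theorem eq_of_natCard {V : Type*} [AddCommGroup V] [Module (ZMod 2) V] [Finite V] {d : ℕ}
    (h : Nat.card V = 2 ^ d) : finrank (ZMod 2) V = d := by
  rw [natCard_eq_pow_finrank (K := ZMod 2), Nat.card_zmod] at h
  exact Nat.pow_right_injective le_rfl h

/-- The kernel for odd `n` and primes that are squares modulo each other. -/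
theorem finrank_ker_of_entry (hent : ∀ i j, i ≠ j → entry P i j = 0) :
    finrank (ZMod 2) (LinearMap.ker (matrix P).mulVecLin) =
      ∑ i, ((if sym (P i) 2 = 0 then 1 else 0) + if sym (P i) (-1) = 0 then 1 else 0) := by
  have hD : ∀ i, diagA P i = 0 := fun i =>
    Finset.sum_eq_zero fun j hj => hent i j (Finset.ne_of_mem_erase hj).symm
  have hsum : ∀ (f : Fin k → ZMod 2) i, ∑ j ∈ Finset.univ.erase i, f j * entry P i j = 0 :=
    fun f i => Finset.sum_eq_zero fun j hj => by
      rw [hent i j (Finset.ne_of_mem_erase hj).symm, mul_zero]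
  refine eq_of_natCard ?_
  rw [← natCard_pi_pairs (fun i => sym (P i) 2) (fun i => sym (P i) (-1))
    (fun d m a b => m * b = 0 ∧ d * a + m * b = 0)
    (fun d m => (if d = 0 then 1 else 0) + if m = 0 then 1 else 0) (fun d m => by
      rw [Nat.card_eq_fintype_card]; revert d m; decide)]
  have key : ∀ a b : ZMod 2, a + b + b = a := by decide
  have iff' : ∀ α β : Fin k → ZMod 2, (matrix P).mulVec (Sum.elim (α + β) β) = 0 ↔
      ∀ i, sym (P i) (-1) * β i = 0 ∧ sym (P i) 2 * α i + sym (P i) (-1) * β i = 0 := fun α β => by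
    rw [mulVec_eq_zero_iff]
    refine forall_congr' fun i => ?_
    simp only [hsum, hD, zero_mul, zero_add]
  exact Nat.card_congr
    { toFun := fun z => ⟨(z.1 ∘ Sum.inl + z.1 ∘ Sum.inr, z.1 ∘ Sum.inr), (iff' _ _).1 (by
        refine Eq.trans (congrArg _ (funext fun w => ?_)) (LinearMap.mem_ker.1 z.2)
        rcases w with i | i
        · exact key _ _
        · rfl)⟩
      invFun := fun x => ⟨Sum.elim (x.1.1 + x.1.2) x.1.2,
        LinearMap.mem_ker.2 ((iff' _ _).2 x.2)⟩
      left_inv := fun z => Subtype.ext (funext fun w => by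
        rcases w with i | i
        · exact key _ _
        · rfl)
      right_inv := fun x => Subtype.ext (Prod.ext (funext fun i => key _ _) rfl) }

/-- The kernel for even `n` and primes that are squares modulo each other. -/
theorem finrank_ker_two_of_entry (hent : ∀ i j, i ≠ j → entry P i j = 0) :
    finrank (ZMod 2) (LinearMap.ker (matrixTwo P).mulVecLin) =
      ∑ i, if sym (P i) 2 = 0 then (if sym (P i) (-1) = 0 then 2 else 1)
        else if sym (P i) (-1) = 0 then 0 else 1 := by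
  have hD : ∀ i, diagA P i = 0 := fun i =>
    Finset.sum_eq_zero fun j hj => hent i j (Finset.ne_of_mem_erase hj).symm
  have hA : ∀ i j, (if i = j then diagA P i + sym (P i) 2 else entry P i j) =
      Matrix.diagonal (fun i => sym (P i) 2) i j ∧
      (if i = j then diagA P i + sym (P i) 2 else entry P j i) =
      Matrix.diagonal (fun i => sym (P i) 2) i j := fun i j => by
    rcases eq_or_ne i j with rfl | h
    · simp [hD]
    · simp [h, hent i j h, hent j i h.symm]
  have hM : matrixTwo P = Matrix.fromBlocks (Matrix.diagonal fun i => sym (P i) 2)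
      (Matrix.diagonal fun i => sym (P i) 2) (Matrix.diagonal fun i => sym (P i) 2)
      (Matrix.diagonal fun i => sym (P i) (-1)) := by
    rw [matrixTwo]
    congr 1 <;> ext i j
    · exact (hA i j).1
    · exact (hA i j).2
  refine eq_of_natCard ?_
  rw [← natCard_pi_pairs (fun i => sym (P i) 2) (fun i => sym (P i) (-1))
    (fun d m a b => d * a + d * b = 0 ∧ d * a + m * b = 0)
    (fun d m => if d = 0 then (if m = 0 then 2 else 1) else if m = 0 then 0 else 1) (fun d m => by
      rw [Nat.card_eq_fintype_card]; revert d m; decide)]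
  refine Nat.card_congr ((Equiv.sumArrowEquivProdArrow (Fin k) (Fin k) (ZMod 2)).subtypeEquiv
    fun z => ?_)
  rw [LinearMap.mem_ker, Matrix.mulVecLin_apply, hM, Matrix.fromBlocks_mulVec]
  constructor
  · exact fun h i => ⟨by simpa [Matrix.mulVec_diagonal] using congrFun h (Sum.inl i),
      by simpa [Matrix.mulVec_diagonal] using congrFun h (Sum.inr i)⟩
  · intro h
    funext w
    rcases w with i | i
    · simpa [Matrix.mulVec_diagonal] using (h i).1
    · simpa [Matrix.mulVec_diagonal] using (h i).2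

/-- Primes that are squares modulo each other with one prescribed residue. -/
theorem exists_orthogonal (r B l : ℕ) (hr : r % 2 = 1 ∧ r < 8) :
    ∃ P : Fin (l + 1) → ℕ, ∃ _ : ∀ i, NeZero (P i), OddPrimes P ∧ P 0 % 8 = r ∧
      (∀ i : Fin l, P i.succ % 8 = 1) ∧ (∏ i, P i) % 8 = r ∧ B < ∏ i, P i ∧
      ∀ i j, i ≠ j → entry P i j = 0 := by
  obtain ⟨P, hne, hP, h8, he⟩ := exists_pattern (fun i => if i = 0 then r else 1)
    (fun i => by split_ifs <;> omega) (fun _ _ => 0) (l + 1) B
  have h0 : P 0 % 8 = r := by rw [(h8 0).1, Fin.val_zero, if_pos rfl]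
  have hs : ∀ i : Fin l, P i.succ % 8 = 1 := fun i => by
    rw [(h8 _).1, if_neg]; simp
  refine ⟨P, hne, hP, h0, hs, ?_, ?_, fun i j hij => ?_⟩
  · rw [Finset.prod_nat_mod, Fin.prod_univ_succ, h0, Finset.prod_congr rfl fun i _ => hs i]
    simp [Nat.mod_eq_of_lt hr.2]
  · exact (h8 0).2.trans_le (Nat.le_of_dvd hP.odd_prod.pos
      (Finset.dvd_prod_of_mem P (Finset.mem_univ 0)))
  · rcases hij.lt_or_gt with h | h
    · exact he i j h
    · rw [entry_symm hP hij.symm, he j i h]
      obtain ⟨i', rfl⟩ := Fin.exists_succ_eq.2 fun (h0 : i = 0) =>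
        Fin.not_lt_zero j (h0 ▸ h)
      rw [((syms_of_mod_eight hP _).1 (hs i')).1]
      simp

/-- **Every dimension of the right parity, odd `n`.** -/
theorem exists_finrank_ker {s d : ℕ} (B : ℕ)
    (h : (s = 1 ∨ s = 3) ∧ d % 2 = 0 ∨ (s = 5 ∨ s = 7) ∧ d % 2 = 1) :
    ∃ (k : ℕ) (P : Fin k → ℕ) (_ : ∀ i, NeZero (P i)), OddPrimes P ∧ (∏ i, P i) % 8 = s ∧
      B < ∏ i, P i ∧ finrank (ZMod 2) (LinearMap.ker (matrix P).mulVecLin) = d := by
  by_cases h10 : s = 1 ∧ d = 0
  · obtain ⟨rfl, rfl⟩ := h10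
    obtain ⟨P, hne, hP, h8, he⟩ := exists_pattern (fun _ => 3) (fun _ => by decide)
      (fun _ _ => 1) 2 B
    have hdet := det_ne_zero_double_star (l := 0) hP (h8 0).1 (h8 1).1
      (fun i hi hi' => by fin_cases i <;> simp_all)
      fun j i hji => by
        rw [he j i hji, if_pos]
        fin_cases i <;> fin_cases j <;> simp_all
    refine ⟨2, P, hne, hP, ?_, ?_, ?_⟩
    · rw [Finset.prod_nat_mod, Finset.prod_congr rfl fun i _ => (h8 i).1]
      simp
    · exact (h8 0).2.trans_le (Nat.le_of_dvd hP.odd_prod.pos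
        (Finset.dvd_prod_of_mem P (Finset.mem_univ 0)))
    · rw [LinearMap.ker_eq_bot.2 (Matrix.mulVec_injective_iff_isUnit.2
        ((Matrix.isUnit_iff_isUnit_det _).2 (isUnit_iff_ne_zero.2 hdet))), finrank_bot]
  have main : ∀ l, (if s = 1 then 2 else if s = 3 then 0 else 1) + 2 * l = d →
      ∃ (k : ℕ) (P : Fin k → ℕ) (_ : ∀ i, NeZero (P i)), OddPrimes P ∧ (∏ i, P i) % 8 = s ∧
        B < ∏ i, P i ∧ finrank (ZMod 2) (LinearMap.ker (matrix P).mulVecLin) = d := fun l hl => by
    obtain ⟨P, hne, hP, h0, hs, h8, hB, hent⟩ := exists_orthogonal s B l (by omega)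
    refine ⟨l + 1, P, hne, hP, h8, hB, ?_⟩
    rw [finrank_ker_of_entry hent, Fin.sum_univ_succ, Finset.sum_congr rfl fun i _ => by
        rw [((syms_of_mod_eight hP _).1 (hs i)).1, ((syms_of_mod_eight hP _).1 (hs i)).2],
      sym_two hP 0, sym_neg_one hP 0, ← hl, h0, show P 0 % 4 = s % 4 by omega]
    simp only [if_true, Finset.sum_const, Finset.card_univ, Fintype.card_fin, smul_eq_mul]
    rcases (by omega : s = 1 ∨ s = 3 ∨ s = 5 ∨ s = 7) with rfl | rfl | rfl | rfl <;>
      simp <;> omega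
  rcases h with ⟨rfl | rfl, hd⟩ | ⟨rfl | rfl, hd⟩
  · exact main ((d - 2) / 2) (by simp; omega)
  · exact main (d / 2) (by simp; omega)
  · exact main (d / 2) (by simp; omega)
  · exact main (d / 2) (by simp; omega)

/-- **Every dimension of the right parity, even `n`.** -/
theorem exists_finrank_ker_two {s d : ℕ} (B : ℕ)
    (h : s = 2 ∧ d % 2 = 0 ∨ s = 6 ∧ d % 2 = 1) :
    ∃ (k : ℕ) (P : Fin k → ℕ) (_ : ∀ i, NeZero (P i)), OddPrimes P ∧
      (2 * ∏ i, P i) % 8 = s ∧ B < ∏ i, P i ∧
      finrank (ZMod 2) (LinearMap.ker (matrixTwo P).mulVecLin) = d := by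
  have main : ∀ r l, (r = 5 ∧ s = 2 ∧ 2 * l = d) ∨ (r = 3 ∧ s = 6 ∧ 1 + 2 * l = d) →
      ∃ (k : ℕ) (P : Fin k → ℕ) (_ : ∀ i, NeZero (P i)), OddPrimes P ∧
        (2 * ∏ i, P i) % 8 = s ∧ B < ∏ i, P i ∧
        finrank (ZMod 2) (LinearMap.ker (matrixTwo P).mulVecLin) = d := fun r l hl => by
    obtain ⟨P, hne, hP, h0, hs, h8, hB, hent⟩ := exists_orthogonal r B l (by omega)
    refine ⟨l + 1, P, hne, hP, by omega, hB, ?_⟩
    rw [finrank_ker_two_of_entry hent, Fin.sum_univ_succ, Finset.sum_congr rfl fun i _ => by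
        rw [((syms_of_mod_eight hP _).1 (hs i)).1, ((syms_of_mod_eight hP _).1 (hs i)).2],
      sym_two hP 0, sym_neg_one hP 0, h0, show P 0 % 4 = r % 4 by omega]
    simp only [if_true, Finset.sum_const, Finset.card_univ, Fintype.card_fin, smul_eq_mul]
    rcases hl with ⟨rfl, rfl, rfl⟩ | ⟨rfl, rfl, rfl⟩ <;> simp <;> omega
  rcases h with ⟨rfl, hd⟩ | ⟨rfl, hd⟩
  · exact main 5 (d / 2) (Or.inl ⟨rfl, rfl, by omega⟩)
  · exact main 3 (d / 2) (Or.inr ⟨rfl, rfl, by omega⟩)

end FA.Monsky

end
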