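import Fermat.Agent.Monsky.Matrix
import Fermat.Agent.LindReichardt.Local
import Mathlib.NumberTheory.Padics.RingHoms
import Mathlib.NumberTheory.Padics.Hensel

/-!
# Points on the torsors of the two-descent over the completions

The torsor of the classes `a, b, c` for `n` is `a u² - n e² = b v²`, `a u² + n e² = c w²`. At a good
odd prime it has a point because `y² = x³ - x` has at most `q + 1 + 2 √q` of them; at a prime of `n`
the symbols of the parts prime to it decide; the points there have one coordinate zero.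
-/

set_option autoImplicit false
set_option linter.style.haveILetI false

noncomputable section

namespace FA.Monsky

/-- The torsor of the classes `a, b, c` for `n` has a point other than the origin. -/
def Soluble (K : Type*) [Field K] (n a b c : ℤ) : Prop :=
  ∃ u v w e : K, (u ≠ 0 ∨ e ≠ 0) ∧ (a : K) * u ^ 2 - (n : K) * e ^ 2 = (b : K) * v ^ 2 ∧
    (a : K) * u ^ 2 + (n : K) * e ^ 2 = (c : K) * w ^ 2

theorem soluble_real {n a b c : ℤ} (ha : 0 < a) (hb : 0 < b) (hc : 0 < c) :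
    Soluble ℝ n a b c := by
  have ha' : (0 : ℝ) ≤ a := Int.cast_nonneg ha.le
  refine ⟨1, Real.sqrt ((a : ℝ) / b), Real.sqrt ((a : ℝ) / c), 0, Or.inl one_ne_zero, ?_, ?_⟩ <;>
    rw [Real.sq_sqrt (div_nonneg ha' (Int.cast_nonneg (le_of_lt ‹_›)))] <;>
    field_simp <;> ring

section prime

variable {q : ℕ} [hq : Fact q.Prime]

theorem two_ne_zero_zmod (hq2 : q ≠ 2) : (2 : ZMod q) ≠ 0 :=
  Ring.two_ne_zero (by rwa [ZMod.ringChar_zmod_n])

theorem sym_eq_one_or_zero (x : ZMod q) : sym q x = 0 ∨ sym q x = 1 := by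
  rw [sym]; split_ifs <;> simp

/-- Units with equal symbols differ by a square of `ℚ_q`. -/
theorem exists_padic_sq (hq2 : q ≠ 2) {A B : ℤ} (hA : (A : ZMod q) ≠ 0) (hB : (B : ZMod q) ≠ 0)
    (h : sym q (A : ZMod q) = sym q (B : ZMod q)) :
    ∃ r : ℚ_[q], r ≠ 0 ∧ (A : ℚ_[q]) * r ^ 2 = B := by
  have hAB : sym q ((A : ZMod q) * B) = 0 := by
    rw [sym_mul hq2 hA hB, h, CharTwo.add_self_eq_zero]
  obtain ⟨t, ht⟩ := sym_eq_zero hAB
  obtain ⟨t, rfl⟩ := ZMod.intCast_surjective t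
  have ht0 : (t : ZMod q) ≠ 0 := fun h0 => mul_ne_zero hA hB (by rw [ht, h0, zero_mul])
  obtain ⟨Z, hZ⟩ := FA.LindReichardt.exists_root (q := q)
    (F := Polynomial.X ^ 2 - Polynomial.C ((A * B : ℤ) : ℤ_[q])) (a := t) (m := t ^ 2 - A * B)
    (n := 2 * t) (by simp) (by simp; norm_num) (by push_cast; rw [ht]; ring)
    (by push_cast; exact mul_ne_zero (two_ne_zero_zmod hq2) ht0)
  simp at hZ
  have e := congrArg (PadicInt.Coe.ringHom (p := q)) hZ
  simp only [map_sub, map_mul, map_pow, map_zero, map_intCast] at e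
  change (Z : ℚ_[q]) ^ 2 - (A : ℚ_[q]) * B = 0 at e
  have hA0 : (A : ℚ_[q]) ≠ 0 := Int.cast_ne_zero.2 fun h0 => hA (by simp [h0])
  refine ⟨(Z : ℚ_[q]) / A, fun h0 => ?_, ?_⟩
  · rw [(div_eq_zero_iff.1 h0).resolve_right hA0] at e
    refine mul_ne_zero hA0 (Int.cast_ne_zero.2 fun h0 => hB (by simp [h0]) : (B : ℚ_[q]) ≠ 0) ?_
    linear_combination -e
  · field_simp
    linear_combination e

variable (hq2 : q ≠ 2) {n a b c : ℤ} (L : ℤ) {A B C : ℤ}
include hq2

theorem soluble_of_isSquare (ha : (a : ZMod q) ≠ 0) (hb : (b : ZMod q) ≠ 0)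
    (hc : (c : ZMod q) ≠ 0) (hab : sym q (a : ZMod q) = sym q (b : ZMod q))
    (hac : sym q (a : ZMod q) = sym q (c : ZMod q)) : Soluble ℚ_[q] n a b c := by
  obtain ⟨v, -, hv⟩ := exists_padic_sq hq2 hb ha hab.symm
  obtain ⟨w, -, hw⟩ := exists_padic_sq hq2 hc ha hac.symm
  exact ⟨1, v, w, 0, Or.inl one_ne_zero, by linear_combination -hv, by linear_combination -hw⟩

/-- The point with `u = 0`. -/
theorem soluble_of_u_zero (s : ℤ) (hb : b = s * B) (hc : c = s * C) (hn : n = s * L)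
    (hB : (B : ZMod q) ≠ 0) (hC : (C : ZMod q) ≠ 0) (hL : (L : ZMod q) ≠ 0)
    (h1 : sym q (B : ZMod q) = sym q (-(L : ZMod q)))
    (h2 : sym q (C : ZMod q) = sym q (L : ZMod q)) : Soluble ℚ_[q] n a b c := by
  obtain ⟨v, -, hv⟩ := exists_padic_sq hq2 hB (B := -L) (by simpa using hL) (by simpa using h1)
  obtain ⟨w, -, hw⟩ := exists_padic_sq hq2 hC hL h2
  push_cast at hv
  refine ⟨0, v, w, 1, Or.inr one_ne_zero, ?_, ?_⟩ <;> subst hb hc hn <;> push_cast
  · linear_combination -(s : ℚ_[q]) * hv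
  · linear_combination -(s : ℚ_[q]) * hw

/-- The point with `v = 0`. -/
theorem soluble_of_v_zero (s : ℤ) (ha : a = s * A) (hc : c = s * C) (hn : n = s * L)
    (hA : (A : ZMod q) ≠ 0) (hC : (C : ZMod q) ≠ 0) (hL : (L : ZMod q) ≠ 0)
    (h1 : sym q (A : ZMod q) = sym q (L : ZMod q))
    (h2 : sym q (C : ZMod q) = sym q (2 * (L : ZMod q))) : Soluble ℚ_[q] n a b c := by
  obtain ⟨u, hu0, hu⟩ := exists_padic_sq hq2 hA hL h1
  obtain ⟨w, -, hw⟩ := exists_padic_sq hq2 hC (B := 2 * L)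
    (by push_cast; exact mul_ne_zero (two_ne_zero_zmod hq2) hL) (by simpa using h2)
  push_cast at hw
  refine ⟨u, 0, w, 1, Or.inl hu0, ?_, ?_⟩ <;> subst ha hc hn <;> push_cast
  · linear_combination (s : ℚ_[q]) * hu
  · linear_combination (s : ℚ_[q]) * hu - (s : ℚ_[q]) * hw

/-- The point with `w = 0`. -/
theorem soluble_of_w_zero (s : ℤ) (ha : a = s * A) (hb : b = s * B) (hn : n = s * L)
    (hA : (A : ZMod q) ≠ 0) (hB : (B : ZMod q) ≠ 0) (hL : (L : ZMod q) ≠ 0)
    (h1 : sym q (A : ZMod q) = sym q (-(L : ZMod q)))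
    (h2 : sym q (B : ZMod q) = sym q (-(2 * (L : ZMod q)))) : Soluble ℚ_[q] n a b c := by
  obtain ⟨u, hu0, hu⟩ := exists_padic_sq hq2 hA (B := -L) (by simpa using hL) (by simpa using h1)
  obtain ⟨v, -, hv⟩ := exists_padic_sq hq2 hB (B := -(2 * L))
    (by push_cast; exact neg_ne_zero.2 (mul_ne_zero (two_ne_zero_zmod hq2) hL)) (by simpa using h2)
  push_cast at hu hv
  refine ⟨u, v, 0, 1, Or.inl hu0, ?_, ?_⟩ <;> subst ha hb hn <;> push_cast
  · linear_combination (s : ℚ_[q]) * hu - (s : ℚ_[q]) * hv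
  · linear_combination (s : ℚ_[q]) * hu

omit hq2 in
theorem jacobsthal_sq_le (hq2 : q ≠ 2) {k : ZMod q} (hk : k ≠ 0) (hsq : IsSquare k) :
    FA.CM.jacobsthal k ^ 2 ≤ 4 * (q : ℤ) := by
  have hF : ringChar (ZMod q) ≠ 2 := by rwa [ZMod.ringChar_zmod_n]
  by_cases hneg : IsSquare (-1 : ZMod q)
  · obtain ⟨z, hz⟩ := quadraticChar_exists_neg_one hF
    obtain ⟨d, rfl⟩ := hsq
    have h := FA.CM.jacobsthal_sq_add hF
      ((quadraticChar_one_iff_isSquare (neg_ne_zero.2 one_ne_zero)).2 hneg) hz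
    rw [ZMod.card] at h
    rw [show d * d = d ^ 2 * (1 : ZMod q) by ring,
      FA.CM.jacobsthal_sq_mul 1 (left_ne_zero_of_mul hk)]
    nlinarith [sq_nonneg (FA.CM.jacobsthal z)]
  · have h0 : FA.CM.jacobsthal k = 0 := by
      have hodd : FA.CM.jacobsthal k = -FA.CM.jacobsthal k := by
        rw [FA.CM.jacobsthal, ← Finset.sum_neg_distrib]
        refine Fintype.sum_equiv (Equiv.neg _) _ _ fun x => ?_
        simp only [Equiv.neg_apply]
        rw [show (-x) ^ 3 - k * -x = -1 * (x ^ 3 - k * x) by ring, map_mul,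
          quadraticChar_neg_one_iff_not_isSquare.2 hneg]
        ring
      omega
    rw [h0]
    positivity

/-- A value of the three classes modulo a good prime. -/
theorem exists_classes_mod {n a b c : ZMod q} (hn : n ≠ 0) (ha : a ≠ 0) (hb : b ≠ 0) (hc : c ≠ 0)
    (hsym : sym q c = sym q a + sym q b) (h11 : ¬ (sym q a = sym q b ∧ sym q a = sym q c))
    (hu : ¬ (sym q b = sym q (-n) ∧ sym q c = sym q n))
    (hv : ¬ (sym q a = sym q n ∧ sym q c = sym q (2 * n)))
    (hw : ¬ (sym q a = sym q (-n) ∧ sym q b = sym q (-(2 * n)))) :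
    ∃ x : ZMod q, x ≠ 0 ∧ x - n ≠ 0 ∧ x + n ≠ 0 ∧ sym q x = sym q a ∧
      sym q (x - n) = sym q b ∧ sym q (x + n) = sym q c := by
  have hF : ringChar (ZMod q) ≠ 2 := by rwa [ZMod.ringChar_zmod_n]
  have h2 := two_ne_zero_zmod hq2
  set χ := quadraticChar (ZMod q)
  -- the symbol and the character
  have hχ : ∀ {x y : ZMod q}, x ≠ 0 → y ≠ 0 → χ x = χ y → sym q x = sym q y := fun hx hy h => by
    simp only [sym, ← quadraticChar_one_iff_isSquare hx, ← quadraticChar_one_iff_isSquare hy]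
    exact if_congr (by rw [← h]) rfl rfl
  have hχc : χ c = χ a * χ b := by
    have h0 : sym q (c * (a * b)) = 0 := by
      rw [sym_mul hq2 hc (mul_ne_zero ha hb), sym_mul hq2 ha hb, hsym, CharTwo.add_self_eq_zero]
    have := (quadraticChar_one_iff_isSquare (mul_ne_zero hc (mul_ne_zero ha hb))).2
      (sym_eq_zero h0)
    rw [map_mul, map_mul] at this
    rcases quadraticChar_dichotomy hc with h | h <;>
      rcases quadraticChar_dichotomy ha with h' | h' <;>
      rcases quadraticChar_dichotomy hb with h'' | h'' <;>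
      simp only [χ, h, h', h''] at this ⊢ <;> omega
  by_contra hno
  have fac : ∀ {x y : ZMod q}, x ≠ 0 → y ≠ 0 → (sym q x ≠ sym q y) → 1 + χ y * χ x = 0 := by
    intro x y hx hy h
    rcases quadraticChar_dichotomy hx with e | e <;> rcases quadraticChar_dichotomy hy with e' | e'
      <;> first
        | exact absurd (hχ hx hy (e.trans e'.symm)) h
        | simp [χ, e, e']
  have hzero : ∀ x : ZMod q,
      (1 + χ a * χ x) * (1 + χ b * χ (x - n)) * (1 + χ c * χ (x + n)) = 0 := by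
    intro x
    by_cases hx : x = 0
    · subst hx
      rw [zero_sub, zero_add]
      by_cases e1 : sym q b = sym q (-n)
      · rw [fac hn hc fun e => hu ⟨e1, e.symm⟩, mul_zero]
      · rw [fac (neg_ne_zero.2 hn) hb fun e => e1 e.symm, mul_zero, zero_mul]
    by_cases hx1 : x - n = 0
    · obtain rfl : x = n := sub_eq_zero.1 hx1
      rw [← two_mul]
      by_cases e1 : sym q a = sym q x
      · rw [fac (mul_ne_zero h2 hn) hc fun e => hv ⟨e1, e.symm⟩, mul_zero]
      · rw [fac hn ha fun e => e1 e.symm, zero_mul, zero_mul]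
    by_cases hx2 : x + n = 0
    · obtain rfl : x = -n := eq_neg_of_add_eq_zero_left hx2
      rw [show -n - n = -(2 * n) by ring]
      by_cases e1 : sym q a = sym q (-n)
      · rw [fac (neg_ne_zero.2 (mul_ne_zero h2 hn)) hb fun e => hw ⟨e1, e.symm⟩, mul_zero,
          zero_mul]
      · rw [fac (neg_ne_zero.2 hn) ha fun e => e1 e.symm, zero_mul, zero_mul]
    by_cases e1 : sym q x = sym q a
    · by_cases e2 : sym q (x - n) = sym q b
      · rw [fac hx2 hc fun e3 => hno ⟨x, hx, hx1, hx2, e1, e2, e3⟩, mul_zero]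
      · rw [fac hx1 hb e2, mul_zero, zero_mul]
    · rw [fac hx ha e1, zero_mul, zero_mul]
  -- the sum of the products
  have h0 : ∑ x : ZMod q, χ x = 0 := quadraticChar_sum_zero hF
  have h01 : ∑ x : ZMod q, χ (x - n) = 0 :=
    (Fintype.sum_equiv (Equiv.subRight n) _ χ fun x => rfl).trans h0
  have h02 : ∑ x : ZMod q, χ (x + n) = 0 :=
    (Fintype.sum_equiv (Equiv.addRight n) _ χ fun x => rfl).trans h0
  have h2n : n ≠ -n := fun h => hn
    ((Ring.eq_self_iff_eq_zero_of_char_ne_two hF).mp h.symm)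
  have pair : ∀ s t : ZMod q, s ≠ t → ∑ x : ZMod q, χ ((x - s) * (x - t)) = -1 := fun s t h => by
    have := FA.CM.sum_char_shift hF s t
    rw [if_neg h, zero_sub] at this
    rw [← this]
    exact Finset.sum_congr rfl fun x _ => congrArg _ (by ring)
  have p1 : ∑ x : ZMod q, χ x * χ (x - n) = -1 := by
    rw [← pair 0 n (Ne.symm hn)]; simp [map_mul, χ]
  have p2 : ∑ x : ZMod q, χ x * χ (x + n) = -1 := by
    rw [← pair 0 (-n) (Ne.symm (neg_ne_zero.2 hn))]; simp [map_mul, χ]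
  have p3 : ∑ x : ZMod q, χ (x - n) * χ (x + n) = -1 := by
    rw [← pair n (-n) h2n]; simp [map_mul, χ]
  have p4 : ∑ x : ZMod q, χ x * χ (x - n) * χ (x + n) = FA.CM.jacobsthal (n ^ 2) := by
    refine Finset.sum_congr rfl fun x _ => ?_
    rw [← map_mul, ← map_mul]
    exact congrArg _ (by ring)
  have hsum := Finset.sum_eq_zero fun x (_ : x ∈ Finset.univ) => hzero x
  simp only [show ∀ r s t α β γ : ℤ, (1 + α * r) * (1 + β * s) * (1 + γ * t) =
      1 + α * r + β * s + γ * t + α * β * (r * s) + α * γ * (r * t) + β * γ * (s * t) +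
        α * β * γ * (r * s * t) by intros; ring, Finset.sum_add_distrib, ← Finset.mul_sum, h0,
    h01, h02, p1, p2, p3, p4, Finset.sum_const, Finset.card_univ, ZMod.card, nsmul_eq_mul,
    mul_zero, add_zero, mul_one, hχc] at hsum
  have hJ := jacobsthal_sq_le hq2 (pow_ne_zero 2 hn) (IsSquare.sq n)
  have hq3 : (3 : ℤ) ≤ q := by have := hq.out.two_le; omega
  rcases quadraticChar_dichotomy ha with h | h <;> rcases quadraticChar_dichotomy hb with h' | h'
  · refine h11 ⟨hχ ha hb (h.trans h'.symm), hχ ha hc ?_⟩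
    rw [hχc]; simp [χ, h, h']
  all_goals
    simp only [χ, h, h'] at hsum
    norm_num at hsum
    nlinarith

/-- **A good prime**: every triple of classes has a point. -/
theorem soluble_of_good (hn : (n : ZMod q) ≠ 0) (ha : (a : ZMod q) ≠ 0) (hb : (b : ZMod q) ≠ 0)
    (hc : (c : ZMod q) ≠ 0)
    (hsym : sym q (c : ZMod q) = sym q (a : ZMod q) + sym q (b : ZMod q)) :
    Soluble ℚ_[q] n a b c := by
  have one : ∀ z : ℤ, z = 1 * z := fun z => (one_mul z).symm
  by_cases h11 : sym q (a : ZMod q) = sym q (b : ZMod q) ∧ sym q (a : ZMod q) = sym q (c : ZMod q)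
  · exact soluble_of_isSquare hq2 ha hb hc h11.1 h11.2
  by_cases hu : sym q (b : ZMod q) = sym q (-(n : ZMod q)) ∧ sym q (c : ZMod q) = sym q (n : ZMod q)
  · exact soluble_of_u_zero hq2 n 1 (one b) (one c) (one n) hb hc hn hu.1 hu.2
  by_cases hv : sym q (a : ZMod q) = sym q (n : ZMod q) ∧
      sym q (c : ZMod q) = sym q (2 * (n : ZMod q))
  · exact soluble_of_v_zero hq2 n 1 (one a) (one c) (one n) ha hc hn hv.1 hv.2
  by_cases hw : sym q (a : ZMod q) = sym q (-(n : ZMod q)) ∧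
      sym q (b : ZMod q) = sym q (-(2 * (n : ZMod q)))
  · exact soluble_of_w_zero hq2 n 1 (one a) (one b) (one n) ha hb hn hw.1 hw.2
  obtain ⟨x, hx, hx1, hx2, e1, e2, e3⟩ := exists_classes_mod hq2 hn ha hb hc hsym h11 hu hv hw
  obtain ⟨x, rfl⟩ := ZMod.intCast_surjective x
  obtain ⟨u, hu0, hu'⟩ := exists_padic_sq hq2 ha hx e1.symm
  obtain ⟨v, -, hv'⟩ := exists_padic_sq hq2 hb (B := x - n) (by simpa using hx1)
    (by simpa using e2.symm)
  obtain ⟨w, -, hw'⟩ := exists_padic_sq hq2 hc (B := x + n) (by simpa using hx2)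
    (by simpa using e3.symm)
  push_cast at hv' hw'
  exact ⟨u, v, w, 1, Or.inl hu0, by linear_combination hu' - hv', by linear_combination hu' - hw'⟩

end prime

end FA.Monsky

end
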