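import Fermat.Agent.Monsky.Soluble

/-!
# The torsors at the primes of `n`

At a prime of `n` a torsor has a point exactly when the two rows of Monsky's matrix vanish.
-/

set_option autoImplicit false
set_option linter.style.haveILetI false

noncomputable section

namespace FA.Monsky

variable {k : ℕ} {P : Fin k → ℕ}

/-- The part of a class prime to `P i`. -/
def cofactor (P : Fin k → ℕ) (i : Fin k) (f : Fin k → ZMod 2) : ℕ :=
  ∏ j ∈ Finset.univ.erase i, if f j = 1 then P j else 1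

theorem classProd_eq_mul (i : Fin k) (f : Fin k → ZMod 2) :
    classProd P f = (if f i = 1 then P i else 1) * cofactor P i f :=
  (Finset.mul_prod_erase _ _ (Finset.mem_univ i)).symm

theorem prod_eq_mul_cofactor (i : Fin k) : ∏ j, P j = P i * cofactor P i 1 := by
  rw [show ∏ j, P j = classProd P 1 by simp [classProd], classProd_eq_mul i]
  simp

theorem classProd_pos (hP : OddPrimes P) (f : Fin k → ZMod 2) : 0 < classProd P f :=
  Finset.prod_pos fun j _ => by split_ifs <;> simp [(hP.prime j).pos]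

theorem cofactor_cast_ne_zero (hP : OddPrimes P) (i : Fin k) (f : Fin k → ZMod 2) :
    (cofactor P i f : ZMod (P i)) ≠ 0 := by
  haveI := Fact.mk (hP.prime i)
  rw [cofactor, Nat.cast_prod]
  refine Finset.prod_ne_zero_iff.2 fun j hj => ?_
  split_ifs
  · exact fun h => Finset.ne_of_mem_erase hj (hP.injective
      ((Nat.prime_dvd_prime_iff_eq (hP.prime i) (hP.prime j)).1
        ((ZMod.natCast_eq_zero_iff _ _).1 h))).symm
  · simp

variable [∀ i, NeZero (P i)]

theorem sym_cofactor (hP : OddPrimes P) (i : Fin k) (f : Fin k → ZMod 2) :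
    sym (P i) (cofactor P i f : ZMod (P i)) =
      ∑ j ∈ Finset.univ.erase i, f j * entry P i j := by
  haveI := Fact.mk (hP.prime i)
  have hmem : ∀ T : Finset (Fin k), i ∉ T →
      sym (P i) ((∏ j ∈ T, if f j = 1 then P j else 1 : ℕ) : ZMod (P i)) =
        ∑ j ∈ T, f j * entry P i j ∧
      ((∏ j ∈ T, if f j = 1 then P j else 1 : ℕ) : ZMod (P i)) ≠ 0 := by
    intro T hi
    induction T using Finset.induction with
    | empty => exact ⟨by simpa using sym_of_isSquare IsSquare.one, by simp⟩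
    | insert j T hj ih =>
      simp only [Finset.mem_insert, not_or] at hi
      obtain ⟨ih, ih0⟩ := ih hi.2
      have hj0 : (((if f j = 1 then P j else 1 : ℕ)) : ZMod (P i)) ≠ 0 := by
        split_ifs
        · exact fun h => hi.1 (hP.injective
            ((Nat.prime_dvd_prime_iff_eq (hP.prime i) (hP.prime j)).1
              ((ZMod.natCast_eq_zero_iff _ _).1 h)))
        · simp
      rw [Finset.prod_insert hj, Finset.sum_insert hj, Nat.cast_mul]
      refine ⟨?_, mul_ne_zero hj0 ih0⟩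
      rw [sym_mul (hP.odd i) hj0 ih0, ih]
      congr 1
      rcases (show ∀ z : ZMod 2, z = 0 ∨ z = 1 by decide) (f j) with h | h <;> rw [h]
      · simpa using sym_of_isSquare IsSquare.one
      · simp [entry]
  exact (hmem _ (Finset.notMem_erase i _)).1

theorem sym_cofactor_add (hP : OddPrimes P) (i : Fin k) (f g : Fin k → ZMod 2) :
    sym (P i) (cofactor P i (f + g) : ZMod (P i)) =
      sym (P i) (cofactor P i f : ZMod (P i)) + sym (P i) (cofactor P i g : ZMod (P i)) := by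
  simp [sym_cofactor hP, add_mul, Finset.sum_add_distrib]

section padic

variable {p : ℕ} [hp : Fact p.Prime]

theorem norm_le_one_of_mul_sq {B : ℤ} (hB : (B : ZMod p) ≠ 0) {s : ℤ}
    (hs : s = 1 ∨ s = (p : ℤ)) {v : ℚ_[p]} (h : ‖((s * B : ℤ) : ℚ_[p]) * v ^ 2‖ ≤ 1) :
    ‖v‖ ≤ 1 := by
  rcases eq_or_ne v 0 with rfl | hv
  · simp
  have hB1 : ‖(B : ℚ_[p])‖ = 1 := le_antisymm (Padic.norm_int_le_one B) (le_of_not_gt fun hlt =>
    hB ((ZMod.intCast_zmod_eq_zero_iff_dvd B p).2 (Padic.norm_intCast_lt_one_iff.1 hlt)))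
  have hp1 : (1 : ℝ) < p := by exact_mod_cast hp.out.one_lt
  obtain ⟨z, hz⟩ : ∃ z : ℤ, ‖v‖ = (p : ℝ) ^ z := ⟨-v.valuation, Padic.norm_eq_zpow_neg_valuation hv⟩
  have hle : (p : ℝ) ^ (2 * z) ≤ (p : ℝ) ^ (1 : ℤ) := by
    rw [show (2 : ℤ) * z = z + z by ring, zpow_add₀ (by positivity), ← hz, zpow_one]
    rcases hs with rfl | rfl <;> push_cast at h <;>
      simp only [norm_mul, one_mul, norm_pow, hB1, mul_one, Padic.norm_p] at h
    · nlinarith [norm_nonneg v]
    · have hp0 : (0 : ℝ) < p := by linarith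
      rw [inv_mul_le_iff₀ hp0] at h
      nlinarith
  rw [hz]
  have : 2 * z ≤ 1 := (zpow_le_zpow_iff_right₀ hp1).1 hle
  exact zpow_le_one_of_nonpos₀ hp1.le (by omega)

/-- A point has integral coordinates with `u = 1` or `e = 1`. -/
theorem exists_integral {n a : ℤ} {B C s t : ℤ} (hB : (B : ZMod p) ≠ 0) (hC : (C : ZMod p) ≠ 0)
    (hs : s = 1 ∨ s = (p : ℤ)) (ht : t = 1 ∨ t = (p : ℤ))
    (h : Soluble ℚ_[p] n a (s * B) (t * C)) :
    ∃ U V W E : ℤ_[p], (U = 1 ∨ E = 1) ∧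
      (a : ℤ_[p]) * U ^ 2 - (n : ℤ_[p]) * E ^ 2 = ((s * B : ℤ) : ℤ_[p]) * V ^ 2 ∧
      (a : ℤ_[p]) * U ^ 2 + (n : ℤ_[p]) * E ^ 2 = ((t * C : ℤ) : ℤ_[p]) * W ^ 2 := by
  obtain ⟨u, v, w, e, hne, h1, h2⟩ := h
  obtain ⟨r, hr, hu, he, hone⟩ : ∃ r : ℚ_[p], r ≠ 0 ∧ ‖u / r‖ ≤ 1 ∧ ‖e / r‖ ≤ 1 ∧
      (u / r = 1 ∨ e / r = 1) := by
    rcases le_total ‖e‖ ‖u‖ with hle | hle
    · have hu0 : u ≠ 0 := fun h0 => hne.elim (fun h => h h0) fun h => h (by
        rw [h0, norm_zero] at hle; exact norm_le_zero_iff.1 hle)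
      exact ⟨u, hu0, by simp [hu0], by rw [norm_div, div_le_one (norm_pos_iff.2 hu0)]; exact hle,
        Or.inl (div_self hu0)⟩
    · have he0 : e ≠ 0 := fun h0 => hne.elim (fun h => h (by
        rw [h0, norm_zero] at hle; exact norm_le_zero_iff.1 hle)) fun h => h h0
      exact ⟨e, he0, by rw [norm_div, div_le_one (norm_pos_iff.2 he0)]; exact hle, by simp [he0],
        Or.inr (div_self he0)⟩
  set U : ℤ_[p] := ⟨u / r, hu⟩
  set E : ℤ_[p] := ⟨e / r, he⟩
  have cast1 : ((s * B : ℤ) : ℚ_[p]) * (v / r) ^ 2 =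
      (((a : ℤ_[p]) * U ^ 2 - (n : ℤ_[p]) * E ^ 2 : ℤ_[p]) : ℚ_[p]) := by
    push_cast
    rw [show (U : ℚ_[p]) = u / r from rfl, show (E : ℚ_[p]) = e / r from rfl]
    field_simp
    push_cast at h1
    linear_combination -h1
  have cast2 : ((t * C : ℤ) : ℚ_[p]) * (w / r) ^ 2 =
      (((a : ℤ_[p]) * U ^ 2 + (n : ℤ_[p]) * E ^ 2 : ℤ_[p]) : ℚ_[p]) := by
    push_cast
    rw [show (U : ℚ_[p]) = u / r from rfl, show (E : ℚ_[p]) = e / r from rfl]
    field_simp
    push_cast at h2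
    linear_combination -h2
  have hv := norm_le_one_of_mul_sq hB hs (v := v / r) (cast1 ▸ PadicInt.norm_le_one _)
  have hw := norm_le_one_of_mul_sq hC ht (v := w / r) (cast2 ▸ PadicInt.norm_le_one _)
  refine ⟨U, ⟨v / r, hv⟩, ⟨w / r, hw⟩, E, hone.imp (fun h => Subtype.ext h) fun h => Subtype.ext h,
    Subtype.ext ?_, Subtype.ext ?_⟩
  · rw [← cast1]; push_cast; rfl
  · rw [← cast2]; push_cast; rfl

theorem exists_mul_of_toZMod {x : ℤ_[p]} (h : PadicInt.toZMod x = 0) :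
    ∃ y, x = (p : ℤ_[p]) * y := by
  have : x ∈ RingHom.ker (PadicInt.toZMod (p := p)) := h
  rw [PadicInt.ker_toZMod, PadicInt.maximalIdeal_eq_span_p, Ideal.mem_span_singleton] at this
  exact this

variable (hp2 : p ≠ 2) {n a b c A B C L : ℤ} (hn : n = (p : ℤ) * L) (hA : (A : ZMod p) ≠ 0)
  (hB : (B : ZMod p) ≠ 0) (hC : (C : ZMod p) ≠ 0) (hL : (L : ZMod p) ≠ 0)
include hp2 hn hA hB hC hL

theorem sym_of_soluble_none (h : Soluble ℚ_[p] n A B C) :
    sym p (A : ZMod p) = sym p (B : ZMod p) ∧ sym p (A : ZMod p) = sym p (C : ZMod p) := by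
  obtain ⟨U, V, W, E, hone, e1, e2⟩ := exists_integral (s := 1) (t := 1) hB hC (Or.inl rfl)
    (Or.inl rfl) (by simpa using h)
  subst hn
  have c1 := congrArg (PadicInt.toZMod (p := p)) e1
  have c2 := congrArg (PadicInt.toZMod (p := p)) e2
  simp at c1 c2
  have hU : PadicInt.toZMod U ≠ 0 := fun hU => by
    rw [hU] at c1
    simp [hB] at c1
    obtain ⟨U', rfl⟩ := exists_mul_of_toZMod hU
    obtain ⟨V', rfl⟩ := exists_mul_of_toZMod c1
    have hE : E = 1 := hone.resolve_left fun h1 => by simp [h1] at hU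
    subst hE
    have e3 : (p : ℤ_[p]) * (A * U' ^ 2 - B * V' ^ 2) = L := by
      refine mul_left_cancel₀ (Nat.cast_ne_zero.2 hp.out.ne_zero) ?_
      push_cast at e1
      linear_combination e1
    exact hL (by simpa using (congrArg (PadicInt.toZMod (p := p)) e3).symm)
  have hV : PadicInt.toZMod V ≠ 0 := fun h0 => by
    rw [h0] at c1; simp [hA, hU] at c1
  have hW : PadicInt.toZMod W ≠ 0 := fun h0 => by
    rw [h0] at c2; simp [hA, hU] at c2
  exact ⟨sym_eq_of_mul_sq hp2 hB hU hV c1, sym_eq_of_mul_sq hp2 hC hU hW c2⟩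

theorem sym_of_soluble_ab (h : Soluble ℚ_[p] n (p * A) (p * B) C) :
    sym p (A : ZMod p) = sym p (-(L : ZMod p)) ∧
      sym p (B : ZMod p) = sym p (-(2 * (L : ZMod p))) := by
  obtain ⟨U, V, W, E, hone, e1, e2⟩ := exists_integral (s := p) (t := 1) hB hC (Or.inr rfl)
    (Or.inl rfl) (by simpa using h)
  subst hn
  have c2 := congrArg (PadicInt.toZMod (p := p)) e2
  simp [hC] at c2
  obtain ⟨W', rfl⟩ := exists_mul_of_toZMod c2
  have hp0 : (p : ℤ_[p]) ≠ 0 := Nat.cast_ne_zero.2 hp.out.ne_zero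
  have f1 : (A : ℤ_[p]) * U ^ 2 - L * E ^ 2 = B * V ^ 2 :=
    mul_left_cancel₀ hp0 (by push_cast at e1; linear_combination e1)
  have f2 : (A : ℤ_[p]) * U ^ 2 + L * E ^ 2 = p * (C * W' ^ 2) :=
    mul_left_cancel₀ hp0 (by push_cast at e2; linear_combination e2)
  have g1 := congrArg (PadicInt.toZMod (p := p)) f1
  have g2 := congrArg (PadicInt.toZMod (p := p)) f2
  simp at g1 g2
  have hE : PadicInt.toZMod E ≠ 0 := fun h0 => by
    rw [h0] at g2; simp [hA] at g2
    rcases hone with h | h <;> simp [h] at g2 h0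
  have hU : PadicInt.toZMod U ≠ 0 := fun h0 => by
    rw [h0] at g2; simp [hL, hE] at g2
  have h2 := two_ne_zero_zmod hp2
  have hV : PadicInt.toZMod V ≠ 0 := fun h0 => mul_ne_zero (mul_ne_zero h2 hL) (pow_ne_zero 2 hE)
    (by rw [h0] at g1; linear_combination g2 - g1)
  exact ⟨sym_eq_of_mul_sq hp2 (neg_ne_zero.2 hL) hU hE (by linear_combination g2),
    sym_eq_of_mul_sq hp2 (neg_ne_zero.2 (mul_ne_zero h2 hL)) hV hE
      (by linear_combination g2 - g1)⟩

theorem sym_of_soluble_ac (h : Soluble ℚ_[p] n (p * A) B (p * C)) :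
    sym p (A : ZMod p) = sym p (L : ZMod p) ∧
      sym p (C : ZMod p) = sym p (2 * (L : ZMod p)) := by
  obtain ⟨U, V, W, E, hone, e1, e2⟩ := exists_integral (s := 1) (t := p) hB hC (Or.inl rfl)
    (Or.inr rfl) (by simpa using h)
  subst hn
  have c1 := congrArg (PadicInt.toZMod (p := p)) e1
  simp [hB] at c1
  obtain ⟨V', rfl⟩ := exists_mul_of_toZMod c1
  have hp0 : (p : ℤ_[p]) ≠ 0 := Nat.cast_ne_zero.2 hp.out.ne_zero
  have f1 : (A : ℤ_[p]) * U ^ 2 - L * E ^ 2 = p * (B * V' ^ 2) :=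
    mul_left_cancel₀ hp0 (by push_cast at e1; linear_combination e1)
  have f2 : (A : ℤ_[p]) * U ^ 2 + L * E ^ 2 = C * W ^ 2 :=
    mul_left_cancel₀ hp0 (by push_cast at e2; linear_combination e2)
  have g1 := congrArg (PadicInt.toZMod (p := p)) f1
  have g2 := congrArg (PadicInt.toZMod (p := p)) f2
  simp at g1 g2
  have hE : PadicInt.toZMod E ≠ 0 := fun h0 => by
    rw [h0] at g1; simp [hA] at g1
    rcases hone with h | h <;> simp [h] at g1 h0
  have hU : PadicInt.toZMod U ≠ 0 := fun h0 => by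
    rw [h0] at g1; simp [hL, hE] at g1
  have h2 := two_ne_zero_zmod hp2
  have hW : PadicInt.toZMod W ≠ 0 := fun h0 => mul_ne_zero (mul_ne_zero h2 hL) (pow_ne_zero 2 hE)
    (by rw [h0] at g2; linear_combination g2 - g1)
  exact ⟨sym_eq_of_mul_sq hp2 hL hU hE (by linear_combination g1),
    sym_eq_of_mul_sq hp2 (mul_ne_zero h2 hL) hW hE (by linear_combination g1 - g2)⟩

theorem sym_of_soluble_bc (h : Soluble ℚ_[p] n A (p * B) (p * C)) :
    sym p (B : ZMod p) = sym p (-(L : ZMod p)) ∧ sym p (C : ZMod p) = sym p (L : ZMod p) := by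
  obtain ⟨U, V, W, E, hone, e1, e2⟩ := exists_integral (s := p) (t := p) hB hC (Or.inr rfl)
    (Or.inr rfl) (by simpa using h)
  subst hn
  have c1 := congrArg (PadicInt.toZMod (p := p)) e1
  simp [hA] at c1
  obtain ⟨U', rfl⟩ := exists_mul_of_toZMod c1
  have hp0 : (p : ℤ_[p]) ≠ 0 := Nat.cast_ne_zero.2 hp.out.ne_zero
  have f1 : (p : ℤ_[p]) * (A * U' ^ 2) - L * E ^ 2 = B * V ^ 2 :=
    mul_left_cancel₀ hp0 (by push_cast at e1; linear_combination e1)
  have f2 : (p : ℤ_[p]) * (A * U' ^ 2) + L * E ^ 2 = C * W ^ 2 :=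
    mul_left_cancel₀ hp0 (by push_cast at e2; linear_combination e2)
  have g1 := congrArg (PadicInt.toZMod (p := p)) f1
  have g2 := congrArg (PadicInt.toZMod (p := p)) f2
  simp at g1 g2
  have hE : E = 1 := hone.resolve_left fun h0 => by
    have := congrArg (PadicInt.toZMod (p := p)) h0
    simp at this
  subst hE
  simp at g1 g2
  have hV : PadicInt.toZMod V ≠ 0 := fun h0 => by rw [h0] at g1; simp [hL] at g1
  have hW : PadicInt.toZMod W ≠ 0 := fun h0 => by rw [h0] at g2; simp [hL] at g2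
  exact ⟨sym_eq_of_mul_sq hp2 (neg_ne_zero.2 hL) hV one_ne_zero (by linear_combination -g1),
    sym_eq_of_mul_sq hp2 hL hW one_ne_zero (by linear_combination -g2)⟩

end padic

omit [∀ i, NeZero (P i)] in
/-- At a prime dividing `n` once, a point exists exactly when two equations between symbols hold. -/
theorem soluble_iff_syms {p : ℕ} [Fact p.Prime] (hp2 : p ≠ 2) (x y : ZMod 2) {n A B C L : ℤ}
    (hn : n = (p : ℤ) * L) (hA : (A : ZMod p) ≠ 0) (hB : (B : ZMod p) ≠ 0)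
    (hC : (C : ZMod p) ≠ 0) (hL : (L : ZMod p) ≠ 0)
    (sC : sym p (C : ZMod p) = sym p (A : ZMod p) + sym p (B : ZMod p)) :
    Soluble ℚ_[p] n ((if x = 1 then (p : ℤ) else 1) * A) ((if y = 1 then (p : ℤ) else 1) * B)
        ((if x + y = 1 then (p : ℤ) else 1) * C) ↔
      sym p (A : ZMod p) + sym p (L : ZMod p) * x + sym p (-1) * y = 0 ∧
        sym p (B : ZMod p) + sym p 2 * x + (sym p (L : ZMod p) + sym p (-1)) * y = 0 := by
  have h2 := two_ne_zero_zmod hp2
  have sN : sym p (-(L : ZMod p)) = sym p (-1) + sym p (L : ZMod p) := by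
    rw [neg_eq_neg_one_mul, sym_mul hp2 (neg_ne_zero.2 one_ne_zero) hL]
  have s2 : sym p (2 * (L : ZMod p)) = sym p 2 + sym p (L : ZMod p) := sym_mul hp2 h2 hL
  have sN2 : sym p (-(2 * (L : ZMod p))) = sym p (-1) + (sym p 2 + sym p (L : ZMod p)) := by
    rw [neg_eq_neg_one_mul, sym_mul hp2 (neg_ne_zero.2 one_ne_zero) (mul_ne_zero h2 hL), s2]
  have key : ∀ SA SB d m D : ZMod 2,
      ((SA = SB ∧ SA = SA + SB) ↔ SA + D * 0 + m * 0 = 0 ∧ SB + d * 0 + (D + m) * 0 = 0) ∧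
      ((SA = m + D ∧ SB = m + (d + D)) ↔
        SA + D * 1 + m * 1 = 0 ∧ SB + d * 1 + (D + m) * 1 = 0) ∧
      ((SA = D ∧ SA + SB = d + D) ↔ SA + D * 1 + m * 0 = 0 ∧ SB + d * 1 + (D + m) * 0 = 0) ∧
      ((SB = m + D ∧ SA + SB = D) ↔
        SA + D * 0 + m * 1 = 0 ∧ SB + d * 0 + (D + m) * 1 = 0) := by decide
  obtain ⟨k0, k1, k2, k3⟩ := key (sym p (A : ZMod p)) (sym p (B : ZMod p))
    (sym p 2) (sym p (-1)) (sym p (L : ZMod p))
  have two : ∀ z : ZMod 2, z = 0 ∨ z = 1 := by decide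
  rcases two x with rfl | rfl <;> rcases two y with rfl | rfl <;>
    simp only [zero_add, add_zero, zero_ne_one, if_false, if_true, one_mul,
      CharTwo.add_self_eq_zero]
  · rw [← k0]
    refine ⟨fun h => ?_, fun h => soluble_of_isSquare hp2 hA hB hC h.1 (sC ▸ h.2)⟩
    have := sym_of_soluble_none hp2 hn hA hB hC hL h
    exact ⟨this.1, sC ▸ this.2⟩
  · rw [← k3]
    refine ⟨fun h => ?_, fun h => soluble_of_u_zero hp2 L p rfl rfl hn hB hC hL
      (h.1.trans sN.symm) (sC.trans h.2)⟩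
    have := sym_of_soluble_bc hp2 hn hA hB hC hL h
    exact ⟨this.1.trans sN, sC.symm.trans this.2⟩
  · rw [← k2]
    refine ⟨fun h => ?_, fun h => soluble_of_v_zero hp2 L p rfl rfl hn hA hC hL
      h.1 ((sC.trans h.2).trans s2.symm)⟩
    have := sym_of_soluble_ac hp2 hn hA hB hC hL h
    exact ⟨this.1, (sC.symm.trans this.2).trans s2⟩
  · rw [← k1]
    refine ⟨fun h => ?_, fun h => soluble_of_w_zero hp2 L p rfl rfl hn hA hB hL
      (h.1.trans sN.symm) (h.2.trans sN2.symm)⟩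
    have := sym_of_soluble_ab hp2 hn hA hB hC hL h
    exact ⟨this.1.trans sN, this.2.trans sN2⟩

theorem cast_ite_mul (c : Prop) [Decidable c] (p m : ℕ) :
    (((if c then p else 1) * m : ℕ) : ℤ) = (if c then (p : ℤ) else 1) * (m : ℤ) := by
  split_ifs <;> simp

/-- **At a prime of `n`**: a point exists exactly when the two rows vanish. -/
theorem soluble_iff_rows (hP : OddPrimes P) (i : Fin k) [Fact (P i).Prime]
    (α β : Fin k → ZMod 2) :
    Soluble ℚ_[P i] (∏ j, P j : ℕ) (classProd P α) (classProd P β) (classProd P (α + β)) ↔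
      (∑ j ∈ Finset.univ.erase i, α j * entry P i j) + diagA P i * α i +
          sym (P i) (-1) * β i = 0 ∧
        (∑ j ∈ Finset.univ.erase i, β j * entry P i j) + sym (P i) 2 * α i +
          (diagA P i + sym (P i) (-1)) * β i = 0 := by
  have hu : ∀ f, (((cofactor P i f : ℕ) : ℤ) : ZMod (P i)) ≠ 0 := fun f => by
    rw [Int.cast_natCast]; exact cofactor_cast_ne_zero hP i f
  have hn : ((∏ j, P j : ℕ) : ℤ) = (P i : ℤ) * (cofactor P i 1 : ℕ) := by
    rw [prod_eq_mul_cofactor i]; push_cast; rfl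
  have hs : ∀ f, sym (P i) (((cofactor P i f : ℕ) : ℤ) : ZMod (P i)) =
      ∑ j ∈ Finset.univ.erase i, f j * entry P i j := fun f => by
    rw [Int.cast_natCast, sym_cofactor hP]
  have h := soluble_iff_syms (hP.odd i) (α i) (β i) hn (hu α) (hu β) (hu (α + β)) (hu 1)
    (by simp only [Int.cast_natCast, sym_cofactor_add hP])
  rw [hs α, hs β, hs 1] at h
  rw [classProd_eq_mul i α, classProd_eq_mul i β, classProd_eq_mul i (α + β), cast_ite_mul,
    cast_ite_mul, cast_ite_mul]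
  simpa [diagA] using h

end FA.Monsky

end
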